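import Fermat.Agent.FlatModel.CurvePoint
import Mathlib.FieldTheory.Normal.Closure

/-!
# A divisor of degree `g - 1` in general position fixed by inertia

Given finitely many divisors of degree zero, there is a divisor of degree `g - 1`, all of whose
conjugates are fixed by inertia at `A` and are in general position after translation by them.
-/

set_option autoImplicit false
set_option linter.unusedSectionVars false

noncomputable section

open AlgebraicCurve ModularCurve

namespace FLTAgent.FlatModel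

open FLTAgent.FunctionField FLTAgent.GoodRed FLTAgent.Frobenius

local notation "Qbar" => AlgebraicClosure ℚ

theorem ell_le_of_degree {K G : Type*} [Field K] [Field G] [Algebra K G] [IsFunctionField K G]
    [IsAlgClosed K] {D : Divisor K G} {g : ℕ} (hD : Divisor.degree D = (g : ℤ) - 1) :
    ell D ≤ g := by
  obtain ⟨v⟩ := exists_place (K := K) (F := G)
  have hd : Divisor.degree (Finsupp.single v (g : ℤ)) = g := by
    rw [Divisor.degree_single, deg_eq_one, Nat.cast_one, mul_one]
  have h := finrank_riemannRochSpace_add_le (D - Finsupp.single v (g : ℤ))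
    (E := Finsupp.single v (g : ℤ)) (Finsupp.single_nonneg.2 (Int.natCast_nonneg g))
  rw [sub_add_cancel, hd] at h
  have h0 : ell (D - Finsupp.single v (g : ℤ)) = 0 :=
    ell_eq_zero_of_degree_neg (by rw [map_sub, hd, hD]; omega)
  simp only [ell] at h0 ⊢
  omega

variable {F₀ : IntermediateField ℚ (LaurentSeries ℚ)}
  {A : ValuationSubring (AlgebraicClosure ℚ)}
  {Fb : IntermediateField (IsLocalRing.ResidueField A) (LaurentSeries (IsLocalRing.ResidueField A))}
  [IsFunctionField (AlgebraicClosure ℚ) ↥(FBar F₀)]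
  [IsFunctionField (IsLocalRing.ResidueField A) ↥Fb]
  [IsAlgClosed (IsLocalRing.ResidueField A)]

/-- All conjugates of `D` are fixed by inertia at `A`, and `D` is defined over a number field. -/
def IsInertiaFixed (A : ValuationSubring (AlgebraicClosure ℚ))
    (D : Divisor (AlgebraicClosure ℚ) ↥(FBar F₀)) : Prop :=
  (∀ σ τ : Γℚ, τ ∈ A.inertiaSubgroupIn ℚ → gal F₀ τ • (gal F₀ σ • D) = gal F₀ σ • D) ∧
    ∃ L : IntermediateField ℚ (AlgebraicClosure ℚ), FiniteDimensional ℚ L ∧
      ∀ τ : Γℚ, (∀ z ∈ L, τ z = z) → gal F₀ τ • D = D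

theorem IsInertiaFixed.add {D E : Divisor Qbar ↥(FBar F₀)} (hD : IsInertiaFixed A D)
    (hE : IsInertiaFixed A E) : IsInertiaFixed A (D + E) := by
  obtain ⟨L, hL, hfix⟩ := hD.2
  obtain ⟨L', hL', hfix'⟩ := hE.2
  refine ⟨fun σ τ hτ => ?_, L ⊔ L', inferInstance, fun τ hτ => ?_⟩
  · rw [smul_add, smul_add, hD.1 σ τ hτ, hE.1 σ τ hτ]
  · rw [smul_add, hfix τ fun z hz => hτ z ((le_sup_left : L ≤ L ⊔ L') hz),
      hfix' τ fun z hz => hτ z ((le_sup_right : L' ≤ L ⊔ L') hz)]

theorem IsInertiaFixed.neg {D : Divisor Qbar ↥(FBar F₀)} (hD : IsInertiaFixed A D) :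
    IsInertiaFixed A (-D) :=
  ⟨fun σ τ hτ => by rw [smul_neg, smul_neg, hD.1 σ τ hτ],
    hD.2.imp fun _ h => ⟨h.1, fun τ hτ => by rw [smul_neg, h.2 τ hτ]⟩⟩

theorem finite_orbit {L : IntermediateField ℚ Qbar} [FiniteDimensional ℚ L] {X : Type*}
    [MulAction Γℚ X] {x : X} (h : ∀ τ : Γℚ, (∀ z ∈ L, τ z = z) → τ • x = x) :
    (Set.range fun σ : Γℚ => σ • x).Finite := by
  have hg : ∀ a b : Γℚ, (fun z : L => a z) = (fun z : L => b z) → a • x = b • x := by
    intro a b hab
    have h1 := h (b⁻¹ * a) fun z hz => by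
      rw [AlgEquiv.mul_apply, show a z = b z from congrFun hab ⟨z, hz⟩, ← AlgEquiv.mul_apply,
        inv_mul_cancel, AlgEquiv.one_apply]
    rw [mul_smul, inv_smul_eq_iff] at h1
    exact h1
  have hfin : (Set.range fun a : Γℚ => a.toAlgHom.comp L.val).Finite := Set.toFinite _
  choose s hs using fun e : ↥(Set.range fun a : Γℚ => a.toAlgHom.comp L.val) => e.2
  have := hfin.to_subtype
  refine (Set.finite_range fun e => s e • x).subset ?_
  rintro _ ⟨a, rfl⟩
  exact ⟨⟨_, a, rfl⟩, hg _ _ (funext fun z => DFunLike.congr_fun (hs ⟨_, a, rfl⟩) z)⟩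

theorem isInertiaFixed_single_inf (C : CurveDatum F₀ A Fb) (n : ℤ) :
    IsInertiaFixed A (Finsupp.single C.inf n : Divisor Qbar ↥(FBar F₀)) :=
  ⟨fun σ τ _ => by simp only [SemilinearAut.smul_single, gal_smul_isInfPlace C.hinf],
    ⊥, inferInstance, fun τ _ => by simp only [SemilinearAut.smul_single, gal_smul_isInfPlace C.hinf]⟩

variable (C : CurveDatum F₀ A Fb) {l : ℕ} [Fact l.Prime]

theorem exists_good_divisor (hA : A.LiesOverPrime l) {ι : Type*} [Finite ι]
    (X : ι → Divisor Qbar ↥(FBar F₀)) (hX : ∀ x, Divisor.degree (X x) = 0) :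
    ∃ A₀ : Divisor Qbar ↥(FBar F₀), Divisor.degree A₀ = (C.g : ℤ) - 1 ∧ IsInertiaFixed A A₀ ∧
      ∀ (x : ι) (σ : Γℚ), ell (C.red (X x + gal F₀ σ • A₀)) = 0 ∧
        ell (Finsupp.single C.infb (2 * C.g - 2 : ℤ) - C.red (X x + gal F₀ σ • A₀)) = 0 := by
  classical
  suffices key : ∀ n : ℕ, ∃ A₀ : Divisor Qbar ↥(FBar F₀), Divisor.degree A₀ = (C.g : ℤ) - 1 ∧
      IsInertiaFixed A A₀ ∧ ∀ (x : ι) (σ : Γℚ),
        ell (C.red (X x + gal F₀ σ • A₀)) ≤ max ((C.g : ℤ) - n) 0 ∧
          ell (Finsupp.single C.infb (2 * C.g - 2 : ℤ) - C.red (X x + gal F₀ σ • A₀)) ≤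
            max ((C.g : ℤ) - n) 0 by
    obtain ⟨A₀, h1, h2, h3⟩ := key C.g
    refine ⟨A₀, h1, h2, fun x σ => ?_⟩
    have h := h3 x σ
    have := ell_nonneg (C.red (X x + gal F₀ σ • A₀))
    have := ell_nonneg (Finsupp.single C.infb (2 * C.g - 2 : ℤ) - C.red (X x + gal F₀ σ • A₀))
    rw [sub_self, max_self] at h
    omega
  intro n
  induction n with
  | zero =>
    refine ⟨Finsupp.single C.inf ((C.g : ℤ) - 1), C.degree_single_inf _,
      isInertiaFixed_single_inf C _, fun x σ => ?_⟩
    have hd : Divisor.degree (C.red (X x + gal F₀ σ • Finsupp.single C.inf ((C.g : ℤ) - 1))) =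
        (C.g : ℤ) - 1 := by
      rw [C.degree_red, map_add, hX, zero_add, SemilinearAut.degree_smul, C.degree_single_inf]
    refine ⟨(ell_le_of_degree hd).trans ?_, (ell_le_of_degree (g := C.g) ?_).trans ?_⟩
    · simp
    · rw [map_sub, hd, C.degree_single_infb]; ring
    · simp
  | succ n ih =>
    obtain ⟨A₀, hdeg, hfix, hbd⟩ := ih
    set W : Divisor (IsLocalRing.ResidueField A) ↥Fb :=
      Finsupp.single C.infb (2 * C.g - 2 : ℤ) with hW
    have hWdeg : Divisor.degree W = 2 * (C.g : ℤ) - 2 := C.degree_single_infb _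
    let bs : Set (Divisor (IsLocalRing.ResidueField A) ↥Fb) :=
      {B | ∃ (x : ι) (σ : Γℚ), B = C.red (X x + gal F₀ σ • A₀)}
    have hbs : bs.Finite := by
      obtain ⟨L, hL, hLfix⟩ := hfix.2
      letI : MulAction Γℚ (Divisor Qbar ↥(FBar F₀)) := MulAction.compHom _ (arithmeticGalois F₀)
      have horb := finite_orbit (L := L) (x := A₀) hLfix
      refine ((Set.finite_range fun x : ι => X x).image2 (fun a b => C.red (a + b)) horb).subset ?_
      rintro B ⟨x, σ, rfl⟩
      exact Set.mem_image2_of_mem ⟨x, rfl⟩ ⟨σ, rfl⟩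
    have hBdeg : ∀ B ∈ bs, Divisor.degree B = (C.g : ℤ) - 1 := by
      rintro B ⟨x, σ, rfl⟩
      rw [C.degree_red, map_add, hX, SemilinearAut.degree_smul, hdeg, zero_add]
    -- exclusions for the point to add
    let u₁ : Divisor (IsLocalRing.ResidueField A) ↥Fb →
        Set (Place (IsLocalRing.ResidueField A) ↥Fb) := fun B =>
      if 0 < ell B then {Q | ell B < ell (B + Finsupp.single Q 1)} else ∅
    let u₂ : Divisor (IsLocalRing.ResidueField A) ↥Fb →
        Set (Place (IsLocalRing.ResidueField A) ↥Fb) := fun B =>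
      if h : 0 < ell B then (exists_finite_forall_ell_sub_single h).choose else ∅
    have hu₁ : ∀ B, Divisor.degree B = (C.g : ℤ) - 1 → (u₁ B).Finite := by
      intro B hB
      simp only [u₁]
      split
      · exact finite_setOf_ell_lt C.hk (by omega)
      · exact Set.finite_empty
    have hu₂ : ∀ B, (u₂ B).Finite := by
      intro B
      simp only [u₂]
      split
      · next h => exact (exists_finite_forall_ell_sub_single h).choose_spec.1
      · exact Set.finite_empty
    have hraise : ∀ B Q, 0 < ell B → Q ∉ u₁ B → ell (B + Finsupp.single Q 1) = ell B := by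
      intro B Q h hQ
      simp only [u₁, if_pos h, Set.mem_ofPred_eq, not_lt] at hQ
      exact le_antisymm hQ (ell_mono (le_add_of_nonneg_right (Finsupp.single_nonneg.2 zero_le_one)))
    have hdrop : ∀ B Q, 0 < ell B → Q ∉ u₂ B → ell (B - Finsupp.single Q 1) = ell B - 1 := by
      intro B Q h hQ
      simp only [u₂, dif_pos h] at hQ
      exact (exists_finite_forall_ell_sub_single h).choose_spec.2 Q hQ
    obtain ⟨P, hP, hPfix, hPlev⟩ := C.exists_point_avoiding hA (⋃ B ∈ bs, u₁ B ∪ u₂ (W - B))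
      (hbs.biUnion fun B hB => (hu₁ B (hBdeg B hB)).union (hu₂ _))
    have hPs : (Set.range fun σ : Γℚ => C.R.r (gal F₀ σ • P)).Finite := by
      obtain ⟨L, hL, hLfix⟩ := hPlev
      letI : MulAction Γℚ (Place Qbar ↥(FBar F₀)) := MulAction.compHom _ (arithmeticGalois F₀)
      refine ((finite_orbit (L := L) (x := P) hLfix).image C.R.r).subset ?_
      rintro _ ⟨σ, rfl⟩
      exact ⟨_, ⟨σ, rfl⟩, rfl⟩
    let u₃ : Divisor (IsLocalRing.ResidueField A) ↥Fb →
        Set (Place (IsLocalRing.ResidueField A) ↥Fb) := fun D =>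
      {Q | ell D < ell (D + Finsupp.single Q 1)}
    obtain ⟨Q, hQ, hQfix, hQlev⟩ := C.exists_point_avoiding hA
      (⋃ B ∈ bs, ⋃ P' ∈ Set.range (fun σ : Γℚ => C.R.r (gal F₀ σ • P)),
        u₂ (B + Finsupp.single P' 1) ∪ u₃ (W - B - Finsupp.single P' 1))
      (hbs.biUnion fun B hB => hPs.biUnion fun P' _ => (hu₂ _).union
        (finite_setOf_ell_lt C.hk (by
          rw [map_sub, map_sub, hWdeg, hBdeg B hB, degree_single_one]
          have := ell_nonneg (W - B - Finsupp.single P' 1)
          omega)))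
    have hPI : IsInertiaFixed A (Finsupp.single P (1 : ℤ) : Divisor Qbar ↥(FBar F₀)) :=
      ⟨fun σ τ hτ => by simp only [SemilinearAut.smul_single, hPfix σ τ hτ],
        hPlev.imp fun _ h => ⟨h.1, fun τ hτ => by rw [SemilinearAut.smul_single, h.2 τ hτ]⟩⟩
    have hQI : IsInertiaFixed A (Finsupp.single Q (1 : ℤ) : Divisor Qbar ↥(FBar F₀)) :=
      ⟨fun σ τ hτ => by simp only [SemilinearAut.smul_single, hQfix σ τ hτ],
        hQlev.imp fun _ h => ⟨h.1, fun τ hτ => by rw [SemilinearAut.smul_single, h.2 τ hτ]⟩⟩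
    refine ⟨A₀ + Finsupp.single P 1 + -Finsupp.single Q 1,
      by rw [map_add, map_add, map_neg, degree_single_one, degree_single_one, hdeg]; ring,
      (hfix.add hPI).add hQI.neg, fun x σ => ?_⟩
    set B := C.red (X x + gal F₀ σ • A₀) with hBdef
    have hBm : B ∈ bs := ⟨x, σ, rfl⟩
    set P' := C.R.r (gal F₀ σ • P) with hP'def
    set Q' := C.R.r (gal F₀ σ • Q) with hQ'def
    have hnew : C.red (X x + gal F₀ σ • (A₀ + Finsupp.single P 1 + -Finsupp.single Q 1)) =
        B + Finsupp.single P' 1 - Finsupp.single Q' 1 := by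
      rw [smul_add, smul_add, smul_neg, SemilinearAut.smul_single, SemilinearAut.smul_single,
        ← sub_eq_add_neg, ← add_sub_assoc, ← add_assoc, C.red_sub, C.red_add, C.red_single,
        C.red_single]
    have hPb := hP σ
    have hQb := hQ σ
    simp only [Set.mem_iUnion, not_exists, Set.mem_union, not_or] at hPb hQb
    obtain ⟨hP1, hP2⟩ := hPb B hBm
    obtain ⟨hQ1, hQ2⟩ := hQb B hBm P' ⟨σ, rfl⟩
    obtain ⟨hb1, hb2⟩ := hbd x σ
    rw [← hBdef] at hb1 hb2
    rw [hnew]
    refine ⟨?_, ?_⟩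
    · have h1 : ell (B + Finsupp.single P' 1) ≤ max (ell B) 1 := by
        rcases (ell_nonneg B).eq_or_lt with h | h
        · have := ell_add_single_le B P'
          omega
        · rw [hraise B P' h hP1]; exact le_max_left _ _
      rcases (ell_nonneg (B + Finsupp.single P' 1)).eq_or_lt with h | h
      · have := ell_sub_single_le (B + Finsupp.single P' 1) Q'
        omega
      · rw [hdrop _ _ h hQ1]
        omega
    · rw [show W - (B + Finsupp.single P' 1 - Finsupp.single Q' 1) =
        W - B - Finsupp.single P' 1 + Finsupp.single Q' 1 by abel]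
      have h2 : ell (W - B - Finsupp.single P' 1 + Finsupp.single Q' 1) =
          ell (W - B - Finsupp.single P' 1) := by
        refine le_antisymm ?_ (ell_mono (le_add_of_nonneg_right
          (Finsupp.single_nonneg.2 zero_le_one)))
        simpa [u₃] using hQ2
      rw [h2]
      rcases (ell_nonneg (W - B)).eq_or_lt with h | h
      · have := ell_sub_single_le (W - B) P'
        omega
      · rw [hdrop _ _ h hP2]
        omega

end FLTAgent.FlatModel
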