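import Fermat.Agent.FlatModel.Descent

/-!
# The function model obtained by descent
-/

set_option autoImplicit false

noncomputable section

namespace FLTAgent.FlatModel

open FLTAgent.Frobenius
open scoped TensorProduct

local notation "Qbar" => AlgebraicClosure ℚ

variable (l : ℕ) (K : IntermediateField ℚ (AlgebraicClosure ℚ)) [Normal ℚ K]

set_option quotPrecheck false in
local notation "Oℓ" => ↥(GaloisRep.ratLocalizedAt l)

/-- The algebra generated by the functions of the embeddings and a family of functions. -/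
def genAlg {X : Type} (Fn : Set (EmbSet K × X → Qbar)) : Subalgebra Oℓ (EmbSet K × X → Qbar) :=
  Algebra.adjoin Oℓ ((pullback l Prod.fst '' (intFun l (EmbSet K) : Set _)) ∪ Fn)

variable {l K}

theorem translate_mem_genAlg {X : Type} [MulAction Γℚ X] {Fn : Set (EmbSet K × X → Qbar)}
    (htr : ∀ f ∈ Fn, ∀ g : EmbSet K, pullback l (translate g) f ∈ Fn)
    {r : EmbSet K × X → Qbar} (hr : r ∈ genAlg l K Fn) (g : EmbSet K) :
    pullback l (translate g) r ∈ genAlg l K Fn := by
  suffices genAlg l K Fn ≤ (genAlg l K Fn).comap (pullback l (translate g)) from this hr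
  refine Algebra.adjoin_le ?_
  rintro _ (⟨o, ho, rfl⟩ | hf)
  · refine Algebra.subset_adjoin (Or.inl ⟨pullback l (fun n => n * g) o, ?_, rfl⟩)
    exact pullback_mem_intFun (fun σ n => by rw [smul_embSet, smul_embSet, mul_assoc]) ho
  · exact Algebra.subset_adjoin (Or.inr (htr _ hf g))

omit [Normal ℚ K] in
theorem genAlg_le_intFun {X : Type} [MulAction Γℚ X] {Fn : Set (EmbSet K × X → Qbar)}
    (hFn : Fn ⊆ intFun l (EmbSet K × X)) : genAlg l K Fn ≤ intFun l (EmbSet K × X) := by
  refine Algebra.adjoin_le ?_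
  rintro _ (⟨o, ho, rfl⟩ | hf)
  · exact pullback_mem_intFun (φ := Prod.fst) (fun _ _ => rfl) ho
  · exact hFn hf

variable [Fact l.Prime] [FiniteDimensional ℚ K] {A : ValuationSubring (AlgebraicClosure ℚ)}

/-- An element of trace one. -/
theorem exists_sum_eq_one (hA : A.LiesOverPrime l)
    (hK : A.inertiaSubgroupIn ℚ ≤ K.fixingSubgroup) :
    ∃ γ ∈ intFun l (EmbSet K), ∀ [Fintype (EmbSet K)], ∑ n, γ n = (1 : Qbar) := by
  classical
  obtain ⟨m, x, y, hx, hy, hxy⟩ := exists_diagonal (l := l) hA hK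
  let := Fintype.ofFinite (EmbSet K)
  have hc : ∀ i, ∃ a : Oℓ, algebraMap Oℓ Qbar a = ∑ n, y i n := by
    intro i
    refine exists_algebraMap_eq_of_forall_fixed
      (IsIntegral.sum _ fun n _ => (mem_intFun.mp (hy i)).2 n) fun σ => ?_
    rw [map_sum]
    exact Fintype.sum_equiv (MulAction.toPerm σ) _ _ fun n =>
      ((mem_intFun.mp (hy i)).1 σ n).symm
  choose a ha using hc
  have hone : ∀ n, ∑ i, x i n * algebraMap Oℓ Qbar (a i) = 1 := by
    intro n
    simp only [ha, Finset.mul_sum]
    rw [Finset.sum_comm]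
    simp [hxy]
  obtain ⟨i, hi⟩ : ∃ i, IsUnit (a i) := by
    by_contra! hall
    obtain ⟨ϖ, hϖ⟩ := IsDiscreteValuationRing.exists_irreducible Oℓ
    have hdvd : ∀ i, ∃ b, a i = ϖ * b := fun i => by
      have h : a i ∈ IsLocalRing.maximalIdeal Oℓ := hall i
      rwa [hϖ.maximalIdeal_eq, Ideal.mem_span_singleton] at h
    choose b hb using hdvd
    have h1 : algebraMap Oℓ Qbar ϖ * ∑ i, x i 1 * algebraMap Oℓ Qbar (b i) = 1 := by
      rw [Finset.mul_sum, ← hone 1]
      refine Finset.sum_congr rfl fun i _ => ?_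
      rw [hb, map_mul]; ring
    have hint : IsIntegral Oℓ (∑ i, x i 1 * algebraMap Oℓ Qbar (b i)) :=
      IsIntegral.sum _ fun i _ => ((mem_intFun.mp (hx i)).2 1).mul isIntegral_algebraMap
    obtain ⟨c, hc⟩ := exists_algebraMap_eq_of_forall_fixed hint fun σ => by
      rw [eq_inv_of_mul_eq_one_right h1, map_inv₀, map_algebraMap_ratLocalizedAt]
    rw [← hc, ← map_mul, ← map_one (algebraMap Oℓ Qbar)] at h1
    exact hϖ.not_isUnit (IsUnit.of_mul_eq_one c
      ((algebraMap ℚ Qbar).injective.comp Subtype.val_injective h1))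
  obtain ⟨u, hu⟩ := hi
  refine ⟨((u⁻¹ : Oℓˣ) : Oℓ) • y i, Subalgebra.smul_mem _ (hy i) _, fun {inst} => ?_⟩
  rw [Subsingleton.elim inst (Fintype.ofFinite _)]
  simp only [Pi.smul_apply, Algebra.smul_def, ← Finset.mul_sum]
  rw [← ha, ← map_mul, ← hu, Units.inv_mul, map_one]


variable {S : Type} [MulAction Γℚ S]

/-- The descended ring of functions. -/
def descendedAlg (Fn : Set (EmbSet K × S → Qbar)) : Subalgebra Oℓ (S → Qbar) :=
  (genAlg l K Fn).comap (pullback l Prod.snd) ⊓ intFun l S

theorem exists_decomposition (hA : A.LiesOverPrime l)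
    (hK : A.inertiaSubgroupIn ℚ ≤ K.fixingSubgroup) {Fn : Set (EmbSet K × S → Qbar)}
    (hFn : Fn ⊆ intFun l (EmbSet K × S))
    (htr : ∀ f ∈ Fn, ∀ g : EmbSet K, pullback l (translate g) f ∈ Fn)
    {r : EmbSet K × S → Qbar} (hr : r ∈ genAlg l K Fn) :
    ∃ (m : ℕ) (x : Fin m → EmbSet K → Qbar) (z : Fin m → S → Qbar),
      (∀ i, x i ∈ intFun l (EmbSet K)) ∧
      (∀ i, z i ∈ descendedAlg (l := l) Fn) ∧ ∀ n s, r (n, s) = ∑ i, x i n * z i s := by
  classical
  obtain ⟨m, x, y, hx, hy, hxy⟩ := exists_diagonal (l := l) hA hK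
  let := Fintype.ofFinite (EmbSet K)
  have hyr : ∀ i, pullback l Prod.fst (y i) * r ∈ genAlg l K Fn := fun i =>
    mul_mem (Algebra.subset_adjoin (Or.inl ⟨y i, hy i, rfl⟩)) hr
  refine ⟨m, x, fun i => traceFun (pullback l Prod.fst (y i) * r), hx,
    fun i => ⟨?_, traceFun_mem_intFun (genAlg_le_intFun hFn (hyr i))⟩, ?_⟩
  · show pullback l Prod.snd (traceFun (pullback l Prod.fst (y i) * r)) ∈ genAlg l K Fn
    have : pullback l Prod.snd (traceFun (pullback l Prod.fst (y i) * r)) =
        ∑ g : EmbSet K, pullback l (translate g) (pullback l Prod.fst (y i) * r) := by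
      refine funext fun p => ?_
      rw [Finset.sum_apply]
      simp only [pullback_apply, traceFun]
      rw [Subsingleton.elim (Fintype.ofFinite (EmbSet K)) ‹Fintype (EmbSet K)›]
      exact (Fintype.sum_equiv (Equiv.mulLeft p.1)
        (fun g => (pullback l Prod.fst (y i) * r : EmbSet K × S → Qbar) (translate g p))
        (fun n => (pullback l Prod.fst (y i) * r : EmbSet K × S → Qbar) (n, p.2)) fun g => rfl).symm
    rw [this]
    exact Subalgebra.sum_mem _ fun g _ => translate_mem_genAlg htr (hyr i) g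
  · intro n s
    simp only [traceFun, Pi.mul_apply, pullback_apply]
    rw [Subsingleton.elim (Fintype.ofFinite (EmbSet K)) ‹Fintype (EmbSet K)›]
    simp only [Finset.mul_sum, ← mul_assoc]
    rw [Finset.sum_comm]
    simp only [← Finset.sum_mul, hxy]
    simp

omit [Fact l.Prime] [FiniteDimensional ℚ K] [Normal ℚ K] in
theorem descendedAlg_le_intFun (Fn : Set (EmbSet K × S → Qbar)) :
    descendedAlg (l := l) Fn ≤ intFun l S :=
  inf_le_right

theorem separates_descendedAlg (hA : A.LiesOverPrime l)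
    (hK : A.inertiaSubgroupIn ℚ ≤ K.fixingSubgroup) {Fn : Set (EmbSet K × S → Qbar)}
    (hFn : Fn ⊆ intFun l (EmbSet K × S))
    (htr : ∀ f ∈ Fn, ∀ g : EmbSet K, pullback l (translate g) f ∈ Fn)
    (hsep : ∀ x y : S, x ≠ y → ∃ f ∈ Fn, ∃ n, f (n, x) ≠ f (n, y))
    (x y : S) (h : ∀ f : descendedAlg (l := l) Fn, f.1 x = f.1 y) : x = y := by
  by_contra hne
  obtain ⟨f, hf, n, hn⟩ := hsep x y hne
  obtain ⟨m, a, z, -, hz, heq⟩ :=
    exists_decomposition hA hK hFn htr (Algebra.subset_adjoin (Or.inr hf))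
  refine hn ?_
  rw [heq n x, heq n y]
  exact Finset.sum_congr rfl fun i _ => congrArg _ (h ⟨z i, hz i⟩)

omit [Fact l.Prime] [FiniteDimensional ℚ K] [Normal ℚ K] in
/-- Functoriality of the descended rings. -/
theorem pullback_mem_descendedAlg {Z : Type} [MulAction Γℚ Z] {φ : S → Z}
    (hφ : ∀ (σ : Γℚ) (x : S), φ (σ • x) = σ • φ x) {FS : Set (EmbSet K × S → Qbar)}
    {FZ : Set (EmbSet K × Z → Qbar)}
    (hmap : ∀ f ∈ FZ, pullback l (fun p : EmbSet K × S => (p.1, φ p.2)) f ∈ genAlg l K FS)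
    {h : Z → Qbar} (hh : h ∈ descendedAlg (l := l) FZ) :
    pullback l φ h ∈ descendedAlg (l := l) FS := by
  refine ⟨?_, pullback_mem_intFun hφ hh.2⟩
  have hle : genAlg l K FZ ≤ (genAlg l K FS).comap
      (pullback l fun p : EmbSet K × S => (p.1, φ p.2)) := by
    refine Algebra.adjoin_le ?_
    rintro _ (⟨o, ho, rfl⟩ | hg)
    · exact Algebra.subset_adjoin (Or.inl ⟨o, ho, rfl⟩)
    · exact hmap _ hg
  exact hle hh.1

variable {Y Z : Type} [MulAction Γℚ Y] [MulAction Γℚ Z]

/-- The descended rings are functorial for maps of two variables with values in the tensor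
product. -/
theorem mem_range_prodFun_descendedAlg (hA : A.LiesOverPrime l)
    (hK : A.inertiaSubgroupIn ℚ ≤ K.fixingSubgroup)
    {FS : Set (EmbSet K × S → Qbar)} {FY : Set (EmbSet K × Y → Qbar)}
    {FZ : Set (EmbSet K × Z → Qbar)}
    (hFS : FS ⊆ intFun l (EmbSet K × S))
    (htrS : ∀ f ∈ FS, ∀ g : EmbSet K, pullback l (translate g) f ∈ FS)
    (hFY : FY ⊆ intFun l (EmbSet K × Y))
    (htrY : ∀ f ∈ FY, ∀ g : EmbSet K, pullback l (translate g) f ∈ FY)
    {φ : S × Y → Z}
    (hmap : ∀ f ∈ FZ, pullback l (fun p : EmbSet K × S × Y => (p.1, φ p.2)) f ∈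
      genAlg l K ((pullback l (fun p : EmbSet K × S × Y => (p.1, p.2.1)) '' FS) ∪
        (pullback l (fun p : EmbSet K × S × Y => (p.1, p.2.2)) '' FY)))
    {h : Z → Qbar} (hh : h ∈ descendedAlg (l := l) FZ) :
    pullback l φ h ∈ (prodFun (descendedAlg (l := l) FS) (descendedAlg (l := l) FY).val).range := by
  classical
  let HS := descendedAlg (l := l) FS
  let HY := descendedAlg (l := l) FY
  let U := (prodFun HS HY.val).range
  -- products of a function of the embedding with an element of `U`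
  let P : Submonoid (EmbSet K × S × Y → Qbar) :=
    { carrier := {w | ∃ o ∈ intFun l (EmbSet K), ∃ u ∈ U,
        w = pullback l Prod.fst o * pullback l Prod.snd u}
      one_mem' := ⟨1, one_mem _, 1, one_mem _, by simp⟩
      mul_mem' := by
        rintro _ _ ⟨o, ho, u, hu, rfl⟩ ⟨o', ho', u', hu', rfl⟩
        exact ⟨o * o', mul_mem ho ho', u * u', mul_mem hu hu', by rw [map_mul, map_mul]; ring⟩ }
  let W := Algebra.adjoin Oℓ (P : Set (EmbSet K × S × Y → Qbar))
  have hconst : ∀ o ∈ intFun l (EmbSet K), pullback l Prod.fst o ∈ W := fun o ho =>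
    Algebra.subset_adjoin ⟨o, ho, 1, one_mem _, funext fun p => by simp⟩
  have hp1 : ∀ r ∈ genAlg l K FS,
      pullback l (fun p : EmbSet K × S × Y => (p.1, p.2.1)) r ∈ W := by
    intro r hr
    obtain ⟨m, a, z, ha, hz, heq⟩ := exists_decomposition hA hK hFS htrS hr
    have : pullback l (fun p : EmbSet K × S × Y => (p.1, p.2.1)) r = ∑ i,
        pullback l Prod.fst (a i) * pullback l Prod.snd (prodFun HS HY.val (⟨z i, hz i⟩ ⊗ₜ 1)) := by
      refine funext fun p => ?_
      simp [heq, Finset.sum_apply, prodFun_tmul, HS]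
    rw [this]
    exact Subalgebra.sum_mem _ fun i _ =>
      Algebra.subset_adjoin ⟨a i, ha i, _, ⟨_, rfl⟩, rfl⟩
  have hp2 : ∀ r ∈ genAlg l K FY,
      pullback l (fun p : EmbSet K × S × Y => (p.1, p.2.2)) r ∈ W := by
    intro r hr
    obtain ⟨m, a, z, ha, hz, heq⟩ := exists_decomposition hA hK hFY htrY hr
    have : pullback l (fun p : EmbSet K × S × Y => (p.1, p.2.2)) r = ∑ i,
        pullback l Prod.fst (a i) * pullback l Prod.snd (prodFun HS HY.val (1 ⊗ₜ ⟨z i, hz i⟩)) := by
      refine funext fun p => ?_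
      simp [heq, Finset.sum_apply, prodFun_tmul, HY]
    rw [this]
    exact Subalgebra.sum_mem _ fun i _ =>
      Algebra.subset_adjoin ⟨a i, ha i, _, ⟨_, rfl⟩, rfl⟩
  have hsum : genAlg l K FZ ≤ W.comap
      (pullback l fun p : EmbSet K × S × Y => (p.1, φ p.2)) := by
    refine Algebra.adjoin_le ?_
    rintro _ (⟨o, ho, rfl⟩ | hg)
    · exact hconst o ho
    · refine (show genAlg l K _ ≤ W from Algebra.adjoin_le ?_) (hmap _ hg)
      rintro _ (⟨o, ho, rfl⟩ | ⟨r, hr, rfl⟩ | ⟨r, hr, rfl⟩)
      · exact hconst o ho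
      · exact hp1 r (Algebra.subset_adjoin (Or.inr hr))
      · exact hp2 r (Algebra.subset_adjoin (Or.inr hr))
  obtain ⟨γ, hγ, hγ1⟩ := exists_sum_eq_one (l := l) hA hK
  let := Fintype.ofFinite (EmbSet K)
  have hZ : ∀ w ∈ W, traceFun (pullback l Prod.fst γ * w) ∈ U := by
    intro w hw
    have hw' : w ∈ Submodule.span Oℓ (P : Set (EmbSet K × S × Y → Qbar)) := by
      have : w ∈ Subalgebra.toSubmodule W := hw
      rwa [Algebra.adjoin_eq_span, Submonoid.closure_eq] at this
    clear hw
    induction hw' using Submodule.span_induction with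
    | mem w hw =>
      obtain ⟨o, ho, u, hu, rfl⟩ := hw
      have hc : IsIntegral Oℓ (∑ n, γ n * o n) :=
        IsIntegral.sum _ fun n _ => ((mem_intFun.mp hγ).2 n).mul ((mem_intFun.mp ho).2 n)
      obtain ⟨a, ha⟩ := exists_algebraMap_eq_of_forall_fixed hc fun σ => by
        rw [map_sum]
        exact Fintype.sum_equiv (MulAction.toPerm σ) _ _ fun n => by
          rw [map_mul, ← (mem_intFun.mp hγ).1 σ n, ← (mem_intFun.mp ho).1 σ n]; rfl
      have : traceFun (pullback l Prod.fst γ *
          (pullback l Prod.fst o * pullback l Prod.snd u)) = a • u := by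
        refine funext fun p => ?_
        simp only [traceFun, Pi.mul_apply, pullback_apply, Pi.smul_apply, Algebra.smul_def, ha,
          Finset.sum_mul]
        exact Finset.sum_congr rfl fun n _ => (mul_assoc _ _ _).symm
      rw [this]
      exact Subalgebra.smul_mem _ hu a
    | zero =>
      rw [mul_zero]
      convert U.zero_mem using 1
      exact funext fun p => by simp [traceFun]
    | add a b _ _ iha ihb =>
      have : traceFun (pullback l Prod.fst γ * (a + b)) =
          traceFun (pullback l Prod.fst γ * a) + traceFun (pullback l Prod.fst γ * b) := by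
        refine funext fun p => ?_
        simp [traceFun, mul_add, Finset.sum_add_distrib]
      rw [this]
      exact U.add_mem iha ihb
    | smul c a _ iha =>
      have : traceFun (pullback l Prod.fst γ * (c • a)) =
          c • traceFun (pullback l Prod.fst γ * a) := by
        refine funext fun p => ?_
        simp [traceFun, Finset.smul_sum]
      rw [this]
      exact Subalgebra.smul_mem _ iha c
  have hfin := hZ _ (hsum hh.1)
  convert hfin using 1
  refine funext fun p => ?_
  show h (φ p) = ∑ n, γ n * h (φ p)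
  rw [← Finset.sum_mul, hγ1, one_mul]

end FLTAgent.FlatModel
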