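import Fermat.Agent.FlatModel.CurveClosure
import Fermat.Agent.FlatModel.CurveGood
import Fermat.Agent.FlatModel.DescentModel

/-!
# Rings of functions on finite sets of divisor classes of a curve with good reduction

For a finite Galois set of classes of degree zero, the coordinates of the effective divisors
representing their translates by a general divisor give, after descent, rings of integral functions
compatible with `(x, y, z) ↦ x + y - z`.
-/

set_option autoImplicit false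
set_option linter.unusedSectionVars false

noncomputable section

open AlgebraicCurve ModularCurve

namespace FLTAgent.FlatModel

open FLTAgent.FunctionField FLTAgent.GoodRed FLTAgent.Frobenius

local notation "Qbar" => AlgebraicClosure ℚ

local instance (priority := high) instCoeFunCoCModel {K : Type*} [Field K]
    (G : IntermediateField K (LaurentSeries K)) : CoeFun (G →ₗ[K] K) fun _ => G → K :=
  DFunLike.toCoeFun

local instance (priority := high) instAlgebraLaurentCModel {K : Type*} [Field K]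
    (F : IntermediateField K (LaurentSeries K)) : Algebra K F :=
  SubalgebraClass.toAlgebra F

local instance (priority := high) instSMulLaurentCModel {K : Type*} [Field K]
    (F : IntermediateField K (LaurentSeries K)) : SMul K F :=
  (SubalgebraClass.toAlgebra F).toSMul

local instance (priority := high) instModuleLaurentCModel {K : Type*} [Field K]
    (F : IntermediateField K (LaurentSeries K)) : Module K F :=
  (SubalgebraClass.toAlgebra F).toModule


/-- The field of definition of all conjugates of a point with finite orbit. -/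
theorem exists_normal_field {X : Type*} [MulAction Γℚ X] (x : X) (S : Set Γℚ)
    (hS : ∀ σ : Γℚ, ∀ τ ∈ S, τ • σ • x = σ • x) {L : IntermediateField ℚ Qbar}
    [FiniteDimensional ℚ L] (hL : ∀ τ : Γℚ, (∀ z ∈ L, τ z = z) → τ • x = x) :
    ∃ K : IntermediateField ℚ Qbar, FiniteDimensional ℚ K ∧ Normal ℚ K ∧
      S ⊆ K.fixingSubgroup ∧ ∀ τ ∈ K.fixingSubgroup, τ • x = x := by
  have : Algebra.IsAlgebraic ℚ Qbar := AlgebraicClosure.isAlgebraic ℚ
  have : IsAlgClosure ℚ Qbar := ⟨inferInstance, inferInstance⟩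
  have : Normal ℚ Qbar := IsAlgClosure.normal ℚ Qbar
  have : IsGalois ℚ Qbar := {}
  let N : Subgroup Γℚ :=
    { carrier := {τ | ∀ σ : Γℚ, τ • σ • x = σ • x}
      one_mem' := fun σ => one_smul _ _
      mul_mem' := fun {a b} ha hb σ => by rw [mul_smul, hb σ, ha σ]
      inv_mem' := fun {a} ha σ => by rw [inv_smul_eq_iff, ha σ] }
  let K₀ := IntermediateField.normalClosure ℚ L Qbar
  have : FiniteDimensional ℚ K₀ := normalClosure.is_finiteDimensional ℚ L Qbar
  have : Normal ℚ K₀ := normalClosure.normal ℚ L Qbar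
  have hle : K₀.fixingSubgroup ≤ N := by
    intro τ hτ σ
    have hmem : σ⁻¹ * τ * σ ∈ K₀.fixingSubgroup := by
      have h := (fixingSubgroup_normal K₀).conj_mem τ hτ σ⁻¹
      rwa [inv_inv] at h
    have h := hL (σ⁻¹ * τ * σ) fun z hz =>
      (IntermediateField.mem_fixingSubgroup_iff K₀ _).1 hmem z (L.le_normalClosure hz)
    rw [mul_assoc, mul_smul, mul_smul, inv_smul_eq_iff] at h
    exact h
  have hclosed : IsClosed (N : Set Γℚ) :=
    N.isClosed_of_isOpen (Subgroup.isOpen_mono hle (IntermediateField.fixingSubgroup_isOpen K₀))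
  let K := IntermediateField.fixedField N
  have hfix : K.fixingSubgroup = N :=
    InfiniteGalois.fixingSubgroup_fixedField ⟨N, hclosed⟩
  have hK : K ≤ K₀ := by
    rw [← InfiniteGalois.fixedField_fixingSubgroup K₀]
    exact fun z hz => by
      rw [IntermediateField.mem_fixedField_iff] at hz ⊢
      exact fun τ hτ => hz τ (hle hτ)
  have : FiniteDimensional ℚ K :=
    FiniteDimensional.of_injective (IntermediateField.inclusion hK).toLinearMap
      (IntermediateField.inclusion hK).injective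
  refine ⟨K, inferInstance, ?_, fun τ hτ => ?_, fun τ hτ => ?_⟩
  · refine IntermediateField.normal_iff_forall_map_le'.mpr ?_
    rintro σ _ ⟨z, hz, rfl⟩
    change z ∈ IntermediateField.fixedField N at hz
    show σ z ∈ IntermediateField.fixedField N
    rw [IntermediateField.mem_fixedField_iff] at hz ⊢
    intro τ hτ
    have h := hz (σ⁻¹ * τ * σ) fun ρ => by
      rw [mul_assoc, mul_smul, mul_smul, inv_smul_eq_iff, ← mul_smul σ ρ]
      exact hτ (σ * ρ)
    have h' := congrArg σ h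
    rw [AlgEquiv.mul_apply, AlgEquiv.mul_apply, ← AlgEquiv.mul_apply σ σ⁻¹, mul_inv_cancel,
      AlgEquiv.one_apply] at h'
    exact h'
  · rw [hfix]; exact fun σ => hS σ τ hτ
  · rw [hfix] at hτ
    simpa using hτ 1

variable {F₀ : IntermediateField ℚ (LaurentSeries ℚ)}
  {A : ValuationSubring (AlgebraicClosure ℚ)}
  {Fb : IntermediateField (IsLocalRing.ResidueField A) (LaurentSeries (IsLocalRing.ResidueField A))}
  [IsFunctionField (AlgebraicClosure ℚ) ↥(FBar F₀)]
  [IsFunctionField (IsLocalRing.ResidueField A) ↥Fb]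
  [IsAlgClosed (IsLocalRing.ResidueField A)]

theorem gal_smul_def (σ : Γℚ) (x : Pic0 Qbar ↥(FBar F₀)) : σ • x = gal F₀ σ • x := rfl

theorem exists_divisorOf_eq_sub {D D' : Divisor.degZero (K := Qbar) (F := ↥(FBar F₀))}
    (h : Pic0.mk D = Pic0.mk D') :
    ∃ f : FBar F₀, f ≠ 0 ∧ (D : Divisor Qbar ↥(FBar F₀)) - (D' : Divisor Qbar ↥(FBar F₀)) = divisorOf f := by
  have h1 : -D' + D ∈ (Divisor.principal (K := Qbar) (F := ↥(FBar F₀))).addSubgroupOf
      (Divisor.degZero (K := Qbar) (F := ↥(FBar F₀))) := (QuotientAddGroup.eq).1 h.symm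
  obtain ⟨f, hf, hv⟩ := AddSubgroup.mem_addSubgroupOf.1 h1
  refine ⟨f, hf, Finsupp.ext fun v => ?_⟩
  have h2 := hv v
  simp only [AddSubgroup.coe_add, AddSubgroup.coe_neg, Finsupp.add_apply, Finsupp.neg_apply] at h2
  rw [Finsupp.sub_apply, divisorOf_apply]
  omega

/-- Inputs of the construction: a finite Galois set of classes and a general divisor. -/
structure GoodBase (C : CurveDatum F₀ A Fb) {ι : Type} [MulAction Γℚ ι]
    (cl : ι → Pic0 (AlgebraicClosure ℚ) ↥(FBar F₀)) where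
  /-- the field of definition of the general divisor -/
  K : IntermediateField ℚ (AlgebraicClosure ℚ)
  finK : FiniteDimensional ℚ K
  normK : Normal ℚ K
  hK : A.inertiaSubgroupIn ℚ ≤ K.fixingSubgroup
  /-- representatives -/
  X : ι → Divisor.degZero (K := AlgebraicClosure ℚ) (F := ↥(FBar F₀))
  hX : ∀ x, Pic0.mk (X x) = cl x
  /-- the general divisor -/
  A₀ : Divisor (AlgebraicClosure ℚ) ↥(FBar F₀)
  degA : Divisor.degree A₀ = (C.g : ℤ) - 1
  fixA : ∀ τ ∈ K.fixingSubgroup, gal F₀ τ • A₀ = A₀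
  good : ∀ (x : ι) (σ : Γℚ),
    ell (C.red ((X x : Divisor (AlgebraicClosure ℚ) ↥(FBar F₀)) + gal F₀ σ • A₀)) = 0 ∧
      ell (Finsupp.single C.infb (2 * C.g - 2 : ℤ) -
        C.red ((X x : Divisor (AlgebraicClosure ℚ) ↥(FBar F₀)) + gal F₀ σ • A₀)) = 0

theorem exists_goodBase (C : CurveDatum F₀ A Fb) {l : ℕ} [Fact l.Prime] (hA : A.LiesOverPrime l)
    {ι : Type} [MulAction Γℚ ι] [Finite ι] (cl : ι → Pic0 Qbar ↥(FBar F₀)) :
    Nonempty (GoodBase C cl) := by
  choose X hX using fun x => Pic0.mk_surjective (cl x)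
  obtain ⟨A₀, hdeg, ⟨hfix, L, hL, hLfix⟩, hgood⟩ := exists_good_divisor C hA
    (fun x => (X x : Divisor Qbar ↥(FBar F₀))) (fun x => (X x).2)
  letI : MulAction Γℚ (Divisor Qbar ↥(FBar F₀)) := MulAction.compHom _ (arithmeticGalois F₀)
  obtain ⟨K, hKfin, hKn, hKI, hKA⟩ :=
    exists_normal_field A₀ (A.inertiaSubgroupIn ℚ : Set Γℚ) (fun σ τ hτ => hfix σ τ hτ)
      (L := L) hLfix
  exact ⟨⟨K, hKfin, hKn, hKI, X, hX, A₀, hdeg, hKA, hgood⟩⟩

variable {C : CurveDatum F₀ A Fb} {ι : Type} [MulAction Γℚ ι]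
  {cl : ι → Pic0 (AlgebraicClosure ℚ) ↥(FBar F₀)}

namespace GoodBase

variable (B : GoodBase C cl)

instance : FiniteDimensional ℚ B.K := B.finK

instance : Normal ℚ B.K := B.normK

/-- The conjugates of the general divisor. -/
def conjDiv (n : EmbSet B.K) : Divisor (AlgebraicClosure ℚ) ↥(FBar F₀) :=
  Quotient.liftOn n (fun σ : Γℚ => gal F₀ σ • B.A₀) fun σ τ h => by
    have h1 := B.fixA _ (QuotientGroup.leftRel_apply.1 h)
    change arithmeticGalois F₀ (σ⁻¹ * τ) • B.A₀ = B.A₀ at h1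
    rw [map_mul, mul_smul, map_inv, inv_smul_eq_iff] at h1
    exact h1.symm

theorem conjDiv_smul (σ : Γℚ) (n : EmbSet B.K) : B.conjDiv (σ • n) = gal F₀ σ • B.conjDiv n := by
  induction n using QuotientGroup.induction_on with
  | _ τ =>
    show gal F₀ (σ * τ) • B.A₀ = gal F₀ σ • (gal F₀ τ • B.A₀)
    rw [← mul_smul, ← map_mul]

/-- The class to be represented. -/
def base (p : EmbSet B.K × ι) : Divisor (AlgebraicClosure ℚ) ↥(FBar F₀) :=
  (B.X p.2 : Divisor (AlgebraicClosure ℚ) ↥(FBar F₀)) + B.conjDiv p.1 + Finsupp.single C.inf 1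

theorem exists_div (p : EmbSet B.K × ι) :
    ∃ (E : Divisor Qbar ↥(FBar F₀)) (f : FBar F₀),
      C.IsModelDiv E ∧ f ≠ 0 ∧ E - B.base p = divisorOf f := by
  obtain ⟨n, x⟩ := p
  induction n using QuotientGroup.induction_on with
  | _ σ =>
    have hdX : Divisor.degree (B.X x : Divisor Qbar ↥(FBar F₀)) = 0 := (B.X x).2
    obtain ⟨E, f, hf, hE, hEf, hdeg⟩ := exists_effective_sub_eq C.hL (D := B.base (↑σ, x)) (by
      rw [base, map_add, map_add, degree_single_one, hdX]
      show 0 + Divisor.degree (gal F₀ σ • B.A₀) + 1 = _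
      rw [SemilinearAut.degree_smul, B.degA]
      ring)
    refine ⟨E, f, ⟨hE, hdeg, ?_, ?_⟩, hf, hEf⟩
    all_goals
      obtain ⟨z, hz, hzrel⟩ := C.exists_red_divisorOf hf
      rw [← hEf, C.red_sub] at hzrel
      have hbase : C.red (B.base (↑σ, x)) =
          C.red ((B.X x : Divisor Qbar ↥(FBar F₀)) + gal F₀ σ • B.A₀) +
            Finsupp.single C.infb 1 := by
        rw [base, C.red_add, C.red_single_inf]
        rfl
      rw [hbase] at hzrel
    · rw [ell_eq_of_sub_eq hz (E := Finsupp.single C.infb (2 * C.g - 2 : ℤ) -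
        C.red ((B.X x : Divisor Qbar ↥(FBar F₀)) + gal F₀ σ • B.A₀)) ?_]
      · exact (B.good x σ).2
      · rw [← hzrel, show (2 * (C.g : ℤ) - 1) = (2 * C.g - 2) + 1 by ring, Finsupp.single_add]
        abel
    · refine Eq.trans ?_ (B.good x σ).1
      refine (ell_eq_of_sub_eq hz ?_).symm
      rw [← hzrel]
      abel

/-- The effective representative. -/
def ediv (p : EmbSet B.K × ι) : Divisor (AlgebraicClosure ℚ) ↥(FBar F₀) := (B.exists_div p).choose

theorem isModelDiv_ediv (p : EmbSet B.K × ι) : C.IsModelDiv (B.ediv p) :=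
  (B.exists_div p).choose_spec.choose_spec.1

theorem exists_ediv_sub (p : EmbSet B.K × ι) :
    ∃ f : FBar F₀, f ≠ 0 ∧ B.ediv p - B.base p = divisorOf f :=
  ⟨_, (B.exists_div p).choose_spec.choose_spec.2⟩

end GoodBase

theorem CurveDatum.IsModelDiv.eq_of_sub_eq {E E' : Divisor Qbar ↥(FBar F₀)}
    (hE : C.IsModelDiv E) (hE' : 0 ≤ E') {f : FBar F₀} (hf : f ≠ 0) (h : E' - E = divisorOf f) :
    E' = E := by
  refine eq_of_effective_of_ell_sub_single (P := C.inf) hE.nonneg hE'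
    (le_antisymm ((C.ell_le_ell_red _).trans (le_of_eq ?_)) (ell_nonneg _)) hf h
  rw [C.red_sub, C.red_single_inf]
  exact hE.rr_inf

theorem gal_smul_divisorOf (σ : Γℚ) (f : FBar F₀) :
    gal F₀ σ • divisorOf (K := Qbar) f = divisorOf (gal F₀ σ • f) := by
  refine Finsupp.ext fun w => ?_
  rw [SemilinearAut.divisor_smul_apply, divisorOf_apply, divisorOf_apply,
    ← SemilinearAut.ord_smul (gal F₀ σ), smul_inv_smul]

theorem gal_smul_nonneg (σ : Γℚ) {E : Divisor Qbar ↥(FBar F₀)} (hE : 0 ≤ E) :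
    0 ≤ gal F₀ σ • E := fun w => by
  rw [SemilinearAut.divisor_smul_apply]
  exact hE _

namespace GoodBase

variable (B : GoodBase C cl)

theorem ediv_smul (hcl : ∀ (σ : Γℚ) (x : ι), cl (σ • x) = σ • cl x) (σ : Γℚ)
    (p : EmbSet B.K × ι) : B.ediv (σ • p) = gal F₀ σ • B.ediv p := by
  obtain ⟨f, hf, hfe⟩ := B.exists_ediv_sub p
  obtain ⟨f', hf', hfe'⟩ := B.exists_ediv_sub (σ • p)
  obtain ⟨h, hh, hhe⟩ := exists_divisorOf_eq_sub (D := B.X (σ • p.2))
    (D' := SemilinearAut.degZeroSMulHom (gal F₀ σ) (B.X p.2)) (by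
      rw [← SemilinearAut.pic0_smul_mk, B.hX, B.hX, hcl]
      rfl)
  rw [SemilinearAut.coe_degZeroSMulHom] at hhe
  refine ((B.isModelDiv_ediv (σ • p)).eq_of_sub_eq (gal_smul_nonneg σ (B.isModelDiv_ediv p).nonneg)
    (f := (gal F₀ σ • f) / (f' * h)) ?_ ?_).symm
  · exact div_ne_zero (fun h0 => hf (by rwa [smul_eq_zero_iff_eq] at h0)) (mul_ne_zero hf' hh)
  · have hgf : gal F₀ σ • f ≠ 0 := fun h0 => hf ((smul_eq_zero_iff_eq _).1 h0)
    have e1 := gal_smul_divisorOf (F₀ := F₀) σ f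
    rw [← hfe] at e1
    rw [div_eq_mul_inv, divisorOf_mul hgf (inv_ne_zero (mul_ne_zero hf' hh)), divisorOf_inv,
      divisorOf_mul hf' hh, ← e1, ← hfe', ← hhe]
    simp only [base, Prod.smul_fst, Prod.smul_snd, B.conjDiv_smul, smul_sub, smul_add,
      SemilinearAut.smul_single, gal_smul_isInfPlace C.hinf]
    abel

/-- The coordinate functions. -/
def coord (i j : ℤ) : EmbSet B.K × ι → AlgebraicClosure ℚ := fun p => co j (C.vF (B.ediv p) i)

variable {l : ℕ} [Fact l.Prime]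

theorem coord_mem_intFun (hA : A.LiesOverPrime l)
    (hcl : ∀ (σ : Γℚ) (x : ι), cl (σ • x) = σ • cl x) {i : ℤ} (hi : 2 * (C.g : ℤ) ≤ i) (j : ℤ) :
    B.coord i j ∈ intFun l (EmbSet B.K × ι) := by
  have heq : ∀ (σ : Γℚ) (p : EmbSet B.K × ι), B.coord i j (σ • p) = σ (B.coord i j p) := by
    intro σ p
    have h := B.isModelDiv_ediv (σ • p)
    rw [B.ediv_smul hcl σ p] at h
    rw [coord, coord, B.ediv_smul hcl σ p, (B.isModelDiv_ediv p).vF_gal σ h hi, co_gal]
  refine mem_intFun.2 ⟨heq, fun p => isIntegral_of_forall_mem hA fun σ => ?_⟩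
  rw [← heq]
  exact (C.co_red _ _ ((B.isModelDiv_ediv (σ • p)).vF_spec hi).2.1
    (CurveDatum.regAway_space (B.isModelDiv_ediv (σ • p)).nonneg
      ((B.isModelDiv_ediv (σ • p)).vF_spec hi).1) j).1

/-- The family of functions on the embeddings times a set mapping to the classes. -/
def family {S : Type} (φ : S → ι) : Set (EmbSet B.K × S → AlgebraicClosure ℚ) :=
  {f | ∃ (g : EmbSet B.K) (i j : ℤ), 2 * (C.g : ℤ) ≤ i ∧ f = fun p => B.coord i j (p.1 * g, φ p.2)}

/-- The ring of functions on a set mapping to the classes. -/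
def ring (l : ℕ) [Fact l.Prime] {S : Type} [MulAction Γℚ S] (φ : S → ι) :
    Subalgebra ↥(GaloisRep.ratLocalizedAt l) (S → AlgebraicClosure ℚ) :=
  descendedAlg (l := l) (B.family φ)

theorem family_translate {S : Type} (φ : S → ι) (f : EmbSet B.K × S → Qbar)
    (hf : f ∈ B.family φ) (g : EmbSet B.K) : pullback l (translate g) f ∈ B.family φ := by
  obtain ⟨g', i, j, hi, rfl⟩ := hf
  refine ⟨g * g', i, j, hi, funext fun p => ?_⟩
  simp [translate, mul_assoc]

theorem family_subset_intFun (hA : A.LiesOverPrime l)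
    (hcl : ∀ (σ : Γℚ) (x : ι), cl (σ • x) = σ • cl x) {S : Type} [MulAction Γℚ S] {φ : S → ι}
    (hφ : ∀ (σ : Γℚ) (s : S), φ (σ • s) = σ • φ s) :
    B.family φ ⊆ intFun l (EmbSet B.K × S) := by
  rintro f ⟨g, i, j, hi, rfl⟩
  exact pullback_mem_intFun (φ := fun p : EmbSet B.K × S => (p.1 * g, φ p.2))
    (fun σ p => Prod.ext (by
      show (σ • p.1) * g = σ • (p.1 * g)
      rw [smul_embSet, smul_embSet, mul_assoc]) (hφ σ p.2)) (B.coord_mem_intFun hA hcl hi j)

theorem ring_le_intFun {S : Type} [MulAction Γℚ S] (φ : S → ι) :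
    B.ring l φ ≤ intFun l S :=
  descendedAlg_le_intFun _

theorem separates_ring (hA : A.LiesOverPrime l)
    (hcl : ∀ (σ : Γℚ) (x : ι), cl (σ • x) = σ • cl x) {S : Type} [MulAction Γℚ S] {φ : S → ι}
    (hφ : ∀ (σ : Γℚ) (s : S), φ (σ • s) = σ • φ s) (hinj : Function.Injective fun s => cl (φ s))
    (x y : S) (h : ∀ f : B.ring l φ, f.1 x = f.1 y) : x = y := by
  refine separates_descendedAlg hA B.hK (B.family_subset_intFun hA hcl hφ)
    (fun f hf g => B.family_translate φ f hf g) ?_ x y h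
  intro a b hab
  by_contra hall
  push Not at hall
  apply hab
  set n : EmbSet B.K := 1
  have hco : ∀ i, 2 * (C.g : ℤ) ≤ i → C.vF (B.ediv (n, φ a)) i = C.vF (B.ediv (n, φ b)) i := by
    intro i hi
    refine Subtype.ext (HahnSeries.ext (funext fun k => ?_))
    have h1 := hall _ ⟨1, i, -k, hi, rfl⟩ n
    simp only [coord, co_apply, neg_neg, mul_one] at h1
    exact h1
  set M : ℤ := max (C.c + C.g + 1) (2 * C.g) with hM
  have hle : ∀ {E E' : Divisor Qbar ↥(FBar F₀)}, C.IsModelDiv E → C.IsModelDiv E' →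
      (∀ i, 2 * (C.g : ℤ) ≤ i → C.vF E i = C.vF E' i) → C.space E M ≤ C.space E' M := by
    intro E E' hE hE' hEE y hy
    rw [hE.eq_sum_vF (by omega) hy]
    refine Submodule.sum_mem _ fun i hi => Submodule.smul_mem _ _ ?_
    rw [hEE i (Finset.mem_Icc.1 hi).1]
    exact CurveDatum.space_mono (Finset.mem_Icc.1 hi).2
      (hE'.vF_spec (Finset.mem_Icc.1 hi).1).1
  have hEa := B.isModelDiv_ediv (n, φ a)
  have hEb := B.isModelDiv_ediv (n, φ b)
  have hdeg : ∀ {E : Divisor Qbar ↥(FBar F₀)}, C.IsModelDiv E →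
      C.c + 1 ≤ Divisor.degree (Finsupp.single C.inf M - E) := fun {E} hE => by
    rw [map_sub, C.degree_single_inf, hE.degree]
    omega
  have heq : B.ediv (n, φ a) = B.ediv (n, φ b) := sub_right_injective
    (C.hL.eq_of_rr_eq (hdeg hEa) (hdeg hEb)
      (le_antisymm (hle hEa hEb hco) (hle hEb hEa fun i hi => (hco i hi).symm)))
  refine hinj ?_
  obtain ⟨f, hf, hfe⟩ := B.exists_ediv_sub (n, φ a)
  obtain ⟨f', hf', hfe'⟩ := B.exists_ediv_sub (n, φ b)
  show cl (φ a) = cl (φ b)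
  rw [← B.hX, ← B.hX]
  refine (QuotientAddGroup.eq).2 (AddSubgroup.mem_addSubgroupOf.2
    ⟨f / f', div_ne_zero hf hf', fun v => ?_⟩)
  have e1 := DFunLike.congr_fun hfe v
  have e2 := DFunLike.congr_fun hfe' v
  rw [heq] at e1
  simp only [base, Finsupp.sub_apply, Finsupp.add_apply, divisorOf_apply] at e1 e2
  simp only [AddSubgroup.coe_add, AddSubgroup.coe_neg, Finsupp.add_apply, Finsupp.neg_apply]
  rw [ord_div hf hf']
  omega

theorem isQuad (n : EmbSet B.K) {a b c d : ι} (h : cl d + cl c = cl a + cl b) :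
    C.IsQuad (B.ediv (n, a)) (B.ediv (n, b)) (B.ediv (n, c)) (B.ediv (n, d)) := by
  obtain ⟨fa, ha, hae⟩ := B.exists_ediv_sub (n, a)
  obtain ⟨fb, hb, hbe⟩ := B.exists_ediv_sub (n, b)
  obtain ⟨fc, hc, hce⟩ := B.exists_ediv_sub (n, c)
  obtain ⟨fd, hd, hde⟩ := B.exists_ediv_sub (n, d)
  obtain ⟨e, he, hee⟩ := exists_divisorOf_eq_sub (D := B.X d + B.X c) (D' := B.X a + B.X b)
    (by rw [Pic0.mk_add, Pic0.mk_add, B.hX, B.hX, B.hX, B.hX, h])
  refine ⟨B.isModelDiv_ediv _, B.isModelDiv_ediv _, B.isModelDiv_ediv _, B.isModelDiv_ediv _,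
    fd * fc / (fa * fb) * e,
    mul_ne_zero (div_ne_zero (mul_ne_zero hd hc) (mul_ne_zero ha hb)) he, ?_⟩
  rw [divisorOf_mul (div_ne_zero (mul_ne_zero hd hc) (mul_ne_zero ha hb)) he, div_eq_mul_inv,
    divisorOf_mul (mul_ne_zero hd hc) (inv_ne_zero (mul_ne_zero ha hb)), divisorOf_inv,
    divisorOf_mul hd hc, divisorOf_mul ha hb, ← hae, ← hbe, ← hce, ← hde, ← hee]
  simp only [base, AddSubgroup.coe_add]
  abel

variable [Finite ι]

/-- Coefficient functions of a combination, on the parameters of a Galois set. -/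
theorem map_mem_genAlg (hA : A.LiesOverPrime l)
    {S Z : Type} [MulAction Γℚ S] [Finite S] (hS : IsLevelled S)
    {Fn : Set (EmbSet B.K × S → Qbar)} (hFn : Fn ⊆ intFun l (EmbSet B.K × S))
    {φZ : Z → ι} (m : S → Z) (a b c : S → ι)
    (hcoeff : ∀ x ∈ ({a, b, c} : Set (S → ι)), ∀ (g : EmbSet B.K) (i j : ℤ),
      2 * (C.g : ℤ) ≤ i → (fun p : EmbSet B.K × S => B.coord i j (p.1 * g, x p.2)) ∈
        genAlg l B.K Fn)
    (hrel : ∀ s, cl (φZ (m s)) + cl (c s) = cl (a s) + cl (b s))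
    {f : EmbSet B.K × Z → Qbar} (hf : f ∈ B.family φZ) :
    pullback l (fun p : EmbSet B.K × S => (p.1, m p.2)) f ∈ genAlg l B.K Fn := by
  obtain ⟨g, i, j, hi, rfl⟩ := hf
  have hR := genAlg_le_intFun hFn
  have ha : CoeffsIn C (genAlg l B.K Fn) (fun p => B.ediv (p.1 * g, a p.2)) :=
    fun i' hi' n => hcoeff a (by simp) g i' n hi'
  have hb : CoeffsIn C (genAlg l B.K Fn) (fun p => B.ediv (p.1 * g, b p.2)) :=
    fun i' hi' n => hcoeff b (by simp) g i' n hi'
  have hc : CoeffsIn C (genAlg l B.K Fn) (fun p => B.ediv (p.1 * g, c p.2)) :=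
    fun i' hi' n => hcoeff c (by simp) g i' n hi'
  have hq : ∀ p : EmbSet B.K × S, C.IsQuad (B.ediv (p.1 * g, a p.2)) (B.ediv (p.1 * g, b p.2))
      (B.ediv (p.1 * g, c p.2)) (B.ediv (p.1 * g, φZ (m p.2))) :=
    fun p => B.isQuad _ (hrel p.2)
  have hd : CoeffsIn C (genAlg l B.K Fn)
      (fun p : EmbSet B.K × S => B.ediv (p.1 * g, φZ (m p.2))) :=
    mem_of_quad (C := C) (l := l) (T := EmbSet B.K × S)
      (R := genAlg l B.K Fn) (a := fun p => B.ediv (p.1 * g, a p.2))
      (b := fun p => B.ediv (p.1 * g, b p.2)) (c := fun p => B.ediv (p.1 * g, c p.2))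
      (d := fun p => B.ediv (p.1 * g, φZ (m p.2))) hA
      ((isLevelled_embSet B.K).prod hS) hR hq ha hb hc
  exact hd i hi j

theorem coord_const_mem (hA : A.LiesOverPrime l)
    (hcl : ∀ (σ : Γℚ) (x : ι), cl (σ • x) = σ • cl x) {S : Type} [MulAction Γℚ S]
    (Fn : Set (EmbSet B.K × S → Qbar)) {z : ι} (hz : ∀ σ : Γℚ, σ • z = z) (g : EmbSet B.K)
    {i : ℤ} (hi : 2 * (C.g : ℤ) ≤ i) (j : ℤ) :
    (fun p : EmbSet B.K × S => B.coord i j (p.1 * g, z)) ∈ genAlg l B.K Fn := by
  refine Algebra.subset_adjoin (Or.inl ⟨fun n => B.coord i j (n * g, z), ?_, rfl⟩)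
  exact pullback_mem_intFun (φ := fun n : EmbSet B.K => (n * g, z))
    (fun σ n => Prod.ext (by
      show (σ • n) * g = σ • (n * g)
      rw [smul_embSet, smul_embSet, mul_assoc]) (hz σ).symm) (B.coord_mem_intFun hA hcl hi j)

/-- Compatibility of the rings with combinations of three classes, each a coordinate or a rational
class. -/
theorem mem_range_prodFun_ring (hA : A.LiesOverPrime l)
    (hcl : ∀ (σ : Γℚ) (x : ι), cl (σ • x) = σ • cl x) {S Y Z : Type} [MulAction Γℚ S]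
    [MulAction Γℚ Y] [MulAction Γℚ Z] [Finite S] [Finite Y] (hS : IsLevelled S)
    (hY : IsLevelled Y) {φS : S → ι} (hφS : ∀ (σ : Γℚ) (s : S), φS (σ • s) = σ • φS s)
    {φY : Y → ι} (hφY : ∀ (σ : Γℚ) (s : Y), φY (σ • s) = σ • φY s) {φZ : Z → ι} (m : S × Y → Z)
    (a b c : S × Y → ι)
    (habc : ∀ x ∈ ({a, b, c} : Set (S × Y → ι)),
      x = φS ∘ Prod.fst ∨ x = φY ∘ Prod.snd ∨
        ∃ z : ι, (∀ σ : Γℚ, σ • z = z) ∧ x = Function.const _ z)
    (hrel : ∀ p, cl (φZ (m p)) + cl (c p) = cl (a p) + cl (b p))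
    {h : Z → Qbar} (hh : h ∈ B.ring l φZ) :
    pullback l m h ∈ (prodFun (B.ring l φS) (B.ring l φY).val).range := by
  refine mem_range_prodFun_descendedAlg hA B.hK (B.family_subset_intFun hA hcl hφS)
    (fun f hf g => B.family_translate φS f hf g) (B.family_subset_intFun hA hcl hφY)
    (fun f hf g => B.family_translate φY f hf g) ?_ hh
  intro f hf
  refine B.map_mem_genAlg hA (hS.prod hY) ?_ m a b c ?_ hrel hf
  · rintro _ (⟨f, hf, rfl⟩ | ⟨f, hf, rfl⟩)
    · exact pullback_mem_intFun (fun σ p => rfl) (B.family_subset_intFun hA hcl hφS hf)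
    · exact pullback_mem_intFun (fun σ p => rfl) (B.family_subset_intFun hA hcl hφY hf)
  · intro x hx g i j hi
    rcases habc x hx with rfl | rfl | ⟨z, hz, rfl⟩
    · exact Algebra.subset_adjoin (Or.inr (Or.inl ⟨_, ⟨g, i, j, hi, rfl⟩, rfl⟩))
    · exact Algebra.subset_adjoin (Or.inr (Or.inr ⟨_, ⟨g, i, j, hi, rfl⟩, rfl⟩))
    · exact B.coord_const_mem hA hcl _ hz g hi j

/-- Functoriality in one variable. -/
theorem pullback_mem_ring (hA : A.LiesOverPrime l)
    (hcl : ∀ (σ : Γℚ) (x : ι), cl (σ • x) = σ • cl x) {S Z : Type} [MulAction Γℚ S]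
    [MulAction Γℚ Z] [Finite S] (hS : IsLevelled S) {φS : S → ι}
    (hφS : ∀ (σ : Γℚ) (s : S), φS (σ • s) = σ • φS s) {φZ : Z → ι} (m : S → Z)
    (hm : ∀ (σ : Γℚ) (s : S), m (σ • s) = σ • m s) (a b c : S → ι)
    (habc : ∀ x ∈ ({a, b, c} : Set (S → ι)),
      x = φS ∨ ∃ z : ι, (∀ σ : Γℚ, σ • z = z) ∧ x = Function.const _ z)
    (hrel : ∀ p, cl (φZ (m p)) + cl (c p) = cl (a p) + cl (b p))
    {h : Z → Qbar} (hh : h ∈ B.ring l φZ) : pullback l m h ∈ B.ring l φS := by
  refine pullback_mem_descendedAlg hm (fun f hf => ?_) hh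
  refine B.map_mem_genAlg hA hS (B.family_subset_intFun hA hcl hφS) m a b c ?_ hrel hf
  intro x hx g i j hi
  rcases habc x hx with rfl | ⟨z, hz, rfl⟩
  · exact Algebra.subset_adjoin (Or.inr ⟨g, i, j, hi, rfl⟩)
  · exact B.coord_const_mem hA hcl _ hz g hi j

/-- The function model of a finite subgroup of classes. -/
def functionModel (hA : A.LiesOverPrime l) (hcl : ∀ (σ : Γℚ) (x : ι), cl (σ • x) = σ • cl x)
    {M : Type} [AddCommGroup M] [DistribMulAction Γℚ M] [Finite M] (hM : IsLevelled M)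
    (φ : M → ι) (hφ : ∀ (σ : Γℚ) (s : M), φ (σ • s) = σ • φ s)
    (hadd : ∀ x y, cl (φ (x + y)) = cl (φ x) + cl (φ y))
    (hinj : Function.Injective fun s => cl (φ s)) : FunctionModel l M where
  H := B.ring l φ
  le_intFun := B.ring_le_intFun φ
  separates := B.separates_ring hA hcl hφ hinj
  add_mem := by
    rintro ⟨f, hf⟩
    have hz : ∀ σ : Γℚ, σ • φ 0 = φ 0 := fun σ => by rw [← hφ, smul_zero]
    refine B.mem_range_prodFun_ring hA hcl hM hM hφ hφ (fun p : M × M => p.1 + p.2) (φ ∘ Prod.fst)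
      (φ ∘ Prod.snd) (Function.const _ (φ 0)) ?_ (fun p => ?_) hf
    · rintro x (rfl | rfl | rfl)
      · exact Or.inl rfl
      · exact Or.inr (Or.inl rfl)
      · exact Or.inr (Or.inr ⟨_, hz, rfl⟩)
    · simp only [Function.const_apply, Function.comp_apply]
      rw [← hadd, ← hadd, add_zero]
  neg_mem := by
    rintro ⟨f, hf⟩
    have hz : ∀ σ : Γℚ, σ • φ 0 = φ 0 := fun σ => by rw [← hφ, smul_zero]
    refine B.pullback_mem_ring hA hcl hM hφ (fun x : M => -x) (fun σ x => (smul_neg σ x).symm)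
      (Function.const _ (φ 0)) (Function.const _ (φ 0)) φ ?_ (fun p => ?_) hf
    · rintro x (rfl | rfl | rfl)
      · exact Or.inr ⟨_, hz, rfl⟩
      · exact Or.inr ⟨_, hz, rfl⟩
      · exact Or.inl rfl
    · simp only [Function.const_apply]
      rw [← hadd, ← hadd, neg_add_cancel, add_zero]

end GoodBase

end FLTAgent.FlatModel
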