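import Fermat.Agent.FlatModel.X0Torsion
import Fermat.Agent.GoodRed.X0Compat
import Fermat.Agent.GoodRed.SmallPrime.Main

/-!
# Good reduction of the modular curve of level `M` at every prime `l ∤ M`
-/

set_option autoImplicit false
set_option synthInstance.maxHeartbeats 100000

noncomputable section

open ModularCurve IsLocalRing AlgebraicCurve

namespace FLTAgent.FlatModel

open FLTAgent.FunctionField FLTAgent.GoodRed

theorem genusEqAt_of_not_dvd {M l : ℕ} [NeZero M] [Fact l.Prime] (hlM : ¬ l ∣ M) :
    GenusEqAt M l := by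
  intro A hA
  have hp : l.Prime := Fact.out
  by_cases h5 : 5 ≤ l
  · exact genusEqAt_of_five_le hlM h5 A hA
  have h2 := hp.two_le
  interval_cases l
  · have : NeZero (3 * M) := ⟨mul_ne_zero (by norm_num) (NeZero.ne M)⟩
    have h' : ¬ 2 ∣ 3 * M := fun h => by
      rcases hp.dvd_mul.1 h with h | h
      · norm_num at h
      · exact hlM h
    exact genusFF_eq_x0_of_dvd A hA (dvd_mul_left M 3) h'
      (SmallPrime.genusFF_eq_x0_two A hA (3 * M) rfl h' (dvd_mul_right 3 M))
  · have : NeZero (2 * M) := ⟨mul_ne_zero (by norm_num) (NeZero.ne M)⟩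
    have h' : ¬ 3 ∣ 2 * M := fun h => by
      rcases hp.dvd_mul.1 h with h | h
      · norm_num at h
      · exact hlM h
    exact genusFF_eq_x0_of_dvd A hA (dvd_mul_left M 2) h'
      (SmallPrime.genusFF_eq_x0_three A hA (2 * M) rfl h' (dvd_mul_right 2 M))
  · exact absurd hp (by norm_num)

/-- The curve of level `M` has good reduction at every place above `l ∤ M`. -/
theorem exists_x0CurveDatum_of_not_dvd (A : ValuationSubring (AlgebraicClosure ℚ)) {l : ℕ}
    [Fact l.Prime] (hA : A.LiesOverPrime l) (M : ℕ) [NeZero M] (hlM : ¬ l ∣ M)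
    [IsFunctionField (ResidueField A) (modularFunctionFieldFullC (ResidueField A) M)] :
    Nonempty (CurveDatum (modularFunctionFieldFull M) A
      (modularFunctionFieldFullC (ResidueField A) M)) :=
  exists_x0CurveDatum A hA M hlM (genusEqAt_of_not_dvd hlM A hA)

end FLTAgent.FlatModel
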