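import Fermat.Agent.FlatModel.Ctx
import Mathlib.RingTheory.Finiteness.Basic
import Mathlib.LinearAlgebra.Pi

/-!
# Integral models of finite modules and their connected part
-/

set_option autoImplicit false

namespace FLTAgent.FlatModel

variable {K : Type*} [Field K] {p : ℕ} {A : ValuationSubring K} {I : Subgroup (K ≃+* K)}

/-- A function commuting with the two actions of `I`. -/
def IsEquivariant {X : Type*} (ρ : I → X → X) (f : X → K) : Prop :=
  ∀ (τ : I) (x : X), f (ρ τ x) = (τ : K ≃+* K) (f x)

/-- A module of functions which is the affine ring of a finite flat model of `X`. -/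
structure IsModel {X : Type*} [AddCommGroup X] (ρ : I →* AddMonoid.End X)
    (H : Submodule (baseRing A I) (X → K)) : Prop where
  fg : H.FG
  one_mem : (1 : X → K) ∈ H
  mul_mem : ∀ f ∈ H, ∀ g ∈ H, f * g ∈ H
  integral : ∀ f ∈ H, ∀ x, f x ∈ A
  equivariant : ∀ f ∈ H, IsEquivariant (fun τ => ρ τ) f
  separates : ∀ x y : X, (∀ f ∈ H, f x = f y) → x = y
  coprod : ∀ f ∈ H, ∃ (n : ℕ) (a b : Fin n → X → K), (∀ i, a i ∈ H) ∧ (∀ i, b i ∈ H) ∧
    ∀ x y, f (x + y) = ∑ i, a i x * b i y

theorem isEquivariant_smul {X : Type*} {ρ : I → X → X} {f : X → K} (hf : IsEquivariant ρ f)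
    (c : baseRing A I) : IsEquivariant ρ (c • f) := fun τ x => by
  rw [Pi.smul_apply, Pi.smul_apply, hf, baseRing_map_smul τ.2]

theorem valuation_mul_sub_mul_lt {a a' b b' : K} (ha : A.valuation (a - a') < 1)
    (hb : A.valuation (b - b') < 1) (ha' : a' ∈ A) (hbA : b ∈ A) :
    A.valuation (a * b - a' * b') < 1 := by
  rw [show a * b - a' * b' = (a - a') * b + a' * (b - b') by ring]
  refine (A.valuation.map_add _ _).trans_lt (max_lt ?_ ?_) <;> rw [map_mul]
  · exact (mul_le_of_le_one_right' ((A.valuation_le_one_iff _).mpr hbA)).trans_lt ha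
  · exact (mul_le_of_le_one_left' ((A.valuation_le_one_iff _).mpr ha')).trans_lt hb

namespace IsModel

variable {X : Type*} [AddCommGroup X] {ρ : I →* AddMonoid.End X}
  {H : Submodule (baseRing A I) (X → K)} (hH : IsModel ρ H)

/-- A point in the connected component of zero. -/
def IsConnected (H : Submodule (baseRing A I) (X → K)) (x : X) : Prop :=
  ∀ f ∈ H, A.valuation (f x - f 0) < 1

include hH

theorem apply_map {f : X → K} (hf : f ∈ H) (τ : I) (x : X) :
    f (ρ τ x) = (τ : K ≃+* K) (f x) :=
  hH.equivariant f hf τ x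

theorem map_zero_fixed {f : X → K} (hf : f ∈ H) (τ : I) : (τ : K ≃+* K) (f 0) = f 0 := by
  rw [← hH.apply_map hf τ 0, map_zero]

theorem isConnected_add {x y : X} (hx : IsConnected H x) (hy : IsConnected H y) :
    IsConnected H (x + y) := by
  intro f hf
  obtain ⟨n, a, b, ha, hb, hab⟩ := hH.coprod f hf
  rw [hab x y, show f 0 = ∑ i, a i 0 * b i 0 by rw [← hab, add_zero], ← Finset.sum_sub_distrib]
  exact A.valuation.map_sum_lt' one_pos fun i _ =>
    valuation_mul_sub_mul_lt (hx _ (ha i)) (hy _ (hb i)) (hH.integral _ (ha i) _)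
      (hH.integral _ (hb i) _)

/-- The connected part as a subgroup. -/
def connectedPart [Finite X] : AddSubgroup X where
  carrier := {x | IsConnected H x}
  add_mem' := hH.isConnected_add
  zero_mem' := fun f _ => by simp
  neg_mem' := by
    intro x hx
    have hpow : ∀ k : ℕ, IsConnected H (k • x) := by
      intro k
      induction k with
      | zero => intro f _; simp
      | succ k ih => rw [succ_nsmul]; exact hH.isConnected_add ih hx
    obtain ⟨k, hk⟩ : ∃ k : ℕ, -x = k • x := by
      refine ⟨Nat.card X - 1, (eq_neg_of_add_eq_zero_left ?_).symm⟩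
      rw [← succ_nsmul, Nat.sub_add_cancel Nat.card_pos]
      exact card_nsmul_eq_zero'
    show IsConnected H (-x)
    rw [hk]
    exact hpow k

theorem mem_connectedPart [Finite X] {x : X} :
    x ∈ hH.connectedPart ↔ ∀ f ∈ H, A.valuation (f x - f 0) < 1 := Iff.rfl

theorem map_mem_connectedPart [Finite X] (hI : IsUnramifiedBase p A I) (τ : I) {x : X}
    (hx : x ∈ hH.connectedPart) : ρ τ x ∈ hH.connectedPart := fun f hf => by
  rw [hH.apply_map hf τ x, ← hH.map_zero_fixed hf τ, ← map_sub, hI.valuation_map _ τ.2]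
  exact hx f hf

/-- Inertia moves every point inside the connected part. -/
theorem map_sub_mem_connectedPart [Finite X] (hI : IsUnramifiedBase p A I) (τ : I) (x : X) :
    ρ τ x - x ∈ hH.connectedPart := fun f hf => by
  obtain ⟨n, a, b, ha, hb, hab⟩ := hH.coprod f hf
  rw [sub_eq_add_neg (ρ τ x) x, hab, show f 0 = ∑ i, a i x * b i (-x) by rw [← hab, add_neg_cancel],
    ← Finset.sum_sub_distrib]
  refine A.valuation.map_sum_lt' one_pos fun i _ => ?_
  rw [hH.apply_map (ha i), ← sub_mul, map_mul]
  exact (mul_le_of_le_one_right' ((A.valuation_le_one_iff _).mpr (hH.integral _ (hb i) _))).trans_lt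
    (hI.map_sub_lt _ τ.2 _ (hH.integral _ (ha i) _))

end IsModel

end FLTAgent.FlatModel
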