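import Fermat.Agent.FlatModel.Basic
import Mathlib.LinearAlgebra.LinearIndependent.Lemmas
import Mathlib.LinearAlgebra.Pi
import Mathlib.Algebra.BigOperators.Field

/-!
# Descent: modules of equivariant functions have bases independent over `K`
-/

set_option autoImplicit false

namespace FLTAgent.FlatModel

variable {K : Type*} [Field K] {p : ℕ} {A : ValuationSubring K} {I : Subgroup (K ≃+* K)}
  {X : Type*} {ρ : I → X → X}

/-- A bijective equivariant change of variable turns a relation into its conjugate. -/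
theorem sum_map_mul_eq_zero {ι : Type*} {s : Finset ι} {b : ι → X → K}
    (hb : ∀ i, IsEquivariant ρ (b i)) (hρ : ∀ τ, Function.Surjective (ρ τ)) {g : ι → K}
    (hg : ∀ x, ∑ i ∈ s, g i * b i x = 0) (τ : I) (x : X) :
    ∑ i ∈ s, (τ : K ≃+* K) (g i) * b i x = 0 := by
  obtain ⟨y, rfl⟩ := hρ τ x
  rw [← map_zero (τ : K ≃+* K), ← hg y, map_sum]
  exact Finset.sum_congr rfl fun i _ => by rw [map_mul, hb i τ y]

/-- A linear relation between equivariant functions can be chosen over the fixed field. -/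
theorem exists_fixed_relation {ι : Type*} [Fintype ι] {b : ι → X → K}
    (hb : ∀ i, IsEquivariant ρ (b i)) (hρ : ∀ τ, Function.Surjective (ρ τ))
    (hdep : ¬ LinearIndependent K b) :
    ∃ g : ι → K, (∀ τ ∈ I, ∀ i, τ (g i) = g i) ∧ (∃ i, g i ≠ 0) ∧
      ∀ x, ∑ i, g i * b i x = 0 := by
  classical
  let P : ℕ → Prop := fun k => ∃ g : ι → K, (∃ i, g i ≠ 0) ∧ (∀ x, ∑ i, g i * b i x = 0) ∧
    (Finset.univ.filter fun i => g i ≠ 0).card = k
  have hP : ∃ k, P k := by
    obtain ⟨g, hg, i, hi⟩ := Fintype.not_linearIndependent_iff.mp hdep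
    refine ⟨_, g, ⟨i, hi⟩, fun x => ?_, rfl⟩
    simpa [Finset.sum_apply] using congrFun hg x
  obtain ⟨g, ⟨i₀, hi₀⟩, hg, hcard⟩ := Nat.find_spec hP
  refine ⟨fun i => g i / g i₀, fun τ hτ i => ?_, ⟨i₀, by simp [hi₀]⟩, fun x => ?_⟩
  swap
  · simp_rw [div_mul_eq_mul_div, ← Finset.sum_div, hg x, zero_div]
  let h : ι → K := fun i => τ (g i / g i₀) - g i / g i₀
  by_contra hne
  have hlt : (Finset.univ.filter fun j => h j ≠ 0).card < Nat.find hP := by
    rw [← hcard]
    refine Finset.card_lt_card ((Finset.ssubset_iff_of_subset fun j hj => ?_).mpr ⟨i₀, ?_, ?_⟩)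
    · simp only [Finset.mem_filter_univ, h] at hj ⊢
      intro h0; simp [h0] at hj
    · simp [hi₀]
    · simp [h, hi₀]
  refine Nat.find_min hP hlt ⟨h, ⟨i, sub_ne_zero.mpr hne⟩, fun x => ?_, rfl⟩
  have h0 : ∀ y, ∑ j, g j / g i₀ * b j y = 0 := fun y => by
    simp_rw [div_mul_eq_mul_div, ← Finset.sum_div, hg y, zero_div]
  simp_rw [h, sub_mul, Finset.sum_sub_distrib,
    sum_map_mul_eq_zero hb hρ h0 ⟨τ, hτ⟩ x, h0 x, sub_zero]

/-- A dependent family has a relation over `A ^ I` with a unit coefficient. -/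
theorem exists_unit_relation {ι : Type*} [Fintype ι] {b : ι → X → K}
    (hb : ∀ i, IsEquivariant ρ (b i)) (hρ : ∀ τ, Function.Surjective (ρ τ))
    (hdep : ¬ LinearIndependent K b) :
    ∃ (c : ι → baseRing A I) (j : ι), c j = 1 ∧ ∑ i, c i • b i = 0 := by
  obtain ⟨g, hfix, ⟨i₀, hi₀⟩, hg⟩ := exists_fixed_relation hb hρ hdep
  obtain ⟨j, -, hj⟩ := Finset.univ.exists_max_image (fun i => A.valuation (g i))
    ⟨i₀, Finset.mem_univ _⟩
  have hv : 0 < A.valuation (g j) :=
    lt_of_lt_of_le (zero_lt_iff.mpr ((Valuation.ne_zero_iff _).mpr hi₀)) (hj i₀ (Finset.mem_univ _))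
  have hj0 : g j ≠ 0 := fun h => by simp [h] at hv
  refine ⟨fun i => ⟨g i / g j, (A.valuation_le_one_iff _).mp ?_, fun τ hτ => ?_⟩, j, ?_, ?_⟩
  · rw [map_div₀, div_le_one₀ hv]; exact hj i (Finset.mem_univ _)
  · rw [map_div₀, hfix τ hτ, hfix τ hτ]
  · exact Subtype.ext (div_self hj0)
  · funext x
    simp only [Finset.sum_apply, Pi.smul_apply, Pi.zero_apply, Subring.smul_def, smul_eq_mul,
      div_mul_eq_mul_div, ← Finset.sum_div, hg x, zero_div]

/-- A finitely generated module of equivariant functions has a basis independent over `K`. -/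
theorem exists_basis (hρ : ∀ τ, Function.Surjective (ρ τ))
    (M : Submodule (baseRing A I) (X → K)) (hfg : M.FG) (heq : ∀ f ∈ M, IsEquivariant ρ f) :
    ∃ (n : ℕ) (b : Fin n → X → K), LinearIndependent K b ∧
      Submodule.span (baseRing A I) (Set.range b) = M := by
  classical
  have hP : ∃ n, ∃ b : Fin n → X → K, Submodule.span (baseRing A I) (Set.range b) = M :=
    Submodule.fg_iff_exists_fin_generating_family.mp hfg
  obtain ⟨b, hb⟩ := Nat.find_spec hP
  refine ⟨_, b, ?_, hb⟩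
  by_contra hdep
  obtain ⟨c, j, hcj, hsum⟩ := exists_unit_relation
    (fun i => heq _ (hb ▸ Submodule.subset_span ⟨i, rfl⟩)) hρ hdep
  let s : Finset (X → K) := (Finset.univ.erase j).image b
  have hs : Submodule.span (baseRing A I) (s : Set (X → K)) = M := by
    refine le_antisymm (hb ▸ Submodule.span_mono ?_) (hb ▸ Submodule.span_le.mpr ?_)
    · intro f hf
      obtain ⟨i, -, rfl⟩ := Finset.mem_image.mp hf
      exact ⟨i, rfl⟩
    rintro _ ⟨i, rfl⟩
    by_cases hij : i = j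
    · subst hij
      rw [← Finset.add_sum_erase _ _ (Finset.mem_univ i), hcj, one_smul] at hsum
      rw [SetLike.mem_coe, eq_neg_of_add_eq_zero_left hsum]
      exact neg_mem (Submodule.sum_mem _ fun k hk =>
        Submodule.smul_mem _ _ (Submodule.subset_span (Finset.mem_image_of_mem b hk)))
    · exact Submodule.subset_span (Finset.mem_image_of_mem b (by simp [hij]))
  have hcard : s.card < Nat.find hP := by
    refine Finset.card_image_le.trans_lt ?_
    rw [Finset.card_erase_of_mem (Finset.mem_univ j), Finset.card_fin]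
    exact Nat.sub_lt j.pos one_pos
  refine Nat.find_min hP hcard ⟨fun i => (s.equivFin.symm i : X → K), ?_⟩
  rw [← hs]
  congr 1
  ext f
  exact ⟨fun ⟨i, hi⟩ => hi ▸ (s.equivFin.symm i).2,
    fun hf => ⟨s.equivFin ⟨f, hf⟩, by simp⟩⟩

/-- Coefficients of an equivariant function in an equivariant independent family are fixed. -/
theorem coeff_fixed {ι : Type*} [Fintype ι] {b : ι → X → K} (hli : LinearIndependent K b)
    (hb : ∀ i, IsEquivariant ρ (b i)) (hρ : ∀ τ, Function.Surjective (ρ τ)) {f : X → K}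
    (hf : IsEquivariant ρ f) {g : ι → K} (hfg : ∀ x, f x = ∑ i, g i * b i x) :
    ∀ τ ∈ I, ∀ i, τ (g i) = g i := by
  intro τ hτ
  have h : ∑ i, (τ (g i) - g i) • b i = 0 := by
    funext x
    obtain ⟨y, rfl⟩ := hρ ⟨τ, hτ⟩ x
    simp only [Finset.sum_apply, Pi.smul_apply, smul_eq_mul, Pi.zero_apply, sub_mul,
      Finset.sum_sub_distrib, ← hfg, hf ⟨τ, hτ⟩ y, sub_eq_zero]
    rw [hfg, map_sum]
    exact Finset.sum_congr rfl fun i _ => by rw [hb i ⟨τ, hτ⟩ y, map_mul]
  exact fun i => sub_eq_zero.mp (Fintype.linearIndependent_iff.mp hli _ h i)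

theorem IsUnramifiedBase.exists_pow_mul_mem [CharZero K] (hI : IsUnramifiedBase p A I) (x : K) :
    ∃ m : ℕ, (p : K) ^ m * x ∈ A := by
  rcases eq_or_ne x 0 with rfl | hx
  · exact ⟨0, by simp⟩
  obtain ⟨m, hm⟩ := hI.exists_pow_lt x⁻¹ (inv_ne_zero hx)
  refine ⟨m, (A.valuation_le_one_iff _).mp (le_of_lt ?_)⟩
  have hv : A.valuation x ≠ 0 := (Valuation.ne_zero_iff _).mpr hx
  rw [map_inv₀] at hm
  rw [map_mul, map_pow, ← inv_mul_cancel₀ hv]
  exact mul_lt_mul_of_pos_right hm (zero_lt_iff.mpr hv)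

end FLTAgent.FlatModel
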