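import Fermat.Agent.FlatModel.Restrict

/-!
# Pulling back a model along an injective equivariant homomorphism
-/

set_option autoImplicit false

namespace FLTAgent.FlatModel

variable {K : Type*} [Field K] {A : ValuationSubring K} {I : Subgroup (K ≃+* K)}

theorem IsModel.comap {X Y : Type*} [AddCommGroup X] [AddCommGroup Y]
    {ρ : I →* AddMonoid.End X} {ρ' : I →* AddMonoid.End Y}
    {H : Submodule (baseRing A I) (X → K)} (hH : IsModel ρ H) (φ : Y →+ X)
    (hφ : Function.Injective φ) (hρ : ∀ τ y, φ (ρ' τ y) = ρ τ (φ y)) :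
    IsModel ρ' (H.map (LinearMap.funLeft _ _ φ)) where
  fg := hH.fg.map _
  one_mem := ⟨1, hH.one_mem, rfl⟩
  mul_mem := by
    rintro _ ⟨f, hf, rfl⟩ _ ⟨g, hg, rfl⟩
    exact ⟨f * g, hH.mul_mem f hf g hg, rfl⟩
  integral := by rintro _ ⟨f, hf, rfl⟩ y; exact hH.integral f hf _
  equivariant := by
    rintro _ ⟨f, hf, rfl⟩ τ y
    show f (φ (ρ' τ y)) = (τ : K ≃+* K) (f (φ y))
    rw [hρ, hH.apply_map hf]
  separates := fun x y h => hφ (hH.separates _ _ fun f hf => h _ ⟨f, hf, rfl⟩)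
  coprod := by
    rintro _ ⟨f, hf, rfl⟩
    obtain ⟨n, a, b, ha, hb, hab⟩ := hH.coprod f hf
    exact ⟨n, fun i => LinearMap.funLeft _ _ φ (a i), fun i => LinearMap.funLeft _ _ φ (b i),
      fun i => ⟨_, ha i, rfl⟩, fun i => ⟨_, hb i, rfl⟩, fun x y => by
        show f (φ (x + y)) = _
        rw [map_add, hab]; rfl⟩

end FLTAgent.FlatModel
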