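import Fermat.Prelude.Def_FLTPrelim_Ramification
import Mathlib.RingTheory.Valuation.ValuationSubring
import Mathlib.FieldTheory.IsAlgClosed.AlgebraicClosure

/-!
# Integral models of finite Galois modules: the base

`A` is a valuation subring of `K`, `I` a group of automorphisms preserving `A` and trivial on its
residue field, such that the fixed elements form an absolutely unramified valuation ring.
-/

set_option autoImplicit false

namespace FLTAgent.FlatModel

variable {K : Type*} [Field K] (p : ℕ) (A : ValuationSubring K)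
  (I : Subgroup (K ≃+* K))

/-- Hypotheses on the pair `(A, I)`. -/
structure IsUnramifiedBase : Prop where
  prime : p.Prime
  natCast_lt : A.valuation (p : K) < 1
  valuation_map : ∀ τ ∈ I, ∀ x : K, A.valuation (τ x) = A.valuation x
  map_sub_lt : ∀ τ ∈ I, ∀ x ∈ A, A.valuation (τ x - x) < 1
  le_natCast : ∀ x : K, (∀ τ ∈ I, τ x = x) → A.valuation x < 1 → A.valuation x ≤ A.valuation (p : K)
  exists_pow_lt : ∀ x : K, x ≠ 0 → ∃ m : ℕ, A.valuation (p : K) ^ m < A.valuation x

/-- The fixed ring `A ^ I`. -/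
def baseRing : Subring K where
  carrier := {x | x ∈ A ∧ ∀ τ ∈ I, τ x = x}
  mul_mem' ha hb := ⟨mul_mem ha.1 hb.1, fun τ h => by rw [map_mul, ha.2 τ h, hb.2 τ h]⟩
  one_mem' := ⟨one_mem A, fun τ _ => map_one τ⟩
  add_mem' ha hb := ⟨add_mem ha.1 hb.1, fun τ h => by rw [map_add, ha.2 τ h, hb.2 τ h]⟩
  zero_mem' := ⟨zero_mem A, fun τ _ => map_zero τ⟩
  neg_mem' ha := ⟨neg_mem ha.1, fun τ h => by rw [map_neg, ha.2 τ h]⟩

variable {p A I}

theorem mem_baseRing {x : K} : x ∈ baseRing A I ↔ x ∈ A ∧ ∀ τ ∈ I, τ x = x := Iff.rfl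

theorem natCast_mem_baseRing (m : ℕ) : (m : K) ∈ baseRing A I := natCast_mem _ m

theorem baseRing_smul_mem {x : K} (c : baseRing A I) (hx : x ∈ A) : c • x ∈ A :=
  mul_mem c.2.1 hx

theorem baseRing_map_smul {τ : K ≃+* K} (hτ : τ ∈ I) (c : baseRing A I) (x : K) :
    τ (c • x) = c • τ x := by
  rw [Subring.smul_def, Subring.smul_def, smul_eq_mul, smul_eq_mul, map_mul, c.2.2 τ hτ]

namespace IsUnramifiedBase

variable (hI : IsUnramifiedBase p A I)
include hI

theorem natCast_ne_zero [CharZero K] : (p : K) ≠ 0 := Nat.cast_ne_zero.mpr hI.prime.ne_zero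

theorem valuation_natCast_pos [CharZero K] : 0 < A.valuation (p : K) :=
  zero_lt_iff.mpr ((Valuation.ne_zero_iff _).mpr hI.natCast_ne_zero)

theorem map_mem {τ : K ≃+* K} (hτ : τ ∈ I) {x : K} (hx : x ∈ A) : τ x ∈ A := by
  rw [← A.valuation_le_one_iff] at hx ⊢
  rwa [hI.valuation_map τ hτ]

/-- The valuation group of the fixed field is generated by that of `p`. -/
theorem le_pow_succ [CharZero K] {x : K} (hx : ∀ τ ∈ I, τ x = x) {m : ℕ}
    (h : A.valuation x < A.valuation (p : K) ^ m) :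
    A.valuation x ≤ A.valuation (p : K) ^ (m + 1) := by
  have h0 : (p : K) ^ m ≠ 0 := pow_ne_zero m hI.natCast_ne_zero
  have hv : 0 < A.valuation ((p : K) ^ m) := zero_lt_iff.mpr ((Valuation.ne_zero_iff _).mpr h0)
  have h1 := hI.le_natCast (x / (p : K) ^ m)
    (fun τ hτ => by rw [map_div₀, map_pow, map_natCast, hx τ hτ])
    (by rw [map_div₀, div_lt_one₀ hv, map_pow]; exact h)
  rw [map_div₀, div_le_iff₀ hv, map_pow, ← pow_succ'] at h1
  exact h1

end IsUnramifiedBase

end FLTAgent.FlatModel
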