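import Fermat.Agent.FlatModel.CurveDatum

/-!
# Normalised bases of Riemann-Roch spaces on a curve with good reduction

For an effective divisor `E` of degree `g` in general position on the reduction, the space
`L(i∞ - E)` has a unique element with top coefficients `δ`; it is integral and Galois equivariant.
-/

set_option autoImplicit false
set_option linter.unusedSectionVars false

noncomputable section

open AlgebraicCurve ModularCurve

namespace FLTAgent.FlatModel

open FLTAgent.FunctionField FLTAgent.GoodRed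

local notation "Qbar" => AlgebraicClosure ℚ

local instance (priority := high) instCoeFunCoCBases {K : Type*} [Field K]
    (G : IntermediateField K (LaurentSeries K)) : CoeFun (G →ₗ[K] K) fun _ => G → K :=
  DFunLike.toCoeFun

local instance (priority := high) instAlgebraLaurentCBases {K : Type*} [Field K]
    (F : IntermediateField K (LaurentSeries K)) : Algebra K F :=
  SubalgebraClass.toAlgebra F

local instance (priority := high) instSMulLaurentCBases {K : Type*} [Field K]
    (F : IntermediateField K (LaurentSeries K)) : SMul K F :=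
  (SubalgebraClass.toAlgebra F).toSMul

local instance (priority := high) instModuleLaurentCBases {K : Type*} [Field K]
    (F : IntermediateField K (LaurentSeries K)) : Module K F :=
  (SubalgebraClass.toAlgebra F).toModule

variable {F₀ : IntermediateField ℚ (LaurentSeries ℚ)}
  {A : ValuationSubring (AlgebraicClosure ℚ)}
  {Fb : IntermediateField (IsLocalRing.ResidueField A) (LaurentSeries (IsLocalRing.ResidueField A))}
  [IsFunctionField (AlgebraicClosure ℚ) ↥(FBar F₀)]
  [IsFunctionField (IsLocalRing.ResidueField A) ↥Fb]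
  [IsAlgClosed (IsLocalRing.ResidueField A)]

namespace CurveDatum

variable (C : CurveDatum F₀ A Fb)

/-- An effective divisor of degree `g` in general position on the reduction. -/
structure IsModelDiv (E : Divisor Qbar ↥(FBar F₀)) : Prop where
  nonneg : 0 ≤ E
  degree : Divisor.degree E = C.g
  rr_top : ell (Finsupp.single C.infb (2 * C.g - 1 : ℤ) - C.red E) = 0
  rr_inf : ell (C.red E - Finsupp.single C.infb 1) = 0

/-- `L(i∞ - E)`. -/
abbrev space (E : Divisor Qbar ↥(FBar F₀)) (i : ℤ) : Submodule Qbar ↥(FBar F₀) :=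
  riemannRochSpace (Finsupp.single C.inf i - E)

/-- The reduction of `L(i∞ - E)`. -/
abbrev spaceb (E : Divisor Qbar ↥(FBar F₀)) (i : ℤ) :
    Submodule (IsLocalRing.ResidueField A) ↥Fb :=
  riemannRochSpace (Finsupp.single C.infb i - C.red E)

variable {C} {E : Divisor Qbar ↥(FBar F₀)}

theorem ne_inf_of_ord_nonneg {v : Place Qbar ↥(FBar F₀)} (hv : 0 ≤ v.ord C.x) : v ≠ C.inf :=
  fun h => absurd (h ▸ hv) (not_le.2 C.ord_x)

theorem regAway_space (hE : 0 ≤ E) {i : ℤ} {y : FBar F₀} (hy : y ∈ C.space E i) :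
    RegAway (K := Qbar) C.x y :=
  C.regAway_of_mem_rr hy fun v hv => by
    rw [Finsupp.sub_apply, Finsupp.single_eq_of_ne (ne_inf_of_ord_nonneg hv)]
    have := hE v
    simp only [Finsupp.zero_apply] at this
    omega

theorem regAway_rr_single {M : ℤ} {y : FBar F₀}
    (hy : y ∈ riemannRochSpace (Finsupp.single C.inf M)) : RegAway (K := Qbar) C.x y :=
  C.regAway_of_mem_rr hy fun v hv => by
    rw [Finsupp.single_eq_of_ne (ne_inf_of_ord_nonneg hv)]

theorem redSpace_space_le (E : Divisor Qbar ↥(FBar F₀)) (i : ℤ) :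
    C.D.redSpace (C.space E i) ≤ C.spaceb E i := by
  refine (C.redSpace_le_red _).trans (le_of_eq ?_)
  rw [C.red_sub, C.red_single_inf]

theorem IsModelDiv.red_apply_infb (hE : C.IsModelDiv E) : C.red E C.infb = 0 := by
  refine le_antisymm ?_ (C.red_nonneg hE.nonneg _)
  by_contra hlt
  push Not at hlt
  refine one_ne_zero (eq_zero_of_ell_eq_zero hE.rr_inf (f := (1 : Fb)) (one_mem_rr fun w => ?_))
  rcases eq_or_ne w C.infb with rfl | hw
  · simp only [Finsupp.zero_apply, Finsupp.sub_apply, Finsupp.single_eq_same]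
    omega
  · simpa [Finsupp.single_eq_of_ne hw] using C.red_nonneg hE.nonneg w

theorem IsModelDiv.apply_inf (hE : C.IsModelDiv E) : E C.inf = 0 := by
  refine le_antisymm ?_ (hE.nonneg _)
  have hrest : 0 ≤ E - Finsupp.single C.inf (E C.inf) := fun w => by
    rcases eq_or_ne w C.inf with rfl | hw
    · simp
    · simpa [Finsupp.single_eq_of_ne hw] using hE.nonneg w
  have h := C.red_nonneg hrest C.infb
  rw [C.red_sub, C.red_single_inf, Finsupp.sub_apply, Finsupp.single_eq_same,
    hE.red_apply_infb, Finsupp.zero_apply] at h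
  omega

theorem IsModelDiv.single_sub_apply_infb (hE : C.IsModelDiv E) (i : ℤ) :
    (Finsupp.single C.infb i - C.red E) C.infb = i := by
  rw [Finsupp.sub_apply, Finsupp.single_eq_same, hE.red_apply_infb, sub_zero]

theorem IsModelDiv.single_sub_apply_inf (hE : C.IsModelDiv E) (i : ℤ) :
    (Finsupp.single C.inf i - E) C.inf = i := by
  rw [Finsupp.sub_apply, Finsupp.single_eq_same, hE.apply_inf, sub_zero]

theorem IsModelDiv.eq_zero_of_mem_spaceb (hE : C.IsModelDiv E) {i : ℤ}
    (hi : 2 * (C.g : ℤ) - 1 ≤ i) {z : Fb} (hz : z ∈ C.spaceb E i)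
    (h : ∀ n ∈ Finset.Icc (2 * (C.g : ℤ)) i, co n z = 0) : z = 0 := by
  refine C.hinfb.eq_zero_of_co_eq_zero (m := 2 * (C.g : ℤ) - 1)
    (by rw [hE.single_sub_apply_infb]; exact hi) ?_ hz fun n hn hn' => ?_
  · rw [hE.single_sub_apply_infb]
    refine Eq.trans (congrArg ell ?_) hE.rr_top
    rw [Finsupp.single_sub]
    abel
  · rw [hE.single_sub_apply_infb] at hn'
    exact h n (Finset.mem_Icc.2 ⟨by omega, hn'⟩)

theorem IsModelDiv.eq_zero_of_mem_space (hE : C.IsModelDiv E) {i : ℤ}
    (hi : 2 * (C.g : ℤ) - 1 ≤ i) {y : FBar F₀} (hy : y ∈ C.space E i)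
    (h : ∀ n ∈ Finset.Icc (2 * (C.g : ℤ)) i, co n y = 0) : y = 0 :=
  pivot_eq_zero (C.coCompat fun _ h => regAway_space hE.nonneg h)
    (fun _ hz => hE.eq_zero_of_mem_spaceb hi (redSpace_space_le E i hz)) hy h

theorem IsModelDiv.exists_normalised (hE : C.IsModelDiv E) {i p : ℤ}
    (hp : p ∈ Finset.Icc (2 * (C.g : ℤ)) i) :
    ∃ y ∈ C.space E i, ∃ z, C.D.Red y z ∧
      ∀ n ∈ Finset.Icc (2 * (C.g : ℤ)) i, co n y = if n = p then 1 else 0 := by
  have hi : 2 * (C.g : ℤ) ≤ i := (Finset.mem_Icc.1 hp).1.trans (Finset.mem_Icc.1 hp).2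
  refine exists_pivot (C.coCompat fun _ h => regAway_space hE.nonneg h)
    (fun z hz => hE.eq_zero_of_mem_spaceb (by omega) (redSpace_space_le E i hz)) ?_ hp
  have h := riemann_le_ell C.hL (Finsupp.single C.inf i - E)
  rw [map_sub, Divisor.degree_single, deg_eq_one, Nat.cast_one, mul_one, hE.degree, ell] at h
  rw [Int.card_Icc]
  show (i + 1 - 2 * (C.g : ℤ)).toNat ≤
    Module.finrank Qbar (riemannRochSpace (Finsupp.single C.inf i - E))
  omega

variable (C)

open scoped Classical in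
/-- The normalised element of `L(i∞ - E)` with pole order `i`. -/
def vF (E : Divisor Qbar ↥(FBar F₀)) (i : ℤ) : ↥(FBar F₀) :=
  if h : ∃ y ∈ C.space E i, ∃ z, C.D.Red y z ∧
      ∀ n ∈ Finset.Icc (2 * (C.g : ℤ)) i, co n y = if n = i then 1 else 0
  then h.choose else 0

open scoped Classical in
/-- Its reduction. -/
def vFb (E : Divisor Qbar ↥(FBar F₀)) (i : ℤ) : ↥Fb :=
  if h : ∃ y ∈ C.space E i, ∃ z, C.D.Red y z ∧
      ∀ n ∈ Finset.Icc (2 * (C.g : ℤ)) i, co n y = if n = i then 1 else 0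
  then h.choose_spec.2.choose else 0

variable {C}

theorem IsModelDiv.vF_spec (hE : C.IsModelDiv E) {i : ℤ} (hi : 2 * (C.g : ℤ) ≤ i) :
    C.vF E i ∈ C.space E i ∧ C.D.Red (C.vF E i) (C.vFb E i) ∧
      ∀ n ∈ Finset.Icc (2 * (C.g : ℤ)) i, co n (C.vF E i) = if n = i then 1 else 0 := by
  have h := hE.exists_normalised (Finset.mem_Icc.2 ⟨hi, le_refl i⟩)
  rw [vF, vFb, dif_pos h, dif_pos h]
  exact ⟨h.choose_spec.1, h.choose_spec.2.choose_spec⟩

theorem space_mono {i K : ℤ} (h : i ≤ K) : C.space E i ≤ C.space E K :=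
  riemannRochSpace_mono (sub_le_sub_right (Finsupp.single_le_single.2 h) E)

theorem IsModelDiv.co_vF (hE : C.IsModelDiv E) {i n : ℤ} (hi : 2 * (C.g : ℤ) ≤ i)
    (hn : 2 * (C.g : ℤ) ≤ n) : co n (C.vF E i) = if n = i then 1 else 0 := by
  rcases le_or_gt n i with hni | hni
  · exact (hE.vF_spec hi).2.2 n (Finset.mem_Icc.2 ⟨hn, hni⟩)
  · rw [if_neg hni.ne', C.hinf.co_eq_zero_of_mem_rr (hE.vF_spec hi).1
      (by rwa [hE.single_sub_apply_inf])]

theorem IsModelDiv.co_vFb (hE : C.IsModelDiv E) {i n : ℤ} (hi : 2 * (C.g : ℤ) ≤ i)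
    (hn : 2 * (C.g : ℤ) ≤ n) : co n (C.vFb E i) = if n = i then 1 else 0 := by
  obtain ⟨hmem, h⟩ := C.co_red _ _ (hE.vF_spec hi).2.1
    (regAway_space hE.nonneg (hE.vF_spec hi).1) n
  rw [← h]
  split
  · next e =>
    rw [show (⟨_, hmem⟩ : A) = 1 from Subtype.ext ((hE.co_vF hi hn).trans (if_pos e)), map_one]
  · next e =>
    rw [show (⟨_, hmem⟩ : A) = 0 from Subtype.ext ((hE.co_vF hi hn).trans (if_neg e)), map_zero]

theorem IsModelDiv.vFb_mem (hE : C.IsModelDiv E) {i K : ℤ} (hi : 2 * (C.g : ℤ) ≤ i)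
    (hK : i ≤ K) : C.vFb E i ∈ C.spaceb E K :=
  redSpace_space_le E K ⟨_, space_mono hK (hE.vF_spec hi).1, (hE.vF_spec hi).2.1⟩

theorem IsModelDiv.eq_sum_vF (hE : C.IsModelDiv E) {K : ℤ} (hK : 2 * (C.g : ℤ) - 1 ≤ K)
    {y : FBar F₀} (hy : y ∈ C.space E K) :
    y = ∑ n ∈ Finset.Icc (2 * (C.g : ℤ)) K, co n y • C.vF E n := by
  refine sub_eq_zero.1 (hE.eq_zero_of_mem_space hK (Submodule.sub_mem _ hy
    (Submodule.sum_mem _ fun n hn => Submodule.smul_mem _ _ ?_)) fun m hm => ?_)
  · obtain ⟨h1, h2⟩ := Finset.mem_Icc.1 hn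
    exact space_mono h2 (hE.vF_spec h1).1
  · rw [map_sub, map_sum, Finset.sum_eq_single m, map_smul,
      hE.co_vF (Finset.mem_Icc.1 hm).1 (Finset.mem_Icc.1 hm).1, if_pos rfl, smul_eq_mul, mul_one,
      sub_self]
    · intro n hn hne
      rw [map_smul, hE.co_vF (Finset.mem_Icc.1 hn).1 (Finset.mem_Icc.1 hm).1, if_neg hne.symm,
        smul_zero]
    · exact fun h => absurd hm h

theorem IsModelDiv.eq_sum_vFb (hE : C.IsModelDiv E) {K : ℤ} (hK : 2 * (C.g : ℤ) - 1 ≤ K)
    {z : Fb} (hz : z ∈ C.spaceb E K) :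
    z = ∑ n ∈ Finset.Icc (2 * (C.g : ℤ)) K, co n z • C.vFb E n := by
  refine sub_eq_zero.1 (hE.eq_zero_of_mem_spaceb hK (Submodule.sub_mem _ hz
    (Submodule.sum_mem _ fun n hn => Submodule.smul_mem _ _ ?_)) fun m hm => ?_)
  · obtain ⟨h1, h2⟩ := Finset.mem_Icc.1 hn
    exact hE.vFb_mem h1 h2
  · rw [map_sub, map_sum, Finset.sum_eq_single m, map_smul,
      hE.co_vFb (Finset.mem_Icc.1 hm).1 (Finset.mem_Icc.1 hm).1, if_pos rfl, smul_eq_mul, mul_one,
      sub_self]
    · intro n hn hne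
      rw [map_smul, hE.co_vFb (Finset.mem_Icc.1 hn).1 (Finset.mem_Icc.1 hm).1, if_neg hne.symm,
        smul_zero]
    · exact fun h => absurd hm h

/-- The normalised elements are Galois equivariant. -/
theorem IsModelDiv.vF_gal (hE : C.IsModelDiv E)
    (σ : AlgebraicClosure ℚ ≃ₐ[ℚ] AlgebraicClosure ℚ) (hσE : C.IsModelDiv (gal F₀ σ • E))
    {i : ℤ} (hi : 2 * (C.g : ℤ) ≤ i) :
    C.vF (gal F₀ σ • E) i = gal F₀ σ • C.vF E i := by
  have hmem : gal F₀ σ • C.vF E i ∈ C.space (gal F₀ σ • E) i := by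
    have h := gal_smul_mem_rr σ (hE.vF_spec hi).1
    rwa [smul_sub, SemilinearAut.smul_single, gal_smul_isInfPlace C.hinf] at h
  refine sub_eq_zero.1 (hσE.eq_zero_of_mem_space (i := i) (by omega)
    (Submodule.sub_mem _ (hσE.vF_spec hi).1 hmem) fun n hn => ?_)
  rw [map_sub, co_gal, hσE.co_vF hi (Finset.mem_Icc.1 hn).1, hE.co_vF hi (Finset.mem_Icc.1 hn).1]
  split <;> simp

theorem single_inf_apply (M : ℤ) : (Finsupp.single C.inf M : Divisor Qbar ↥(FBar F₀)) C.inf = M :=
  Finsupp.single_eq_same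

theorem eq_zero_of_mem_rr_single {M : ℤ} (hM : -1 ≤ M) {z : Fb}
    (hz : z ∈ riemannRochSpace (Finsupp.single C.infb M))
    (h : ∀ n ∈ Finset.Icc (0 : ℤ) M, co n z = 0) : z = 0 := by
  refine C.hinfb.eq_zero_of_co_eq_zero (m := -1) (by rw [Finsupp.single_eq_same]; exact hM) ?_ hz
    fun n hn hn' => ?_
  · rw [Finsupp.single_eq_same]
    refine ell_eq_zero_of_degree_neg ?_
    rw [map_sub, Divisor.degree_single, Divisor.degree_single, deg_eq_one]
    push_cast
    omega
  · rw [Finsupp.single_eq_same] at hn'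
    exact h n (Finset.mem_Icc.2 ⟨by omega, hn'⟩)

theorem redSpace_rr_single_le (M : ℤ) :
    C.D.redSpace (riemannRochSpace (Finsupp.single C.inf M)) ≤
      riemannRochSpace (Finsupp.single C.infb M) :=
  (C.redSpace_le_red _).trans (le_of_eq (by rw [C.red_single_inf]))

/-- Normalised elements of `L(M∞)` are rational. -/
theorem gal_smul_eq_of_pivot {M : ℤ} {P : Finset ℤ}
    (hP : ∀ z ∈ riemannRochSpace (Finsupp.single C.infb M), (∀ i ∈ P, co i z = 0) → z = (0 : Fb))
    {y : FBar F₀} (hy : y ∈ riemannRochSpace (Finsupp.single C.inf M)) {p : ℤ}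
    (h : ∀ i ∈ P, co i y = if i = p then 1 else 0)
    (σ : AlgebraicClosure ℚ ≃ₐ[ℚ] AlgebraicClosure ℚ) : gal F₀ σ • y = y := by
  have hmem : gal F₀ σ • y ∈ riemannRochSpace (Finsupp.single C.inf M) := by
    have h' := gal_smul_mem_rr σ hy
    rwa [SemilinearAut.smul_single, gal_smul_isInfPlace C.hinf] at h'
  refine sub_eq_zero.1 (pivot_eq_zero (C.coCompat fun _ h => regAway_rr_single h)
    (fun z hz => hP z (redSpace_rr_single_le M hz)) (Submodule.sub_mem _ hmem hy) fun i hi => ?_)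
  rw [map_sub, co_gal, h i hi]
  split <;> simp

theorem degree_single_inf (M : ℤ) :
    Divisor.degree (Finsupp.single C.inf M : Divisor Qbar ↥(FBar F₀)) = M := by
  rw [Divisor.degree_single, deg_eq_one, Nat.cast_one, mul_one]

theorem degree_single_infb (M : ℤ) :
    Divisor.degree (Finsupp.single C.infb M : Divisor (IsLocalRing.ResidueField A) ↥Fb) = M := by
  rw [Divisor.degree_single, deg_eq_one, Nat.cast_one, mul_one]

/-- An integral rational basis of `L(M∞)`. -/
theorem exists_rational_basis {M : ℤ} (hM : 0 ≤ M) (hc : C.c ≤ M) :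
    ∃ (P : Finset ℤ) (e : ℤ → FBar F₀) (eb : ℤ → Fb),
      (∀ p ∈ P, e p ∈ riemannRochSpace (Finsupp.single C.inf M) ∧ C.D.Red (e p) (eb p) ∧
        ∀ σ : AlgebraicClosure ℚ ≃ₐ[ℚ] AlgebraicClosure ℚ, gal F₀ σ • e p = e p) ∧
      (∀ y ∈ riemannRochSpace (Finsupp.single C.inf M),
        y = ∑ p ∈ P, co p y • e p) ∧
      (∀ z ∈ riemannRochSpace (Finsupp.single C.infb M), z = ∑ p ∈ P, co p z • eb p) ∧
      ∀ p ∈ P, ∀ q ∈ P, co q (eb p) = if q = p then 1 else (0 : IsLocalRing.ResidueField A) := by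
  classical
  obtain ⟨P, -, hcard, hP⟩ := exists_pivot_subset (cob := co)
    (riemannRochSpace (Finsupp.single C.infb M)) (Finset.Icc (0 : ℤ) M)
    fun z hz h => eq_zero_of_mem_rr_single (by omega) hz h
  have hfin : P.card ≤ Module.finrank Qbar (riemannRochSpace (Finsupp.single C.inf M)) := by
    have h1 := C.hL (Finsupp.single C.inf M) (by rw [degree_single_inf]; exact hc)
    have h2 := C.hk (Finsupp.single C.infb M) (by rw [degree_single_infb]; exact hc)
    rw [degree_single_inf] at h1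
    rw [degree_single_infb] at h2
    omega
  have hex : ∀ p ∈ P, ∃ y ∈ riemannRochSpace (Finsupp.single C.inf M), ∃ z, C.D.Red y z ∧
      ∀ i ∈ P, co i y = if i = p then 1 else 0 := fun p hp =>
    exists_pivot (C.coCompat fun _ h => regAway_rr_single h) (fun z hz => hP z (redSpace_rr_single_le M hz)) hfin hp
  choose! e he eb hr hco using hex
  have hcob : ∀ p ∈ P, ∀ q ∈ P, co q (eb p) =
      if q = p then 1 else (0 : IsLocalRing.ResidueField A) := by
    intro p hp q hq
    obtain ⟨hmem, h⟩ := C.co_red _ _ (hr p hp) (regAway_rr_single (he p hp)) q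
    rw [← h]
    split
    · next heq =>
      rw [show (⟨_, hmem⟩ : A) = 1 from Subtype.ext ((hco p hp q hq).trans (if_pos heq)), map_one]
    · next heq =>
      rw [show (⟨_, hmem⟩ : A) = 0 from Subtype.ext ((hco p hp q hq).trans (if_neg heq)), map_zero]
  refine ⟨P, e, eb, fun p hp => ⟨he p hp, hr p hp,
    gal_smul_eq_of_pivot hP (he p hp) (hco p hp)⟩, fun y hy => ?_, fun z hz => ?_, hcob⟩
  · refine sub_eq_zero.1 (pivot_eq_zero (C.coCompat fun _ h => regAway_rr_single h) (P := P)
      (fun z hz => hP z (redSpace_rr_single_le M hz)) (Submodule.sub_mem _ hy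
        (Submodule.sum_mem _ fun p hp => Submodule.smul_mem _ _ (he p hp))) fun q hq => ?_)
    rw [map_sub, map_sum, Finset.sum_eq_single q, map_smul, hco q hq q hq, if_pos rfl, smul_eq_mul,
      mul_one, sub_self]
    · intro p hp hne
      rw [map_smul, hco p hp q hq, if_neg hne.symm, smul_zero]
    · exact fun h => absurd hq h
  · refine sub_eq_zero.1 (hP _ (Submodule.sub_mem _ hz (Submodule.sum_mem _ fun p hp =>
      Submodule.smul_mem _ _ (redSpace_rr_single_le M ⟨_, he p hp, hr p hp⟩))) fun q hq => ?_)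
    rw [map_sub, map_sum, Finset.sum_eq_single q, map_smul, hcob q hq q hq, if_pos rfl, smul_eq_mul,
      mul_one, sub_self]
    · intro p hp hne
      rw [map_smul, hcob p hp q hq, if_neg hne.symm, smul_zero]
    · exact fun h => absurd hq h

/-- A rational integral function with pole exactly of order `i` at the cusp, both before and
after reduction. -/
theorem exists_rational_pole {i : ℤ} (hi : 0 < i) (hc : C.c + 1 ≤ i) :
    ∃ (x : FBar F₀) (xb : Fb), x ∈ riemannRochSpace (Finsupp.single C.inf i) ∧ C.D.Red x xb ∧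
      (∀ σ : AlgebraicClosure ℚ ≃ₐ[ℚ] AlgebraicClosure ℚ, gal F₀ σ • x = x) ∧
      co i x = 1 ∧ co i xb = 1 := by
  classical
  obtain ⟨P, hsub, hcard, hP⟩ := exists_pivot_subset (cob := co)
    (riemannRochSpace (Finsupp.single C.infb (i - 1))) (Finset.Icc (0 : ℤ) (i - 1))
    fun z hz h => eq_zero_of_mem_rr_single (by omega) hz h
  have hiP : i ∉ P := fun h => by
    have := (Finset.mem_Icc.1 (hsub h)).2
    omega
  have hinj : ∀ z ∈ riemannRochSpace (Finsupp.single C.infb i),
      (∀ n ∈ insert i P, co n z = 0) → z = (0 : Fb) := by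
    intro z hz h
    refine hP z ?_ fun n hn => h n (Finset.mem_insert_of_mem hn)
    have h' := C.hinfb.mem_rr_of_co_eq_zero hz (m := i - 1)
      (by rw [Finsupp.single_eq_same]; omega) fun n hn hn' => by
        rw [Finsupp.single_eq_same] at hn'
        rw [show n = i by omega]
        exact h i (Finset.mem_insert_self _ _)
    rwa [Finsupp.single_eq_same, ← Finsupp.single_sub, show i - (i - (i - 1)) = i - 1 by ring] at h'
  have hfin : (insert i P).card ≤ Module.finrank Qbar (riemannRochSpace (Finsupp.single C.inf i)) := by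
    have h1 := C.hL (Finsupp.single C.inf i) (by rw [degree_single_inf]; omega)
    have h2 := C.hk (Finsupp.single C.infb (i - 1)) (by rw [degree_single_infb]; omega)
    rw [degree_single_inf] at h1
    rw [degree_single_infb] at h2
    rw [Finset.card_insert_of_notMem hiP]
    omega
  obtain ⟨x, hx, xb, hr, hco⟩ := exists_pivot (C.coCompat fun _ h => regAway_rr_single h)
    (fun z hz => hinj z (redSpace_rr_single_le i hz)) hfin (Finset.mem_insert_self i P)
  have hxi : co i x = 1 := (hco i (Finset.mem_insert_self i P)).trans (if_pos rfl)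
  obtain ⟨hmem, h⟩ := C.co_red _ _ hr (regAway_rr_single hx) i
  refine ⟨x, xb, hx, hr, gal_smul_eq_of_pivot hinj hx hco, hxi, ?_⟩
  rw [← h, show (⟨_, hmem⟩ : A) = 1 from Subtype.ext hxi, map_one]

end CurveDatum

end FLTAgent.FlatModel
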