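import Fermat.Agent.FlatModel.CurveSeries

/-!
# The two systems of equations between series
-/

set_option autoImplicit false

noncomputable section

open ModularCurve

namespace FLTAgent.FlatModel

variable {R : Type*} [CommRing R] {k : Type*} [Field k] (φ : R →+* k)
  {ι κ ν π π' : Type*} [Fintype ι] [Fintype κ] [Fintype π] [Fintype π'] [DecidableEq ι]
  [DecidableEq κ]

/-- The coefficients of the system `W(xᵢ) Pₒ = Pᵢ W(xₒ)`, with pivots. -/
def sys₁ (P : ι → LaurentSeries R) (W : κ → LaurentSeries R) (o : ι) (piv : ν → κ) :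
    ι ⊕ ν → ι × κ → LaurentSeries R
  | Sum.inl i, s => (if s.1 = i then W s.2 * P o else 0) - if s.1 = o then P i * W s.2 else 0
  | Sum.inr n, s => if s.1 = o ∧ s.2 = piv n then 1 else 0

theorem sum_sys₁_inl (P : ι → LaurentSeries R) (W : κ → LaurentSeries R) (o : ι) (piv : ν → κ)
    (w : ι × κ → k) (i : ι) :
    ∑ s, w s • coeffMap φ (sys₁ P W o piv (Sum.inl i) s) =
      (∑ j, w (i, j) • coeffMap φ (W j)) * coeffMap φ (P o) -
        coeffMap φ (P i) * ∑ j, w (o, j) • coeffMap φ (W j) := by
  classical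
  simp only [sys₁, map_sub, smul_sub, Finset.sum_sub_distrib, Finset.sum_mul, Finset.mul_sum]
  congr 1
  · rw [Fintype.sum_prod_type, Finset.sum_eq_single i]
    · refine Finset.sum_congr rfl fun j _ => ?_
      rw [if_pos rfl, map_mul, smul_series_eq_single_mul, smul_series_eq_single_mul, mul_assoc]
    · intro x _ hx
      refine Finset.sum_eq_zero fun j _ => ?_
      rw [if_neg hx, map_zero, smul_zero]
    · simp
  · rw [Fintype.sum_prod_type, Finset.sum_eq_single o]
    · refine Finset.sum_congr rfl fun j _ => ?_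
      rw [if_pos rfl, map_mul, smul_series_eq_single_mul, smul_series_eq_single_mul]
      ring
    · intro x _ hx
      refine Finset.sum_eq_zero fun j _ => ?_
      rw [if_neg hx, map_zero, smul_zero]
    · simp

theorem sum_sys₁_inr (P : ι → LaurentSeries R) (W : κ → LaurentSeries R) (o : ι) (piv : ν → κ)
    (w : ι × κ → k) (n : ν) :
    ∑ s, w s • coeffMap φ (sys₁ P W o piv (Sum.inr n) s) =
      HahnSeries.single 0 (w (o, piv n)) := by
  classical
  rw [Finset.sum_eq_single (o, piv n)]
  · rw [sys₁, if_pos ⟨rfl, rfl⟩, map_one, smul_series_eq_single_mul, mul_one]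
  · rintro ⟨x, y⟩ _ hxy
    rw [sys₁, if_neg (fun h => hxy (Prod.ext h.1 h.2)), map_zero, smul_zero]
  · simp

variable {τ : Type*} [Fintype τ] [DecidableEq τ]

/-- The coefficients of the system `f Gₜ = Gₒ mₜ`, with pivots. -/
def sys₂ (E : π → LaurentSeries R) (G : τ → LaurentSeries R) (o : τ) (E' : π' → LaurentSeries R)
    (idx : ν → ℤ) : τ ⊕ ν → π ⊕ τ × π' → LaurentSeries R
  | Sum.inl t, Sum.inl p => E p * G t
  | Sum.inl t, Sum.inr s => if s.1 = t then -(G o * E' s.2) else 0
  | Sum.inr n, Sum.inl p => HahnSeries.single 0 ((E p).coeff (idx n))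
  | Sum.inr _, Sum.inr _ => 0

theorem sum_sys₂_inl (E : π → LaurentSeries R) (G : τ → LaurentSeries R) (o : τ)
    (E' : π' → LaurentSeries R) (idx : ν → ℤ) (w : π ⊕ τ × π' → k) (t : τ) :
    ∑ s, w s • coeffMap φ (sys₂ E G o E' idx (Sum.inl t) s) =
      (∑ p, w (Sum.inl p) • coeffMap φ (E p)) * coeffMap φ (G t) -
        coeffMap φ (G o) * ∑ p, w (Sum.inr (t, p)) • coeffMap φ (E' p) := by
  classical
  rw [Fintype.sum_sum_type, sub_eq_add_neg, Finset.sum_mul, Finset.mul_sum,
    ← Finset.sum_neg_distrib]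
  congr 1
  · refine Finset.sum_congr rfl fun p _ => ?_
    rw [sys₂, map_mul, smul_series_eq_single_mul, smul_series_eq_single_mul, mul_assoc]
  · rw [Fintype.sum_prod_type, Finset.sum_eq_single t]
    · refine Finset.sum_congr rfl fun p _ => ?_
      rw [sys₂, if_pos rfl, map_neg, map_mul, smul_series_eq_single_mul, smul_series_eq_single_mul]
      ring
    · intro x _ hx
      refine Finset.sum_eq_zero fun j _ => ?_
      rw [sys₂, if_neg hx, map_zero, smul_zero]
    · simp

theorem sum_sys₂_inr (E : π → LaurentSeries R) (G : τ → LaurentSeries R) (o : τ)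
    (E' : π' → LaurentSeries R) (idx : ν → ℤ) (w : π ⊕ τ × π' → k) (n : ν) :
    ∑ s, w s • coeffMap φ (sys₂ E G o E' idx (Sum.inr n) s) =
      HahnSeries.single 0 (∑ p, w (Sum.inl p) * (coeffMap φ (E p)).coeff (idx n)) := by
  classical
  rw [Fintype.sum_sum_type,
    Finset.sum_eq_zero (s := (Finset.univ : Finset (τ × π'))) (fun s _ => by
      rw [sys₂, map_zero, smul_zero]), add_zero]
  refine Eq.trans (Finset.sum_congr rfl fun p _ => ?_)
    (map_sum (HahnSeries.single.addMonoidHom (0 : ℤ)) _ _).symm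
  show _ = HahnSeries.single (0 : ℤ) _
  rw [sys₂, coeffMap_single, coeffMap_coeff, smul_series_eq_single_mul,
    HahnSeries.single_mul_single, add_zero]

end FLTAgent.FlatModel
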