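import Fermat.Agent.FlatModel.CurveClosureResidual
import Fermat.Agent.FlatModel.SeriesSystems

/-!
# The coordinates of `x + y - z` are integral polynomials in those of `x`, `y`, `z`

If a ring `R` of integral equivariant functions contains the coefficient functions of three
families of divisors, it contains those of their combination: they solve linear systems over `R`
whose reductions at every point have at most one solution.
-/

set_option autoImplicit false
set_option linter.unusedSectionVars false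

noncomputable section

open AlgebraicCurve ModularCurve

namespace FLTAgent.FlatModel

open FLTAgent.FunctionField FLTAgent.GoodRed FLTAgent.Frobenius

local notation "Qbar" => AlgebraicClosure ℚ

variable {F₀ : IntermediateField ℚ (LaurentSeries ℚ)}
  {A : ValuationSubring (AlgebraicClosure ℚ)}
  {Fb : IntermediateField (IsLocalRing.ResidueField A) (LaurentSeries (IsLocalRing.ResidueField A))}
  [IsFunctionField (AlgebraicClosure ℚ) ↥(FBar F₀)]
  [IsFunctionField (IsLocalRing.ResidueField A) ↥Fb]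
  [IsAlgClosed (IsLocalRing.ResidueField A)]
  {C : CurveDatum F₀ A Fb} {l : ℕ} [Fact l.Prime] {T : Type} [MulAction Γℚ T]
  {R : Subalgebra ↥(GaloisRep.ratLocalizedAt l) (T → AlgebraicClosure ℚ)}

/-- The coefficient functions of the normalised elements of a family of divisors lie in `R`. -/
def CoeffsIn (C : CurveDatum F₀ A Fb)
    (R : Subalgebra ↥(GaloisRep.ratLocalizedAt l) (T → AlgebraicClosure ℚ))
    (E : T → Divisor (AlgebraicClosure ℚ) ↥(FBar F₀)) : Prop :=
  ∀ i, 2 * (C.g : ℤ) ≤ i → ∀ n : ℤ, (fun t => co n (C.vF (E t) i)) ∈ R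

omit [MulAction Γℚ T] in
theorem CoeffsIn.exists_series {E : T → Divisor Qbar ↥(FBar F₀)} (h : CoeffsIn C R E)
    (hE : ∀ t, C.IsModelDiv (E t)) {i : ℤ} (hi : 2 * (C.g : ℤ) ≤ i) :
    ∃ Y : LaurentSeries R, IsSeriesOf Y (fun t => C.vF (E t) i) :=
  exists_isSeriesOf _ i (fun t n hn => C.hinf.co_eq_zero_of_mem_rr ((hE t).vF_spec hi).1
    (by rwa [(hE t).single_sub_apply_inf])) (h i hi)

variable {a b c d : T → Divisor (AlgebraicClosure ℚ) ↥(FBar F₀)}

/-- The products of the normalised elements, multiplied by a normalised multiplier, are series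
over `R`. -/
theorem exists_transition [Finite T] (hA : A.LiesOverPrime l) (hT : IsLevelled T)
    (hR : R ≤ intFun l T) (q : ∀ t, C.IsQuad (a t) (b t) (c t) (d t))
    (ha : CoeffsIn C R a) (hb : CoeffsIn C R b) (hc : CoeffsIn C R c)
    {M : ℤ} (hg : 2 * (C.g : ℤ) ≤ M) (hcM : C.c + C.g + 1 ≤ M) {τ : ℤ} {g : T → FBar F₀}
    (hgmem : ∀ t, g t ∈ riemannRochSpace (a t + b t - c t + Finsupp.single C.inf M))
    (hgco : ∀ t, ∀ n ∈ Finset.Icc (2 * M) (3 * M),
      co n (g t * (C.vF (a t) M * C.vF (b t) M)) = if n = τ then 1 else 0) :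
    ∃ G : LaurentSeries R, IsSeriesOf G (fun t => g t * (C.vF (a t) M * C.vF (b t) M)) := by
  classical
  let ι := ↥(Finset.Icc (2 * (C.g : ℤ)) M) × ↥(Finset.Icc (2 * (C.g : ℤ)) M)
  let o : ι := (⟨M, Finset.mem_Icc.2 ⟨hg, le_rfl⟩⟩, ⟨M, Finset.mem_Icc.2 ⟨hg, le_rfl⟩⟩)
  have hprod : ∀ i : ι, ∃ Y : LaurentSeries R,
      IsSeriesOf Y (fun t => C.vF (a t) i.1 * C.vF (b t) i.2) := fun i => by
    obtain ⟨U, hU⟩ := ha.exists_series (fun t => (q t).ha) (Finset.mem_Icc.1 i.1.2).1
    obtain ⟨V, hV⟩ := hb.exists_series (fun t => (q t).hb) (Finset.mem_Icc.1 i.2.2).1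
    exact ⟨U * V, hU.mul hV⟩
  choose P hP using hprod
  choose W hW using fun n : ↥(Finset.Icc (2 * (C.g : ℤ)) (3 * M)) =>
    hc.exists_series (fun t => (q t).hc) (Finset.mem_Icc.1 n.2).1
  let piv : ↥(Finset.Icc (2 * M) (3 * M)) → ↥(Finset.Icc (2 * (C.g : ℤ)) (3 * M)) := fun n =>
    ⟨n, Finset.mem_Icc.2 ⟨le_trans (by omega) (Finset.mem_Icc.1 n.2).1, (Finset.mem_Icc.1 n.2).2⟩⟩
  let rhs : ι ⊕ ↥(Finset.Icc (2 * M) (3 * M)) → LaurentSeries R :=
    Sum.elim (fun _ => 0) (fun n => if (n : ℤ) = τ then 1 else 0)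
  obtain ⟨x, hx⟩ := exists_series_solution hA hT hR (sys₁ P W o piv) rhs (by
    intro t v hv
    let Z : ℤ → ℤ → Fb := fun i j =>
      if h : i ∈ Finset.Icc (2 * (C.g : ℤ)) M ∧ j ∈ Finset.Icc (2 * (C.g : ℤ)) M then
        ∑ n : ↥(Finset.Icc (2 * (C.g : ℤ)) (3 * M)),
          v ((⟨i, h.1⟩, ⟨j, h.2⟩), n) • C.vFb (c t) n
      else 0
    have hZeq : ∀ i : ι, Z i.1 i.2 = ∑ n, v (i, n) • C.vFb (c t) n := fun i =>
      dif_pos ⟨i.1.2, i.2.2⟩
    have hWred : ∀ n, coeffMap (redAt hA hR t) (W n) = (C.vFb (c t) n : LaurentSeries _) :=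
      fun n => (hW n).red hA hR ((q t).hc.vF_spec (Finset.mem_Icc.1 n.2).1).2.1
        (CurveDatum.regAway_space (q t).hc.nonneg ((q t).hc.vF_spec (Finset.mem_Icc.1 n.2).1).1)
    have hPred : ∀ i : ι, coeffMap (redAt hA hR t) (P i) =
        ((C.vFb (a t) i.1 * C.vFb (b t) i.2 : Fb) : LaurentSeries _) := fun i =>
      (hP i).red hA hR (((q t).ha.vF_spec (Finset.mem_Icc.1 i.1.2).1).2.1.mul
        ((q t).hb.vF_spec (Finset.mem_Icc.1 i.2.2).1).2.1)
        ((CurveDatum.regAway_space (q t).ha.nonneg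
          ((q t).ha.vF_spec (Finset.mem_Icc.1 i.1.2).1).1).mul
          (CurveDatum.regAway_space (q t).hb.nonneg
            ((q t).hb.vF_spec (Finset.mem_Icc.1 i.2.2).1).1))
    have hsum : ∀ i : ι, ((Z i.1 i.2 : Fb) : LaurentSeries _) =
        ∑ n, v (i, n) • coeffMap (redAt hA hR t) (W n) := fun i => by
      rw [hZeq, coe_sum_smul_series]
      exact Finset.sum_congr rfl fun n _ => by rw [hWred]
    have hcoZ : ∀ (i : ι) (n : ↥(Finset.Icc (2 * (C.g : ℤ)) (3 * M))),
        co (n : ℤ) (Z i.1 i.2) = v (i, n) := by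
      intro i n
      rw [hZeq, map_sum, Finset.sum_eq_single n, map_smul,
        (q t).hc.co_vFb (Finset.mem_Icc.1 n.2).1 (Finset.mem_Icc.1 n.2).1, if_pos rfl, smul_eq_mul,
        mul_one]
      · intro m _ hm
        rw [map_smul, (q t).hc.co_vFb (Finset.mem_Icc.1 m.2).1 (Finset.mem_Icc.1 n.2).1,
          if_neg fun h => hm (Subtype.ext h.symm), smul_zero]
      · simp
    have h0 := (q t).eq_zero_of_system₁ hg hcM (Z := Z)
      (fun i hi j hj => by
        rw [show Z i j = _ from hZeq (⟨i, hi⟩, ⟨j, hj⟩)]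
        exact Submodule.sum_mem _ fun n _ => Submodule.smul_mem _ _
          ((q t).hc.vFb_mem (Finset.mem_Icc.1 n.2).1 (Finset.mem_Icc.1 n.2).2))
      (fun i hi j hj => by
        have h := hv (Sum.inl (⟨i, hi⟩, ⟨j, hj⟩))
        rw [sum_sys₁_inl, ← hsum, ← hsum, hPred, hPred, sub_eq_zero] at h
        exact Subtype.ext h)
      (fun n hn => by
        have h := hv (Sum.inr ⟨n, hn⟩)
        rw [sum_sys₁_inr, HahnSeries.single_eq_zero_iff] at h
        exact (hcoZ o (piv ⟨n, hn⟩)).trans h)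
    funext s
    rw [← hcoZ s.1 s.2, h0 _ s.1.1.2 _ s.1.2.2, map_zero]
    rfl)
  have hexp : ∀ t (i : ι),
      ((g t * (C.vF (a t) i.1 * C.vF (b t) i.2) : FBar F₀) : LaurentSeries Qbar) =
        ∑ n : ↥(Finset.Icc (2 * (C.g : ℤ)) (3 * M)),
          co (n : ℤ) (g t * (C.vF (a t) i.1 * C.vF (b t) i.2)) •
          coeffMap (evalAt R t) (W n) := by
    intro t i
    conv_lhs => rw [(q t).hc.eq_sum_vF (by omega) ((q t).mul_vF_mem (hgmem t) i.1.2 i.2.2)]
    rw [← Finset.sum_coe_sort, coe_sum_smul_series]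
    exact Finset.sum_congr rfl fun n _ => by rw [hW n t]
  have hsol : ∀ t (s : ι × ↥(Finset.Icc (2 * (C.g : ℤ)) (3 * M))),
      co (s.2 : ℤ) (g t * (C.vF (a t) s.1.1 * C.vF (b t) s.1.2)) = (x s).1 t := by
    intro t
    refine hx t (fun s => co (s.2 : ℤ) (g t * (C.vF (a t) s.1.1 * C.vF (b t) s.1.2))) fun e => ?_
    rcases e with i | n
    · rw [sum_sys₁_inl, ← hexp, ← hexp, hP i t, hP o t]
      simp only [rhs, Sum.elim_inl, map_zero, IntermediateField.coe_mul]
      ring
    · rw [sum_sys₁_inr]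
      simp only [rhs, Sum.elim_inr]
      show HahnSeries.single 0 (co (n : ℤ) (g t * (C.vF (a t) M * C.vF (b t) M))) = _
      rw [hgco t n n.2]
      split <;> simp
  refine ⟨∑ n, HahnSeries.single 0 (x (o, n)) * W n, fun t => ?_⟩
  rw [IsSeriesOf.sum_single_mul Finset.univ _ (fun n _ => hW n) t, hexp t o, coe_sum_smul_series]
  exact Finset.sum_congr rfl fun n _ => by rw [← hsol t (o, n), hW n t]

/-- The coefficient functions of the combination lie in `R`. -/
theorem mem_of_quad [Finite T] (hA : A.LiesOverPrime l) (hT : IsLevelled T)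
    (hR : R ≤ intFun l T) (q : ∀ t, C.IsQuad (a t) (b t) (c t) (d t))
    (ha : CoeffsIn C R a) (hb : CoeffsIn C R b) (hc : CoeffsIn C R c) : CoeffsIn C R d := by
  classical
  intro i hi n₀
  obtain ⟨M, hMi, hg, hcM, hc0⟩ : ∃ M : ℤ, i ≤ M ∧ 2 * (C.g : ℤ) ≤ M ∧ C.c + C.g + 1 ≤ M ∧
      C.c ≤ M :=
    ⟨max i (max (C.c + C.g + 1) C.c), le_max_left _ _, hi.trans (le_max_left _ _),
      (le_max_left _ _).trans (le_max_right _ _), (le_max_right _ _).trans (le_max_right _ _)⟩
  obtain ⟨P, e, eb, he, hexpand, -, hebco⟩ := C.exists_rational_basis (M := M) (by omega) hc0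
  obtain ⟨P', e', eb', he', hexpand', -, hebco'⟩ :=
    C.exists_rational_basis (M := 2 * M) (by omega) (by omega)
  choose g gb hgmem hgbmem hgred hgco hgbco using fun (τ : ↥(Finset.Icc (2 * M) (3 * M))) (t : T) =>
    (q t).exists_g (M := M) hg τ.2
  choose G hG using fun τ : ↥(Finset.Icc (2 * M) (3 * M)) =>
    exists_transition hA hT hR q ha hb hc hg hcM (hgmem τ) (hgco τ)
  have hser : ∀ p : ↥P, ∃ Y : LaurentSeries R, IsSeriesOf Y (fun _ : T => e p) := fun p =>
    exists_isSeriesOf _ M (fun _ n hn => C.hinf.co_eq_zero_of_mem_rr (he p p.2).1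
      (by rwa [Finsupp.single_eq_same])) fun n => const_co_mem hA (he p p.2).2.2 (he p p.2).2.1
      (CurveDatum.regAway_rr_single (he p p.2).1) n
  have hser' : ∀ p : ↥P', ∃ Y : LaurentSeries R, IsSeriesOf Y (fun _ : T => e' p) := fun p =>
    exists_isSeriesOf _ (2 * M) (fun _ n hn => C.hinf.co_eq_zero_of_mem_rr (he' p p.2).1
      (by rwa [Finsupp.single_eq_same])) fun n => const_co_mem hA (he' p p.2).2.2 (he' p p.2).2.1
      (CurveDatum.regAway_rr_single (he' p p.2).1) n
  choose E hE using hser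
  choose E' hE' using hser'
  let o : ↥(Finset.Icc (2 * M) (3 * M)) := ⟨2 * M, Finset.mem_Icc.2 ⟨le_rfl, by omega⟩⟩
  let idx : ↥(Finset.Icc (2 * (C.g : ℤ)) M) → ℤ := fun n => -(n : ℤ)
  let rhs : ↥(Finset.Icc (2 * M) (3 * M)) ⊕ ↥(Finset.Icc (2 * (C.g : ℤ)) M) → LaurentSeries R :=
    Sum.elim (fun _ => 0) (fun n => if (n : ℤ) = i then 1 else 0)
  obtain ⟨x, hx⟩ := exists_series_solution hA hT hR (sys₂ E G o E' idx) rhs (by
    intro t v hv
    let f : Fb := ∑ p : ↥P, v (Sum.inl p) • eb p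
    let m : ℤ → Fb := fun τ =>
      if h : τ ∈ Finset.Icc (2 * M) (3 * M) then ∑ p : ↥P', v (Sum.inr (⟨τ, h⟩, p)) • eb' p else 0
    let gb' : ℤ → Fb := fun τ =>
      if h : τ ∈ Finset.Icc (2 * M) (3 * M) then gb ⟨τ, h⟩ t else 0
    have hgb' : ∀ τ : ↥(Finset.Icc (2 * M) (3 * M)), gb' τ = gb τ t := fun τ => dif_pos τ.2
    have hEred : ∀ p : ↥P, coeffMap (redAt hA hR t) (E p) = (eb p : LaurentSeries _) :=
      fun p => (hE p).red hA hR (he p p.2).2.1 (CurveDatum.regAway_rr_single (he p p.2).1)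
    have hEred' : ∀ p : ↥P', coeffMap (redAt hA hR t) (E' p) = (eb' p : LaurentSeries _) :=
      fun p => (hE' p).red hA hR (he' p p.2).2.1 (CurveDatum.regAway_rr_single (he' p p.2).1)
    have hGred : ∀ τ, coeffMap (redAt hA hR t) (G τ) =
        ((gb τ t * (C.vFb (a t) M * C.vFb (b t) M) : Fb) : LaurentSeries _) := fun τ =>
      (hG τ).red hA hR
        ((hgred τ t).mul (((q t).ha.vF_spec hg).2.1.mul ((q t).hb.vF_spec hg).2.1))
        (CurveDatum.regAway_space (q t).hc.nonneg ((q t).mul_vF_mem (hgmem τ t)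
          (Finset.mem_Icc.2 ⟨hg, le_rfl⟩) (Finset.mem_Icc.2 ⟨hg, le_rfl⟩)))
    have hfsum : (f : LaurentSeries _) =
        ∑ p : ↥P, v (Sum.inl p) • coeffMap (redAt hA hR t) (E p) := by
      rw [coe_sum_smul_series]
      exact Finset.sum_congr rfl fun p _ => by rw [hEred]
    have hmeq : ∀ τ : ↥(Finset.Icc (2 * M) (3 * M)),
        m τ = ∑ p : ↥P', v (Sum.inr (τ, p)) • eb' p := fun τ => dif_pos τ.2
    have hmsum : ∀ τ : ↥(Finset.Icc (2 * M) (3 * M)), (m τ : LaurentSeries _) =
        ∑ p : ↥P', v (Sum.inr (τ, p)) • coeffMap (redAt hA hR t) (E' p) := fun τ => by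
      rw [hmeq, coe_sum_smul_series]
      exact Finset.sum_congr rfl fun p _ => by rw [hEred']
    obtain ⟨h0, hm0⟩ := (q t).eq_zero_of_system₂ hg hcM (gb := gb') (f := f) (m := m)
      (fun τ hτ => (hgb' ⟨τ, hτ⟩).symm ▸ hgbmem ⟨τ, hτ⟩ t)
      (fun τ hτ n hn => (hgb' ⟨τ, hτ⟩).symm ▸ hgbco ⟨τ, hτ⟩ t n hn)
      (Submodule.sum_mem _ fun p _ => Submodule.smul_mem _ _
        (C.redSpace_rr_single_le M ⟨_, (he p p.2).1, (he p p.2).2.1⟩))
      (fun τ hτ => by
        rw [show m τ = _ from hmeq ⟨τ, hτ⟩]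
        exact Submodule.sum_mem _ fun p _ => Submodule.smul_mem _ _
          (C.redSpace_rr_single_le (2 * M) ⟨_, (he' p p.2).1, (he' p p.2).2.1⟩))
      (fun τ hτ => by
        have h := hv (Sum.inl ⟨τ, hτ⟩)
        rw [sum_sys₂_inl, ← hfsum, ← hmsum, hGred, hGred, sub_eq_zero] at h
        have h' : f * (gb ⟨τ, hτ⟩ t * (C.vFb (a t) M * C.vFb (b t) M)) =
            gb o t * (C.vFb (a t) M * C.vFb (b t) M) * m τ := Subtype.ext h
        rw [show gb' τ = _ from hgb' ⟨τ, hτ⟩, show gb' (2 * M) = _ from hgb' o]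
        refine mul_right_cancel₀ ((q t).ord_uvb hg).1 ?_
        rw [mul_assoc f, h']
        ring)
      (fun n hn => by
        have h := hv (Sum.inr ⟨n, hn⟩)
        rw [sum_sys₂_inr, HahnSeries.single_eq_zero_iff] at h
        simp only [f, map_sum, map_smul, smul_eq_mul]
        rw [← h]
        exact Finset.sum_congr rfl fun p _ => by rw [hEred, co_apply])
    funext s
    rcases s with p | ⟨τ, p⟩
    · have h := congrArg (co (p : ℤ)) h0
      simp only [f, map_sum, map_zero] at h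
      rw [Finset.sum_eq_single p, map_smul, hebco p p.2 p p.2, if_pos rfl, smul_eq_mul, mul_one]
        at h
      · exact h
      · intro r _ hr
        rw [map_smul, hebco r r.2 p p.2, if_neg fun h => hr (Subtype.ext h.symm), smul_zero]
      · simp
    · have h := congrArg (co (p : ℤ)) (hm0 τ τ.2)
      rw [hmeq, map_sum, map_zero, Finset.sum_eq_single p, map_smul, hebco' p p.2 p p.2,
        if_pos rfl, smul_eq_mul, mul_one] at h
      · exact h
      · intro r _ hr
        rw [map_smul, hebco' r r.2 p p.2, if_neg fun h => hr (Subtype.ext h.symm), smul_zero]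
      · simp)
  -- the solution at each point
  have hval : ∀ t, co n₀ (C.vF (d t) i) = ∑ p : ↥P, (x (Sum.inl p)).1 t * co n₀ (e p) := by
    intro t
    obtain ⟨hfmem, -, -⟩ := (q t).hd.vF_spec hi
    obtain ⟨hg0, hdiv⟩ := (q t).divisorOf_g hg (hgmem o t) (hgco o t)
    have hfM : C.vF (d t) i ∈ riemannRochSpace (Finsupp.single C.inf M) :=
      riemannRochSpace_mono ((sub_le_self _ (q t).hd.nonneg).trans
        (Finsupp.single_le_single.2 hMi)) hfmem
    have hm : ∀ τ, C.vF (d t) i * g τ t / g o t ∈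
        riemannRochSpace (Finsupp.single C.inf (2 * M)) := by
      intro τ
      have h := mul_mem_rr_sub_divisorOf (u := (g o t)⁻¹)
        (mul_mem_rr (CurveDatum.space_mono hMi hfmem) (hgmem τ t))
      rw [divisorOf_inv, sub_neg_eq_add, ← div_eq_mul_inv] at h
      refine riemannRochSpace_mono (le_of_eq ?_) h
      rw [← eq_sub_iff_add_eq] at hdiv
      rw [hdiv, two_mul, Finsupp.single_add]
      abel
    have hsol := hx t (Sum.elim (fun p : ↥P => co (p : ℤ) (C.vF (d t) i))
      (fun s : ↥(Finset.Icc (2 * M) (3 * M)) × ↥P' =>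
        co (s.2 : ℤ) (C.vF (d t) i * g s.1 t / g o t))) (by
        rintro (τ | n)
        · have e1 : ∑ p : ↥P, co (p : ℤ) (C.vF (d t) i) • coeffMap (evalAt R t) (E p) =
              (C.vF (d t) i : LaurentSeries Qbar) := by
            conv_rhs => rw [hexpand _ hfM, ← Finset.sum_coe_sort, coe_sum_smul_series]
            exact Finset.sum_congr rfl fun p _ => by rw [hE p t]
          have e2 : ∑ p : ↥P', co (p : ℤ) (C.vF (d t) i * g τ t / g o t) •
              coeffMap (evalAt R t) (E' p) =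
              ((C.vF (d t) i * g τ t / g o t : FBar F₀) : LaurentSeries Qbar) := by
            conv_rhs => rw [hexpand' _ (hm τ), ← Finset.sum_coe_sort, coe_sum_smul_series]
            exact Finset.sum_congr rfl fun p _ => by rw [hE' p t]
          rw [sum_sys₂_inl]
          simp only [Sum.elim_inl, Sum.elim_inr, rhs, map_zero]
          rw [e1, e2, hG τ t, hG o t, ← IntermediateField.coe_mul, ← IntermediateField.coe_mul,
            sub_eq_zero]
          refine congrArg _ ?_
          field_simp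
        · rw [sum_sys₂_inr]
          simp only [Sum.elim_inl, rhs, Sum.elim_inr]
          have h := congrArg (co (n : ℤ)) (hexpand _ hfM)
          rw [(q t).hd.co_vF hi (Finset.mem_Icc.1 n.2).1, map_sum, ← Finset.sum_coe_sort] at h
          simp only [map_smul, smul_eq_mul] at h
          have e3 : ∀ p : ↥P, (coeffMap (evalAt R t) (E p)).coeff (idx n) = co (n : ℤ) (e p) :=
            fun p => by rw [hE p t]; rfl
          simp only [e3]
          rw [← h]
          split <;> simp)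
    rw [show co n₀ (C.vF (d t) i) = _ from congrArg (co n₀) (hexpand _ hfM), map_sum,
      ← Finset.sum_coe_sort]
    exact Finset.sum_congr rfl fun p _ => by
      rw [map_smul, smul_eq_mul, ← hsol (Sum.inl p)]
      rfl
  rw [show (fun t => co n₀ (C.vF (d t) i)) =
      ∑ p : ↥P, (x (Sum.inl p)).1 * (fun _ : T => co n₀ (e p)) from
    funext fun t => by rw [Finset.sum_apply]; exact hval t]
  exact R.sum_mem fun p _ => R.mul_mem (x _).2 (const_co_mem hA (he p p.2).2.2 (he p p.2).2.1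
    (CurveDatum.regAway_rr_single (he p p.2).1) n₀)

end FLTAgent.FlatModel
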