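import Fermat.Agent.FlatModel.CurveSeries

/-!
# Divisors attached to three points and their combination

Residual uniqueness statements for the linear systems that compute the coordinates of `x + y - z`.
-/

set_option autoImplicit false
set_option linter.unusedSectionVars false

noncomputable section

open AlgebraicCurve ModularCurve

namespace FLTAgent.FlatModel

open FLTAgent.FunctionField FLTAgent.GoodRed

local notation "Qbar" => AlgebraicClosure ℚ

local instance (priority := high) instCoeFunCoCResid {K : Type*} [Field K]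
    (G : IntermediateField K (LaurentSeries K)) : CoeFun (G →ₗ[K] K) fun _ => G → K :=
  DFunLike.toCoeFun

local instance (priority := high) instAlgebraLaurentCResid {K : Type*} [Field K]
    (F : IntermediateField K (LaurentSeries K)) : Algebra K F :=
  SubalgebraClass.toAlgebra F

local instance (priority := high) instSMulLaurentCResid {K : Type*} [Field K]
    (F : IntermediateField K (LaurentSeries K)) : SMul K F :=
  (SubalgebraClass.toAlgebra F).toSMul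

local instance (priority := high) instModuleLaurentCResid {K : Type*} [Field K]
    (F : IntermediateField K (LaurentSeries K)) : Module K F :=
  (SubalgebraClass.toAlgebra F).toModule

variable {F₀ : IntermediateField ℚ (LaurentSeries ℚ)}
  {A : ValuationSubring (AlgebraicClosure ℚ)}
  {Fb : IntermediateField (IsLocalRing.ResidueField A) (LaurentSeries (IsLocalRing.ResidueField A))}
  [IsFunctionField (AlgebraicClosure ℚ) ↥(FBar F₀)]
  [IsFunctionField (IsLocalRing.ResidueField A) ↥Fb]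
  [IsAlgClosed (IsLocalRing.ResidueField A)]

namespace CurveDatum

variable {C : CurveDatum F₀ A Fb}

theorem IsModelDiv.ord_vF {E : Divisor Qbar ↥(FBar F₀)} (hE : C.IsModelDiv E) {i : ℤ} (hi : 2 * (C.g : ℤ) ≤ i) :
    C.vF E i ≠ 0 ∧ C.inf.ord (C.vF E i) = -i := by
  have h := C.hinf.ord_eq_of_co (hE.vF_spec hi).1
    (by rw [hE.single_sub_apply_inf, hE.co_vF hi hi, if_pos rfl]; exact one_ne_zero)
  rwa [hE.single_sub_apply_inf] at h

theorem IsModelDiv.ord_vFb {E : Divisor Qbar ↥(FBar F₀)} (hE : C.IsModelDiv E) {i : ℤ}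
    (hi : 2 * (C.g : ℤ) ≤ i) : C.vFb E i ≠ 0 ∧ C.infb.ord (C.vFb E i) = -i := by
  have h := C.hinfb.ord_eq_of_co (hE.vFb_mem hi le_rfl)
    (by rw [hE.single_sub_apply_infb, hE.co_vFb hi hi, if_pos rfl]; exact one_ne_zero)
  rwa [hE.single_sub_apply_infb] at h

/-- The normalised elements have no common zero outside the divisor. -/
theorem IsModelDiv.exists_ord_vFb {E : Divisor Qbar ↥(FBar F₀)} (hE : C.IsModelDiv E) {M : ℤ}
    (hg : 2 * (C.g : ℤ) ≤ M) (hc : C.c + C.g + 1 ≤ M)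
    (w : Place (IsLocalRing.ResidueField A) ↥Fb) :
    ∃ i ∈ Finset.Icc (2 * (C.g : ℤ)) M, C.vFb E i ≠ 0 ∧
      w.ord (C.vFb E i) = -(Finsupp.single C.infb M - C.red E) w := by
  set D := Finsupp.single C.infb M - C.red E with hD
  obtain ⟨z, hz, hz0, hord⟩ := C.hk.exists_ord_eq_neg (D := D)
    (by rw [hD, map_sub, degree_single_infb, C.degree_red, hE.degree]; omega) w
  by_contra! hall
  have h2 : OrdGe w (-D w + 1) z := by
    rw [hE.eq_sum_vFb (by omega) hz]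
    refine OrdGe.sum fun i hi => ?_
    obtain ⟨h1, h1'⟩ := Finset.mem_Icc.1 hi
    have hge : OrdGe w (-D w) (C.vFb E i) := mem_rr_iff.1 (hE.vFb_mem h1 h1') w
    rw [Algebra.smul_def]
    refine (zero_add (-D w + 1) ▸ (ordGe_algebraMap _).mul ?_)
    rcases eq_or_ne (C.vFb E i) 0 with h0 | h0
    · rw [h0]; exact ordGe_zero _
    · refine ordGe_of_le_ord ?_
      have := hge.le_ord h0
      have := hall i hi h0
      omega
  have := h2.le_ord hz0
  omega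

/-- Four divisors with `Ed + Ec ∼ Ea + Eb`. -/
structure IsQuad (C : CurveDatum F₀ A Fb) (Ea Eb Ec Ed : Divisor Qbar ↥(FBar F₀)) : Prop where
  ha : C.IsModelDiv Ea
  hb : C.IsModelDiv Eb
  hc : C.IsModelDiv Ec
  hd : C.IsModelDiv Ed
  rel : ∃ h : FBar F₀, h ≠ 0 ∧ Ed + Ec - (Ea + Eb) = divisorOf h

variable {Ea Eb Ec Ed : Divisor Qbar ↥(FBar F₀)}

theorem IsQuad.apply_inf (q : C.IsQuad Ea Eb Ec Ed) : (Ea + Eb - Ec) C.inf = 0 := by
  simp [q.ha.apply_inf, q.hb.apply_inf, q.hc.apply_inf]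

theorem IsQuad.red_apply_infb (q : C.IsQuad Ea Eb Ec Ed) : C.red (Ea + Eb - Ec) C.infb = 0 := by
  rw [C.red_sub, C.red_add]
  simp [q.ha.red_apply_infb, q.hb.red_apply_infb, q.hc.red_apply_infb]

theorem IsQuad.exists_red_sub (q : C.IsQuad Ea Eb Ec Ed) :
    ∃ z : Fb, z ≠ 0 ∧ C.red Ed - C.red (Ea + Eb - Ec) = divisorOf z := by
  obtain ⟨h, h0, hrel⟩ := q.rel
  obtain ⟨z, hz, hzrel⟩ := C.exists_red_divisorOf h0
  refine ⟨z, hz, ?_⟩
  rw [← hzrel, ← C.red_sub, ← hrel]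
  congr 1
  abel

theorem IsQuad.ell_red (q : C.IsQuad Ea Eb Ec Ed) :
    ell (C.red (Ea + Eb - Ec) - Finsupp.single C.infb 1) = 0 := by
  obtain ⟨z, hz, hzrel⟩ := q.exists_red_sub
  rw [ell_eq_of_sub_eq hz (E := C.red Ed - Finsupp.single C.infb 1) (by rw [← hzrel]; abel)]
  exact q.hd.rr_inf

theorem IsQuad.ell_sub (q : C.IsQuad Ea Eb Ec Ed) :
    ell (Ea + Eb - Ec - Finsupp.single C.inf 1) = 0 := by
  refine le_antisymm ((C.ell_le_ell_red _).trans (le_of_eq ?_)) (ell_nonneg _)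
  rw [C.red_sub, C.red_single_inf]
  exact q.ell_red

theorem IsQuad.degree (q : C.IsQuad Ea Eb Ec Ed) :
    Divisor.degree (Ea + Eb - Ec) = C.g := by
  rw [map_sub, map_add, q.ha.degree, q.hb.degree, q.hc.degree]
  ring

theorem IsQuad.mul_vF_mem (q : C.IsQuad Ea Eb Ec Ed) {M i j : ℤ} {g : FBar F₀}
    (hg : g ∈ riemannRochSpace (Ea + Eb - Ec + Finsupp.single C.inf M))
    (hi : i ∈ Finset.Icc (2 * (C.g : ℤ)) M) (hj : j ∈ Finset.Icc (2 * (C.g : ℤ)) M) :
    g * (C.vF Ea i * C.vF Eb j) ∈ C.space Ec (3 * M) := by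
  obtain ⟨hi1, hi2⟩ := Finset.mem_Icc.1 hi
  obtain ⟨hj1, hj2⟩ := Finset.mem_Icc.1 hj
  refine riemannRochSpace_mono (le_of_eq ?_) (mul_mem_rr hg (mul_mem_rr
    (space_mono hi2 (q.ha.vF_spec hi1).1) (space_mono hj2 (q.hb.vF_spec hj1).1)))
  rw [show 3 * M = M + M + M by ring, Finsupp.single_add, Finsupp.single_add]
  abel

theorem IsQuad.ord_uv (q : C.IsQuad Ea Eb Ec Ed) {M : ℤ} (hg : 2 * (C.g : ℤ) ≤ M) :
    C.vF Ea M * C.vF Eb M ≠ 0 ∧ C.inf.ord (C.vF Ea M * C.vF Eb M) = -(2 * M) := by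
  obtain ⟨h1, h1'⟩ := q.ha.ord_vF hg
  obtain ⟨h2, h2'⟩ := q.hb.ord_vF hg
  exact ⟨mul_ne_zero h1 h2, by rw [C.inf.ord_mul h1 h2, h1', h2']; ring⟩

theorem IsQuad.ord_uvb (q : C.IsQuad Ea Eb Ec Ed) {M : ℤ} (hg : 2 * (C.g : ℤ) ≤ M) :
    C.vFb Ea M * C.vFb Eb M ≠ 0 ∧ C.infb.ord (C.vFb Ea M * C.vFb Eb M) = -(2 * M) := by
  obtain ⟨h1, h1'⟩ := q.ha.ord_vFb hg
  obtain ⟨h2, h2'⟩ := q.hb.ord_vFb hg
  exact ⟨mul_ne_zero h1 h2, by rw [C.infb.ord_mul h1 h2, h1', h2']; ring⟩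

theorem IsQuad.eq_zero_of_co (q : C.IsQuad Ea Eb Ec Ed) {M : ℤ} (hg : 2 * (C.g : ℤ) ≤ M)
    {g : Fb} (hmem : g ∈ riemannRochSpace (C.red (Ea + Eb - Ec) + Finsupp.single C.infb M))
    (h : ∀ n ∈ Finset.Icc (2 * M) (3 * M), co n (g * (C.vFb Ea M * C.vFb Eb M)) = 0) : g = 0 :=
  C.hinfb.eq_zero_of_co_mul q.red_apply_infb q.ell_red (q.ord_uvb hg).1 (q.ord_uvb hg).2 hmem h

theorem IsQuad.exists_g (q : C.IsQuad Ea Eb Ec Ed) {M : ℤ} (hg : 2 * (C.g : ℤ) ≤ M) {τ : ℤ}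
    (hτ : τ ∈ Finset.Icc (2 * M) (3 * M)) :
    ∃ (g : FBar F₀) (gb : Fb), g ∈ riemannRochSpace (Ea + Eb - Ec + Finsupp.single C.inf M) ∧
      gb ∈ riemannRochSpace (C.red (Ea + Eb - Ec) + Finsupp.single C.infb M) ∧ C.D.Red g gb ∧
      (∀ n ∈ Finset.Icc (2 * M) (3 * M),
        co n (g * (C.vF Ea M * C.vF Eb M)) = if n = τ then 1 else 0) ∧
      ∀ n ∈ Finset.Icc (2 * M) (3 * M),
        co n (gb * (C.vFb Ea M * C.vFb Eb M)) = if n = τ then 1 else 0 := by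
  have hred : C.D.Red (C.vF Ea M * C.vF Eb M) (C.vFb Ea M * C.vFb Eb M) :=
    (q.ha.vF_spec hg).2.1.mul (q.hb.vF_spec hg).2.1
  have hreg : ∀ y ∈ riemannRochSpace (Ea + Eb - Ec + Finsupp.single C.inf M),
      RegAway (K := Qbar) C.x (y * (C.vF Ea M * C.vF Eb M)) := fun y hy =>
    regAway_space q.hc.nonneg (q.mul_vF_mem hy (Finset.mem_Icc.2 ⟨hg, le_rfl⟩)
      (Finset.mem_Icc.2 ⟨hg, le_rfl⟩))
  have hco : CoCompat C.D (riemannRochSpace (Ea + Eb - Ec + Finsupp.single C.inf M)) (fun n => (co n).comp (LinearMap.mulRight Qbar (C.vF Ea M * C.vF Eb M)))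
      (fun n => (co n).comp
        (LinearMap.mulRight (IsLocalRing.ResidueField A) (C.vFb Ea M * C.vFb Eb M))) :=
    fun y hy z hyz n => C.co_red _ _ (hyz.mul hred) (hreg y hy) n
  have hle : C.D.redSpace (riemannRochSpace (Ea + Eb - Ec + Finsupp.single C.inf M)) ≤
      riemannRochSpace (C.red (Ea + Eb - Ec) + Finsupp.single C.infb M) :=
    (C.redSpace_le_red _).trans (le_of_eq (by rw [C.red_add, C.red_single_inf]))
  have hcard : (Finset.Icc (2 * M) (3 * M)).card ≤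
      Module.finrank Qbar (riemannRochSpace (Ea + Eb - Ec + Finsupp.single C.inf M)) := by
    have h := riemann_le_ell C.hL (Ea + Eb - Ec + Finsupp.single C.inf M)
    rw [map_add, q.degree, degree_single_inf, ell] at h
    rw [Int.card_Icc]
    omega
  obtain ⟨g, hgm, gb, hr, hgco⟩ := exists_pivot hco
    (fun z hz => q.eq_zero_of_co hg (hle hz)) hcard hτ
  refine ⟨g, gb, hgm, hle ⟨g, hgm, hr⟩, hr, hgco, fun n hn => ?_⟩
  obtain ⟨hmem, h⟩ := C.co_red _ _ (hr.mul hred) (hreg g hgm) n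
  rw [← h]
  split
  · next e =>
    rw [show (⟨_, hmem⟩ : A) = 1 from Subtype.ext ((hgco n hn).trans (if_pos e)), map_one]
  · next e =>
    rw [show (⟨_, hmem⟩ : A) = 0 from Subtype.ext ((hgco n hn).trans (if_neg e)), map_zero]

theorem IsQuad.divisorOf_g (q : C.IsQuad Ea Eb Ec Ed) {M : ℤ} (hg : 2 * (C.g : ℤ) ≤ M)
    {g : FBar F₀} (hmem : g ∈ riemannRochSpace (Ea + Eb - Ec + Finsupp.single C.inf M))
    (h : ∀ n ∈ Finset.Icc (2 * M) (3 * M),
      co n (g * (C.vF Ea M * C.vF Eb M)) = if n = 2 * M then 1 else 0) :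
    g ≠ 0 ∧ divisorOf g + (Ea + Eb - Ec) = Ed := by
  obtain ⟨hg0, hnn⟩ := C.hinf.nonneg_divisorOf_add q.apply_inf (by omega) (q.ord_uv hg).1
    (q.ord_uv hg).2 hmem h
  refine ⟨hg0, ?_⟩
  obtain ⟨f, hf, hrel⟩ := q.rel
  refine eq_of_effective_of_ell_sub_single (P := C.inf) q.hd.nonneg hnn ?_ (div_ne_zero hg0 hf) ?_
  · refine le_antisymm ((C.ell_le_ell_red _).trans (le_of_eq ?_)) (ell_nonneg _)
    rw [C.red_sub, C.red_single_inf]
    exact q.hd.rr_inf
  · rw [div_eq_mul_inv, divisorOf_mul hg0 (inv_ne_zero hf), divisorOf_inv, ← hrel]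
    abel

theorem IsQuad.divisorOf_gb (q : C.IsQuad Ea Eb Ec Ed) {M : ℤ} (hg : 2 * (C.g : ℤ) ≤ M)
    {g : Fb} (hmem : g ∈ riemannRochSpace (C.red (Ea + Eb - Ec) + Finsupp.single C.infb M))
    (h : ∀ n ∈ Finset.Icc (2 * M) (3 * M),
      co n (g * (C.vFb Ea M * C.vFb Eb M)) = if n = 2 * M then 1 else 0) :
    g ≠ 0 ∧ divisorOf g + C.red (Ea + Eb - Ec) = C.red Ed := by
  obtain ⟨hg0, hnn⟩ := C.hinfb.nonneg_divisorOf_add q.red_apply_infb (by omega) (q.ord_uvb hg).1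
    (q.ord_uvb hg).2 hmem h
  refine ⟨hg0, ?_⟩
  obtain ⟨z, hz, hrel⟩ := q.exists_red_sub
  refine eq_of_effective_of_ell_sub_single (C.red_nonneg q.hd.nonneg) hnn q.hd.rr_inf
    (div_ne_zero hg0 hz) ?_
  rw [div_eq_mul_inv, divisorOf_mul hg0 (inv_ne_zero hz), divisorOf_inv, ← hrel]
  abel

/-- Residual uniqueness for the first system. -/
theorem IsQuad.eq_zero_of_system₁ (q : C.IsQuad Ea Eb Ec Ed) {M : ℤ} (hg : 2 * (C.g : ℤ) ≤ M)
    (hc : C.c + C.g + 1 ≤ M) {Z : ℤ → ℤ → Fb}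
    (hZ : ∀ i ∈ Finset.Icc (2 * (C.g : ℤ)) M, ∀ j ∈ Finset.Icc (2 * (C.g : ℤ)) M,
      Z i j ∈ C.spaceb Ec (3 * M))
    (heq : ∀ i ∈ Finset.Icc (2 * (C.g : ℤ)) M, ∀ j ∈ Finset.Icc (2 * (C.g : ℤ)) M,
      Z i j * (C.vFb Ea M * C.vFb Eb M) = C.vFb Ea i * C.vFb Eb j * Z M M)
    (hpiv : ∀ n ∈ Finset.Icc (2 * M) (3 * M), co n (Z M M) = 0) :
    ∀ i ∈ Finset.Icc (2 * (C.g : ℤ)) M, ∀ j ∈ Finset.Icc (2 * (C.g : ℤ)) M, Z i j = 0 := by
  obtain ⟨huv, -⟩ := q.ord_uvb hg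
  set g := Z M M / (C.vFb Ea M * C.vFb Eb M) with hgdef
  have hZg : ∀ i ∈ Finset.Icc (2 * (C.g : ℤ)) M, ∀ j ∈ Finset.Icc (2 * (C.g : ℤ)) M,
      Z i j = g * (C.vFb Ea i * C.vFb Eb j) := by
    intro i hi j hj
    rw [hgdef, div_mul_eq_mul_div, eq_div_iff huv, heq i hi j hj, mul_comm]
  have hmem : g ∈ riemannRochSpace (C.red (Ea + Eb - Ec) + Finsupp.single C.infb M) := by
    refine mem_rr_iff.2 fun w => ordGe_iff.2 ?_
    rcases eq_or_ne g 0 with h0 | h0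
    · exact Or.inl h0
    right
    obtain ⟨i, hi, hi0, hiord⟩ := q.ha.exists_ord_vFb hg hc w
    obtain ⟨j, hj, hj0, hjord⟩ := q.hb.exists_ord_vFb hg hc w
    have hmul := hZg i hi j hj
    have h := (mem_rr_iff.1 (hZ i hi j hj) w).le_ord
      (hmul ▸ mul_ne_zero h0 (mul_ne_zero hi0 hj0))
    rw [hmul, w.ord_mul h0 (mul_ne_zero hi0 hj0), w.ord_mul hi0 hj0, hiord, hjord] at h
    rw [C.red_sub, C.red_add]
    simp only [Finsupp.sub_apply, Finsupp.add_apply] at h ⊢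
    rcases eq_or_ne w C.infb with rfl | hw
    · simp only [Finsupp.single_eq_same] at h ⊢; omega
    · simp only [Finsupp.single_eq_of_ne hw] at h ⊢; omega
  have h0 : g = 0 := q.eq_zero_of_co hg hmem fun n hn => by
    rw [hgdef, div_mul_cancel₀ _ huv]; exact hpiv n hn
  intro i hi j hj
  rw [hZg i hi j hj, h0, zero_mul]

/-- Residual uniqueness for the second system. -/
theorem IsQuad.eq_zero_of_system₂ (q : C.IsQuad Ea Eb Ec Ed) {M : ℤ} (hg : 2 * (C.g : ℤ) ≤ M)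
    (hc : C.c + C.g + 1 ≤ M) {gb : ℤ → Fb}
    (hgb : ∀ τ ∈ Finset.Icc (2 * M) (3 * M),
      gb τ ∈ riemannRochSpace (C.red (Ea + Eb - Ec) + Finsupp.single C.infb M))
    (hco : ∀ τ ∈ Finset.Icc (2 * M) (3 * M), ∀ n ∈ Finset.Icc (2 * M) (3 * M),
      co n (gb τ * (C.vFb Ea M * C.vFb Eb M)) = if n = τ then 1 else 0)
    {f : Fb} (hf : f ∈ riemannRochSpace (Finsupp.single C.infb M)) {m : ℤ → Fb}
    (hm : ∀ τ ∈ Finset.Icc (2 * M) (3 * M),
      m τ ∈ riemannRochSpace (Finsupp.single C.infb (2 * M)))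
    (heq : ∀ τ ∈ Finset.Icc (2 * M) (3 * M), f * gb τ = gb (2 * M) * m τ)
    (hpiv : ∀ n ∈ Finset.Icc (2 * (C.g : ℤ)) M, co n f = 0) :
    f = 0 ∧ ∀ τ ∈ Finset.Icc (2 * M) (3 * M), m τ = 0 := by
  have hM : 2 * M ∈ Finset.Icc (2 * M) (3 * M) := Finset.mem_Icc.2 ⟨le_rfl, by omega⟩
  obtain ⟨hg0, hdiv⟩ := q.divisorOf_gb hg (hgb _ hM) (hco _ hM)
  have hf0 : f = 0 := by
    by_contra hne
    refine hne (q.hd.eq_zero_of_mem_spaceb (by omega) (i := M) (mem_rr_iff.2 fun w => ?_) hpiv)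
    refine ordGe_of_le_ord ?_
    rw [Finsupp.sub_apply]
    rcases eq_or_ne w C.infb with rfl | hw
    · have := (mem_rr_iff.1 hf C.infb).le_ord hne
      rw [q.hd.red_apply_infb]
      omega
    set D := C.red (Ea + Eb - Ec) + Finsupp.single C.infb M with hD
    obtain ⟨τ, hτ, hτ0, hτord⟩ : ∃ τ ∈ Finset.Icc (2 * M) (3 * M),
        gb τ ≠ 0 ∧ w.ord (gb τ) = -D w := by
      obtain ⟨z, hz, hz0, hord⟩ := C.hk.exists_ord_eq_neg (D := D) (by
        rw [hD, map_add, C.degree_red, q.degree, degree_single_infb]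
        omega) w
      have hexp : z = ∑ τ ∈ Finset.Icc (2 * M) (3 * M),
          co τ (z * (C.vFb Ea M * C.vFb Eb M)) • gb τ := by
        refine sub_eq_zero.1 (q.eq_zero_of_co hg (Submodule.sub_mem _ hz
          (Submodule.sum_mem _ fun τ hτ => Submodule.smul_mem _ _ (hgb τ hτ))) fun n hn => ?_)
        rw [sub_mul, Finset.sum_mul, map_sub, map_sum, Finset.sum_eq_single n, smul_mul_assoc,
          map_smul, hco n hn n hn, if_pos rfl, smul_eq_mul, mul_one, sub_self]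
        · intro τ hτ hne'
          rw [smul_mul_assoc, map_smul, hco τ hτ n hn, if_neg hne'.symm, smul_zero]
        · exact fun h => absurd hn h
      by_contra! hall
      have h2 : OrdGe w (-D w + 1) z := by
        rw [hexp]
        refine OrdGe.sum fun τ hτ => ?_
        rw [Algebra.smul_def]
        refine (zero_add (-D w + 1) ▸ (ordGe_algebraMap _).mul ?_)
        rcases eq_or_ne (gb τ) 0 with h0 | h0
        · rw [h0]; exact ordGe_zero _
        · refine ordGe_of_le_ord ?_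
          have := (mem_rr_iff.1 (hgb τ hτ) w).le_ord h0
          have := hall τ hτ h0
          omega
      have := h2.le_ord hz0
      omega
    have h1 := heq τ hτ
    have hm0 : m τ ≠ 0 := by
      intro h0
      rw [h0, mul_zero] at h1
      exact mul_ne_zero hne hτ0 h1
    have h2 := (mem_rr_iff.1 (hm τ hτ) w).le_ord hm0
    rw [Finsupp.single_eq_of_ne hw] at h2
    have h3 := congrArg w.ord h1
    rw [w.ord_mul hne hτ0, w.ord_mul hg0 hm0, hτord, hD, Finsupp.add_apply,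
      Finsupp.single_eq_of_ne hw, add_zero] at h3
    have h4 := DFunLike.congr_fun hdiv w
    rw [Finsupp.add_apply, divisorOf_apply] at h4
    rw [Finsupp.single_eq_of_ne hw]
    omega
  refine ⟨hf0, fun τ hτ => ?_⟩
  have h1 := heq τ hτ
  rw [hf0, zero_mul] at h1
  exact (mul_eq_zero.1 h1.symm).resolve_left hg0

end CurveDatum

end FLTAgent.FlatModel
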