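import Fermat.Agent.GoodRed.Datum
import Mathlib.LinearAlgebra.Matrix.NonsingularInverse
import Mathlib.LinearAlgebra.Dual.Lemmas

/-!
# Normalised elements of subspaces with respect to coefficient functionals

If finitely many residual coefficient functionals are injective on the reduction of a subspace
`W`, and as many as its dimension, then `W` has elements with nonzero reduction having prescribed
coefficients `δ` there.
-/

set_option autoImplicit false

noncomputable section

namespace FLTAgent.FlatModel

open FLTAgent.GoodRed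

variable {L k : Type*} [Field L] [Field k] {A : ValuationSubring L} {π : A →+* k}
  {F Fb : Type*} [Field F] [Algebra L F] [Field Fb] [Algebra k Fb]

/-- Coefficient functionals compatible with reduction on a subspace. -/
def CoCompat (D : RedDatum A π F Fb) (W : Submodule L F) {ι : Type*} (co : ι → F →ₗ[L] L)
    (cob : ι → Fb →ₗ[k] k) : Prop :=
  ∀ y ∈ W, ∀ z, D.Red y z → ∀ i, ∃ h : co i y ∈ A, π ⟨co i y, h⟩ = cob i z

variable {D : RedDatum A π F Fb} {ι : Type*} {co : ι → F →ₗ[L] L} {cob : ι → Fb →ₗ[k] k}

theorem pivot_eq_zero {W : Submodule L F} (hco : CoCompat D W co cob) {P : Finset ι}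
    (hinj : ∀ z ∈ D.redSpace W, (∀ i ∈ P, cob i z = 0) → z = 0)
    {y : F} (hy : y ∈ W) (h0 : ∀ i ∈ P, co i y = 0) : y = 0 := by
  by_contra hy0
  obtain ⟨t, z, ht, hz, hred⟩ := D.exists_scale hy0
  refine hz (hinj z ⟨t • y, W.smul_mem t hy, hred⟩ fun i hi => ?_)
  obtain ⟨h, hi'⟩ := hco _ (W.smul_mem t hy) _ hred i
  rw [← hi', ← map_zero π]
  exact congrArg π (Subtype.ext (by simp [h0 i hi]))

theorem exists_pivot [DecidableEq ι] {W : Submodule L F}
    [Module.Finite L W] (hco : CoCompat D W co cob) {P : Finset ι}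
    (hinj : ∀ z ∈ D.redSpace W, (∀ i ∈ P, cob i z = 0) → z = 0)
    (hcard : P.card ≤ Module.finrank L W) {p : ι} (hp : p ∈ P) :
    ∃ y ∈ W, ∃ z, D.Red y z ∧ ∀ i ∈ P, co i y = if i = p then 1 else 0 := by
  classical
  let g : D.redSpace W →ₗ[k] (↥P → k) :=
    LinearMap.pi fun i : ↥P => (cob i).comp (D.redSpace W).subtype
  have hg : Function.Injective g := (injective_iff_map_eq_zero g).2 fun z hz =>
    Subtype.ext (hinj z z.2 fun i hi => congrFun hz ⟨i, hi⟩)
  have hrange : LinearMap.range g = ⊤ := by
    refine Submodule.eq_top_of_finrank_eq (le_antisymm (Submodule.finrank_le _) ?_)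
    rw [LinearMap.finrank_range_of_inj hg, D.finrank_redSpace, Module.finrank_fintype_fun_eq_card,
      Fintype.card_coe]
    exact hcard
  choose z hz using fun q : ↥P => LinearMap.range_eq_top.1 hrange (Pi.single q 1)
  choose y hyW hyr using fun q => (z q).2
  choose hmem hval using fun q i => hco _ (hyW q) _ (hyr q) i
  let B : Matrix ↥P ↥P A := fun i q => ⟨co i (y q), hmem q i⟩
  have hB : π.mapMatrix B = 1 := by
    refine Matrix.ext fun i q => ?_
    show π ⟨co i (y q), hmem q i⟩ = (1 : Matrix ↥P ↥P k) i q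
    rw [hval q i]
    have := congrFun (hz q) i
    rw [Pi.single_apply] at this
    rw [Matrix.one_apply]
    exact this
  have hdet : IsUnit B.det := by
    have h1 : π B.det = 1 := by rw [RingHom.map_det, hB, Matrix.det_one]
    refine IsLocalRing.notMem_maximalIdeal.1 fun hm => ?_
    have h2 : π B.det = 0 := (D.isResidue.eq_zero_iff _).2
      (ValuationSubring.coe_mem_nonunits_iff.2 hm)
    rw [h1] at h2
    exact one_ne_zero h2
  refine ⟨∑ q, ((B⁻¹ q ⟨p, hp⟩ : A) : L) • y q,
    Submodule.sum_mem _ fun q _ => W.smul_mem _ (hyW q), _,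
    RedDatum.red_sum_smul hyr fun q => B⁻¹ q ⟨p, hp⟩, fun i hi => ?_⟩
  have h := congrArg (fun M : Matrix ↥P ↥P A => ((M ⟨i, hi⟩ ⟨p, hp⟩ : A) : L))
    (Matrix.mul_nonsing_inv B hdet)
  simp only [Matrix.mul_apply, Matrix.one_apply, Subtype.mk.injEq, AddSubmonoidClass.coe_finsetSum,
    MulMemClass.coe_mul] at h
  rw [map_sum]
  simp only [map_smul, smul_eq_mul]
  refine (Finset.sum_congr rfl fun q _ => mul_comm _ _).trans (h.trans ?_)
  split <;> rfl

/-- Some of a separating finite family of functionals form coordinates. -/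
theorem exists_pivot_subset [DecidableEq ι] (V : Submodule k Fb) [Module.Finite k V]
    (s : Finset ι) (hs : ∀ z ∈ V, (∀ i ∈ s, cob i z = 0) → z = 0) :
    ∃ P ⊆ s, P.card = Module.finrank k V ∧ ∀ z ∈ V, (∀ i ∈ P, cob i z = 0) → z = 0 := by
  classical
  let φ : ↥s → Module.Dual k V := fun i => (cob i).comp V.subtype
  obtain ⟨b, hb, hspan, hli⟩ := exists_linearIndependent k (Set.range φ)
  have htop : Submodule.span k (Set.range φ) = ⊤ := by
    have h1 : (Submodule.span k (Set.range φ)).dualCoannihilator = ⊥ := by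
      rw [Submodule.eq_bot_iff]
      intro z hz
      refine Subtype.ext (hs z z.2 fun i hi => ?_)
      exact (Submodule.mem_dualCoannihilator z).1 hz _ (Submodule.subset_span ⟨⟨i, hi⟩, rfl⟩)
    rw [← Subspace.dualCoannihilator_dualAnnihilator_eq (W := Submodule.span k (Set.range φ)), h1,
      Submodule.dualAnnihilator_bot]
  choose f hf using fun x : b => hb x.2
  have hfinj : Function.Injective f := fun x y h => Subtype.ext (by rw [← hf x, ← hf y, h])
  have : Finite b := Finite.of_injective f hfinj
  let := Fintype.ofFinite b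
  refine ⟨(Finset.univ.image f).image Subtype.val, ?_, ?_, fun z hzV hz => ?_⟩
  · intro i hi
    obtain ⟨x, -, rfl⟩ := Finset.mem_image.1 hi
    exact x.2
  · rw [Finset.card_image_of_injective _ Subtype.val_injective,
      Finset.card_image_of_injective _ hfinj, Finset.card_univ, ← finrank_span_eq_card hli,
      Subtype.range_coe, hspan, htop, finrank_top, Subspace.dual_finrank_eq]
  · refine hs z hzV fun i hi => ?_
    have hmem : φ ⟨i, hi⟩ ∈ Submodule.span k b := by
      rw [hspan]; exact Submodule.subset_span ⟨_, rfl⟩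
    have hle : Submodule.span k b ≤ LinearMap.ker (Module.Dual.eval k V ⟨z, hzV⟩) := by
      rw [Submodule.span_le]
      intro x hx
      rw [SetLike.mem_coe, LinearMap.mem_ker, Module.Dual.eval_apply, show x = φ (f ⟨x, hx⟩) from
        (hf ⟨x, hx⟩).symm]
      exact hz _ (Finset.mem_image_of_mem _ (Finset.mem_image_of_mem _ (Finset.mem_univ _)))
    exact hle hmem

end FLTAgent.FlatModel
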