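import Fermat.Agent.GoodRed.RRTools
import Fermat.Agent.FunctionField.Riemann

/-!
# Elementary consequences of the Riemann-Roch equality in large degree

Variation of `l(D)` under adding or removing a general point, and effective divisors of degree `g`.
-/

set_option autoImplicit false
set_option linter.unusedSectionVars false

noncomputable section

open AlgebraicCurve

namespace FLTAgent.FlatModel

open FLTAgent.FunctionField FLTAgent.GoodRed

variable {K F : Type*} [Field K] [Field F] [Algebra K F] [IsFunctionField K F]

theorem ell_nonneg (D : Divisor K F) : 0 ≤ ell D := Int.natCast_nonneg _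

theorem ell_eq_zero_iff {D : Divisor K F} : ell D = 0 ↔ riemannRochSpace D = ⊥ := by
  rw [ell, Int.natCast_eq_zero, Submodule.finrank_eq_zero]

theorem eq_zero_of_ell_eq_zero {D : Divisor K F} (h : ell D = 0) {f : F}
    (hf : f ∈ riemannRochSpace D) : f = 0 := by
  rw [ell_eq_zero_iff.1 h] at hf
  exact (Submodule.mem_bot K).1 hf

theorem exists_ne_zero_of_ell_pos {D : Divisor K F} (h : 0 < ell D) :
    ∃ f ∈ riemannRochSpace D, f ≠ 0 := by
  refine Submodule.exists_mem_ne_zero_of_ne_bot fun hb => ?_
  rw [ell_eq_zero_iff.2 hb] at h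
  exact lt_irrefl _ h

/-- Linearly equivalent divisors have the same dimension. -/
theorem ell_eq_of_sub_eq {D E : Divisor K F} {f : F} (hf : f ≠ 0) (h : E - D = divisorOf f) :
    ell D = ell E := by
  rw [← ell_sub_divisorOf E hf, ← h, sub_sub_cancel]

variable [IsAlgClosed K]

theorem ell_add_single_le (D : Divisor K F) (P : Place K F) :
    ell (D + Finsupp.single P 1) ≤ ell D + 1 := by
  have h := finrank_riemannRochSpace_add_le D
    (E := Finsupp.single P 1) (Finsupp.single_nonneg.2 zero_le_one)
  rw [degree_single_one] at h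
  exact h

theorem le_ell_sub_single (D : Divisor K F) (P : Place K F) :
    ell D - 1 ≤ ell (D - Finsupp.single P 1) := by
  have h := ell_add_single_le (D - Finsupp.single P 1) P
  rw [sub_add_cancel] at h
  omega

theorem ell_sub_single_le (D : Divisor K F) (P : Place K F) :
    ell (D - Finsupp.single P 1) ≤ ell D :=
  ell_mono (sub_le_self D (Finsupp.single_nonneg.2 zero_le_one))

theorem ell_eq_zero_of_degree_neg {D : Divisor K F} (h : Divisor.degree D < 0) : ell D = 0 := by
  rw [ell_eq_zero_iff, Submodule.eq_bot_iff]
  intro f hf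
  by_contra hf0
  have h0 := degree_nonneg ((mem_rr_iff_divisorOf hf0).1 hf)
  rw [map_add, degree_divisorOf] at h0
  omega

variable {g c : ℤ}

/-- Riemann's inequality, from the equality in large degree. -/
theorem riemann_le_ell (h : RRLarge K F g c) (D : Divisor K F) :
    Divisor.degree D + 1 - g ≤ ell D := by
  obtain ⟨v⟩ := exists_place (K := K) (F := F)
  obtain ⟨n, hn⟩ : ∃ n : ℕ, c ≤ Divisor.degree D + n :=
    ⟨(c - Divisor.degree D).toNat, by omega⟩
  have hE : (0 : Divisor K F) ≤ Finsupp.single v (n : ℤ) :=
    Finsupp.single_nonneg.2 (Int.natCast_nonneg n)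
  have hd : Divisor.degree (Finsupp.single v (n : ℤ)) = n := by
    rw [Divisor.degree_single, deg_eq_one, Nat.cast_one, mul_one]
  have h1 := finrank_riemannRochSpace_add_le D hE
  have h2 := h (D + Finsupp.single v (n : ℤ)) (by rw [map_add, hd]; exact hn)
  rw [map_add, hd] at h2
  rw [hd] at h1
  show _ ≤ ((Module.finrank K (riemannRochSpace D) : ℕ) : ℤ)
  omega

/-- Away from finitely many points, adding a point to a special divisor does not change `l`. -/
theorem finite_setOf_ell_lt (h : RRLarge K F g c) {D : Divisor K F}
    (hD : ell D ≠ Divisor.degree D + 1 - g) :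
    {P : Place K F | ell D < ell (D + Finsupp.single P 1)}.Finite := by
  classical
  by_contra hinf
  obtain ⟨s, hs, hcard⟩ := Set.Infinite.exists_subset_card_eq hinf
    ((c - Divisor.degree D).toNat + 1)
  have key : ∀ u : Finset (Place K F), (↑u ⊆ {P : Place K F | ell D < ell (D + Finsupp.single P 1)}) →
      ell D + u.card ≤ ell (D + ∑ P ∈ u, Finsupp.single P 1) ∧
        ∀ P, (∑ Q ∈ u, Finsupp.single Q (1 : ℤ)) P = if P ∈ u then 1 else 0 := by
    intro u
    induction u using Finset.induction_on with
    | empty => intro _; simp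
    | insert P u hP ih =>
      intro hu
      rw [Finset.coe_insert, Set.insert_subset_iff] at hu
      obtain ⟨ih1, ih2⟩ := ih hu.2
      refine ⟨?_, fun Q => ?_⟩
      · have hlt : riemannRochSpace (D + ∑ Q ∈ u, Finsupp.single Q (1 : ℤ)) <
            riemannRochSpace (D + ∑ Q ∈ insert P u, Finsupp.single Q (1 : ℤ)) := by
          refine lt_of_le_of_ne (riemannRochSpace_mono ?_) fun he => ?_
          · rw [Finset.sum_insert hP]
            exact add_le_add_right (le_add_of_nonneg_left (Finsupp.single_nonneg.2 zero_le_one)) D
          obtain ⟨f, hf, hfn⟩ := SetLike.exists_of_lt (lt_of_le_of_ne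
            (riemannRochSpace_mono (le_add_of_nonneg_right
              (Finsupp.single_nonneg.2 zero_le_one) : D ≤ D + Finsupp.single P 1))
            fun h' => (ne_of_lt (show ell D < ell (D + Finsupp.single P 1) from hu.1))
              (by rw [ell, ell, h']))
          have hf' : f ∈ riemannRochSpace (D + ∑ Q ∈ u, Finsupp.single Q (1 : ℤ)) := by
            rw [he, Finset.sum_insert hP]
            refine riemannRochSpace_mono ?_ hf
            exact add_le_add_right (le_add_of_nonneg_right (Finset.sum_nonneg fun Q _ =>
              Finsupp.single_nonneg.2 zero_le_one)) D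
          refine hfn (mem_rr_iff.2 fun w => ?_)
          rcases eq_or_ne w P with rfl | hw
          · have := mem_rr_iff.1 hf' w
            rwa [Finsupp.add_apply, ih2, if_neg hP, add_zero] at this
          · have := mem_rr_iff.1 hf w
            rwa [Finsupp.add_apply, Finsupp.single_eq_of_ne hw, add_zero] at this
        have := Submodule.finrank_lt_finrank_of_lt hlt
        rw [Finset.card_insert_of_notMem hP, Nat.cast_add, Nat.cast_one]
        simp only [ell] at ih1 ⊢
        omega
      · rw [Finset.sum_insert hP, Finsupp.add_apply, ih2]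
        rcases eq_or_ne Q P with rfl | hQ
        · simp [hP]
        · simp [Finsupp.single_eq_of_ne hQ, hQ]
  obtain ⟨h1, -⟩ := key s hs
  have hdeg : Divisor.degree (∑ P ∈ s, Finsupp.single P (1 : ℤ)) = s.card := by
    rw [map_sum, Finset.sum_congr rfl fun P _ => degree_single_one P]
    simp
  have h2 := finrank_riemannRochSpace_add_le D (E := ∑ P ∈ s, Finsupp.single P (1 : ℤ))
    (Finset.sum_nonneg fun Q _ => Finsupp.single_nonneg.2 zero_le_one)
  have h3 := h (D + ∑ P ∈ s, Finsupp.single P (1 : ℤ)) (by rw [map_add, hdeg, hcard]; omega)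
  rw [map_add, hdeg] at h3
  rw [hdeg] at h2
  simp only [ell] at h1 hD
  omega

/-- Away from finitely many points, removing a point lowers a positive `l`. -/
theorem exists_finite_forall_ell_sub_single {D : Divisor K F} (h : 0 < ell D) :
    ∃ s : Set (Place K F), s.Finite ∧
      ∀ P ∉ s, ell (D - Finsupp.single P 1) = ell D - 1 := by
  obtain ⟨f, hf, hf0⟩ := exists_ne_zero_of_ell_pos h
  refine ⟨↑(divisorOf f + D).support, Finset.finite_toSet _, fun P hP => ?_⟩
  rw [Finset.mem_coe, Finsupp.notMem_support_iff, Finsupp.add_apply, divisorOf_apply] at hP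
  have hlt : riemannRochSpace (D - Finsupp.single P 1) < riemannRochSpace D := by
    refine lt_of_le_of_ne (riemannRochSpace_mono (sub_le_self D
      (Finsupp.single_nonneg.2 zero_le_one))) fun he => ?_
    rw [← he] at hf
    have := (mem_rr_iff.1 hf P).le_ord hf0
    rw [Finsupp.sub_apply, Finsupp.single_eq_same] at this
    omega
  have h1 := Submodule.finrank_lt_finrank_of_lt hlt
  have h2 := le_ell_sub_single D P
  simp only [ell] at h2 ⊢
  omega

/-- An effective divisor `E` with `L(E - P) = 0` is alone in its class. -/
theorem eq_of_effective_of_ell_sub_single {E E' : Divisor K F} {P : Place K F} (hE : 0 ≤ E)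
    (hE' : 0 ≤ E') (h0 : ell (E - Finsupp.single P 1) = 0) {f : F} (hf : f ≠ 0)
    (h : E' - E = divisorOf f) : E' = E := by
  have hone : (1 : F) ∈ riemannRochSpace E := one_mem_rr hE
  have hfm : f ∈ riemannRochSpace E := by
    rw [mem_rr_iff_divisorOf hf, ← h, sub_add_cancel]
    exact hE'
  have hle : ell E ≤ 1 := by
    have := le_ell_sub_single E P
    omega
  have hspan : Submodule.span K {(1 : F)} = riemannRochSpace E := by
    refine Submodule.eq_of_le_of_finrank_le (by simpa using hone) ?_
    rw [finrank_span_singleton one_ne_zero]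
    simp only [ell] at hle
    omega
  rw [← hspan] at hfm
  obtain ⟨a, rfl⟩ := Submodule.mem_span_singleton.1 hfm
  rw [sub_eq_iff_eq_add] at h
  rw [h]
  ext w
  simp [Algebra.smul_def]

/-- An effective divisor in a class of degree `g`. -/
theorem exists_effective_sub_eq (h : RRLarge K F g c) {D : Divisor K F}
    (hD : Divisor.degree D = g) :
    ∃ (E : Divisor K F) (f : F), f ≠ 0 ∧ 0 ≤ E ∧ E - D = divisorOf f ∧ Divisor.degree E = g := by
  obtain ⟨f, hf, hf0⟩ := exists_ne_zero_of_ell_pos (D := D) (by
    have := riemann_le_ell h D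
    omega)
  refine ⟨divisorOf f + D, f, hf0, (mem_rr_iff_divisorOf hf0).1 hf, add_sub_cancel_right _ _, ?_⟩
  rw [map_add, degree_divisorOf, zero_add, hD]

end FLTAgent.FlatModel
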