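import Fermat.Prelude.Def_ModularCurve_ArithmeticGalois
import Fermat.Agent.GoodRed.Deuring
import Fermat.Agent.GoodRed.LiftTools
import Fermat.Agent.FlatModel.CurveRR
import Fermat.Agent.FlatModel.CurvePivot

/-!
# A curve with good reduction given by series at a rational cusp

`F = ℚ̄ · F₀ ⊆ ℚ̄((q))`, the residual field `Fb ⊆ k((q))`, reduction of functions is reduction of
coefficients, and there is a map of places compatible with reduction.
-/

set_option autoImplicit false
set_option linter.unusedSectionVars false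

noncomputable section

open AlgebraicCurve ModularCurve

namespace FLTAgent.FlatModel

open FLTAgent.FunctionField FLTAgent.GoodRed

local notation "Qbar" => AlgebraicClosure ℚ

section IsInfPlace

variable {K : Type*} [Field K] {G : IntermediateField K (LaurentSeries K)}

/-- `v` is the place of the series: its order is the order of the series. -/
def IsInfPlace (v : Place K G) : Prop :=
  ∀ f : G, f ≠ 0 → v.ord f = (f : LaurentSeries K).order

/-- The coefficient of `q⁻ⁿ`. -/
def co (n : ℤ) : G →ₗ[K] K where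
  toFun f := (f : LaurentSeries K).coeff (-n)
  map_add' f g := by simp
  map_smul' a f := by
    show ((a • f : G) : LaurentSeries K).coeff (-n) = a • _
    rw [IntermediateField.coe_smul, Algebra.smul_def, algebraMap_laurentSeries_eq_single,
      HahnSeries.coeff_single_zero_mul, smul_eq_mul]

local instance (priority := high) instCoeFunCoCDatumIn {K : Type*} [Field K]
    (G : IntermediateField K (LaurentSeries K)) : CoeFun (G →ₗ[K] K) fun _ => G → K :=
  DFunLike.toCoeFun

local instance (priority := high) instAlgebraLaurentCDatumIn {K : Type*} [Field K]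
    (F : IntermediateField K (LaurentSeries K)) : Algebra K F :=
  SubalgebraClass.toAlgebra F

local instance (priority := high) instSMulLaurentCDatumIn {K : Type*} [Field K]
    (F : IntermediateField K (LaurentSeries K)) : SMul K F :=
  (SubalgebraClass.toAlgebra F).toSMul

local instance (priority := high) instModuleLaurentCDatumIn {K : Type*} [Field K]
    (F : IntermediateField K (LaurentSeries K)) : Module K F :=
  (SubalgebraClass.toAlgebra F).toModule

@[simp]
theorem co_apply (n : ℤ) (f : G) : co n f = (f : LaurentSeries K).coeff (-n) := rfl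

variable {v : Place K G}

theorem IsInfPlace.co_eq_zero_of_mem_rr (hv : IsInfPlace v) {D : Divisor K G} {f : G}
    (hf : f ∈ riemannRochSpace D) {n : ℤ} (hn : D v < n) : co n f = 0 := by
  rcases eq_or_ne f 0 with rfl | hf0
  · simp
  have h := (mem_rr_iff.1 hf v).le_ord hf0
  rw [hv f hf0] at h
  exact HahnSeries.coeff_eq_zero_of_lt_order (by omega)

/-- Vanishing of the top coefficients lowers the allowed pole order. -/
theorem IsInfPlace.mem_rr_of_co_eq_zero (hv : IsInfPlace v) {D : Divisor K G} {f : G}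
    (hf : f ∈ riemannRochSpace D) {m : ℤ} (hm : m ≤ D v)
    (h : ∀ n, m < n → n ≤ D v → co n f = 0) :
    f ∈ riemannRochSpace (D - Finsupp.single v (D v - m)) := by
  rcases eq_or_ne f 0 with rfl | hf0
  · exact zero_mem _
  refine mem_rr_iff.2 fun w => ?_
  rcases eq_or_ne w v with rfl | hw
  · refine ordGe_of_le_ord ?_
    rw [Finsupp.sub_apply, Finsupp.single_eq_same, hv f hf0]
    by_contra hlt
    push Not at hlt
    have h1 := (mem_rr_iff.1 hf w).le_ord hf0
    rw [hv f hf0] at h1
    have h2 := h (-(f : LaurentSeries K).order) (by omega) (by omega)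
    rw [co_apply, neg_neg] at h2
    exact HahnSeries.coeff_order_eq_zero.not.2 (fun h0 => hf0 (Subtype.ext h0)) h2
  · rw [Finsupp.sub_apply, Finsupp.single_eq_of_ne hw, sub_zero]
    exact mem_rr_iff.1 hf w

/-- The span of `riemannRochSpace` at a place is bounded by `D`, so only zero has all coefficients
in the range vanish if the remaining space is zero. -/
theorem IsInfPlace.eq_zero_of_co_eq_zero [IsFunctionField K G] (hv : IsInfPlace v)
    {D : Divisor K G} {m : ℤ} (hm : m ≤ D v)
    (h0 : ell (D - Finsupp.single v (D v - m)) = 0) {f : G} (hf : f ∈ riemannRochSpace D)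
    (h : ∀ n, m < n → n ≤ D v → co n f = 0) : f = 0 :=
  eq_zero_of_ell_eq_zero h0 (hv.mem_rr_of_co_eq_zero hf hm h)

end IsInfPlace

local instance (priority := high) instCoeFunCoCDatum {K : Type*} [Field K]
    (G : IntermediateField K (LaurentSeries K)) : CoeFun (G →ₗ[K] K) fun _ => G → K :=
  DFunLike.toCoeFun

local instance (priority := high) instAlgebraLaurentCDatum {K : Type*} [Field K]
    (F : IntermediateField K (LaurentSeries K)) : Algebra K F :=
  SubalgebraClass.toAlgebra F

local instance (priority := high) instSMulLaurentCDatum {K : Type*} [Field K]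
    (F : IntermediateField K (LaurentSeries K)) : SMul K F :=
  (SubalgebraClass.toAlgebra F).toSMul

local instance (priority := high) instModuleLaurentCDatum {K : Type*} [Field K]
    (F : IntermediateField K (LaurentSeries K)) : Module K F :=
  (SubalgebraClass.toAlgebra F).toModule

/-- `y` is regular wherever `x` is. -/
def RegAway {K G : Type*} [Field K] [Field G] [Algebra K G] (x y : G) : Prop :=
  ∀ v : Place K G, 0 ≤ v.ord x → y ∈ v.toValuationSubring

theorem RegAway.mul {K G : Type*} [Field K] [Field G] [Algebra K G] {x y y' : G}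
    (h : RegAway (K := K) x y) (h' : RegAway (K := K) x y') : RegAway (K := K) x (y * y') :=
  fun v hv => mul_mem (h v hv) (h' v hv)

variable (F₀ : IntermediateField ℚ (LaurentSeries ℚ)) (A : ValuationSubring (AlgebraicClosure ℚ))

/-- The geometric function field. -/
abbrev FBar : IntermediateField (AlgebraicClosure ℚ) (LaurentSeries (AlgebraicClosure ℚ)) :=
  laurentBaseChange (AlgebraicClosure ℚ) F₀

variable (Fb : IntermediateField (IsLocalRing.ResidueField A)
  (LaurentSeries (IsLocalRing.ResidueField A)))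

/-- Good reduction at `A` of the curve of `F₀`, with reduction of expansions at the cusp. -/
structure CurveDatum [IsFunctionField (AlgebraicClosure ℚ) ↥(FBar F₀)]
    [IsFunctionField (IsLocalRing.ResidueField A) ↥Fb] where
  /-- reduction of functions -/
  D : RedDatum A (IsLocalRing.residue A) ↥(FBar F₀) ↥Fb
  /-- reduction of places -/
  R : PlaceRed D
  /-- the genus -/
  g : ℕ
  /-- a bound from which Riemann-Roch is an equality -/
  c : ℤ
  hL : RRLarge (AlgebraicClosure ℚ) ↥(FBar F₀) g c
  hk : RRLarge (IsLocalRing.ResidueField A) ↥Fb g c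
  /-- the cusp -/
  inf : Place (AlgebraicClosure ℚ) ↥(FBar F₀)
  hinf : IsInfPlace inf
  /-- the reduced cusp -/
  infb : Place (IsLocalRing.ResidueField A) ↥Fb
  hinfb : IsInfPlace infb
  /-- a coordinate with a pole at the cusp -/
  x : ↥(FBar F₀)
  /-- its reduction -/
  xb : ↥Fb
  red_x : D.Red x xb
  ord_x : inf.ord x < 0
  ord_xb : infb.ord xb = inf.ord x
  co_red : ∀ y z, D.Red y z → RegAway (K := AlgebraicClosure ℚ) x y → ∀ n : ℤ,
    ∃ h : co n y ∈ A, IsLocalRing.residue A ⟨co n y, h⟩ = co n z

variable {F₀ A Fb}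

/-- The Galois action on the geometric function field. -/
abbrev gal (F₀ : IntermediateField ℚ (LaurentSeries ℚ))
    (σ : AlgebraicClosure ℚ ≃ₐ[ℚ] AlgebraicClosure ℚ) :
    SemilinearAut (AlgebraicClosure ℚ) ↥(FBar F₀) :=
  arithmeticGalois F₀ σ

theorem co_gal (σ : AlgebraicClosure ℚ ≃ₐ[ℚ] AlgebraicClosure ℚ) (n : ℤ) (f : FBar F₀) :
    co n (gal F₀ σ • f) = σ (co n f) :=
  rfl

theorem gal_smul_isInfPlace [IsFunctionField Qbar ↥(FBar F₀)] {v : Place Qbar ↥(FBar F₀)}
    (hv : IsInfPlace v) (σ : AlgebraicClosure ℚ ≃ₐ[ℚ] AlgebraicClosure ℚ) :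
    gal F₀ σ • v = v := by
  refine Eq.symm (place_eq_of_le fun f hf => ?_)
  rcases eq_or_ne f 0 with rfl | hf0
  · exact zero_mem _
  rw [mem_iff_ord_nonneg hf0] at hf ⊢
  obtain ⟨y, rfl⟩ : ∃ y, gal F₀ σ • y = f := ⟨(gal F₀ σ)⁻¹ • f, smul_inv_smul _ _⟩
  have hy : y ≠ 0 := fun h => hf0 (by rw [h, smul_zero])
  rw [SemilinearAut.ord_smul, hv y hy]
  rw [hv _ hf0] at hf
  refine hf.trans (le_of_eq ?_)
  have hne : (y : LaurentSeries Qbar) ≠ 0 := fun h => hy (Subtype.ext h)
  have hne' : ((gal F₀ σ • y : FBar F₀) : LaurentSeries Qbar) ≠ 0 := fun h => hf0 (Subtype.ext h)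
  refine le_antisymm (HahnSeries.order_le_of_coeff_ne_zero ?_)
    (HahnSeries.order_le_of_coeff_ne_zero ?_)
  · show σ ((y : LaurentSeries Qbar).coeff _) ≠ 0
    exact (map_ne_zero σ).2 (HahnSeries.coeff_order_eq_zero.not.2 hne)
  · intro h
    have h1 := HahnSeries.coeff_order_eq_zero.not.2 hne'
    exact h1 (show σ ((y : LaurentSeries Qbar).coeff _) = 0 by rw [h, map_zero])

theorem gal_smul_mem_rr [IsFunctionField Qbar ↥(FBar F₀)]
    (σ : AlgebraicClosure ℚ ≃ₐ[ℚ] AlgebraicClosure ℚ) {D : Divisor Qbar ↥(FBar F₀)}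
    {f : FBar F₀} (hf : f ∈ riemannRochSpace D) :
    gal F₀ σ • f ∈ riemannRochSpace (gal F₀ σ • D) := by
  rcases eq_or_ne f 0 with rfl | hf0
  · rw [smul_zero]; exact zero_mem _
  refine mem_rr_iff.2 fun w => ordGe_of_le_ord ?_
  have h := (mem_rr_iff.1 hf ((gal F₀ σ)⁻¹ • w)).le_ord hf0
  rw [← SemilinearAut.ord_smul (gal F₀ σ), smul_inv_smul] at h
  rw [SemilinearAut.divisor_smul_apply]
  exact h

namespace CurveDatum

variable [IsFunctionField Qbar ↥(FBar F₀)] [IsFunctionField (IsLocalRing.ResidueField A) ↥Fb]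
  (C : CurveDatum F₀ A Fb)

/-- Reduction of divisors. -/
def red (D : Divisor Qbar ↥(FBar F₀)) : Divisor (IsLocalRing.ResidueField A) ↥Fb :=
  Finsupp.mapDomain C.R.r D

theorem red_add (D E : Divisor Qbar ↥(FBar F₀)) : C.red (D + E) = C.red D + C.red E :=
  Finsupp.mapDomain_add

theorem red_sub (D E : Divisor Qbar ↥(FBar F₀)) : C.red (D - E) = C.red D - C.red E :=
  Finsupp.mapDomain_sub

theorem red_single (P : Place Qbar ↥(FBar F₀)) (n : ℤ) :
    C.red (Finsupp.single P n) = Finsupp.single (C.R.r P) n :=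
  Finsupp.mapDomain_single

theorem red_nonneg {E : Divisor Qbar ↥(FBar F₀)} (hE : 0 ≤ E) : 0 ≤ C.red E :=
  mapDomain_nonneg _ hE

variable [IsAlgClosed (IsLocalRing.ResidueField A)]

theorem degree_red (D : Divisor Qbar ↥(FBar F₀)) :
    Divisor.degree (C.red D) = Divisor.degree D :=
  degree_mapDomain _ _

theorem redSpace_le_red (D : Divisor Qbar ↥(FBar F₀)) :
    C.D.redSpace (riemannRochSpace D) ≤ riemannRochSpace (C.red D) :=
  C.R.redSpace_le D

theorem ell_le_ell_red (D : Divisor Qbar ↥(FBar F₀)) : ell D ≤ ell (C.red D) := by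
  refine Int.ofNat_le.2 ?_
  rw [← C.D.finrank_redSpace]
  exact Submodule.finrank_mono (C.redSpace_le_red D)

theorem redSpace_eq_red {D : Divisor Qbar ↥(FBar F₀)} (hD : C.c ≤ Divisor.degree D) :
    C.D.redSpace (riemannRochSpace D) = riemannRochSpace (C.red D) :=
  C.R.redSpace_eq C.hL C.hk hD

/-- Principal divisors reduce to principal divisors. -/
theorem exists_red_divisorOf {f : FBar F₀} (hf : f ≠ 0) :
    ∃ z : Fb, z ≠ 0 ∧ C.red (divisorOf f) = divisorOf z := by
  obtain ⟨t, z, ht, hz, hred⟩ := C.D.exists_scale hf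
  refine ⟨z, hz, ?_⟩
  have h := C.R.map_divisorOf _ _ hred hz
  have he : divisorOf (K := Qbar) (t • f) = divisorOf f := by
    rw [Algebra.smul_def, divisorOf_mul ((map_ne_zero _).2 ht) hf, add_eq_right]
    ext w
    simp
  rwa [he] at h

theorem x_ne_zero : C.x ≠ 0 := fun h => by
  have := C.ord_x
  rw [h, Place.ord_zero] at this
  exact lt_irrefl _ this

theorem xb_ne_zero : C.xb ≠ 0 := fun h => by
  have := C.ord_x
  rw [← C.ord_xb, h, Place.ord_zero] at this
  exact lt_irrefl _ this

/-- Functions with poles only at poles of the coordinate are regular away from them. -/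
theorem regAway_of_mem_rr {D : Divisor Qbar ↥(FBar F₀)} {y : FBar F₀}
    (hy : y ∈ riemannRochSpace D) (hD : ∀ v, 0 ≤ v.ord C.x → D v ≤ 0) :
    RegAway (K := Qbar) C.x y := fun v hv =>
  mem_iff_ordGe_zero.2 ((mem_rr_iff.1 hy v).mono (by have := hD v hv; omega))

theorem coCompat {W : Submodule Qbar ↥(FBar F₀)}
    (hW : ∀ y ∈ W, RegAway (K := Qbar) C.x y) :
    CoCompat C.D W (co : ℤ → _) (co : ℤ → _) :=
  fun y hy z hr n => C.co_red y z hr (hW y hy) n

theorem r_inf : C.R.r C.inf = C.infb := by
  classical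
  by_contra hne
  -- the pole divisor of the coordinate
  set P : Divisor Qbar ↥(FBar F₀) :=
    (divisorOf C.x).mapRange (fun n : ℤ => max (-n) 0) (by simp) with hP
  have hPv : ∀ v, P v = max (-(v.ord C.x)) 0 := fun v => by
    rw [hP, Finsupp.mapRange_apply, divisorOf_apply]
  have hP0 : 0 ≤ P := fun v => by rw [Finsupp.zero_apply, hPv]; exact le_max_right _ _
  set m : ℤ := -(C.inf.ord C.x) with hm
  have hm1 : 1 ≤ m := by have := C.ord_x; omega
  have hPinf : P C.inf = m := by rw [hPv]; exact max_eq_left (by omega)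
  have hdegP : m ≤ Divisor.degree P := by
    have h := degree_nonneg (E := P - Finsupp.single C.inf m) (fun v => by
      rcases eq_or_ne v C.inf with rfl | hv
      · simp [hPinf]
      · simpa [Finsupp.single_eq_of_ne hv] using hP0 v)
    rw [map_sub, Divisor.degree_single, deg_eq_one, Nat.cast_one, mul_one] at h
    omega
  -- its reduction has at least as high a multiplicity at the reduced cusp
  have hPb : m ≤ C.red P C.infb := by
    have h0 : (0 : Divisor Qbar ↥(FBar F₀)) ≤ P + divisorOf C.x := fun v => by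
      rw [Finsupp.zero_apply, Finsupp.add_apply, hPv, divisorOf_apply]
      omega
    have h := C.red_nonneg h0 C.infb
    have hx : C.red (divisorOf C.x) = divisorOf C.xb :=
      C.R.map_divisorOf _ _ C.red_x C.xb_ne_zero
    rw [C.red_add, hx, Finsupp.zero_apply, Finsupp.add_apply, divisorOf_apply, C.ord_xb] at h
    omega
  obtain ⟨N, hN⟩ : ∃ N : ℕ, C.c + 1 + 1 ≤ N := ⟨(C.c + 2).toNat, by omega⟩
  set D : Divisor Qbar ↥(FBar F₀) := N • P - Finsupp.single C.inf 1 with hD
  have hdeg : Divisor.degree D = N * Divisor.degree P - 1 := by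
    rw [hD, map_sub, map_nsmul, degree_single_one, nsmul_eq_mul]
  have hdeg1 : C.c + 1 ≤ Divisor.degree D := by
    rw [hdeg]; nlinarith [Int.natCast_nonneg N]
  have hdeg' : C.c + 1 ≤ Divisor.degree (C.red D) := by rwa [C.degree_red]
  obtain ⟨z, hz, hz0, hord⟩ := C.hk.exists_ord_eq_neg hdeg' C.infb
  rw [← C.redSpace_eq_red (by omega)] at hz
  obtain ⟨y, hy, hyz⟩ := hz
  have hreg : RegAway (K := Qbar) C.x y := C.regAway_of_mem_rr hy fun v hv => by
    have hv' : v ≠ C.inf := fun h => by have := C.ord_x; rw [h] at hv; omega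
    rw [hD, Finsupp.sub_apply, Finsupp.smul_apply, Finsupp.single_eq_of_ne hv', hPv,
      max_eq_right (by omega)]
    simp
  have hlow : ∀ n : ℤ, D C.inf < n → co n z = 0 := by
    intro n hn
    obtain ⟨h, h'⟩ := C.co_red y z hyz hreg n
    rw [← h', show (⟨co n y, h⟩ : A) = 0 from Subtype.ext (C.hinf.co_eq_zero_of_mem_rr hy hn),
      map_zero]
  have hDinf : D C.inf = N * m - 1 := by
    rw [hD, Finsupp.sub_apply, Finsupp.smul_apply, hPinf, Finsupp.single_eq_same, nsmul_eq_mul]
  have h1 := hlow (-(z : LaurentSeries (IsLocalRing.ResidueField A)).order)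
  rw [co_apply, neg_neg] at h1
  have h2 : ¬ (-(z : LaurentSeries (IsLocalRing.ResidueField A)).order) > D C.inf := fun h =>
    HahnSeries.coeff_order_eq_zero.not.2 (fun h0 => hz0 (Subtype.ext h0)) (h1 h)
  rw [← C.hinfb z hz0, hord, hDinf] at h2
  have h3 : C.red D C.infb = N * C.red P C.infb := by
    rw [hD, C.red_sub, C.red_single, Finsupp.sub_apply, Finsupp.single_eq_of_ne' hne, sub_zero]
    show (Finsupp.mapDomain C.R.r (N • P)) C.infb = _
    rw [Finsupp.mapDomain_smul, Finsupp.smul_apply, nsmul_eq_mul]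
    rfl
  rw [h3] at h2
  nlinarith [Int.natCast_nonneg N]

theorem red_single_inf (n : ℤ) :
    C.red (Finsupp.single C.inf n) = Finsupp.single C.infb n := by
  rw [red_single, r_inf]

end CurveDatum

end FLTAgent.FlatModel
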