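import Fermat.Agent.FlatModel.CurveRR
import Fermat.Agent.GoodRed.Tube
import Mathlib.Algebra.Polynomial.Derivative

/-!
# General fibres of a function with a single pole

If `x`, `y` have poles only at `v`, of orders `i`, `i + 1`, and `i` is nonzero in the constants,
then over all but finitely many values the zeros of `x - a` are simple and separated by `y`.
-/

set_option autoImplicit false
set_option linter.unusedSectionVars false

noncomputable section

open AlgebraicCurve Polynomial
open scoped IntermediateField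

namespace FLTAgent.FlatModel

open FLTAgent.FunctionField FLTAgent.GoodRed

variable {K G : Type*} [Field K] [Field G] [Algebra K G] [IsFunctionField K G] [IsAlgClosed K]
  {v : Place K G}

theorem ordGe_zero_of_mem_rr_single {n : ℤ} {f : G}
    (hf : f ∈ riemannRochSpace (Finsupp.single v n)) {w : Place K G} (hw : w ≠ v) : OrdGe w 0 f := by
  have h := mem_rr_iff.1 hf w
  rwa [Finsupp.single_eq_of_ne hw, neg_zero] at h

theorem ordGe_zero_aeval {w : Place K G} {y : G} (hy : OrdGe w 0 y) (p : K[X]) :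
    OrdGe w 0 (aeval y p) := by
  refine mem_iff_ordGe_zero.1 ?_
  have hym : y ∈ w.toValuationSubring := mem_iff_ordGe_zero.2 hy
  rw [aeval_eq_sum_range]
  refine sum_mem fun i _ => ?_
  rw [Algebra.smul_def]
  exact mul_mem (w.algebraMap_mem' _) (pow_mem hym i)

theorem ordGe_aeval_sub {w : Place K G} {y : G} {b : K} {e : ℤ} (hy : OrdGe w 0 y)
    (hb : OrdGe w e (y - algebraMap K G b)) (p : K[X]) :
    OrdGe w e (aeval y p - algebraMap K G (p.eval b)) := by
  obtain ⟨q, hq⟩ := X_sub_C_dvd_sub_C_eval (a := b) (p := p)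
  have h := congrArg (aeval y) hq
  rw [map_sub, aeval_C, map_mul, map_sub, aeval_X, aeval_C] at h
  rw [h]
  simpa using hb.mul (ordGe_zero_aeval hy q)

/-- Elements of a simple extension of constants are ratios of polynomial expressions. -/
theorem exists_cleared {x : G} (hx : Transcendental K x) (c : K⟮x⟯) :
    ∃ P Q : K[X], Q ≠ 0 ∧ (c : G) * aeval x Q = aeval x P := by
  obtain ⟨r, s, hrs⟩ := IntermediateField.mem_adjoin_simple_iff K (c : G) |>.1 c.2
  rcases eq_or_ne (aeval x s) 0 with h0 | h0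
  · exact ⟨0, 1, one_ne_zero, by rw [hrs, h0, div_zero, zero_mul, map_zero]⟩
  · exact ⟨r, s, fun h => h0 (by rw [h, map_zero]), by rw [hrs, div_mul_cancel₀ _ h0]⟩

variable {x y : G} {i : ℕ}

theorem finrank_adjoin_of_single_pole (hx : x ∈ riemannRochSpace (Finsupp.single v (i : ℤ)))
    (hxo : v.ord x = -(i : ℤ)) (hi : 0 < i) :
    Transcendental K x ∧ Module.finrank K⟮x⟯ G = i := by
  have htr : Transcendental K x := transcendental_of_ord_ne_zero (v := v) (by omega)
  have hx0 : x ≠ 0 := fun h => by rw [h, v.ord_zero] at hxo; omega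
  refine ⟨htr, ?_⟩
  have htr' : Transcendental K x⁻¹ :=
    transcendental_of_ord_ne_zero (v := v) (by rw [v.ord_inv]; omega)
  have hfield : K⟮x⁻¹⟯ = K⟮x⟯ := by
    refine le_antisymm (IntermediateField.adjoin_simple_le_iff.2
      (inv_mem (IntermediateField.mem_adjoin_simple_self K x)))
      (IntermediateField.adjoin_simple_le_iff.2 ?_)
    simpa using inv_mem (IntermediateField.mem_adjoin_simple_self K x⁻¹)
  have hz : zeroDivisor (K := K) x⁻¹ = Finsupp.single v (i : ℤ) := by
    refine Finsupp.ext fun w => ?_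
    rw [zeroDivisor_apply, w.ord_inv]
    rcases eq_or_ne w v with rfl | hw
    · rw [hxo, Finsupp.single_eq_same]; omega
    · have := (ordGe_zero_of_mem_rr_single hx hw).le_ord hx0
      rw [Finsupp.single_eq_of_ne hw]; omega
  have h := degree_zeroDivisor htr'
  rw [hz, Divisor.degree_single, deg_eq_one, Nat.cast_one, mul_one] at h
  rw [← hfield]
  exact (Int.ofNat_inj.1 h).symm

theorem ord_aeval_mul_pow (hxo : v.ord x = -(i : ℤ)) (hyo : v.ord y = -((i : ℤ) + 1)) (hi : 0 < i)
    {P : K[X]} (hP : P ≠ 0) (m : ℕ) :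
    aeval x P * y ^ m ≠ 0 ∧
      v.ord (aeval x P * y ^ m) = -((P.natDegree * i : ℕ) : ℤ) - m * ((i : ℤ) + 1) := by
  have hy0 : y ≠ 0 := fun h => by rw [h, v.ord_zero] at hyo; omega
  obtain ⟨hP0, hordP⟩ := ord_aeval_of_ord_neg (v := v) (x := x) (by omega) P hP
  refine ⟨mul_ne_zero hP0 (pow_ne_zero _ hy0), ?_⟩
  rw [v.ord_mul hP0 (pow_ne_zero _ hy0), ord_pow, hordP, hxo, hyo]
  push_cast
  ring

theorem eq_zero_of_sum_aeval_mul_pow (hxo : v.ord x = -(i : ℤ)) (hyo : v.ord y = -((i : ℤ) + 1))
    (hi : 0 < i) (P : Fin i → K[X]) (h : ∑ m, aeval x (P m) * y ^ (m : ℕ) = 0) : P = 0 := by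
  classical
  by_contra hne
  set s := Finset.univ.filter fun m => P m ≠ 0 with hs
  have hsne : s.Nonempty := by
    obtain ⟨m, hm⟩ := Function.ne_iff.1 hne
    exact ⟨m, Finset.mem_filter.2 ⟨Finset.mem_univ _, hm⟩⟩
  obtain ⟨m₀, hm₀, hmin⟩ := s.exists_min_image
    (fun m => v.ord (aeval x (P m) * y ^ (m : ℕ))) hsne
  have hP₀ : P m₀ ≠ 0 := (Finset.mem_filter.1 hm₀).2
  obtain ⟨hne₀, hord₀⟩ := ord_aeval_mul_pow hxo hyo hi hP₀ m₀
  rw [← Finset.add_sum_erase _ _ (Finset.mem_univ m₀)] at h
  have hrest : OrdGe v (v.ord (aeval x (P m₀) * y ^ (m₀ : ℕ)) + 1)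
      (∑ m ∈ Finset.univ.erase m₀, aeval x (P m) * y ^ (m : ℕ)) := by
    refine OrdGe.sum fun m hm => ?_
    rcases eq_or_ne (P m) 0 with h0 | h0
    · rw [h0, map_zero, zero_mul]; exact ordGe_zero _
    refine ordGe_of_le_ord ?_
    obtain ⟨-, hord⟩ := ord_aeval_mul_pow hxo hyo hi h0 m
    have hle := hmin m (Finset.mem_filter.2 ⟨Finset.mem_univ _, h0⟩)
    have hne' : (m : ℕ) ≠ m₀ := fun e => (Finset.mem_erase.1 hm).1 (Fin.ext e)
    by_contra hlt
    have heq : v.ord (aeval x (P m) * y ^ (m : ℕ)) = v.ord (aeval x (P m₀) * y ^ (m₀ : ℕ)) := by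
      omega
    rw [hord, hord₀] at heq
    have hdvd : (i : ℤ) ∣ (m : ℤ) - (m₀ : ℕ) :=
      ⟨((P m₀).natDegree : ℤ) - (P m).natDegree + (m₀ : ℕ) - (m : ℕ), by push_cast at heq ⊢; linarith⟩
    have := Int.eq_zero_of_dvd_of_natAbs_lt_natAbs hdvd (by have := m.2; have := m₀.2; omega)
    omega
  rw [add_eq_zero_iff_eq_neg] at h
  have h1 := hrest.neg
  rw [← h] at h1
  have := h1.le_ord hne₀
  omega

theorem exists_cleared_sum (hx : x ∈ riemannRochSpace (Finsupp.single v (i : ℤ)))
    (hxo : v.ord x = -(i : ℤ)) (hyo : v.ord y = -((i : ℤ) + 1)) (hi : 0 < i) (z : G) :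
    ∃ (Q : K[X]) (P : Fin i → K[X]), Q ≠ 0 ∧
      aeval x Q * z = ∑ m, aeval x (P m) * y ^ (m : ℕ) := by
  classical
  obtain ⟨htr, hfr⟩ := finrank_adjoin_of_single_pole hx hxo hi
  have := finiteDimensional_adjoin_of_transcendental htr
  have hli : LinearIndependent K⟮x⟯ (fun m : Fin i => y ^ (m : ℕ)) := by
    rw [Fintype.linearIndependent_iff]
    intro c hc
    choose Pn Qd hQd hPQ using fun m => exists_cleared htr (c m)
    let P : Fin i → K[X] := fun m => Pn m * ∏ l ∈ Finset.univ.erase m, Qd l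
    have h0 : ∑ m, aeval x (P m) * y ^ (m : ℕ) = 0 := by
      have e : ∑ m, aeval x (P m) * y ^ (m : ℕ) =
          (∏ l, aeval x (Qd l)) * ∑ m, (c m : G) * y ^ (m : ℕ) := by
        rw [Finset.mul_sum]
        refine Finset.sum_congr rfl fun m _ => ?_
        rw [← Finset.mul_prod_erase Finset.univ (fun l => aeval x (Qd l)) (Finset.mem_univ m),
          map_mul, map_prod, ← hPQ]
        ring
      rw [e]
      simp only [IntermediateField.smul_def, smul_eq_mul] at hc
      rw [hc, mul_zero]
    have hP := eq_zero_of_sum_aeval_mul_pow hxo hyo hi P h0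
    intro m
    have h1 : Pn m = 0 := by
      have h2 : Pn m * ∏ l ∈ Finset.univ.erase m, Qd l = 0 := congrFun hP m
      exact (mul_eq_zero.1 h2).resolve_right (Finset.prod_ne_zero_iff.2 fun l _ => hQd l)
    have h3 := hPQ m
    rw [h1, map_zero, mul_eq_zero] at h3
    exact Subtype.ext (h3.resolve_right fun h => htr ⟨Qd m, hQd m, h⟩)
  have : Nonempty (Fin i) := ⟨⟨0, hi⟩⟩
  let B := basisOfLinearIndependentOfCardEqFinrank hli (by rw [Fintype.card_fin, hfr])
  have hz := B.sum_repr z
  choose Pn Qd hQd hPQ using fun m => exists_cleared htr (B.repr z m)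
  refine ⟨∏ m, Qd m, fun m => Pn m * ∏ l ∈ Finset.univ.erase m, Qd l,
    Finset.prod_ne_zero_iff.2 fun m _ => hQd m, ?_⟩
  conv_lhs => rw [← hz]
  rw [Finset.mul_sum, map_prod]
  refine Finset.sum_congr rfl fun m _ => ?_
  rw [coe_basisOfLinearIndependentOfCardEqFinrank, IntermediateField.smul_def, smul_eq_mul,
    ← Finset.mul_prod_erase Finset.univ (fun l => aeval x (Qd l)) (Finset.mem_univ m),
    map_mul, map_prod, ← hPQ]
  ring

variable {g c : ℤ}

theorem exists_finite_separating (hk : RRLarge K G g c)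
    (hx : x ∈ riemannRochSpace (Finsupp.single v (i : ℤ))) (hxo : v.ord x = -(i : ℤ))
    (hy : y ∈ riemannRochSpace (Finsupp.single v ((i : ℤ) + 1)))
    (hyo : v.ord y = -((i : ℤ) + 1)) (hi : 0 < i) (hiK : (i : K) ≠ 0) :
    ∃ B : Set K, B.Finite ∧ ∀ a ∉ B, ∀ P : Place K G, 0 < P.ord (x - algebraMap K G a) →
      P.ord (x - algebraMap K G a) = 1 ∧ ∀ Q : Place K G, 0 < Q.ord (x - algebraMap K G a) →
        ∀ b : K, OrdGe P 1 (y - algebraMap K G b) → OrdGe Q 1 (y - algebraMap K G b) → P = Q := by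
  classical
  obtain ⟨htr, -⟩ := finrank_adjoin_of_single_pole hx hxo hi
  -- a bound from which functions reduce
  obtain ⟨n₀, hn₀, hn₀'⟩ : ∃ n₀ : ℕ, c + 1 + i ≤ n₀ ∧ i ≤ n₀ :=
    ⟨max (c + 1 + i).toNat i, by omega, le_max_right _ _⟩
  let S : Submodule K G := riemannRochSpace (Finsupp.single v (n₀ : ℤ))
  let bS := Module.finBasis K S
  choose Qb Pb hQb hPb using fun j => exists_cleared_sum hx hxo hyo hi (bS j : G)
  obtain ⟨Qy, Py, hQy, hPy⟩ := exists_cleared_sum hx hxo hyo hi (y ^ i)
  -- the derivative of the relation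
  set q : G := (i : G) * aeval x Qy * y ^ (i - 1) -
    ∑ m : Fin i, ((m : ℕ) : G) * aeval x (Py m) * y ^ ((m : ℕ) - 1) with hq
  have hq0 : q ≠ 0 := by
    intro h0
    let P' : Fin i → K[X] := fun m =>
      (if (m : ℕ) + 1 = i then (C (i : K)) * Qy else 0) -
        if h : (m : ℕ) + 1 < i then C (((m : ℕ) + 1 : ℕ) : K) * Py ⟨(m : ℕ) + 1, h⟩ else 0
    obtain ⟨j, rfl⟩ : ∃ j, i = j + 1 := ⟨i - 1, by omega⟩
    have e : ∑ m, aeval x (P' m) * y ^ (m : ℕ) = q := by
      rw [hq, Fin.sum_univ_succ (f := fun m : Fin (j + 1) =>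
        ((m : ℕ) : G) * aeval x (Py m) * y ^ ((m : ℕ) - 1)), Fin.sum_univ_castSucc]
      simp only [P', map_sub, map_mul, map_natCast, Fin.val_last, lt_self_iff_false, dite_false,
        if_true, Fin.val_castSucc, sub_zero]
      rw [Finset.sum_congr rfl (fun m _ => by
        rw [if_neg (by have := m.2; omega), dif_pos (by have := m.2; omega)] :
        ∀ m ∈ (Finset.univ : Finset (Fin j)), _ = _)]
      simp only [map_zero, zero_sub, neg_mul, Finset.sum_neg_distrib, map_mul, map_natCast,
        Fin.val_zero, Nat.cast_zero, zero_mul, zero_add, Nat.add_sub_cancel, Fin.val_succ]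
      rw [neg_add_eq_sub]
      rfl
    have hP' := congrFun (eq_zero_of_sum_aeval_mul_pow hxo hyo hi P' (e.trans h0)) ⟨j, by omega⟩
    simp only [P', lt_self_iff_false, dite_false, sub_zero, if_true, Pi.zero_apply] at hP'
    exact mul_ne_zero (C_ne_zero.2 hiK) hQy hP'
  refine ⟨(⋃ j, {a | (Qb j).IsRoot a}) ∪ {a | Qy.IsRoot a} ∪
      ⋃ w ∈ (divisorOf (K := K) q).support, {a | OrdGe w 1 (x - algebraMap K G a)},
    ((Set.finite_iUnion fun j => finite_setOfPred_isRoot (hQb j)).union (finite_setOfPred_isRoot hQy)).union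
      ((Finset.finite_toSet _).biUnion fun w _ => ?_), fun a ha P hP => ?_⟩
  · exact Set.Subsingleton.finite fun a ha b hb => value_unique ha hb
  simp only [Set.mem_union, Set.mem_iUnion, Set.mem_ofPred_eq, not_or, not_exists] at ha
  obtain ⟨⟨haQ, haQy⟩, haq⟩ := ha
  have hxa : x - algebraMap K G a ≠ 0 := fun h => by rw [h, P.ord_zero] at hP; exact lt_irrefl _ hP
  -- behaviour at a zero of `x - a`
  have hne : ∀ {w : Place K G}, 0 < w.ord (x - algebraMap K G a) → w ≠ v := by
    intro w hw e
    subst e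
    have hord : w.ord (x - algebraMap K G a) = w.ord x := by
      rcases eq_or_ne a 0 with rfl | ha0
      · rw [map_zero, sub_zero]
      · rw [sub_eq_add_neg]
        exact (ord_add_eq_left (fun h : x = 0 => by rw [h, w.ord_zero] at hxo; omega)
          ((ordGe_algebraMap a).neg.mono (by omega))).2
    omega
  have hxP : ∀ {w : Place K G}, w ≠ v → OrdGe w 0 x := fun hw => ordGe_zero_of_mem_rr_single hx hw
  have hyP : ∀ {w : Place K G}, w ≠ v → OrdGe w 0 y := fun hw => ordGe_zero_of_mem_rr_single hy hw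
  have happrox : ∀ (n : ℕ) (z : G), z ∈ riemannRochSpace (Finsupp.single v (n : ℤ)) →
      ∃ r : K[X], ∀ w : Place K G, 0 < w.ord (x - algebraMap K G a) →
        OrdGe w (w.ord (x - algebraMap K G a)) (z - aeval y r) := by
    intro n
    induction n using Nat.strong_induction_on with
    | _ n ih =>
    intro z hz
    rcases le_or_gt n n₀ with hn | hn
    · have hzS : z ∈ S := riemannRochSpace_mono (Finsupp.single_le_single.2 (by omega)) hz
      have hz' := congrArg Subtype.val (bS.sum_repr ⟨z, hzS⟩)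
      simp only [AddSubmonoidClass.coe_finsetSum, SetLike.val_smul] at hz'
      generalize bS.repr ⟨z, hzS⟩ = cz at hz'
      refine ⟨∑ j, (cz j) • (C ((Qb j).eval a)⁻¹ *
        ∑ m, C ((Pb j m).eval a) * Polynomial.X ^ (m : ℕ)), fun w hw => ?_⟩
      rw [map_sum, ← hz', ← Finset.sum_sub_distrib]
      refine OrdGe.sum fun j _ => ?_
      rw [map_smul, ← smul_sub, Algebra.smul_def]
      refine (zero_add (w.ord (x - algebraMap K G a)) ▸ (ordGe_algebraMap _).mul ?_)
      have hQa : (Qb j).eval a ≠ 0 := haQ j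
      have e : (bS j : G) - aeval y (C ((Qb j).eval a)⁻¹ *
            ∑ m, C ((Pb j m).eval a) * Polynomial.X ^ (m : ℕ)) =
          algebraMap K G ((Qb j).eval a)⁻¹ *
            (-(aeval x (Qb j) - algebraMap K G ((Qb j).eval a)) * bS j +
              ∑ m, (aeval x (Pb j m) - algebraMap K G ((Pb j m).eval a)) * y ^ (m : ℕ)) := by
        simp only [map_mul, map_sum, map_pow, aeval_C, aeval_X, sub_mul, neg_sub,
          Finset.sum_sub_distrib]
        rw [← hPb, map_inv₀]
        field_simp [(_root_.map_ne_zero (algebraMap K G)).2 hQa]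
        ring
      rw [e]
      refine (zero_add (w.ord (x - algebraMap K G a)) ▸ (ordGe_algebraMap _).mul ?_)
      refine OrdGe.add ?_ (OrdGe.sum fun m _ => ?_)
      · simpa using (ordGe_aeval_sub (hxP (hne hw)) (ordGe_ord _) (Qb j)).neg.mul
          (ordGe_zero_of_mem_rr_single (bS j).2 (hne hw))
      · have hyw : OrdGe w 0 (y ^ (m : ℕ)) := by
          have h := ordGe_zero_aeval (hyP (hne hw)) (Polynomial.X ^ (m : ℕ))
          rwa [map_pow, aeval_X] at h
        simpa using (ordGe_aeval_sub (hxP (hne hw)) (ordGe_ord _) (Pb j m)).mul hyw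
    · -- lower the pole order with a multiple of `x`
      obtain ⟨u, hu, hu0, huo⟩ := hk.exists_ord_eq_neg
        (D := Finsupp.single v ((n - i : ℕ) : ℤ))
        (by rw [Divisor.degree_single, deg_eq_one]; omega) v
      rw [Finsupp.single_eq_same] at huo
      have hx0 : x ≠ 0 := fun h => by rw [h, v.ord_zero] at hxo; omega
      obtain ⟨r, hr⟩ := ih (n - i) (by omega) u hu
      have hxu : x * u ∈ riemannRochSpace (Finsupp.single v (n : ℤ)) := by
        refine riemannRochSpace_mono (le_of_eq ?_) (mul_mem_rr hx hu)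
        rw [← Finsupp.single_add]
        congr 1
        omega
      obtain ⟨t, ht⟩ : ∃ t : K, z - t • (x * u) ∈
          riemannRochSpace (Finsupp.single v ((n - 1 : ℕ) : ℤ)) := by
        have hxuo : v.ord (x * u) = -(n : ℤ) := by rw [v.ord_mul hx0 hu0, hxo, huo]; omega
        have hne0 : x * u ≠ 0 := mul_ne_zero hx0 hu0
        have hquot : OrdGe v 0 (z / (x * u)) := by
          rcases eq_or_ne z 0 with rfl | hz0
          · simp
          refine ordGe_of_le_ord ?_
          have := (mem_rr_iff.1 hz v).le_ord hz0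
          rw [Finsupp.single_eq_same] at this
          rw [ord_div hz0 hne0]
          omega
        obtain ⟨t, ht⟩ := exists_value hquot
        refine ⟨t, mem_rr_iff.2 fun w => ?_⟩
        rcases eq_or_ne w v with rfl | hw
        · have h := ht.mul (ordGe_ord (v := w) (x * u))
          rw [sub_mul, div_mul_cancel₀ _ hne0, ← Algebra.smul_def] at h
          rw [Finsupp.single_eq_same]
          refine h.mono ?_
          omega
        · have h1 := ordGe_zero_of_mem_rr_single hz hw
          have h2 := (ordGe_algebraMap (v := w) t).mul (ordGe_zero_of_mem_rr_single hxu hw)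
          rw [add_zero, ← Algebra.smul_def] at h2
          rw [Finsupp.single_eq_of_ne hw, neg_zero]
          exact h1.sub h2
      obtain ⟨r', hr'⟩ := ih (n - 1) (by omega) _ ht
      refine ⟨r' + C (t * a) * r, fun w hw => ?_⟩
      have e : z - aeval y (r' + C (t * a) * r) = (z - t • (x * u) - aeval y r') +
          algebraMap K G t * ((x - algebraMap K G a) * u + algebraMap K G a * (u - aeval y r)) := by
        rw [map_add, map_mul, aeval_C, map_mul, Algebra.smul_def]
        ring
      rw [e]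
      refine (hr' w hw).add (zero_add (w.ord (x - algebraMap K G a)) ▸
        (ordGe_algebraMap _).mul (OrdGe.add ?_ ?_))
      · simpa using (ordGe_ord (v := w) (x - algebraMap K G a)).mul
          (ordGe_zero_of_mem_rr_single hu (hne hw))
      · simpa using (ordGe_algebraMap (v := w) a).mul (hr w hw)
  -- functions with prescribed behaviour
  have hsep : ∀ (D : Divisor K G), 0 ≤ D → D v = 0 → ∃ (n : ℕ) (z : G),
      z ∈ riemannRochSpace (Finsupp.single v (n : ℤ)) ∧ z ∈ riemannRochSpace
        (Finsupp.single v (n : ℤ) - D) ∧ z ≠ 0 ∧ P.ord z = D P := by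
    intro D hD hDv
    refine ⟨(c + 1 + Divisor.degree D).toNat, ?_⟩
    obtain ⟨z, hz, hz0, hzo⟩ := hk.exists_ord_eq_neg
      (D := Finsupp.single v (((c + 1 + Divisor.degree D).toNat : ℕ) : ℤ) - D)
      (by rw [map_sub, Divisor.degree_single, deg_eq_one]; omega) P
    refine ⟨z, riemannRochSpace_mono (sub_le_self _ hD) hz, hz, hz0, ?_⟩
    rw [hzo, Finsupp.sub_apply, Finsupp.single_eq_of_ne (hne hP)]
    ring
  have hone : P.ord (x - algebraMap K G a) = 1 := by
    by_contra he
    set e := P.ord (x - algebraMap K G a) with hedef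
    have he2 : 2 ≤ e := by omega
    obtain ⟨b, hb⟩ := exists_value (hyP (hne hP))
    -- the relation at `a`
    set p : K[X] := C (Qy.eval a) * Polynomial.X ^ i -
      ∑ m : Fin i, C ((Py m).eval a) * Polynomial.X ^ (m : ℕ) with hp
    have hypow : ∀ m : ℕ, OrdGe P 0 (y ^ m) := fun m => by
      have h := ordGe_zero_aeval (hyP (hne hP)) (Polynomial.X ^ m)
      rwa [map_pow, aeval_X] at h
    have hcoef : ∀ R : K[X], OrdGe P e (aeval x R - algebraMap K G (R.eval a)) := fun R =>
      ordGe_aeval_sub (hxP (hne hP)) (ordGe_ord _) R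
    have hpy : OrdGe P e (aeval y p) := by
      have e1 : aeval y p = -((aeval x Qy - algebraMap K G (Qy.eval a)) * y ^ i) +
          ∑ m : Fin i, (aeval x (Py m) - algebraMap K G ((Py m).eval a)) * y ^ (m : ℕ) := by
        simp only [hp, map_sub, map_mul, map_sum, map_pow, aeval_C, aeval_X, sub_mul,
          Finset.sum_sub_distrib]
        rw [← hPy]
        ring
      rw [e1]
      refine OrdGe.add ?_ (OrdGe.sum fun m _ => ?_)
      · simpa using ((hcoef Qy).mul (hypow i)).neg
      · simpa using (hcoef (Py m)).mul (hypow m)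
    have hnat : ∀ m : ℕ, OrdGe P 0 (m : G) := fun m => by
      simpa using ordGe_algebraMap (v := P) (m : K)
    have hder : OrdGe P e (q - aeval y (derivative p)) := by
      have e1 : q - aeval y (derivative p) =
          (aeval x Qy - algebraMap K G (Qy.eval a)) * ((i : G) * y ^ (i - 1)) -
          ∑ m : Fin i, (aeval x (Py m) - algebraMap K G ((Py m).eval a)) *
            (((m : ℕ) : G) * y ^ ((m : ℕ) - 1)) := by
        simp only [hq, hp, derivative_sub, derivative_sum, derivative_C_mul_X_pow, map_sub,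
          map_mul, map_sum, map_pow, map_natCast, aeval_C, aeval_X]
        rw [sub_sub_sub_comm, ← Finset.sum_sub_distrib]
        congr 1
        · ring
        · exact Finset.sum_congr rfl fun m _ => by ring
      rw [e1]
      refine OrdGe.sub ?_ (OrdGe.sum fun m _ => ?_)
      · simpa using (hcoef Qy).mul ((hnat i).mul (hypow (i - 1)))
      · simpa using (hcoef (Py m)).mul ((hnat m).mul (hypow ((m : ℕ) - 1)))
    have hqP : P.ord q = 0 := by
      by_contra h
      exact haq P (Finsupp.mem_support_iff.2 h) (ordGe_of_le_ord (by omega))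
    have hdb : (derivative p).eval b ≠ 0 := by
      intro h0
      have h1 := ordGe_aeval_sub (hyP (hne hP)) hb (derivative p)
      rw [h0, map_zero, sub_zero] at h1
      have h2 := (hder.mono (by omega : (1 : ℤ) ≤ e)).add h1
      rw [sub_add_cancel] at h2
      have := h2.le_ord hq0
      omega
    have hpb : p.eval b = 0 := by
      by_contra h0
      have h1 := (hpy.mono (by omega : (1 : ℤ) ≤ e)).sub (ordGe_aeval_sub (hyP (hne hP)) hb p)
      rw [sub_sub_cancel] at h1
      have := h1.le_ord ((_root_.map_ne_zero _).2 h0)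
      rw [ord_algebraMap] at this
      omega
    obtain ⟨g', hg'⟩ := dvd_iff_isRoot.2 (show p.IsRoot b from hpb)
    have hgb : g'.eval b ≠ 0 := by
      intro h0
      apply hdb
      rw [hg', derivative_mul, eval_add, eval_mul, eval_mul]
      simp [h0]
    have hyb : OrdGe P 2 (y - algebraMap K G b) := by
      rcases eq_or_ne (y - algebraMap K G b) 0 with h0 | h0
      · rw [h0]; exact ordGe_zero _
      refine ordGe_of_le_ord ?_
      have hgy : aeval y g' ≠ 0 ∧ P.ord (aeval y g') = 0 := by
        have h1 := ordGe_aeval_sub (hyP (hne hP)) hb g'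
        have hne0 : algebraMap K G (g'.eval b) ≠ 0 := (_root_.map_ne_zero _).2 hgb
        have h2 := ord_eq_of_ordGe_sub h1 hne0 (by rw [ord_algebraMap]; omega)
        rw [ord_algebraMap] at h2
        exact h2
      have h3 : aeval y p = (y - algebraMap K G b) * aeval y g' := by
        rw [hg', map_mul, map_sub, aeval_X, aeval_C]
      rw [h3] at hpy
      have h4 := hpy.le_ord (mul_ne_zero h0 hgy.1)
      rw [P.ord_mul h0 hgy.1, hgy.2] at h4
      omega
    obtain ⟨n, z, hzn, -, hz0, hzo⟩ := hsep (Finsupp.single P 1)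
      (Finsupp.single_nonneg.2 zero_le_one) (Finsupp.single_eq_of_ne' (hne hP))
    rw [Finsupp.single_eq_same] at hzo
    obtain ⟨r, hr⟩ := happrox n z hzn
    have h5 := ((hr P hP).mono he2).add (ordGe_aeval_sub (hyP (hne hP)) hyb r)
    rw [sub_add_sub_cancel] at h5
    rcases eq_or_ne (r.eval b) 0 with h0 | h0
    · rw [h0, map_zero, sub_zero] at h5
      have := h5.le_ord hz0
      omega
    · have := ord_eq_of_ordGe_sub h5 ((_root_.map_ne_zero (algebraMap K G)).2 h0)
        (by rw [ord_algebraMap]; omega)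
      rw [ord_algebraMap] at this
      omega
  refine ⟨hone, fun Q hQ b hPb hQb => ?_⟩
  by_contra hPQ
  obtain ⟨n, z, hzn, hzD, hz0, hzo⟩ := hsep (Finsupp.single Q 1)
    (Finsupp.single_nonneg.2 zero_le_one) (Finsupp.single_eq_of_ne' (hne hQ))
  rw [Finsupp.single_eq_of_ne hPQ] at hzo
  have hQz : OrdGe Q 1 z := by
    have := mem_rr_iff.1 hzD Q
    rwa [Finsupp.sub_apply, Finsupp.single_eq_of_ne (hne hQ), Finsupp.single_eq_same, zero_sub,
      neg_neg] at this
  obtain ⟨r, hr⟩ := happrox n z hzn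
  have h5 := ((hr P hP).mono (by omega : (1 : ℤ) ≤ _)).add (ordGe_aeval_sub (hyP (hne hP)) hPb r)
  rw [sub_add_sub_cancel] at h5
  have h6 := ((hr Q hQ).mono (by omega : (1 : ℤ) ≤ _)).add (ordGe_aeval_sub (hyP (hne hQ)) hQb r)
  rw [sub_add_sub_cancel] at h6
  rcases eq_or_ne (r.eval b) 0 with h0 | h0
  · rw [h0, map_zero, sub_zero] at h5
    have := h5.le_ord hz0
    omega
  · have h7 := hQz.sub h6
    rw [sub_sub_cancel] at h7
    have := h7.le_ord ((_root_.map_ne_zero (algebraMap K G)).2 h0)
    rw [ord_algebraMap] at this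
    omega

end FLTAgent.FlatModel
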