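import Mathlib.Algebra.Algebra.Rat
import Mathlib.RingTheory.DedekindDomain.Dvr
import Mathlib.RingTheory.Localization.FractionRing
import Mathlib.NumberTheory.ClassNumber.AdmissibleAbs
import Mathlib.RingTheory.Int.Basic
import Fermat.Prelude.Def_GaloisRep_Flat

/-!
# The base ring `ℤ₍ₗ₎`

`GaloisRep.ratLocalizedAt l` is a discrete valuation ring with fraction field `ℚ`.
-/

set_option autoImplicit false

namespace FLTAgent.FlatModel

open GaloisRep

variable (l : ℕ)

set_option quotPrecheck false in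
local notation "Oℓ" => ↥(GaloisRep.ratLocalizedAt l)

theorem mem_ratLocalizedAt {q : ℚ} : q ∈ ratLocalizedAt l ↔ q.den.Coprime l := Iff.rfl

theorem isFractionRing_ratLocalizedAt : IsFractionRing Oℓ ℚ where
  map_units x := by
    refine isUnit_iff_ne_zero.mpr fun h => nonZeroDivisors.coe_ne_zero x ?_
    exact Subtype.ext h
  surj q := by
    refine ⟨⟨(q.num : Oℓ), (q.den : Oℓ), mem_nonZeroDivisors_of_ne_zero ?_⟩, ?_⟩
    · intro h
      have := congrArg Subtype.val h
      simp at this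
    · show q * ((q.den : Oℓ) : ℚ) = ((q.num : Oℓ) : ℚ)
      simp [Rat.mul_den_eq_num]
  exists_of_eq {x y} h := ⟨1, by simpa using Subtype.ext h⟩

variable [Fact l.Prime]

theorem isUnit_intCast {n : ℤ} (h : ¬(l : ℤ) ∣ n) : IsUnit (n : Oℓ) := by
  have hn : n ≠ 0 := fun h0 => h (h0 ▸ dvd_zero _)
  have hmem : ((n : ℚ))⁻¹ ∈ ratLocalizedAt l := by
    rw [mem_ratLocalizedAt, Rat.inv_intCast_den, if_neg hn]
    exact ((Fact.out : l.Prime).coprime_iff_not_dvd.mpr fun hd =>
      h (Int.natCast_dvd.mpr hd)).symm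
  exact .of_mul_eq_one ⟨_, hmem⟩
    (Subtype.ext (show (n : ℚ) * (n : ℚ)⁻¹ = 1 from mul_inv_cancel₀ (by exact_mod_cast hn)))

theorem isLocalization_ratLocalizedAt [(Ideal.span {(l : ℤ)}).IsPrime] :
    IsLocalization.AtPrime Oℓ (Ideal.span {(l : ℤ)}) := by
  refine (isLocalization_iff _ _).mpr ⟨?_, ?_, ?_⟩
  · intro y
    exact isUnit_intCast l fun hd => y.2 (Ideal.mem_span_singleton.mpr hd)
  · intro z
    refine ⟨⟨(z : ℚ).num, ((z : ℚ).den : ℤ), ?_⟩, Subtype.ext ?_⟩
    · intro hd
      rw [SetLike.mem_coe, Ideal.mem_span_singleton, Int.natCast_dvd_natCast] at hd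
      exact ((Fact.out : l.Prime).coprime_iff_not_dvd.mp z.2.symm) hd
    · simp [Rat.mul_den_eq_num]
  · intro x y h
    refine ⟨1, ?_⟩
    have := congrArg Subtype.val h
    simp at this
    simp [this]

theorem isPrime_span_natCast : (Ideal.span {(l : ℤ)}).IsPrime :=
  (Ideal.span_singleton_prime (by exact_mod_cast (Fact.out : l.Prime).ne_zero)).mpr
    (Nat.prime_iff_prime_int.mp Fact.out)

instance isDiscreteValuationRing_ratLocalizedAt : IsDiscreteValuationRing Oℓ :=
  have := isPrime_span_natCast l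
  have := isLocalization_ratLocalizedAt l
  IsLocalization.AtPrime.isDiscreteValuationRing_of_dedekind_domain ℤ (P := Ideal.span {(l : ℤ)})
    (by simpa using (Fact.out : l.Prime).ne_zero) Oℓ

end FLTAgent.FlatModel
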