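import Mathlib.FieldTheory.Galois.Infinite
import Mathlib.FieldTheory.IsAlgClosed.AlgebraicClosure
import Mathlib.RingTheory.DedekindDomain.IntegralClosure
import Mathlib.RingTheory.Localization.Module
import Fermat.Agent.Frobenius.Centre
import Fermat.Agent.FlatModel.LocalBase

/-!
# Equivariant functions on a finite Galois set

For a finite set `T` with an action of the absolute Galois group, the `ℤ₍ₗ₎`-algebra of equivariant
functions `T → ℚ̄` with integral values is finite, and functions independent over `ℤ₍ₗ₎` are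
independent over `ℚ̄`.
-/

set_option autoImplicit false

noncomputable section

namespace FLTAgent.FlatModel

open FLTAgent.Frobenius

local notation "Qbar" => AlgebraicClosure ℚ

local instance isAlgebraicQbarEq : Algebra.IsAlgebraic ℚ Qbar :=
  AlgebraicClosure.isAlgebraic ℚ

local instance isAlgClosureQbarEq : IsAlgClosure ℚ Qbar := ⟨inferInstance, inferInstance⟩

local instance normalQbarEq : Normal ℚ Qbar := IsAlgClosure.normal ℚ Qbar

local instance isGaloisQbarEq : IsGalois ℚ Qbar where

variable (l : ℕ) {T : Type} [MulAction Γℚ T]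

set_option quotPrecheck false in
local notation "Oℓ" => ↥(GaloisRep.ratLocalizedAt l)

theorem map_algebraMap_ratLocalizedAt (σ : Γℚ) (a : Oℓ) :
    σ (algebraMap Oℓ Qbar a) = algebraMap Oℓ Qbar a :=
  σ.commutes (a : ℚ)

variable (T) in
/-- The equivariant functions. -/
def eqFun : Subalgebra Oℓ (T → Qbar) where
  carrier := {f | ∀ (σ : Γℚ) (t : T), f (σ • t) = σ (f t)}
  mul_mem' hf hg σ t := by simp [hf σ t, hg σ t]
  add_mem' hf hg σ t := by simp [hf σ t, hg σ t]
  algebraMap_mem' a σ t := (map_algebraMap_ratLocalizedAt l σ a).symm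

variable (T) in
/-- The equivariant functions with values integral over the base. -/
def intFun : Subalgebra Oℓ (T → Qbar) :=
  eqFun l T ⊓ ⨅ t : T, (integralClosure Oℓ Qbar).comap
    (Pi.evalAlgHom Oℓ (fun _ : T => Qbar) t)

variable {l}

theorem mem_eqFun {f : T → Qbar} :
    f ∈ eqFun l T ↔ ∀ (σ : Γℚ) (t : T), f (σ • t) = σ (f t) := Iff.rfl

theorem mem_intFun {f : T → Qbar} :
    f ∈ intFun l T ↔ (∀ (σ : Γℚ) (t : T), f (σ • t) = σ (f t)) ∧
      ∀ t, IsIntegral Oℓ (f t) :=
  ⟨fun h => ⟨h.1, fun t => Algebra.mem_iInf.mp h.2 t⟩, fun h => ⟨h.1, Algebra.mem_iInf.mpr h.2⟩⟩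

variable (T) in
/-- The Galois action on `T` factors through a number field. -/
def IsLevelled : Prop :=
  ∃ L : IntermediateField ℚ Qbar, FiniteDimensional ℚ L ∧
    ∀ σ : Γℚ, (∀ a ∈ L, σ a = a) → ∀ t : T, σ • t = t

theorem IsLevelled.prod {S : Type} [MulAction Γℚ S] (hT : IsLevelled T) (hS : IsLevelled S) :
    IsLevelled (T × S) := by
  obtain ⟨L, hL, h₁⟩ := hT
  obtain ⟨L', hL', h₂⟩ := hS
  refine ⟨L ⊔ L', inferInstance, fun σ hσ t => Prod.ext ?_ ?_⟩
  · exact h₁ σ (fun a ha => hσ a ((le_sup_left : L ≤ L ⊔ L') ha)) t.1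
  · exact h₂ σ (fun a ha => hσ a ((le_sup_right : L' ≤ L ⊔ L') ha)) t.2

theorem value_mem_of_fixed {f : T → Qbar} (hf : f ∈ eqFun l T) {L : IntermediateField ℚ Qbar}
    (hL : ∀ σ : Γℚ, (∀ a ∈ L, σ a = a) → ∀ t : T, σ • t = t) (t : T) : f t ∈ L := by
  rw [← InfiniteGalois.fixedField_fixingSubgroup L, IntermediateField.mem_fixedField_iff]
  intro σ hσ
  rw [← mem_eqFun.mp hf σ t, hL σ ((IntermediateField.mem_fixingSubgroup_iff L σ).mp hσ) t]

theorem exists_algebraMap_eq_of_fixed {t : T} (ht : ∀ σ : Γℚ, σ • t = t) {f : T → Qbar}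
    (hf : f ∈ intFun l T) [Fact l.Prime] : ∃ a : Oℓ, algebraMap Oℓ Qbar a = f t := by
  obtain ⟨q, hq⟩ := (InfiniteGalois.mem_range_algebraMap_iff_fixed (k := ℚ) (f t)).mpr
    fun σ => by rw [← (mem_intFun.mp hf).1 σ t, ht]
  have hi := (mem_intFun.mp hf).2 t
  rw [← hq, isIntegral_algebraMap_iff (algebraMap ℚ Qbar).injective] at hi
  have := isFractionRing_ratLocalizedAt l
  obtain ⟨a, ha⟩ := IsIntegrallyClosed.algebraMap_eq_of_integral hi
  exact ⟨a, by rw [← hq, ← ha]; rfl⟩

theorem finite_of_le_intFun [Finite T] [Fact l.Prime] (hT : IsLevelled T)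
    {H : Subalgebra Oℓ (T → Qbar)} (hH : H ≤ intFun l T) : Module.Finite Oℓ H := by
  obtain ⟨L, hLfin, hL⟩ := hT
  have := isFractionRing_ratLocalizedAt l
  have : Module.Finite Oℓ (integralClosure Oℓ L) :=
    IsIntegralClosure.finite Oℓ ℚ L (integralClosure Oℓ L)
  have : IsScalarTower Oℓ L Qbar := IsScalarTower.of_algebraMap_eq fun _ => rfl
  have hmem : ∀ (f : H) (t : T), ∃ b : integralClosure Oℓ L, ((b : L) : Qbar) = f.1 t := by
    intro f t
    have hfL := value_mem_of_fixed (hH f.2).1 hL t
    refine ⟨⟨⟨f.1 t, hfL⟩, ?_⟩, rfl⟩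
    exact (isIntegral_algHom_iff (IsScalarTower.toAlgHom Oℓ L Qbar)
      (algebraMap L Qbar).injective).mp ((mem_intFun.mp (hH f.2)).2 t)
  choose b hb using hmem
  let j : H →ₗ[Oℓ] (T → integralClosure Oℓ L) :=
    { toFun := fun f t => b f t
      map_add' := fun f g => funext fun t => Subtype.ext (Subtype.ext (by
        show ((b (f + g) t : L) : Qbar) = ((b f t : L) : Qbar) + ((b g t : L) : Qbar)
        rw [hb, hb, hb]; rfl))
      map_smul' := fun a f => funext fun t => Subtype.ext (Subtype.ext (by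
        show ((b (a • f) t : L) : Qbar) = a • ((b f t : L) : Qbar)
        rw [hb, hb]; rfl)) }
  refine Module.Finite.of_injective j fun f g h => Subtype.ext (funext fun t => ?_)
  rw [← hb f t, ← hb g t]
  exact congrArg (fun x : T → integralClosure Oℓ L => ((x t : L) : Qbar)) h

theorem linearIndependent_qbar {ι : Type*} {f : ι → T → Qbar} (hf : ∀ i, f i ∈ eqFun l T)
    (h : LinearIndependent Oℓ f) : LinearIndependent Qbar f := by
  classical
  have := isFractionRing_ratLocalizedAt l
  have hQ : LinearIndependent ℚ f := (LinearIndependent.iff_fractionRing Oℓ ℚ).mp h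
  rw [linearIndependent_iff']
  intro s
  induction s using Finset.induction_on with
  | empty => simp
  | insert a s ha ih =>
    intro g hg
    by_cases hga : g a = 0
    · intro i hi
      rcases Finset.mem_insert.mp hi with rfl | hi
      · exact hga
      · exact ih g (by simpa [Finset.sum_insert ha, hga] using hg) i hi
    exfalso
    let c : ι → Qbar := fun i => (g a)⁻¹ * g i
    have hca : c a = 1 := inv_mul_cancel₀ hga
    have hc : ∑ i ∈ insert a s, c i • f i = 0 := by
      simp only [c, mul_smul, ← Finset.smul_sum, hg, smul_zero]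
    have hfix : ∀ (σ : Γℚ), ∀ i ∈ s, σ (c i) = c i := by
      intro σ i hi
      have hσ : ∑ i ∈ insert a s, σ (c i) • f i = 0 := by
        refine funext fun t => ?_
        have h₀ := congrArg σ (congrFun hc (σ⁻¹ • t))
        simp only [Finset.sum_apply, Pi.smul_apply, smul_eq_mul, Pi.zero_apply, map_zero,
          map_sum, map_mul] at h₀
        rw [Finset.sum_apply]
        refine Eq.trans (Finset.sum_congr rfl fun i _ => ?_) h₀
        rw [Pi.smul_apply, smul_eq_mul, ← mem_eqFun.mp (hf i) σ, smul_inv_smul]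
      rw [Finset.sum_insert ha, hca] at hc
      rw [Finset.sum_insert ha, hca, map_one] at hσ
      refine sub_eq_zero.mp (ih (fun i => σ (c i) - c i) ?_ i hi)
      simp only [sub_smul, Finset.sum_sub_distrib]
      rw [add_right_cancel_iff.mp ((add_comm _ _).trans (hσ.trans (hc.symm.trans (add_comm _ _))))]
      exact sub_self _
    have hrat : ∀ i ∈ insert a s, ∃ q : ℚ, algebraMap ℚ Qbar q = c i := by
      intro i hi
      rcases Finset.mem_insert.mp hi with rfl | hi
      · exact ⟨1, by rw [map_one, hca]⟩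
      · exact (InfiniteGalois.mem_range_algebraMap_iff_fixed (k := ℚ) (c i)).mpr
          fun σ => hfix σ i hi
    choose q hq using hrat
    let q' : ι → ℚ := fun i => if hi : i ∈ insert a s then q i hi else 0
    have hq' : ∑ i ∈ insert a s, q' i • f i = 0 := by
      refine Eq.trans (Finset.sum_congr rfl fun i hi => ?_) hc
      rw [← algebraMap_smul Qbar (q' i) (f i)]
      simp only [q', hi, ↓reduceDIte, hq]
    have h1 := linearIndependent_iff'.mp hQ (insert a s) q' hq' a (Finset.mem_insert_self a s)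
    have h2 := hq a (Finset.mem_insert_self a s)
    simp only [q', Finset.mem_insert_self, ↓reduceDIte] at h1
    rw [h1, map_zero, hca] at h2
    exact zero_ne_one h2

end FLTAgent.FlatModel
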