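import Mathlib.RingTheory.HopfAlgebra.Basic
import Mathlib.RingTheory.Bialgebra.Convolution
import Mathlib.RingTheory.Flat.Basic
import Mathlib.LinearAlgebra.TensorProduct.Basis
import Mathlib.RingTheory.TensorProduct.Maps
import Fermat.Agent.FlatModel.EqFun

/-!
# A finite flat Hopf algebra from a ring of functions on a finite Galois module

If `H` is a ring of integral equivariant functions on a finite Galois module `S` which separates
points, is stable under `x ↦ -x`, and satisfies `(x, y) ↦ f (x + y) ∈ H ⊗ H`, then `H` is a finite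
flat Hopf algebra over `ℤ₍ₗ₎` whose `ℚ̄`-points are `S`.
-/

set_option autoImplicit false

noncomputable section

namespace FLTAgent.FlatModel

open FLTAgent.Frobenius
open scoped TensorProduct

local notation "Qbar" => AlgebraicClosure ℚ

variable {l : ℕ}

set_option quotPrecheck false in
local notation "Oℓ" => ↥(GaloisRep.ratLocalizedAt l)

variable (l) in
/-- Precomposition of functions. -/
def pullback {A B : Type} (φ : A → B) : (B → Qbar) →ₐ[Oℓ] (A → Qbar) :=
  AlgHom.pi fun a => Pi.evalAlgHom Oℓ (fun _ : B => Qbar) (φ a)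

@[simp]
theorem pullback_apply {A B : Type} (φ : A → B) (f : B → Qbar) (a : A) :
    pullback l φ f a = f (φ a) := rfl

variable {T : Type} (H : Subalgebra ↥(GaloisRep.ratLocalizedAt l) (T → Qbar))

/-- `H ⊗ M` as functions on `T × A`, for an algebra `M` of functions on `A`. -/
def prodFun {A : Type} {M : Type*} [Semiring M] [Algebra Oℓ M] (Φ : M →ₐ[Oℓ] (A → Qbar)) :
    H ⊗[Oℓ] M →ₐ[Oℓ] (T × A → Qbar) :=
  Algebra.TensorProduct.lift ((pullback l Prod.fst).comp H.val) ((pullback l Prod.snd).comp Φ)
    fun _ _ => Commute.all _ _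

@[simp]
theorem prodFun_tmul {A : Type} {M : Type*} [Semiring M] [Algebra Oℓ M] (Φ : M →ₐ[Oℓ] (A → Qbar))
    (f : H) (m : M) (p : T × A) : prodFun H Φ (f ⊗ₜ m) p = f.1 p.1 * Φ m p.2 := by
  simp [prodFun]

variable [MulAction Γℚ T]

theorem prodFun_injective [Module.Free Oℓ H] (hH : H ≤ eqFun l T) {A : Type} {M : Type*}
    [Semiring M] [Algebra Oℓ M] {Φ : M →ₐ[Oℓ] (A → Qbar)} (hΦ : Function.Injective Φ) :
    Function.Injective (prodFun H Φ) := by
  rw [injective_iff_map_eq_zero]
  intro w hw
  let b := Module.Free.chooseBasis Oℓ H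
  obtain ⟨c, rfl⟩ := TensorProduct.eq_repr_basis_left b w
  have hb : LinearIndependent Qbar fun i => (b i).1 :=
    linearIndependent_qbar (fun i => hH (b i).2)
      (b.linearIndependent.map' H.val.toLinearMap
        (LinearMap.ker_eq_bot.mpr Subtype.val_injective))
  have hc : ∀ i, Φ (c i) = 0 := by
    intro i
    refine funext fun a => ?_
    by_cases hi : i ∈ c.support
    · refine linearIndependent_iff'.mp hb c.support (fun i => Φ (c i) a) ?_ i hi
      refine funext fun t => ?_
      have := congrFun hw (t, a)
      simp only [Finsupp.sum, map_sum, Finset.sum_apply, prodFun_tmul, Pi.zero_apply] at this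
      simpa [Finset.sum_apply, mul_comm] using this
    · simp [Finsupp.notMem_support_iff.mp hi]
  rw [Finsupp.sum]
  refine Finset.sum_eq_zero fun i _ => ?_
  rw [(map_eq_zero_iff Φ hΦ).mp (hc i), TensorProduct.tmul_zero]

omit [MulAction Γℚ T] in
/-- A separating algebra of functions on a finite set spans all functions. -/
theorem span_eq_top_of_separates {X : Type} [Finite X] (H : Subalgebra ↥(GaloisRep.ratLocalizedAt l) (X → Qbar))
    (hsep : ∀ x y : X, (∀ f : H, f.1 x = f.1 y) → x = y) :
    Submodule.span Qbar (Set.range fun f : H => (f.1 : X → Qbar)) = ⊤ := by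
  classical
  cases nonempty_fintype X
  set W := Submodule.span Qbar (Set.range fun f : H => (f.1 : X → Qbar))
  have hone : (1 : X → Qbar) ∈ W := Submodule.subset_span ⟨1, rfl⟩
  have hmul : ∀ u v : X → Qbar, u ∈ W → v ∈ W → u * v ∈ W := by
    intro u v hu hv
    induction hu using Submodule.span_induction with
    | mem u hu =>
      obtain ⟨f, rfl⟩ := hu
      induction hv using Submodule.span_induction with
      | mem v hv =>
        obtain ⟨g, rfl⟩ := hv
        exact Submodule.subset_span ⟨f * g, rfl⟩
      | zero => simp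
      | add a b _ _ ha hb => rw [mul_add]; exact W.add_mem ha hb
      | smul c a _ ha => rw [mul_smul_comm]; exact W.smul_mem c ha
    | zero => simp
    | add a b _ _ ha hb => rw [add_mul]; exact W.add_mem ha hb
    | smul c a _ ha => rw [smul_mul_assoc]; exact W.smul_mem c ha
  have hprod : ∀ (s : Finset X) (u : X → X → Qbar), (∀ t ∈ s, u t ∈ W) → ∏ t ∈ s, u t ∈ W := by
    intro s u
    induction s using Finset.induction_on with
    | empty => intro _; simpa using hone
    | insert a s ha ih =>
      intro hu
      rw [Finset.prod_insert ha]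
      exact hmul _ _ (hu a (Finset.mem_insert_self a s))
        (ih fun t ht => hu t (Finset.mem_insert_of_mem ht))
  have hsep' : ∀ s t : X, ∃ u ∈ W, u s = 1 ∧ (t ≠ s → u t = 0) := by
    intro s t
    by_cases hts : t = s
    · exact ⟨1, hone, rfl, fun h => absurd hts h⟩
    obtain ⟨f, hf⟩ : ∃ f : H, f.1 s ≠ f.1 t := by
      by_contra h
      push Not at h
      exact hts (hsep s t h).symm
    refine ⟨(f.1 s - f.1 t)⁻¹ • (f.1 - f.1 t • (1 : X → Qbar)),
      W.smul_mem _ (W.sub_mem (Submodule.subset_span ⟨f, rfl⟩) (W.smul_mem _ hone)), ?_, fun _ => ?_⟩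
    · simp [sub_ne_zero.mpr hf]
    · simp
  rw [eq_top_iff, ← (Pi.basisFun Qbar X).span_eq, Submodule.span_le]
  rintro _ ⟨s, rfl⟩
  choose u huW hus hut using hsep' s
  suffices h : (Pi.basisFun Qbar X) s = ∏ t, u t by
    rw [SetLike.mem_coe, h]
    exact hprod (Finset.univ) u (fun t _ => huW t)
  refine funext fun t => ?_
  rw [Finset.prod_apply, Pi.basisFun_apply]
  by_cases hts : t = s
  · subst hts
    rw [Pi.single_eq_same, Finset.prod_eq_one fun x _ => hus x]
  · rw [Pi.single_eq_of_ne hts, Finset.prod_eq_zero (f := fun c => u c t) (Finset.mem_univ t) (hut t hts)]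

variable (l) in
/-- The data of a ring of functions on a finite Galois module closed under the group law. -/
structure FunctionModel (S : Type) [AddCommGroup S] [DistribMulAction Γℚ S] where
  H : Subalgebra Oℓ (S → Qbar)
  le_intFun : H ≤ intFun l S
  separates : ∀ x y : S, (∀ f : H, f.1 x = f.1 y) → x = y
  add_mem : ∀ f : H, (fun p : S × S => f.1 (p.1 + p.2)) ∈ (prodFun H H.val).range
  neg_mem : ∀ f : H, (fun x : S => f.1 (-x)) ∈ H

namespace FunctionModel

variable {S : Type} [AddCommGroup S] [DistribMulAction Γℚ S] (M : FunctionModel l S)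

theorem le_eqFun : M.H ≤ eqFun l S := fun _ h => (M.le_intFun h).1

theorem mul_injective [Module.Free Oℓ M.H] : Function.Injective (prodFun M.H M.H.val) :=
  prodFun_injective M.H M.le_eqFun Subtype.val_injective

theorem mul₃_injective [Module.Free Oℓ M.H] :
    Function.Injective (prodFun M.H (prodFun M.H M.H.val)) :=
  prodFun_injective M.H M.le_eqFun M.mul_injective

/-- Comultiplication. -/
def comul [Module.Free Oℓ M.H] : M.H →ₐ[Oℓ] M.H ⊗[Oℓ] M.H :=
  (AlgEquiv.ofInjective _ M.mul_injective).symm.toAlgHom.comp
    (((pullback l fun p : S × S => p.1 + p.2).comp M.H.val).codRestrict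
      (prodFun M.H M.H.val).range M.add_mem)

theorem prodFun_comul [Module.Free Oℓ M.H] (f : M.H) (x y : S) :
    prodFun M.H M.H.val (M.comul f) (x, y) = f.1 (x + y) := by
  let F := ((pullback l fun p : S × S => p.1 + p.2).comp M.H.val).codRestrict
    (prodFun M.H M.H.val).range M.add_mem
  have h := congrArg Subtype.val
    ((AlgEquiv.ofInjective _ M.mul_injective).apply_symm_apply (F f))
  exact congrFun h (x, y)

theorem exists_counit [Fact l.Prime] (f : M.H) :
    ∃ a : Oℓ, algebraMap Oℓ Qbar a = f.1 0 :=
  exists_algebraMap_eq_of_fixed (fun σ => smul_zero σ) (M.le_intFun f.2)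

/-- Counit: evaluation at the origin. -/
def counit [Fact l.Prime] : M.H →ₐ[Oℓ] Oℓ :=
  let inj : Function.Injective (algebraMap Oℓ Qbar) :=
    (algebraMap ℚ Qbar).injective.comp Subtype.val_injective
  { toFun := fun f => (M.exists_counit f).choose
    map_one' := inj ((M.exists_counit 1).choose_spec.trans (by simp))
    map_mul' := fun f g => inj (by
      rw [(M.exists_counit _).choose_spec, map_mul, (M.exists_counit f).choose_spec,
        (M.exists_counit g).choose_spec]; rfl)
    map_zero' := inj ((M.exists_counit 0).choose_spec.trans (by simp))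
    map_add' := fun f g => inj (by
      rw [(M.exists_counit _).choose_spec, map_add, (M.exists_counit f).choose_spec,
        (M.exists_counit g).choose_spec]; rfl)
    commutes' := fun a => inj ((M.exists_counit _).choose_spec.trans rfl) }

theorem algebraMap_counit [Fact l.Prime] (f : M.H) :
    algebraMap Oℓ Qbar (M.counit f) = f.1 0 :=
  (M.exists_counit f).choose_spec

/-- Antipode: composition with `x ↦ -x`. -/
def antipode : M.H →ₐ[Oℓ] M.H :=
  ((pullback l fun x : S => -x).comp M.H.val).codRestrict M.H M.neg_mem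

@[simp]
theorem coe_antipode (f : M.H) (x : S) : (M.antipode f).1 x = f.1 (-x) := rfl

theorem coassoc [Module.Free Oℓ M.H] :
    (Algebra.TensorProduct.assoc Oℓ Oℓ Oℓ M.H M.H M.H).toAlgHom.comp
      ((Algebra.TensorProduct.map M.comul (.id Oℓ M.H)).comp M.comul)
      = (Algebra.TensorProduct.map (.id Oℓ M.H) M.comul).comp M.comul := by
  have hR : ∀ (w : M.H ⊗[Oℓ] M.H) (p : S × S × S),
      prodFun M.H (prodFun M.H M.H.val) (Algebra.TensorProduct.map (.id Oℓ M.H) M.comul w) p =
        prodFun M.H M.H.val w (p.1, p.2.1 + p.2.2) := by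
    intro w p
    induction w using TensorProduct.induction_on with
    | zero => simp
    | tmul a b => simp [prodFun_tmul, M.prodFun_comul b p.2.1 p.2.2]
    | add a b ha hb => simp only [map_add, Pi.add_apply, ha, hb]
  have hA : ∀ (w : M.H ⊗[Oℓ] M.H) (c : M.H) (p : S × S × S),
      prodFun M.H (prodFun M.H M.H.val)
        (Algebra.TensorProduct.assoc Oℓ Oℓ Oℓ M.H M.H M.H (w ⊗ₜ c)) p =
        prodFun M.H M.H.val w (p.1, p.2.1) * c.1 p.2.2 := by
    intro w c p
    induction w using TensorProduct.induction_on with
    | zero => simp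
    | tmul a b => simp [prodFun_tmul, mul_assoc]
    | add a b ha hb => simp only [TensorProduct.add_tmul, map_add, Pi.add_apply, ha, hb, add_mul]
  have hL : ∀ (w : M.H ⊗[Oℓ] M.H) (p : S × S × S),
      prodFun M.H (prodFun M.H M.H.val) ((Algebra.TensorProduct.assoc Oℓ Oℓ Oℓ M.H M.H M.H)
        (Algebra.TensorProduct.map M.comul (.id Oℓ M.H) w)) p =
        prodFun M.H M.H.val w (p.1 + p.2.1, p.2.2) := by
    intro w p
    induction w using TensorProduct.induction_on with
    | zero => simp
    | tmul a b =>
      rw [Algebra.TensorProduct.map_tmul, hA, M.prodFun_comul, prodFun_tmul]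
      rfl
    | add a b ha hb => simp only [map_add, Pi.add_apply, ha, hb]
  refine AlgHom.ext fun f => M.mul₃_injective (funext fun p => ?_)
  refine (hL (M.comul f) p).trans (Eq.trans ?_ (hR (M.comul f) p).symm)
  rw [M.prodFun_comul, M.prodFun_comul, add_assoc]

theorem rTensor_counit [Fact l.Prime] [Module.Free Oℓ M.H] :
    (Algebra.TensorProduct.map M.counit (.id Oℓ M.H)).comp M.comul
      = (Algebra.TensorProduct.lid Oℓ M.H).symm := by
  have h : ∀ (w : M.H ⊗[Oℓ] M.H) (x : S),
      ((Algebra.TensorProduct.lid Oℓ M.H) (Algebra.TensorProduct.map M.counit (.id Oℓ M.H) w)).1 x =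
        prodFun M.H M.H.val w (0, x) := by
    intro w x
    induction w using TensorProduct.induction_on with
    | zero => simp
    | tmul a b =>
      simp [prodFun_tmul, Algebra.smul_def, M.algebraMap_counit]
    | add a b ha hb => simp only [map_add, Subalgebra.coe_add, Pi.add_apply, ha, hb]
  refine AlgHom.ext fun f => (Algebra.TensorProduct.lid Oℓ M.H).injective ?_
  refine Subtype.ext (funext fun x => ?_)
  refine (h (M.comul f) x).trans ?_
  rw [M.prodFun_comul, zero_add]
  exact congrArg (fun z : M.H => z.1 x) ((Algebra.TensorProduct.lid Oℓ M.H).apply_symm_apply f).symm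

theorem lTensor_counit [Fact l.Prime] [Module.Free Oℓ M.H] :
    (Algebra.TensorProduct.map (.id Oℓ M.H) M.counit).comp M.comul
      = (Algebra.TensorProduct.rid Oℓ Oℓ M.H).symm := by
  have h : ∀ (w : M.H ⊗[Oℓ] M.H) (x : S),
      ((Algebra.TensorProduct.rid Oℓ Oℓ M.H)
        (Algebra.TensorProduct.map (.id Oℓ M.H) M.counit w)).1 x =
        prodFun M.H M.H.val w (x, 0) := by
    intro w x
    induction w using TensorProduct.induction_on with
    | zero => simp
    | tmul a b =>
      simp [prodFun_tmul, Algebra.smul_def, M.algebraMap_counit, mul_comm]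
    | add a b ha hb => simp only [map_add, Subalgebra.coe_add, Pi.add_apply, ha, hb]
  refine AlgHom.ext fun f => (Algebra.TensorProduct.rid Oℓ Oℓ M.H).injective ?_
  refine Subtype.ext (funext fun x => ?_)
  refine (h (M.comul f) x).trans ?_
  rw [M.prodFun_comul, add_zero]
  exact congrArg (fun z : M.H => z.1 x)
    ((Algebra.TensorProduct.rid Oℓ Oℓ M.H).apply_symm_apply f).symm

theorem antipode_left [Fact l.Prime] [Module.Free Oℓ M.H] :
    ((Algebra.TensorProduct.lift M.antipode (.id Oℓ M.H) fun _ _ => Commute.all _ _).comp M.comul)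
      = (Algebra.ofId Oℓ M.H).comp M.counit := by
  have h : ∀ (w : M.H ⊗[Oℓ] M.H) (x : S),
      ((Algebra.TensorProduct.lift M.antipode (.id Oℓ M.H) fun _ _ => Commute.all _ _) w).1 x =
        prodFun M.H M.H.val w (-x, x) := by
    intro w x
    induction w using TensorProduct.induction_on with
    | zero => simp
    | tmul a b => simp [prodFun_tmul]
    | add a b ha hb => simp only [map_add, Subalgebra.coe_add, Pi.add_apply, ha, hb]
  refine AlgHom.ext fun f => Subtype.ext (funext fun x => ?_)
  refine (h (M.comul f) x).trans ?_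
  rw [M.prodFun_comul, neg_add_cancel]
  exact (M.algebraMap_counit f).symm

theorem antipode_right [Fact l.Prime] [Module.Free Oℓ M.H] :
    ((Algebra.TensorProduct.lift (.id Oℓ M.H) M.antipode fun _ _ => Commute.all _ _).comp M.comul)
      = (Algebra.ofId Oℓ M.H).comp M.counit := by
  have h : ∀ (w : M.H ⊗[Oℓ] M.H) (x : S),
      ((Algebra.TensorProduct.lift (.id Oℓ M.H) M.antipode fun _ _ => Commute.all _ _) w).1 x =
        prodFun M.H M.H.val w (x, -x) := by
    intro w x
    induction w using TensorProduct.induction_on with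
    | zero => simp
    | tmul a b => simp [prodFun_tmul]
    | add a b ha hb => simp only [map_add, Subalgebra.coe_add, Pi.add_apply, ha, hb]
  refine AlgHom.ext fun f => Subtype.ext (funext fun x => ?_)
  refine (h (M.comul f) x).trans ?_
  rw [M.prodFun_comul, add_neg_cancel]
  exact (M.algebraMap_counit f).symm

/-- The Hopf algebra structure. -/
@[reducible] def hopfAlgebra [Fact l.Prime] [Module.Free Oℓ M.H] : HopfAlgebra Oℓ M.H :=
  letI := Bialgebra.ofAlgHom M.comul M.counit M.coassoc M.rTensor_counit M.lTensor_counit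
  HopfAlgebra.ofAlgHom M.antipode M.antipode_left M.antipode_right

/-- Evaluation at a point. -/
def eval (x : S) : M.H →ₐ[Oℓ] Qbar :=
  (Pi.evalAlgHom Oℓ (fun _ : S => Qbar) x).comp M.H.val

@[simp]
theorem eval_apply (x : S) (f : M.H) : M.eval x f = f.1 x := rfl

theorem eval_injective : Function.Injective M.eval := fun x y h =>
  M.separates x y fun f => DFunLike.congr_fun h f

theorem span_eq_top [Finite S] :
    Submodule.span Qbar (Set.range fun f : M.H => (f.1 : S → Qbar)) = ⊤ :=
  span_eq_top_of_separates M.H M.separates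

theorem eval_surjective [Finite S] [Fact l.Prime] [Module.Free Oℓ M.H] :
    Function.Surjective M.eval := by
  classical
  cases nonempty_fintype S
  intro φ
  let b := Module.Free.chooseBasis Oℓ M.H
  have hli : LinearIndependent Qbar fun i => (b i).1 :=
    linearIndependent_qbar (fun i => M.le_eqFun (b i).2)
      (b.linearIndependent.map' M.H.val.toLinearMap
        (LinearMap.ker_eq_bot.mpr Subtype.val_injective))
  have hsp : ⊤ ≤ Submodule.span Qbar (Set.range fun i => (b i).1) := by
    rw [← M.span_eq_top, Submodule.span_le]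
    rintro _ ⟨f, rfl⟩
    have hf : f ∈ Submodule.span Oℓ (Set.range b) := b.mem_span f
    induction hf using Submodule.span_induction with
    | mem z hz => obtain ⟨i, rfl⟩ := hz; exact Submodule.subset_span ⟨i, rfl⟩
    | zero => exact Submodule.zero_mem _
    | add a c _ _ ha hc => exact Submodule.add_mem _ ha hc
    | smul r a _ ha =>
      show r • (a.1 : S → Qbar) ∈ _
      rw [← algebraMap_smul Qbar r]
      exact Submodule.smul_mem _ _ ha
  let B := Module.Basis.mk hli hsp
  let Lφ : (S → Qbar) →ₗ[Qbar] Qbar := B.constr Qbar fun i => φ (b i)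
  have hLb : ∀ f : M.H, Lφ f.1 = φ f := by
    intro f
    have e : (Lφ.restrictScalars Oℓ).comp M.H.val.toLinearMap = φ.toLinearMap := by
      refine b.ext fun i => ?_
      show Lφ (b i).1 = φ (b i)
      have : (b i).1 = B i := (Module.Basis.mk_apply hli hsp i).symm
      rw [this, Module.Basis.constr_basis]
    exact DFunLike.congr_fun e f
  have hLmul : ∀ u v : S → Qbar, Lφ (u * v) = Lφ u * Lφ v := by
    intro u v
    have hu : u ∈ Submodule.span Qbar (Set.range fun f : M.H => (f.1 : S → Qbar)) := by
      rw [M.span_eq_top]; exact Submodule.mem_top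
    have hv : v ∈ Submodule.span Qbar (Set.range fun f : M.H => (f.1 : S → Qbar)) := by
      rw [M.span_eq_top]; exact Submodule.mem_top
    induction hu using Submodule.span_induction with
    | mem u hu =>
      obtain ⟨f, rfl⟩ := hu
      induction hv using Submodule.span_induction with
      | mem v hv =>
        obtain ⟨g, rfl⟩ := hv
        rw [hLb f, hLb g, ← map_mul, ← hLb]
        rfl
      | zero => simp
      | add a c _ _ ha hc => simp only [mul_add, map_add, ha, hc]
      | smul r a _ ha => simp only [mul_smul_comm, map_smul, ha, smul_eq_mul]; ring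
    | zero => simp
    | add a c _ _ ha hc => simp only [add_mul, map_add, ha, hc]
    | smul r a _ ha => simp only [smul_mul_assoc, map_smul, ha, smul_eq_mul]; ring
  have hone : Lφ 1 = 1 := (hLb 1).trans (map_one φ)
  obtain ⟨s, hs⟩ : ∃ s, Lφ (Pi.single s 1) ≠ 0 := by
    by_contra h
    push Not at h
    have : (1 : S → Qbar) = ∑ s, Pi.single s (1 : Qbar) := (Finset.univ_sum_single 1).symm
    rw [this, map_sum, Finset.sum_eq_zero fun s _ => h s] at hone
    exact zero_ne_one hone
  refine ⟨s, AlgHom.ext fun f => ?_⟩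
  have h1 : f.1 * Pi.single s (1 : Qbar) = f.1 s • Pi.single s (1 : Qbar) := by
    refine funext fun t => ?_
    by_cases ht : t = s
    · subst ht; simp
    · simp [Pi.single_eq_of_ne ht]
  have h2 := hLmul f.1 (Pi.single s 1)
  rw [h1, map_smul, smul_eq_mul, hLb] at h2
  exact mul_right_cancel₀ hs h2

include M in
/-- The main construction: a finite flat cocommutative Hopf algebra with points `S`. -/
theorem exists_finiteFlat [Finite S] [Fact l.Prime] (hS : IsLevelled S) :
    ∃ (H : Type) (_ : CommRing H) (_ : HopfAlgebra Oℓ H),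
      Module.Finite Oℓ H ∧ Module.Flat Oℓ H ∧ Coalgebra.IsCocomm Oℓ H ∧
      ∃ e : WithConv (H →ₐ[Oℓ] Qbar) ≃ S,
        (∀ f g, e (f * g) = e f + e g) ∧
        ∀ (σ : Γℚ) (f g : WithConv (H →ₐ[Oℓ] Qbar)),
          (∀ h : H, g h = σ (f h)) → e g = σ • e f := by
  have := finite_of_le_intFun hS (M.le_intFun)
  have hinj : Function.Injective (algebraMap Oℓ Qbar) :=
    (algebraMap ℚ Qbar).injective.comp Subtype.val_injective
  have : FaithfulSMul Oℓ Qbar := (faithfulSMul_iff_algebraMap_injective _ _).mpr hinj
  have : Module.IsTorsionFree Oℓ Qbar := inferInstance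
  have : Module.IsTorsionFree Oℓ (S → Qbar) := inferInstance
  have : Module.IsTorsionFree Oℓ M.H :=
    Function.Injective.moduleIsTorsionFree (M.H.val) Subtype.val_injective fun r x => rfl
  have : Module.Free Oℓ M.H := Module.free_of_finite_type_torsion_free'
  let inst := M.hopfAlgebra
  have hcomm : Coalgebra.IsCocomm Oℓ M.H := by
    constructor
    refine LinearMap.ext fun f => M.mul_injective (funext fun p => ?_)
    have h : ∀ w : M.H ⊗[Oℓ] M.H, prodFun M.H M.H.val (TensorProduct.comm Oℓ M.H M.H w) p =
        prodFun M.H M.H.val w (p.2, p.1) := by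
      intro w
      induction w using TensorProduct.induction_on with
      | zero => simp
      | tmul a b => simp [prodFun_tmul, mul_comm]
      | add a b ha hb => simp only [map_add, Pi.add_apply, ha, hb]
    refine (h (M.comul f)).trans ?_
    rw [M.prodFun_comul, add_comm, ← M.prodFun_comul]
    rfl
  let e₀ : S ≃ (M.H →ₐ[Oℓ] Qbar) := Equiv.ofBijective M.eval ⟨M.eval_injective, M.eval_surjective⟩
  let e : WithConv (M.H →ₐ[Oℓ] Qbar) ≃ S :=
    (WithConv.equiv (M.H →ₐ[Oℓ] Qbar)).trans e₀.symm
  have hev : ∀ (f : WithConv (M.H →ₐ[Oℓ] Qbar)) (h : M.H), f h = h.1 (e f) := fun f h =>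
    (DFunLike.congr_fun (e₀.apply_symm_apply f.ofConv) h).symm
  refine ⟨M.H, inferInstance, inst, inferInstance, inferInstance, hcomm, e, fun f g => ?_, ?_⟩
  · refine M.separates _ _ fun h => ?_
    rw [← hev, AlgHom.convMul_apply]
    have key : ∀ w : M.H ⊗[Oℓ] M.H, (Algebra.TensorProduct.lift f.ofConv g.ofConv
        fun _ _ => Commute.all _ _) w = prodFun M.H M.H.val w (e f, e g) := by
      intro w
      induction w using TensorProduct.induction_on with
      | zero => simp
      | tmul a b =>
        rw [Algebra.TensorProduct.lift_tmul, prodFun_tmul]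
        exact congrArg₂ (· * ·) (hev f a) (hev g b)
      | add a b ha hb => simp only [map_add, Pi.add_apply, ha, hb]
    exact ((key (M.comul h)).trans (M.prodFun_comul h _ _))
  · intro σ f g hfg
    refine M.separates _ _ fun h => ?_
    rw [← hev, hfg, hev, M.le_eqFun h.2 σ]

end FunctionModel

end FLTAgent.FlatModel
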