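import Mathlib.LinearAlgebra.Finsupp.LinearCombination
import Mathlib.LinearAlgebra.StdBasis
import Mathlib.RingTheory.Finiteness.Basic
import Mathlib.RingTheory.SimpleModule.Basic
import Mathlib.RingTheory.Ideal.Quotient.Basic
import Mathlib.RingTheory.Ideal.Quotient.Operations

/-!
# Linear systems whose reductions have at most one solution

If the rows of a linear system over `R` have trivial common kernel modulo every maximal ideal, they
span, so the solution of the system in any field over `R` comes from `R`.
-/

set_option autoImplicit false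

namespace FLTAgent.FlatModel

variable {R : Type*} [CommRing R] {ι : Type*} {σ : Type*} [Fintype σ]

/-- If modulo every maximal ideal only zero is killed by all rows, the rows span. -/
theorem span_rows_eq_top (row : ι → σ → R)
    (h : ∀ P : Ideal R, P.IsMaximal → ∀ v : σ → R, (∀ i, ∑ s, row i s * v s ∈ P) → ∀ s, v s ∈ P) :
    Submodule.span R (Set.range row) = ⊤ := by
  classical
  by_contra hN
  obtain ⟨N', hN', hle⟩ := (eq_top_or_exists_le_coatom (Submodule.span R (Set.range row))).resolve_left hN
  have : IsSimpleModule R ((σ → R) ⧸ N') := isSimpleModule_iff_isCoatom.mpr hN'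
  obtain ⟨P, hP, ⟨e⟩⟩ := isSimpleModule_iff_quot_maximal.mp this
  choose v hv using fun s => Ideal.Quotient.mk_surjective (e (N'.mkQ (Pi.single s (1 : R))))
  have hsum : ∀ x : σ → R, Ideal.Quotient.mk P (∑ s, x s * v s) = e (N'.mkQ x) := by
    intro x
    rw [map_sum]
    conv_rhs => rw [pi_eq_sum_univ' x, map_sum, map_sum]
    refine Finset.sum_congr rfl fun s _ => ?_
    rw [map_mul, hv, map_smul, map_smul]
    rfl
  have hmem : ∀ s, v s ∈ P := by
    refine h P hP v fun i => ?_
    rw [← Ideal.Quotient.eq_zero_iff_mem, hsum]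
    have : N'.mkQ (row i) = 0 :=
      (Submodule.Quotient.mk_eq_zero _).mpr (hle (Submodule.subset_span ⟨i, rfl⟩))
    rw [this, map_zero]
  refine hN'.1 (eq_top_iff.mpr fun x _ => ?_)
  rw [← Submodule.Quotient.mk_eq_zero N', ← Submodule.mkQ_apply, ← e.map_eq_zero_iff, ← hsum,
    Ideal.Quotient.eq_zero_iff_mem]
  exact Submodule.sum_mem _ fun s _ => P.mul_mem_left _ (hmem s)

/-- The solution of a system with spanning rows is given by elements of `R`. -/
theorem exists_solution (row : ι → σ → R) (rhs : ι → R)
    (h : Submodule.span R (Set.range row) = ⊤) :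
    ∃ x : σ → R, ∀ (K : Type*) [CommRing K] (f : R →+* K) (w : σ → K),
      (∀ i, ∑ s, f (row i s) * w s = f (rhs i)) → ∀ s, w s = f (x s) := by
  classical
  have hmem : ∀ s : σ, Pi.single s (1 : R) ∈ Submodule.span R (Set.range row) :=
    fun s => h ▸ Submodule.mem_top
  choose c hc using fun s => (Finsupp.mem_span_range_iff_exists_finsupp.mp (hmem s))
  refine ⟨fun s => (c s).sum fun i a => a * rhs i, fun K _ f w hw s => ?_⟩
  show w s = f ((c s).sum fun i a => a * rhs i)
  rw [Finsupp.sum, map_sum]
  simp only [map_mul, ← hw, Finset.mul_sum]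
  rw [Finset.sum_comm]
  have key : ∀ t, ∑ i ∈ (c s).support, f (c s i) * f (row i t) = if t = s then 1 else 0 := by
    intro t
    have := congrArg f (congrFun (hc s) t)
    simp only [Finsupp.sum, Finset.sum_apply, Pi.smul_apply, smul_eq_mul, map_sum, map_mul] at this
    rw [this, Pi.single_apply]
    split <;> simp
  simp only [← mul_assoc, ← Finset.sum_mul, key]
  simp

end FLTAgent.FlatModel
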