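import Mathlib.RingTheory.IntegralClosure.GoingDown
import Fermat.Prelude.Def_ModularCurve_LaurentCoeff
import Fermat.Agent.Frobenius.Lifting
import Fermat.Agent.FlatModel.EqFun
import Fermat.Agent.FlatModel.LinearSystem

/-!
# Specialisation of rings of equivariant functions at a place above `l`

Every maximal ideal of a ring of integral equivariant functions on a finite Galois set is the
kernel of the reduction of the value at some point, at one fixed place above `l`.
-/

set_option autoImplicit false

noncomputable section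

namespace FLTAgent.FlatModel

open FLTAgent.Frobenius ModularCurve

local notation "Qbar" => AlgebraicClosure ℚ

variable {l : ℕ} {A : ValuationSubring (AlgebraicClosure ℚ)} {T : Type} [MulAction Γℚ T]

theorem mem_of_isIntegral_ratLocalizedAt [Fact l.Prime] (hA : A.LiesOverPrime l) {x : Qbar}
    (hx : IsIntegral ↥(GaloisRep.ratLocalizedAt l) x) : x ∈ A := by
  have hO : ∀ q : ↥(GaloisRep.ratLocalizedAt l),
      algebraMap ↥(GaloisRep.ratLocalizedAt l) Qbar q ∈ A := by
    intro q
    have hden : ¬ (l : ℤ) ∣ ((q : ℚ).den : ℤ) := fun hd =>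
      (Fact.out : l.Prime).coprime_iff_not_dvd.mp q.2.symm (Int.natCast_dvd_natCast.mp hd)
    have h : (((q : ℚ).den : ℤ) : Qbar) ∉ A.nonunits := fun h =>
      hden ((intCast_mem_nonunits_iff Fact.out hA _).mp h)
    have e : algebraMap ↥(GaloisRep.ratLocalizedAt l) Qbar q =
        ((q : ℚ).num : Qbar) * (((q : ℚ).den : ℤ) : Qbar)⁻¹ := by
      show algebraMap ℚ Qbar (q : ℚ) = _
      conv_lhs => rw [← Rat.num_div_den (q : ℚ)]
      rw [map_div₀, map_intCast, map_natCast, div_eq_mul_inv, Int.cast_natCast]
    rw [e]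
    exact mul_mem (intCast_mem_valuationSubring A _) (inv_mem_of_notMem_nonunits A h)
  obtain ⟨p, hp, hpx⟩ := hx
  let φ : ↥(GaloisRep.ratLocalizedAt l) →+* A :=
    (algebraMap ↥(GaloisRep.ratLocalizedAt l) Qbar).codRestrict A.toSubring hO
  have hint : IsIntegral A x := ⟨p.map φ, hp.map _, by
    rw [Polynomial.eval₂_map]; exact hpx⟩
  obtain ⟨y, hy⟩ := IsIntegrallyClosed.isIntegral_iff.mp hint
  exact hy ▸ y.2

variable {R : Subalgebra ↥(GaloisRep.ratLocalizedAt l) (T → AlgebraicClosure ℚ)}

/-- Evaluation at a point. -/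
def evalAt (R : Subalgebra ↥(GaloisRep.ratLocalizedAt l) (T → AlgebraicClosure ℚ)) (t : T) :
    R →+* AlgebraicClosure ℚ :=
  (Pi.evalRingHom (fun _ : T => AlgebraicClosure ℚ) t).comp R.val.toRingHom

omit [MulAction Γℚ T] in
@[simp]
theorem evalAt_apply (t : T) (r : R) : evalAt R t r = r.1 t := rfl

/-- Reduction of the value at a point. -/
def redAt [Fact l.Prime] (hA : A.LiesOverPrime l) (hR : R ≤ intFun l T) (t : T) :
    R →+* IsLocalRing.ResidueField A :=
  (IsLocalRing.residue A).comp ((evalAt R t).codRestrict A.toSubring fun r =>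
    mem_of_isIntegral_ratLocalizedAt hA ((mem_intFun.mp (hR r.2)).2 t))

theorem mem_ker_redAt [Fact l.Prime] {hA : A.LiesOverPrime l} {hR : R ≤ intFun l T} {t : T}
    {r : R} : r ∈ RingHom.ker (redAt hA hR t) ↔ r.1 t ∈ A.nonunits :=
  Iff.trans (IsLocalRing.residue_eq_zero_iff _)
    ValuationSubring.coe_mem_nonunits_iff.symm

open scoped Pointwise in
theorem exists_eq_ker_redAt [Finite T] [Fact l.Prime] (hA : A.LiesOverPrime l)
    (hT : IsLevelled T) (hR : R ≤ intFun l T) (P : Ideal R) (hP : P.IsMaximal) :
    ∃ t : T, P = RingHom.ker (redAt hA hR t) := by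
  classical
  cases nonempty_fintype T
  have := finite_of_le_intFun hT hR
  obtain ⟨t, -, ht⟩ : ∃ t ∈ (Finset.univ : Finset T), RingHom.ker (evalAt R t) ≤ P := by
    refine (Ideal.IsPrime.inf_le' hP.isPrime).mp ?_
    intro r hr
    have : r = 0 := Subtype.ext (funext fun t =>
      (RingHom.mem_ker.mp ((Submodule.mem_finsetInf.mp hr) t (Finset.mem_univ t))))
    rw [this]; exact P.zero_mem
  have hlP : (l : R) ∈ P := by
    have hmax : (P.comap (algebraMap ↥(GaloisRep.ratLocalizedAt l) R)).IsMaximal :=
      Ideal.isMaximal_comap_of_isIntegral_of_isMaximal P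
    have heq := IsLocalRing.eq_maximalIdeal hmax
    have hl : (l : ↥(GaloisRep.ratLocalizedAt l)) ∈
        IsLocalRing.maximalIdeal ↥(GaloisRep.ratLocalizedAt l) := by
      rw [IsLocalRing.mem_maximalIdeal, mem_nonunits_iff, isUnit_iff_exists_inv]
      rintro ⟨c, hc⟩
      have hc' : (l : ℚ) * (c : ℚ) = 1 := by simpa using congrArg Subtype.val hc
      have hden : (c : ℚ).den = l := by
        rw [eq_inv_of_mul_eq_one_right hc', Rat.inv_natCast_den,
          if_neg (Fact.out : l.Prime).ne_zero]
      have := c.2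
      rw [mem_ratLocalizedAt, hden, Nat.coprime_self] at this
      exact (Fact.out : l.Prime).ne_one this
    rw [← heq, Ideal.mem_comap, map_natCast] at hl
    exact hl
  -- a valuation ring dominating the image of `P`
  let Rt : Subring Qbar := (evalAt R t).range
  let q : R →+* Rt := (evalAt R t).rangeRestrict
  have hqs : Function.Surjective q := (evalAt R t).rangeRestrict_surjective
  have hqker : RingHom.ker q ≤ P := by
    rwa [RingHom.ker_rangeRestrict]
  have hQ : P.map q ≠ ⊤ := by
    intro htop
    have := Ideal.comap_map_of_surjective' q hqs P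
    rw [htop, Ideal.comap_top, sup_eq_left.mpr hqker] at this
    exact hP.ne_top this.symm
  obtain ⟨V, -, hV⟩ := Ideal.image_subset_nonunits_valuationSubring (P.map q) hQ
  have hmem : ∀ r ∈ P, r.1 t ∈ V.nonunits := fun r hr =>
    hV ⟨q r, Ideal.mem_map_of_mem q hr, rfl⟩
  have hVl : V.LiesOverPrime l := by
    have := hmem _ hlP
    simpa [ValuationSubring.LiesOverPrime] using this
  obtain ⟨τ, hτ⟩ := FLTAgent.Frobenius.exists_smul_eq (Fact.out : l.Prime) hVl hA
  refine ⟨τ • t, hP.eq_of_le (RingHom.ker_ne_top _) fun r hr => mem_ker_redAt.mpr ?_⟩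
  rw [(hR r.2).1 τ t, ← hτ]
  have hsmul : τ (r.1 t) ∈ (τ • V).nonunits := by
    have h' := hmem r hr
    rw [ValuationSubring.mem_nonunits_iff_or] at h' ⊢
    refine h'.imp (fun h0 => by rw [h0, map_zero]) fun h1 h2 => h1 ?_
    rw [← map_inv₀] at h2
    exact (ValuationSubring.smul_mem_pointwise_smul_iff (g := τ) (S := V)).mp h2
  exact hsmul

/-- A system of equations between series with coefficients in `R` whose reductions at every point
have at most one solution: the solutions at the points come from `R`. -/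
theorem exists_series_solution [Finite T] [Fact l.Prime] (hA : A.LiesOverPrime l)
    (hT : IsLevelled T) (hR : R ≤ intFun l T) {E : Type*} {σ : Type*} [Fintype σ]
    (coefs : E → σ → LaurentSeries R) (rhs : E → LaurentSeries R)
    (huniq : ∀ (t : T) (v : σ → IsLocalRing.ResidueField A),
      (∀ e, ∑ s, v s • coeffMap (redAt hA hR t) (coefs e s) = 0) → v = 0) :
    ∃ x : σ → R, ∀ (t : T) (w : σ → Qbar),
      (∀ e, ∑ s, w s • coeffMap (evalAt R t) (coefs e s) = coeffMap (evalAt R t) (rhs e)) →
      ∀ s, w s = (x s).1 t := by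
  classical
  let row : E × ℤ → σ → R := fun p s => (coefs p.1 s).coeff p.2
  have hspan : Submodule.span R (Set.range row) = ⊤ := by
    refine span_rows_eq_top row fun P hP v hv => ?_
    obtain ⟨t, rfl⟩ := exists_eq_ker_redAt hA hT hR P hP
    have h0 := huniq t (fun s => redAt hA hR t (v s)) fun e => HahnSeries.ext (funext fun n => by
      have := RingHom.mem_ker.mp (hv (e, n))
      rw [map_sum] at this
      simp only [HahnSeries.coeff_sum, HahnSeries.coeff_smul, coeffMap_coeff,
        HahnSeries.coeff_zero, smul_eq_mul, map_mul] at this ⊢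
      exact Eq.trans (Finset.sum_congr rfl fun s _ => mul_comm _ _) this)
    exact fun s => RingHom.mem_ker.mpr (congrFun h0 s)
  obtain ⟨x, hx⟩ := exists_solution row (fun p => (rhs p.1).coeff p.2) hspan
  refine ⟨x, fun t w hw => hx Qbar (evalAt R t) w fun p => ?_⟩
  have := congrArg (fun z : LaurentSeries Qbar => z.coeff p.2) (hw p.1)
  simp only [HahnSeries.coeff_sum, HahnSeries.coeff_smul, coeffMap_coeff, smul_eq_mul] at this
  rw [← this]
  exact Finset.sum_congr rfl fun s _ => mul_comm _ _

end FLTAgent.FlatModel
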