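import Fermat.Agent.Frobenius.Places
import Fermat.Agent.FlatModel.HopfOfFunctions
import Fermat.Agent.FlatModel.Specialise

/-!
# Descent of a function model along an unramified finite Galois extension
-/

set_option autoImplicit false

noncomputable section

namespace FLTAgent.FlatModel

open FLTAgent.Frobenius

local notation "Qbar" => AlgebraicClosure ℚ

local instance isAlgebraicQbarDescent : Algebra.IsAlgebraic ℚ Qbar :=
  AlgebraicClosure.isAlgebraic ℚ

local instance isAlgClosureQbarDescent : IsAlgClosure ℚ Qbar := ⟨inferInstance, inferInstance⟩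

local instance normalQbarDescent : Normal ℚ Qbar := IsAlgClosure.normal ℚ Qbar

local instance isGaloisQbarDescent : IsGalois ℚ Qbar where

variable (l : ℕ) (K : IntermediateField ℚ (AlgebraicClosure ℚ)) [Normal ℚ K]

theorem apply_mem_of_normal (σ : Γℚ) {x : Qbar} (hx : x ∈ K) : σ x ∈ K := by
  have := (inferInstance : Normal ℚ K)
  exact IntermediateField.normal_iff_forall_map_le'.mp this σ ⟨_, hx, rfl⟩

instance fixingSubgroup_normal : K.fixingSubgroup.Normal where
  conj_mem h hh g := by
    rw [IntermediateField.mem_fixingSubgroup_iff] at hh ⊢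
    intro x hx
    rw [AlgEquiv.mul_apply, AlgEquiv.mul_apply, hh _ (apply_mem_of_normal K g⁻¹ hx),
      ← AlgEquiv.mul_apply, mul_inv_cancel, AlgEquiv.one_apply]

/-- The Galois set of embeddings of `K`. -/
abbrev EmbSet : Type := Γℚ ⧸ K.fixingSubgroup

instance finite_embSet [FiniteDimensional ℚ K] : Finite (EmbSet K) := by
  let f : EmbSet K → (K →ₐ[ℚ] Qbar) := Quotient.lift (fun σ : Γℚ => σ.toAlgHom.comp K.val)
    fun a b hab => AlgHom.ext fun x => by
      have := (IntermediateField.mem_fixingSubgroup_iff K _).mp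
        (QuotientGroup.leftRel_apply.mp hab) x x.2
      show a (x : Qbar) = b (x : Qbar)
      simpa using (congrArg a this).symm
  refine Finite.of_injective f ?_
  intro a b h
  induction a using QuotientGroup.induction_on with
  | _ σ => induction b using QuotientGroup.induction_on with
    | _ τ =>
      rw [QuotientGroup.eq, IntermediateField.mem_fixingSubgroup_iff]
      intro x hx
      have := DFunLike.congr_fun h ⟨x, hx⟩
      rw [AlgEquiv.mul_apply, show τ x = σ x from this.symm]
      exact σ.symm_apply_apply x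

theorem smul_embSet (σ : Γℚ) (n : EmbSet K) : σ • n = (σ : EmbSet K) * n := by
  induction n using QuotientGroup.induction_on with
  | _ τ => rfl

theorem isLevelled_embSet [FiniteDimensional ℚ K] : IsLevelled (EmbSet K) :=
  ⟨K, inferInstance, fun σ hσ n => by
    rw [smul_embSet, (QuotientGroup.eq_one_iff σ).mpr
      ((IntermediateField.mem_fixingSubgroup_iff K σ).mpr hσ), one_mul]⟩

variable {l K}

/-- The translation of `EmbSet K × X` on the first factor. -/
def translate {X : Type} (g : EmbSet K) (p : EmbSet K × X) : EmbSet K × X := (p.1 * g, p.2)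

theorem smul_translate {X : Type} [MulAction Γℚ X] (σ : Γℚ) (g : EmbSet K)
    (p : EmbSet K × X) : σ • translate g p = translate g (σ • p) :=
  Prod.ext (by
    show σ • (p.1 * g) = σ • p.1 * g
    rw [smul_embSet, smul_embSet, mul_assoc]) rfl

set_option quotPrecheck false in
local notation "Oℓ" => ↥(GaloisRep.ratLocalizedAt l)

theorem pullback_mem_intFun {X Y : Type} [MulAction Γℚ X] [MulAction Γℚ Y] {φ : X → Y}
    (hφ : ∀ (σ : Γℚ) (x : X), φ (σ • x) = σ • φ x) {f : Y → Qbar} (hf : f ∈ intFun l Y) :
    pullback l φ f ∈ intFun l X := by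
  rw [mem_intFun] at hf ⊢
  exact ⟨fun σ x => by simp only [pullback_apply, hφ, hf.1], fun x => hf.2 _⟩

/-- Summation over the embeddings. -/
def traceFun [FiniteDimensional ℚ K] {X : Type} (f : EmbSet K × X → Qbar) : X → Qbar :=
  letI := Fintype.ofFinite (EmbSet K)
  fun x => ∑ n, f (n, x)

omit [Normal ℚ K] in
theorem traceFun_mem_intFun [FiniteDimensional ℚ K] {X : Type} [MulAction Γℚ X]
    {f : EmbSet K × X → Qbar} (hf : f ∈ intFun l (EmbSet K × X)) :
    traceFun f ∈ intFun l X := by
  let := Fintype.ofFinite (EmbSet K)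
  rw [mem_intFun] at hf ⊢
  refine ⟨fun σ x => ?_, fun x => IsIntegral.sum _ fun n _ => hf.2 _⟩
  show ∑ n, f (n, σ • x) = σ (∑ n, f (n, x))
  rw [map_sum]
  refine (Fintype.sum_equiv (MulAction.toPerm σ) (fun n => σ (f (n, x))) _ fun n => ?_).symm
  exact (hf.1 σ (n, x)).symm

theorem exists_algebraMap_eq_of_forall_fixed [Fact l.Prime] {c : Qbar}
    (hc : IsIntegral Oℓ c) (hfix : ∀ σ : Γℚ, σ c = c) : ∃ a : Oℓ, algebraMap Oℓ Qbar a = c := by
  obtain ⟨q, hq⟩ := (InfiniteGalois.mem_range_algebraMap_iff_fixed (k := ℚ) c).mpr hfix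
  rw [← hq, isIntegral_algebraMap_iff (algebraMap ℚ Qbar).injective] at hc
  have := isFractionRing_ratLocalizedAt l
  obtain ⟨a, ha⟩ := IsIntegrallyClosed.algebraMap_eq_of_integral hc
  exact ⟨a, by rw [← hq, ← ha]; rfl⟩

open scoped Classical in
/-- Functions on the embeddings separate them modulo every place above `l`, so the diagonal is cut
out by finitely many products. -/
theorem exists_diagonal [Fact l.Prime] [FiniteDimensional ℚ K]
    {A : ValuationSubring Qbar} (hA : A.LiesOverPrime l)
    (hK : A.inertiaSubgroupIn ℚ ≤ K.fixingSubgroup) :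
    ∃ (m : ℕ) (x y : Fin m → (EmbSet K → Qbar)),
      (∀ i, x i ∈ intFun l (EmbSet K)) ∧ (∀ i, y i ∈ intFun l (EmbSet K)) ∧
      ∀ n n' : EmbSet K, ∑ i, x i n * y i n' = if n = n' then 1 else 0 := by
  classical
  let := Fintype.ofFinite (EmbSet K)
  -- the products of functions
  let Q : Submodule Oℓ (EmbSet K × EmbSet K → Qbar) := Submodule.span Oℓ
    (Set.range fun p : intFun l (EmbSet K) × intFun l (EmbSet K) =>
      fun t : EmbSet K × EmbSet K => p.1.1 t.1 * p.2.1 t.2)
  have hQmul : ∀ u v, u ∈ Q → v ∈ Q → u * v ∈ Q := by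
    intro u v hu hv
    induction hu using Submodule.span_induction with
    | mem u hu =>
      obtain ⟨⟨a, b⟩, rfl⟩ := hu
      induction hv using Submodule.span_induction with
      | mem v hv =>
        obtain ⟨⟨c, d⟩, rfl⟩ := hv
        refine Submodule.subset_span ⟨(a * c, b * d), funext fun t => ?_⟩
        show a.1 t.1 * c.1 t.1 * (b.1 t.2 * d.1 t.2) = a.1 t.1 * b.1 t.2 * (c.1 t.1 * d.1 t.2)
        ring
      | zero => simp
      | add p q _ _ hp hq => rw [mul_add]; exact Q.add_mem hp hq
      | smul c p _ hp => rw [mul_smul_comm]; exact Q.smul_mem c hp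
    | zero => simp
    | add p q _ _ hp hq => rw [add_mul]; exact Q.add_mem hp hq
    | smul c p _ hp => rw [smul_mul_assoc]; exact Q.smul_mem c hp
  have hQone : (1 : EmbSet K × EmbSet K → Qbar) ∈ Q :=
    Submodule.subset_span ⟨(1, 1), funext fun t => one_mul 1⟩
  -- separation modulo `A`
  have hsep : ∀ t t' : EmbSet K, t ≠ t' →
      ∃ h : intFun l (EmbSet K), h.1 t - h.1 t' ∉ A.nonunits := by
    intro t t'
    induction t using QuotientGroup.induction_on with
    | _ g => induction t' using QuotientGroup.induction_on with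
      | _ g' =>
        intro hne
        by_contra! hall
        have hval : ∀ α : Qbar, IsIntegral ℤ α → α ∈ K → g α - g' α ∈ A.nonunits := by
          intro α hαi hαK
          have hwd : ∀ a b : Γℚ, (a : EmbSet K) = (b : EmbSet K) → a α = b α := by
            intro a b hab
            have := (IntermediateField.mem_fixingSubgroup_iff K _).mp (QuotientGroup.eq.mp hab) α hαK
            rw [AlgEquiv.mul_apply] at this
            exact (by simpa using congrArg a this : b α = a α).symm
          let h : EmbSet K → Qbar := Quotient.lift (fun a : Γℚ => a α) fun a b hab =>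
            hwd a b (Quotient.sound hab)
          refine hall ⟨h, mem_intFun.mpr ⟨fun σ n => ?_, fun n => ?_⟩⟩
          · induction n using QuotientGroup.induction_on with
            | _ a => rfl
          · induction n using QuotientGroup.induction_on with
            | _ a =>
              exact (hαi.map a.toAlgHom).tower_top
        obtain ⟨ι, hι, hιeq⟩ := exists_mem_inertiaSubgroupIn_eqOn (A := A) K (g * g'⁻¹) fun z hz => by
          have hmem : g'⁻¹ (z : Qbar) ∈ K := by
            have := (inferInstance : Normal ℚ K)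
            exact IntermediateField.normal_iff_forall_map_le'.mp this g'⁻¹ ⟨_, hz, rfl⟩
          have := hval _ (z.2.map g'⁻¹.toAlgHom) hmem
          rw [mem_centre]
          simpa [AlgEquiv.aut_inv] using this
        apply hne
        rw [QuotientGroup.eq]
        have hgg : g * g'⁻¹ ∈ K.fixingSubgroup := by
          rw [IntermediateField.mem_fixingSubgroup_iff]
          intro x hx
          rw [← hιeq x hx]
          exact (IntermediateField.mem_fixingSubgroup_iff K ι).mp (hK hι) x hx
        have h2 := (fixingSubgroup_normal K).conj_mem _ (inv_mem hgg) g⁻¹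
        simpa [mul_assoc] using h2
  -- the function separating one translate from the diagonal
  have hfactor : ∀ g : EmbSet K, g ≠ 1 →
      ∃ f ∈ Q, ∀ n, f (n, n) = 0 ∧ f (n, n * g) = 1 := by
    intro g hg
    let d : intFun l (EmbSet K) → intFun l (EmbSet K) := fun h =>
      ⟨fun n => h.1 n - h.1 (n * g), sub_mem h.2 (pullback_mem_intFun (φ := fun n => n * g)
        (fun σ n => by rw [smul_embSet, smul_embSet, mul_assoc]) h.2)⟩
    have hspan : Submodule.span (intFun l (EmbSet K)) (Set.range fun h (_ : Unit) => d h) = ⊤ := by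
      refine span_rows_eq_top _ fun P hP v hv s => ?_
      obtain ⟨t, rfl⟩ :=
        exists_eq_ker_redAt hA (isLevelled_embSet K) (le_refl (intFun l (EmbSet K))) P hP
      obtain ⟨h, hh⟩ := hsep t (t * g) fun e => hg (mul_left_cancel (a := t) (by rw [← e, mul_one]))
      have h1 := hv h
      rw [Fintype.sum_unique] at h1
      exact (Ideal.IsPrime.mem_or_mem (RingHom.ker_isPrime _) h1).resolve_left fun hd =>
        hh (mem_ker_redAt.mp hd)
    obtain ⟨x, hx⟩ := Finsupp.mem_span_range_iff_exists_finsupp.mp
      (hspan ▸ Submodule.mem_top : (fun _ : Unit => (1 : intFun l (EmbSet K))) ∈ _)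
    refine ⟨fun t => ∑ h ∈ x.support, (x h).1 t.1 * (h.1 t.1 - h.1 t.2), ?_, fun n => ⟨?_, ?_⟩⟩
    · have : (fun t : EmbSet K × EmbSet K => ∑ h ∈ x.support, (x h).1 t.1 * (h.1 t.1 - h.1 t.2)) =
          ∑ h ∈ x.support, ((fun t : EmbSet K × EmbSet K => ((x h * h : intFun l (EmbSet K))).1 t.1 *
            (1 : intFun l (EmbSet K)).1 t.2) - fun t => (x h).1 t.1 * h.1 t.2) := by
        refine funext fun t => ?_
        rw [Finset.sum_apply]
        refine Finset.sum_congr rfl fun h _ => ?_
        show _ = (x h).1 t.1 * h.1 t.1 * 1 - (x h).1 t.1 * h.1 t.2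
        ring
      rw [this]
      exact Q.sum_mem fun h _ => Q.sub_mem (Submodule.subset_span ⟨(x h * h, 1), rfl⟩)
        (Submodule.subset_span ⟨(x h, h), rfl⟩)
    · simp
    · have := congrArg (fun z : intFun l (EmbSet K) => z.1 n) (congrFun hx ())
      simp only [Finsupp.sum, Finset.sum_apply, Pi.smul_apply, smul_eq_mul,
        AddSubmonoidClass.coe_finsetSum] at this
      exact this
  choose f hfQ hf using hfactor
  let F : EmbSet K → EmbSet K × EmbSet K → Qbar := fun g =>
    if hg : g = 1 then 1 else 1 - f g hg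
  have hFQ : ∀ s : Finset (EmbSet K), ∏ g ∈ s, F g ∈ Q := by
    intro s
    induction s using Finset.induction_on with
    | empty => simpa using hQone
    | insert a s ha ih =>
      rw [Finset.prod_insert ha]
      refine hQmul _ _ ?_ ih
      by_cases h : a = 1 <;> simp only [F, h, ↓reduceDIte]
      · exact hQone
      · exact Q.sub_mem hQone (hfQ a h)
  have hval : ∀ n n' : EmbSet K,
      (∏ g, F g) (n, n') = if n = n' then 1 else 0 := by
    intro n n'
    rw [Finset.prod_apply]
    split
    · next h =>
      subst h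
      refine Finset.prod_eq_one fun g _ => ?_
      by_cases hg : g = 1 <;> simp only [F, hg, ↓reduceDIte, Pi.one_apply, Pi.sub_apply]
      rw [(hf g hg n).1, sub_zero]
    · next h =>
      have hg : n⁻¹ * n' ≠ 1 := fun e => h (inv_mul_eq_one.mp e)
      refine Finset.prod_eq_zero (Finset.mem_univ (n⁻¹ * n')) ?_
      simp only [F, hg, ↓reduceDIte, Pi.one_apply, Pi.sub_apply]
      have := (hf _ hg n).2
      rw [mul_inv_cancel_left] at this
      rw [this, sub_self]
  obtain ⟨c, hc⟩ := Finsupp.mem_span_range_iff_exists_finsupp.mp (hFQ Finset.univ)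
  let e := c.support.equivFin
  refine ⟨c.support.card, fun i => c (e.symm i).1 • (e.symm i).1.1.1, fun i => (e.symm i).1.2.1,
    fun i => Subalgebra.smul_mem _ (e.symm i).1.1.2 _, fun i => (e.symm i).1.2.2, fun n n' => ?_⟩
  rw [← hval n n', ← hc, Finsupp.sum, Finset.sum_apply,
    ← Finset.sum_coe_sort c.support]
  refine Fintype.sum_equiv e.symm _ _ fun i => ?_
  simp

end FLTAgent.FlatModel
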