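import Mathlib.FieldTheory.Minpoly.IsConjRoot
import Fermat.Agent.FlatModel.Specialise

/-!
# Integrality from a single place and all conjugates

An algebraic number all of whose conjugates lie in one place above `l` is integral over `ℤ₍ₗ₎`.
-/

set_option autoImplicit false

noncomputable section

namespace FLTAgent.FlatModel

open FLTAgent.Frobenius Polynomial

local notation "Qbar" => AlgebraicClosure ℚ

variable {l : ℕ} [Fact l.Prime] {A : ValuationSubring (AlgebraicClosure ℚ)}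

theorem ratCast_mem_iff (hA : A.LiesOverPrime l) (q : ℚ) :
    algebraMap ℚ Qbar q ∈ A ↔ q ∈ GaloisRep.ratLocalizedAt l := by
  refine ⟨fun h => ?_, fun h => mem_of_isIntegral_ratLocalizedAt hA
    (isIntegral_algebraMap (R := ↥(GaloisRep.ratLocalizedAt l)) (x := ⟨q, h⟩))⟩
  rw [mem_ratLocalizedAt, Nat.coprime_comm,
    (Fact.out : l.Prime).coprime_iff_not_dvd]
  intro hd
  have hnum : algebraMap ℚ Qbar q * ((q.den : ℤ) : Qbar) = ((q.num : ℤ) : Qbar) := by
    rw [← map_intCast (algebraMap ℚ Qbar), ← map_intCast (algebraMap ℚ Qbar), ← map_mul,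
      Int.cast_natCast, Rat.mul_den_eq_num]
  have hden : ((q.den : ℤ) : Qbar) ∈ A.nonunits :=
    (intCast_mem_nonunits_iff Fact.out hA _).2 (Int.natCast_dvd_natCast.2 hd)
  have := nonunits_mul_mem A h hden
  rw [hnum, intCast_mem_nonunits_iff Fact.out hA] at this
  exact (Fact.out : l.Prime).not_dvd_one <| by
    rw [← q.reduced.gcd_eq_one]
    exact Nat.dvd_gcd (Int.natCast_dvd.1 this) hd

theorem isIntegral_of_forall_mem (hA : A.LiesOverPrime l) {x : Qbar}
    (h : ∀ σ : Γℚ, σ x ∈ A) : IsIntegral ↥(GaloisRep.ratLocalizedAt l) x := by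
  have : Algebra.IsAlgebraic ℚ Qbar := AlgebraicClosure.isAlgebraic ℚ
  have : IsAlgClosure ℚ Qbar := ⟨inferInstance, inferInstance⟩
  have : Normal ℚ Qbar := IsAlgClosure.normal ℚ Qbar
  have hx : IsIntegral ℚ x := Algebra.IsIntegral.isIntegral x
  set p := (minpoly ℚ x).map (algebraMap ℚ Qbar) with hp
  have hlift : p ∈ lifts A.toSubring.subtype := by
    refine (IsAlgClosed.splits p).mem_lift_of_roots_mem_range
      ((minpoly.monic hx).map _) _ fun a ha => ?_
    rw [mem_roots ((minpoly.monic hx).map _).ne_zero, IsRoot.def, eval_map_algebraMap] at ha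
    obtain ⟨σ, hσ⟩ := IsConjRoot.exists_algEquiv
      (isConjRoot_iff_aeval_eq_zero hx |>.2 ha).symm
    exact ⟨⟨a, hσ ▸ h σ⟩, rfl⟩
  have hcoeff : ∀ n, (minpoly ℚ x).coeff n ∈ GaloisRep.ratLocalizedAt l := by
    intro n
    rw [← ratCast_mem_iff hA]
    obtain ⟨b, hb⟩ := (lifts_iff_coeff_lifts p).1 hlift n
    rw [hp, coeff_map] at hb
    rw [← hb]
    exact b.2
  obtain ⟨P, hP, -, hPm⟩ := lifts_and_degree_eq_and_monic
    (f := (GaloisRep.ratLocalizedAt l).subtype) (p := minpoly ℚ x)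
    ((lifts_iff_coeff_lifts _).2 fun n => ⟨⟨_, hcoeff n⟩, rfl⟩) (minpoly.monic hx)
  refine ⟨P, hPm, ?_⟩
  have h0 := minpoly.aeval ℚ x
  rw [← hP, aeval_def, eval₂_map] at h0
  exact h0

end FLTAgent.FlatModel
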