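import Fermat.Agent.FlatModel.CurveBases
import Fermat.Agent.FlatModel.IntegralConj
import Fermat.Agent.FlatModel.Descent

/-!
# Families of functions on a curve as series over a ring of functions on the parameters
-/

set_option autoImplicit false
set_option linter.unusedSectionVars false

noncomputable section

open AlgebraicCurve ModularCurve

namespace FLTAgent.FlatModel

open FLTAgent.FunctionField FLTAgent.GoodRed FLTAgent.Frobenius

local notation "Qbar" => AlgebraicClosure ℚ

section General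

variable {K : Type*} [Field K] {G : IntermediateField K (LaurentSeries K)}

theorem coe_smul_series (c : K) (y : G) :
    ((c • y : G) : LaurentSeries K) = c • (y : LaurentSeries K) := by
  refine HahnSeries.ext (funext fun n => ?_)
  have h := map_smul (co (G := G) (-n)) c y
  simp only [co_apply, neg_neg] at h
  rw [h, HahnSeries.coeff_smul]

theorem coe_sum_smul_series {ι : Type*} (s : Finset ι) (c : ι → K) (y : ι → G) :
    ((∑ i ∈ s, c i • y i : G) : LaurentSeries K) = ∑ i ∈ s, c i • (y i : LaurentSeries K) := by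
  classical
  induction s using Finset.induction_on with
  | empty => simp
  | insert a s ha ih =>
    rw [Finset.sum_insert ha, Finset.sum_insert ha, IntermediateField.coe_add, ih, coe_smul_series]

theorem smul_series_eq_single_mul {S : Type*} [CommRing S] (c : S) (Y : LaurentSeries S) :
    c • Y = HahnSeries.single 0 c * Y := by
  refine HahnSeries.ext (funext fun n => ?_)
  rw [HahnSeries.coeff_smul, HahnSeries.coeff_single_zero_mul, smul_eq_mul]

variable {v : Place K G}

theorem IsInfPlace.ord_eq_of_co (hv : IsInfPlace v) {D : Divisor K G} {f : G}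
    (hf : f ∈ riemannRochSpace D) (h : co (D v) f ≠ 0) : f ≠ 0 ∧ v.ord f = -D v := by
  have hf0 : f ≠ 0 := fun h0 => h (by rw [h0, map_zero])
  refine ⟨hf0, le_antisymm ?_ ((mem_rr_iff.1 hf v).le_ord hf0)⟩
  rw [hv f hf0]
  exact HahnSeries.order_le_of_coeff_ne_zero h

/-- The coefficients of `g · uv` in degrees `2M..3M` determine `g`. -/
theorem IsInfPlace.eq_zero_of_co_mul [IsFunctionField K G] (hv : IsInfPlace v)
    {D : Divisor K G} (hD : D v = 0) (h0 : ell (D - Finsupp.single v 1) = 0) {M : ℤ} {uv g : G}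
    (huv : uv ≠ 0) (hord : v.ord uv = -(2 * M))
    (hg : g ∈ riemannRochSpace (D + Finsupp.single v M))
    (h : ∀ n ∈ Finset.Icc (2 * M) (3 * M), co n (g * uv) = 0) : g = 0 := by
  by_contra hg0
  have h1 := (mem_rr_iff.1 hg v).le_ord hg0
  rw [Finsupp.add_apply, Finsupp.single_eq_same, hD] at h1
  have hne := mul_ne_zero hg0 huv
  have hn : 1 ≤ v.ord g := by
    by_contra hlt
    push Not at hlt
    have h2 := h (-v.ord (g * uv)) (Finset.mem_Icc.2
      ⟨by rw [v.ord_mul hg0 huv, hord]; omega, by rw [v.ord_mul hg0 huv, hord]; omega⟩)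
    rw [co_apply, neg_neg, hv _ hne] at h2
    exact HahnSeries.coeff_order_eq_zero.not.2 (fun e => hne (Subtype.ext e)) h2
  refine hg0 (eq_zero_of_ell_eq_zero h0 (mem_rr_iff.2 fun w => ?_))
  rcases eq_or_ne w v with rfl | hw
  · refine ordGe_of_le_ord ?_
    rw [Finsupp.sub_apply, Finsupp.single_eq_same, hD]
    omega
  · have := mem_rr_iff.1 hg w
    rw [Finsupp.add_apply, Finsupp.single_eq_of_ne hw, add_zero] at this
    rwa [Finsupp.sub_apply, Finsupp.single_eq_of_ne hw, sub_zero]

/-- The element with leading coefficient `δ` has no pole at the cusp beyond `D`. -/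
theorem IsInfPlace.nonneg_divisorOf_add [IsFunctionField K G] (hv : IsInfPlace v)
    {D : Divisor K G} (hD : D v = 0) {M : ℤ} (hM : 0 ≤ M) {uv g : G} (huv : uv ≠ 0)
    (hord : v.ord uv = -(2 * M)) (hg : g ∈ riemannRochSpace (D + Finsupp.single v M))
    (h : ∀ n ∈ Finset.Icc (2 * M) (3 * M), co n (g * uv) = if n = 2 * M then 1 else 0) :
    g ≠ 0 ∧ 0 ≤ divisorOf g + D := by
  have hg0 : g ≠ 0 := fun e => by
    have := h (2 * M) (Finset.mem_Icc.2 ⟨le_rfl, by omega⟩)
    rw [e, zero_mul, map_zero, if_pos rfl] at this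
    exact zero_ne_one this
  have h1 := (mem_rr_iff.1 hg v).le_ord hg0
  rw [Finsupp.add_apply, Finsupp.single_eq_same, hD] at h1
  have hne := mul_ne_zero hg0 huv
  have hn : 0 ≤ v.ord g := by
    by_contra hlt
    push Not at hlt
    have h2 := h (-v.ord (g * uv)) (Finset.mem_Icc.2
      ⟨by rw [v.ord_mul hg0 huv, hord]; omega, by rw [v.ord_mul hg0 huv, hord]; omega⟩)
    rw [if_neg (by rw [v.ord_mul hg0 huv, hord]; omega), co_apply, neg_neg, hv _ hne] at h2
    exact HahnSeries.coeff_order_eq_zero.not.2 (fun e => hne (Subtype.ext e)) h2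
  refine ⟨hg0, fun w => ?_⟩
  rw [Finsupp.zero_apply, Finsupp.add_apply, divisorOf_apply]
  rcases eq_or_ne w v with rfl | hw
  · omega
  · have := (mem_rr_iff.1 hg w).le_ord hg0
    rw [Finsupp.add_apply, Finsupp.single_eq_of_ne hw, add_zero] at this
    omega

end General

variable {F₀ : IntermediateField ℚ (LaurentSeries ℚ)}
  {A : ValuationSubring (AlgebraicClosure ℚ)}
  {Fb : IntermediateField (IsLocalRing.ResidueField A) (LaurentSeries (IsLocalRing.ResidueField A))}
  [IsFunctionField (AlgebraicClosure ℚ) ↥(FBar F₀)]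
  [IsFunctionField (IsLocalRing.ResidueField A) ↥Fb]
  [IsAlgClosed (IsLocalRing.ResidueField A)]
  {C : CurveDatum F₀ A Fb} {l : ℕ} [Fact l.Prime] {T : Type} [MulAction Γℚ T]
  {R : Subalgebra ↥(GaloisRep.ratLocalizedAt l) (T → AlgebraicClosure ℚ)}

/-- The series `Y` takes the values `y t` at the points. -/
def IsSeriesOf (Y : LaurentSeries R) (y : T → FBar F₀) : Prop :=
  ∀ t, coeffMap (evalAt R t) Y = (y t : LaurentSeries Qbar)

omit [MulAction Γℚ T] in
theorem exists_isSeriesOf (y : T → FBar F₀) (m : ℤ) (hm : ∀ t n, m < n → co n (y t) = 0)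
    (hR : ∀ n, (fun t => co n (y t)) ∈ R) : ∃ Y : LaurentSeries R, IsSeriesOf Y y := by
  refine ⟨HahnSeries.ofSuppBddBelow (fun k => ⟨fun t => co (-k) (y t), hR (-k)⟩)
    ⟨-m, fun k hk => ?_⟩, fun t => HahnSeries.ext (funext fun k => ?_)⟩
  · by_contra hlt
    push Not at hlt
    exact hk (Subtype.ext (funext fun t => hm t (-k) (by omega)))
  · rw [coeffMap_coeff]
    show co (-k) (y t) = _
    rw [co_apply, neg_neg]

variable {Y : LaurentSeries R} {y : T → FBar F₀}

omit [MulAction Γℚ T] in
theorem IsSeriesOf.mul {Y' : LaurentSeries R} {y' : T → FBar F₀} (h : IsSeriesOf Y y)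
    (h' : IsSeriesOf Y' y') : IsSeriesOf (Y * Y') (fun t => y t * y' t) := fun t => by
  rw [map_mul, h t, h' t, IntermediateField.coe_mul]

omit [MulAction Γℚ T] in
theorem IsSeriesOf.sum_single_mul {ι : Type*} (s : Finset ι) (r : ι → R) {Z : ι → LaurentSeries R}
    {z : ι → T → FBar F₀} (h : ∀ i ∈ s, IsSeriesOf (Z i) (z i)) :
    IsSeriesOf (∑ i ∈ s, HahnSeries.single 0 (r i) * Z i)
      (fun t => ∑ i ∈ s, (r i).1 t • z i t) := by
  intro t
  rw [map_sum, coe_sum_smul_series]
  refine Finset.sum_congr rfl fun i hi => ?_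
  rw [map_mul, coeffMap_single, h i hi t, smul_series_eq_single_mul, evalAt_apply]

theorem IsSeriesOf.red (h : IsSeriesOf Y y) (hA : A.LiesOverPrime l) (hR : R ≤ intFun l T) {t : T}
    {z : Fb} (hr : C.D.Red (y t) z) (hreg : RegAway (K := Qbar) C.x (y t)) :
    coeffMap (redAt hA hR t) Y = (z : LaurentSeries (IsLocalRing.ResidueField A)) := by
  refine HahnSeries.ext (funext fun k => ?_)
  obtain ⟨hmem, hz⟩ := C.co_red _ _ hr hreg (-k)
  have hz' : (z : LaurentSeries (IsLocalRing.ResidueField A)).coeff k =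
      co (G := Fb) (-k) z := by rw [co_apply, neg_neg]
  rw [coeffMap_coeff, hz', ← hz]
  refine congrArg (IsLocalRing.residue A) (Subtype.ext ?_)
  show (Y.coeff k).1 t = co (-k) (y t)
  rw [co_apply, neg_neg, ← h t, coeffMap_coeff, evalAt_apply]

/-- Coefficients of rational functions with integral coefficients are constants in `R`. -/
theorem const_co_mem (hA : A.LiesOverPrime l) {x : FBar F₀}
    (hx : ∀ σ : Γℚ, gal F₀ σ • x = x) {xb : Fb} (hr : C.D.Red x xb)
    (hreg : RegAway (K := Qbar) C.x x) (n : ℤ) :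
    (fun _ : T => co n x) ∈ R := by
  have hfix : ∀ σ : Γℚ, σ (co n x) = co n x := fun σ => by rw [← co_gal, hx]
  obtain ⟨hmem, -⟩ := C.co_red _ _ hr hreg n
  obtain ⟨a, ha⟩ := exists_algebraMap_eq_of_forall_fixed
    (isIntegral_of_forall_mem hA fun σ => (hfix σ).symm ▸ hmem) hfix
  rw [show (fun _ : T => co n x) = algebraMap _ (T → Qbar) a from funext fun _ => ha.symm]
  exact R.algebraMap_mem a

end FLTAgent.FlatModel
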