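import Fermat.Agent.FlatModel.CurveBases
import Fermat.Agent.FlatModel.CurveSeparate
import Fermat.Agent.FlatModel.CurveSeries
import Mathlib.Algebra.Field.GeomSum
import Mathlib.RingTheory.RootsOfUnity.AlgebraicallyClosed

/-!
# Points fixed by inertia avoiding a finite set on the reduction

Over a root of unity of prime order prime to `l` avoiding finitely many orders, the points of the
fibre of a function with a single pole are fixed by inertia and reduce outside a given finite set.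
-/

set_option autoImplicit false
set_option linter.unusedSectionVars false

noncomputable section

open AlgebraicCurve ModularCurve

namespace FLTAgent.FlatModel

open FLTAgent.FunctionField FLTAgent.GoodRed FLTAgent.Frobenius

local notation "Qbar" => AlgebraicClosure ℚ

local instance (priority := high) instCoeFunCoCPoint {K : Type*} [Field K]
    (G : IntermediateField K (LaurentSeries K)) : CoeFun (G →ₗ[K] K) fun _ => G → K :=
  DFunLike.toCoeFun

local instance (priority := high) instAlgebraLaurentCPoint {K : Type*} [Field K]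
    (F : IntermediateField K (LaurentSeries K)) : Algebra K F :=
  SubalgebraClass.toAlgebra F

local instance (priority := high) instSMulLaurentCPoint {K : Type*} [Field K]
    (F : IntermediateField K (LaurentSeries K)) : SMul K F :=
  (SubalgebraClass.toAlgebra F).toSMul

local instance (priority := high) instModuleLaurentCPoint {K : Type*} [Field K]
    (F : IntermediateField K (LaurentSeries K)) : Module K F :=
  (SubalgebraClass.toAlgebra F).toModule

section RootsOfUnity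

variable {l n : ℕ} [Fact l.Prime] {A : ValuationSubring (AlgebraicClosure ℚ)}

theorem mem_of_pow_eq_one {u : Qbar} (hn : 0 < n) (hu : u ^ n = 1) : u ∈ A :=
  mem_of_isIntegral A (IsIntegral.of_pow hn (by rw [hu]; exact isIntegral_one))

theorem eq_one_of_sub_one_mem_nonunits (hA : A.LiesOverPrime l) (hn : n.Prime) (hnl : n ≠ l)
    {u : Qbar} (hu : u ^ n = 1) (h : u - 1 ∈ A.nonunits) : u = 1 := by
  by_contra hne
  have hsum : ∑ i ∈ Finset.range n, u ^ i = 0 := by
    rw [geom_sum_eq hne, hu, sub_self, zero_div]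
  have hA' : (⟨u, mem_of_pow_eq_one hn.pos hu⟩ : A) ^ n = 1 := Subtype.ext hu
  have hres : IsLocalRing.residue A ⟨u, mem_of_pow_eq_one hn.pos hu⟩ = 1 := by
    rw [← map_one (IsLocalRing.residue A), ← sub_eq_zero, ← map_sub,
      IsLocalRing.residue_eq_zero_iff, ← ValuationSubring.coe_mem_nonunits_iff]
    exact h
  have h0 : (n : IsLocalRing.ResidueField A) = 0 := by
    have e : (∑ i ∈ Finset.range n, (⟨u, mem_of_pow_eq_one hn.pos hu⟩ : A) ^ i) = 0 :=
      Subtype.ext (by push_cast; exact hsum)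
    have h1 := congrArg (IsLocalRing.residue A) e
    rw [map_sum, map_zero] at h1
    simp only [map_pow, hres, one_pow, Finset.sum_const, Finset.card_range, nsmul_one] at h1
    exact h1
  rw [← map_natCast (IsLocalRing.residue A), IsLocalRing.residue_eq_zero_iff,
    ← ValuationSubring.coe_mem_nonunits_iff] at h0
  have h1 : ((n : ℤ) : Qbar) ∈ A.nonunits := by simpa using h0
  exact hnl (((Nat.prime_dvd_prime_iff_eq Fact.out hn).1
    (Int.natCast_dvd_natCast.1 ((intCast_mem_nonunits_iff Fact.out hA _).1 h1))).symm)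

theorem orderOf_residue (hA : A.LiesOverPrime l) (hn : n.Prime) (hnl : n ≠ l)
    {u : Qbar} (hu : u ^ n = 1) (hu1 : u ≠ 1) :
    orderOf (IsLocalRing.residue A ⟨u, mem_of_pow_eq_one hn.pos hu⟩) = n := by
  have := Fact.mk hn
  refine orderOf_eq_prime ?_ fun h => hu1 (eq_one_of_sub_one_mem_nonunits hA hn hnl hu ?_)
  · rw [← map_pow]
    exact (congrArg (IsLocalRing.residue A)
      (Subtype.ext hu : (⟨u, mem_of_pow_eq_one hn.pos hu⟩ : A) ^ n = 1)).trans (map_one _)
  · rw [← map_one (IsLocalRing.residue A), ← sub_eq_zero, ← map_sub,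
      IsLocalRing.residue_eq_zero_iff, ← ValuationSubring.coe_mem_nonunits_iff] at h
    exact h

theorem inertia_fix_root (hA : A.LiesOverPrime l) (hn : n.Prime) (hnl : n ≠ l) {u : Qbar}
    (hu : u ^ n = 1) {τ : Γℚ} (hτ : τ ∈ A.inertiaSubgroupIn ℚ) : τ u = u := by
  have hu0 : u ≠ 0 := fun h => by rw [h, zero_pow hn.ne_zero] at hu; exact zero_ne_one hu
  have h1 : (τ u / u) ^ n = 1 := by rw [div_pow, ← map_pow, hu, map_one, div_one]
  have huA := mem_of_pow_eq_one (A := A) hn.pos hu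
  have h2 : τ u / u - 1 ∈ A.nonunits := by
    have hinv : u⁻¹ ∈ A := mem_of_pow_eq_one hn.pos (by rw [inv_pow, hu, inv_one])
    have h3 := nonunits_mul_mem A hinv ((mem_inertiaSubgroupIn_iff.1 hτ).2 u huA)
    rwa [mul_sub, inv_mul_cancel₀ hu0, ← div_eq_inv_mul] at h3
  exact (div_eq_one_iff_eq hu0).1 (eq_one_of_sub_one_mem_nonunits hA hn hnl h1 h2)

end RootsOfUnity

variable {F₀ : IntermediateField ℚ (LaurentSeries ℚ)}
  {A : ValuationSubring (AlgebraicClosure ℚ)}
  {Fb : IntermediateField (IsLocalRing.ResidueField A) (LaurentSeries (IsLocalRing.ResidueField A))}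
  [IsFunctionField (AlgebraicClosure ℚ) ↥(FBar F₀)]
  [IsFunctionField (IsLocalRing.ResidueField A) ↥Fb]
  [IsAlgClosed (IsLocalRing.ResidueField A)]

theorem gal_sub_const (σ : Γℚ) {x : FBar F₀} (hx : gal F₀ σ • x = x) (a : Qbar) :
    gal F₀ σ • (x - algebraMap Qbar ↥(FBar F₀) a) = x - algebraMap Qbar ↥(FBar F₀) (σ a) := by
  rw [smul_sub, hx, SemilinearAut.smul_algebraMap]
  rfl

theorem ordGe_gal (σ : Γℚ) {w : Place Qbar ↥(FBar F₀)} {n : ℤ} {f : FBar F₀} (h : OrdGe w n f) :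
    OrdGe (gal F₀ σ • w) n (gal F₀ σ • f) := by
  rcases eq_or_ne f 0 with rfl | hf
  · rw [smul_zero]; exact ordGe_zero _
  refine ordGe_of_le_ord ?_
  rw [SemilinearAut.ord_smul]
  exact h.le_ord hf

namespace CurveDatum

variable {C : CurveDatum F₀ A Fb}

theorem ord_sub_const {G : Type*} [Field G] {K : Type*} [Field K] [Algebra K G]
    {v : Place K G} {x : G} (hx : v.ord x < 0) (a : K) :
    x - algebraMap K G a ≠ 0 ∧ v.ord (x - algebraMap K G a) = v.ord x := by
  have hx0 : x ≠ 0 := fun h => by rw [h, v.ord_zero] at hx; omega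
  rw [sub_eq_add_neg]
  exact ord_add_eq_left hx0 ((ordGe_algebraMap a).neg.mono (by omega))

theorem ord_pole {i : ℤ} {x : FBar F₀} (hx : x ∈ riemannRochSpace (Finsupp.single C.inf i))
    (hco : co i x = 1) : x ≠ 0 ∧ C.inf.ord x = -i := by
  have h := C.hinf.ord_eq_of_co hx (by rw [Finsupp.single_eq_same, hco]; exact one_ne_zero)
  rwa [Finsupp.single_eq_same] at h

theorem ord_poleb {i : ℤ} {x : Fb} (hx : x ∈ riemannRochSpace (Finsupp.single C.infb i))
    (hco : co i x = 1) : x ≠ 0 ∧ C.infb.ord x = -i := by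
  have h := C.hinfb.ord_eq_of_co hx (by rw [Finsupp.single_eq_same, hco]; exact one_ne_zero)
  rwa [Finsupp.single_eq_same] at h

/-- Zeros of `x - a` reduce to zeros of its reduction. -/
theorem zero_red {i : ℤ} (hi : 0 < i) {x : FBar F₀} {xb : Fb}
    (hx : x ∈ riemannRochSpace (Finsupp.single C.inf i)) (hxco : co i x = 1) (hxbco : co i xb = 1)
    (hr : C.D.Red x xb) (a : A) :
    ∃ E : Divisor Qbar ↥(FBar F₀), 0 ≤ E ∧
      (∀ w, w ≠ C.inf → E w = w.ord (x - algebraMap Qbar ↥(FBar F₀) a)) ∧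
      (∀ w, w ≠ C.infb → C.red E w =
        w.ord (xb - algebraMap (IsLocalRing.ResidueField A) ↥Fb (IsLocalRing.residue A a))) ∧
      C.red E C.infb = 0 := by
  have hxb : xb ∈ riemannRochSpace (Finsupp.single C.infb i) :=
    C.redSpace_rr_single_le i ⟨x, hx, hr⟩
  obtain ⟨hx0, hxo⟩ := ord_pole hx hxco
  obtain ⟨hxb0, hxbo⟩ := ord_poleb hxb hxbco
  set f := x - algebraMap Qbar ↥(FBar F₀) a with hf
  set fb := xb - algebraMap (IsLocalRing.ResidueField A) ↥Fb (IsLocalRing.residue A a) with hfb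
  obtain ⟨hf0, hfo⟩ := ord_sub_const (v := C.inf) (x := x) (by omega) (a : Qbar)
  obtain ⟨hfb0, hfbo⟩ := ord_sub_const (v := C.infb) (x := xb) (by omega) (IsLocalRing.residue A a)
  rw [← hfb] at hfb0 hfbo
  have hred : C.D.Red f fb := hr.sub (RedDatum.red_algebraMap a)
  have hfm : f ∈ riemannRochSpace (Finsupp.single C.inf i) := by
    refine Submodule.sub_mem _ hx ?_
    rw [Algebra.algebraMap_eq_smul_one]
    exact Submodule.smul_mem _ _ (one_mem_rr (Finsupp.single_nonneg.2 hi.le))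
  refine ⟨divisorOf f + Finsupp.single C.inf i, (mem_rr_iff_divisorOf hf0).1 hfm, fun w hw => ?_,
    fun w hw => ?_, ?_⟩
  · simp [Finsupp.single_eq_of_ne hw]
  · rw [C.red_add, C.red_single_inf, CurveDatum.red, C.R.map_divisorOf f fb hred hfb0]
    simp [Finsupp.single_eq_of_ne hw]
  · rw [C.red_add, C.red_single_inf, CurveDatum.red, C.R.map_divisorOf f fb hred hfb0]
    simp [hfbo, hxbo]

/-- A zero of `x - a` lies over a zero of the reduction, away from the cusp. -/
theorem ord_pos_red {i : ℤ} (hi : 0 < i) {x : FBar F₀} {xb : Fb}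
    (hx : x ∈ riemannRochSpace (Finsupp.single C.inf i)) (hxco : co i x = 1) (hxbco : co i xb = 1)
    (hr : C.D.Red x xb) (a : A) {P : Place Qbar ↥(FBar F₀)}
    (hP : 0 < P.ord (x - algebraMap Qbar ↥(FBar F₀) a)) :
    C.R.r P ≠ C.infb ∧
      0 < (C.R.r P).ord
        (xb - algebraMap (IsLocalRing.ResidueField A) ↥Fb (IsLocalRing.residue A a)) := by
  obtain ⟨E, hE, hEw, hEb, hEinf⟩ := zero_red hi hx hxco hxbco hr a
  have hPinf : P ≠ C.inf := by
    rintro rfl
    rw [(ord_sub_const (v := C.inf) (x := x) (by rw [(ord_pole hx hxco).2]; omega) _).2,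
      (ord_pole hx hxco).2] at hP
    omega
  have hle : E P ≤ C.red E (C.R.r P) :=
    mapDomain_le_apply C.R.r (fun a _ => hE a) P rfl
  rw [hEw P hPinf] at hle
  have hne : C.R.r P ≠ C.infb := fun h => by
    rw [h, hEinf] at hle
    omega
  rw [hEb _ hne] at hle
  exact ⟨hne, by omega⟩

/-- A pair of rational functions separating general fibres on the reduction. -/
structure Separating (C : CurveDatum F₀ A Fb) where
  /-- the degree -/
  i : ℕ
  /-- the coordinate -/
  x : ↥(FBar F₀)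
  /-- its reduction -/
  xb : ↥Fb
  /-- the separating function -/
  y : ↥(FBar F₀)
  /-- its reduction -/
  yb : ↥Fb
  /-- the excluded values -/
  B : Set (IsLocalRing.ResidueField A)
  hi : 0 < i
  hx : x ∈ riemannRochSpace (Finsupp.single C.inf (i : ℤ))
  hy : y ∈ riemannRochSpace (Finsupp.single C.inf ((i : ℤ) + 1))
  hrx : C.D.Red x xb
  hry : C.D.Red y yb
  hgx : ∀ σ : AlgebraicClosure ℚ ≃ₐ[ℚ] AlgebraicClosure ℚ, gal F₀ σ • x = x
  hgy : ∀ σ : AlgebraicClosure ℚ ≃ₐ[ℚ] AlgebraicClosure ℚ, gal F₀ σ • y = y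
  hcx : co (i : ℤ) x = 1
  hcxb : co (i : ℤ) xb = 1
  hcy : co ((i : ℤ) + 1) y = 1
  hcyb : co ((i : ℤ) + 1) yb = 1
  hB : B.Finite
  sep : ∀ a ∉ B, ∀ P : Place (IsLocalRing.ResidueField A) ↥Fb,
    0 < P.ord (xb - algebraMap (IsLocalRing.ResidueField A) ↥Fb a) →
    P.ord (xb - algebraMap (IsLocalRing.ResidueField A) ↥Fb a) = 1 ∧
      ∀ Q : Place (IsLocalRing.ResidueField A) ↥Fb,
        0 < Q.ord (xb - algebraMap (IsLocalRing.ResidueField A) ↥Fb a) →
        ∀ b, OrdGe P 1 (yb - algebraMap (IsLocalRing.ResidueField A) ↥Fb b) →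
          OrdGe Q 1 (yb - algebraMap (IsLocalRing.ResidueField A) ↥Fb b) → P = Q

theorem exists_separating (C : CurveDatum F₀ A Fb) {l : ℕ} [Fact l.Prime]
    (hA : A.LiesOverPrime l) : Nonempty (Separating C) := by
  obtain ⟨i, hi, hic, hil⟩ : ∃ i : ℕ, 0 < i ∧ C.c + 1 ≤ i ∧ ¬ l ∣ i := by
    obtain ⟨m, hm⟩ : ∃ m : ℕ, C.c + 1 ≤ m := ⟨(C.c + 1).toNat, by omega⟩
    refine ⟨m * l + 1, by omega, ?_, fun hd => ?_⟩
    · have : m ≤ m * l := Nat.le_mul_of_pos_right _ (Fact.out : l.Prime).pos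
      push_cast
      omega
    · have h1 : l ∣ 1 := (Nat.dvd_add_right (Dvd.intro_left m rfl)).1 hd
      exact (Fact.out : l.Prime).not_dvd_one h1
  have hik : (i : IsLocalRing.ResidueField A) ≠ 0 := by
    rw [Ne, ← map_natCast (IsLocalRing.residue A), IsLocalRing.residue_eq_zero_iff,
      ← ValuationSubring.coe_mem_nonunits_iff]
    intro h
    have h1 : ((i : ℤ) : Qbar) ∈ A.nonunits := by simpa using h
    exact hil (Int.natCast_dvd_natCast.1 ((intCast_mem_nonunits_iff Fact.out hA _).1 h1))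
  obtain ⟨x, xb, hx, hrx, hgx, hcx, hcxb⟩ := C.exists_rational_pole (i := i) (by omega) hic
  obtain ⟨y, yb, hy, hry, hgy, hcy, hcyb⟩ :=
    C.exists_rational_pole (i := (i : ℤ) + 1) (by omega) (by omega)
  have hxb := C.redSpace_rr_single_le _ ⟨x, hx, hrx⟩
  have hyb := C.redSpace_rr_single_le _ ⟨y, hy, hry⟩
  obtain ⟨B, hB, hsep⟩ := exists_finite_separating C.hk hxb (ord_poleb hxb hcxb).2 hyb
    (ord_poleb hyb hcyb).2 hi hik
  exact ⟨⟨i, x, xb, y, yb, B, hi, hx, hy, hrx, hry, hgx, hgy, hcx, hcxb, hcy, hcyb, hB, hsep⟩⟩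

namespace Separating

variable (S : Separating C)

theorem eq_of_r_eq {a : A} (ha : IsLocalRing.residue A a ∉ S.B) {P Q : Place Qbar ↥(FBar F₀)}
    (hP : 0 < P.ord (S.x - algebraMap Qbar ↥(FBar F₀) a))
    (hQ : 0 < Q.ord (S.x - algebraMap Qbar ↥(FBar F₀) a)) (h : C.R.r P = C.R.r Q) : P = Q := by
  have hi : (0 : ℤ) < S.i := by exact_mod_cast S.hi
  obtain ⟨E, hE, hEw, hEb, -⟩ := zero_red hi S.hx S.hcx S.hcxb S.hrx a
  obtain ⟨hne, hpos⟩ := ord_pos_red hi S.hx S.hcx S.hcxb S.hrx a hP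
  have hEr : C.red E (C.R.r P) = 1 := by rw [hEb _ hne]; exact (S.sep _ ha _ hpos).1
  obtain ⟨P₀, -, -, huniq⟩ := eq_single_on_tube C.R hE hEr
  have hne_inf : ∀ {W : Place Qbar ↥(FBar F₀)},
      0 < W.ord (S.x - algebraMap Qbar ↥(FBar F₀) a) → W ≠ C.inf := by
    intro W hW e
    subst e
    rw [(ord_sub_const (v := C.inf) (x := S.x) (by rw [(ord_pole S.hx S.hcx).2]; omega) _).2,
      (ord_pole S.hx S.hcx).2] at hW
    omega
  by_contra hPQ
  rcases eq_or_ne P P₀ with rfl | hP₀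
  · have h1 := huniq Q h.symm (Ne.symm hPQ)
    rw [hEw Q (hne_inf hQ)] at h1
    omega
  · have h1 := huniq P rfl hP₀
    rw [hEw P (hne_inf hP)] at h1
    omega

theorem exists_value_red {a : A} {P : Place Qbar ↥(FBar F₀)}
    (hP : 0 < P.ord (S.x - algebraMap Qbar ↥(FBar F₀) a)) :
    ∃ b : A, OrdGe P 1 (S.y - algebraMap Qbar ↥(FBar F₀) b) ∧
      OrdGe (C.R.r P) 1
        (S.yb - algebraMap (IsLocalRing.ResidueField A) ↥Fb (IsLocalRing.residue A b)) := by
  have hi : (0 : ℤ) < S.i := by exact_mod_cast S.hi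
  obtain ⟨hne, -⟩ := ord_pos_red hi S.hx S.hcx S.hcxb S.hrx a hP
  have hPinf : P ≠ C.inf := fun h => hne (by rw [h, C.r_inf])
  obtain ⟨b, hb⟩ := exists_value (ordGe_zero_of_mem_rr_single S.hy hPinf)
  obtain ⟨hyb0, hybo⟩ := ord_poleb (C.redSpace_rr_single_le _ ⟨S.y, S.hy, S.hry⟩) S.hcyb
  have hpos : ∀ {f : FBar F₀} {z : Fb}, f ∈ riemannRochSpace (Finsupp.single C.inf ((S.i : ℤ) + 1)) →
      OrdGe P 1 f → C.D.Red f z → z ≠ 0 → 1 ≤ (C.R.r P).ord z := by
    intro f z hf hfP hr hz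
    have hf0 := hr.ne_zero hz
    have hD := (mem_rr_iff_divisorOf hf0).1 hf
    have hle := mapDomain_le_apply C.R.r (E := divisorOf f + Finsupp.single C.inf ((S.i : ℤ) + 1))
      (fun a _ => hD a) P rfl
    change _ ≤ C.red _ _ at hle
    rw [C.red_add, C.red_single_inf, CurveDatum.red, C.R.map_divisorOf f z hr hz,
      Finsupp.add_apply, Finsupp.add_apply, divisorOf_apply, divisorOf_apply,
      Finsupp.single_eq_of_ne hPinf, Finsupp.single_eq_of_ne hne] at hle
    have := hfP.le_ord hf0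
    omega
  have hmem : ∀ c : Qbar,
      S.y - algebraMap Qbar ↥(FBar F₀) c ∈ riemannRochSpace (Finsupp.single C.inf ((S.i : ℤ) + 1)) := by
    intro c
    refine Submodule.sub_mem _ S.hy ?_
    rw [Algebra.algebraMap_eq_smul_one]
    exact Submodule.smul_mem _ _ (one_mem_rr (Finsupp.single_nonneg.2 (by omega)))
  by_cases hbA : b ∈ A
  · refine ⟨⟨b, hbA⟩, hb, ordGe_of_le_ord (hpos (hmem b) hb
      (S.hry.sub (RedDatum.red_algebraMap ⟨b, hbA⟩)) ?_)⟩
    exact (ord_sub_const (v := C.infb) (by rw [hybo]; omega) _).1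
  · exfalso
    have hb0 : b ≠ 0 := fun h => hbA (h ▸ zero_mem _)
    have hinvA : b⁻¹ ∈ A := (A.mem_or_inv_mem b).resolve_left hbA
    have hinv : b⁻¹ ∈ A.nonunits := by
      rw [ValuationSubring.inv_mem_nonunits_iff]; exact Or.inr hbA
    have hr : C.D.Red (b⁻¹ • (S.y - algebraMap Qbar ↥(FBar F₀) b)) (-1) := by
      have h1 := (RedDatum.red_smul ⟨b⁻¹, hinvA⟩ S.hry).sub
        (RedDatum.red_algebraMap (D := C.D) (1 : A))
      rw [show IsLocalRing.residue A ⟨b⁻¹, hinvA⟩ = 0 from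
        (C.D.isResidue.eq_zero_iff _).2 hinv, zero_smul, map_one, map_one, zero_sub] at h1
      convert h1 using 1
      rw [smul_sub, Algebra.smul_def b⁻¹ (algebraMap Qbar ↥(FBar F₀) b), ← map_mul,
        inv_mul_cancel₀ hb0]
      simp
    have h := hpos (Submodule.smul_mem _ _ (hmem b)) (by
      rw [Algebra.smul_def]
      simpa using (ordGe_algebraMap (v := P) b⁻¹).mul hb) hr (neg_ne_zero.2 one_ne_zero)
    rw [ord_neg, (C.R.r P).ord_one] at h
    omega

end Separating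

variable (C) {l : ℕ} [Fact l.Prime]

theorem exists_point_avoiding (hA : A.LiesOverPrime l)
    (Bad : Set (Place (IsLocalRing.ResidueField A) ↥Fb)) (hBad : Bad.Finite) :
    ∃ P : Place Qbar ↥(FBar F₀), (∀ σ : Γℚ, C.R.r (gal F₀ σ • P) ∉ Bad) ∧
      (∀ σ τ : Γℚ, τ ∈ A.inertiaSubgroupIn ℚ →
        gal F₀ τ • (gal F₀ σ • P) = gal F₀ σ • P) ∧
      ∃ L : IntermediateField ℚ Qbar, FiniteDimensional ℚ L ∧
        ∀ τ : Γℚ, (∀ z ∈ L, τ z = z) → gal F₀ τ • P = P := by
  obtain ⟨S⟩ := exists_separating C hA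
  have hi : (0 : ℤ) < S.i := by exact_mod_cast S.hi
  let V : Set (IsLocalRing.ResidueField A) :=
    S.B ∪ ⋃ w ∈ Bad, {a | OrdGe w 1 (S.xb - algebraMap (IsLocalRing.ResidueField A) ↥Fb a)}
  have hV : V.Finite := S.hB.union (hBad.biUnion fun w _ =>
    Set.Subsingleton.finite fun a ha b hb => value_unique ha hb)
  obtain ⟨n, hn, hnp⟩ := Nat.exists_infinite_primes
    (max (l + 1) ((hV.image orderOf).toFinset.sup id + 1))
  have hnl : n ≠ l := by
    have := le_trans (le_max_left _ _) hn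
    omega
  have hnV : ∀ a ∈ V, orderOf a ≠ n := by
    intro a ha h
    have h1 := Finset.le_sup (f := id)
      ((hV.image orderOf).mem_toFinset.2 (Set.mem_image_of_mem _ ha))
    have h2 := le_trans (le_max_right _ _) hn
    simp only [id_eq, h] at h1
    omega
  have : NeZero (n : Qbar) := ⟨Nat.cast_ne_zero.2 hnp.ne_zero⟩
  obtain ⟨ζ, hζ⟩ := HasEnoughRootsOfUnity.prim (M := Qbar) (n := n)
  have hζσ : ∀ σ : Γℚ, σ ζ ^ n = 1 ∧ σ ζ ≠ 1 := fun σ =>
    ⟨by rw [← map_pow, hζ.pow_eq_one, map_one], fun h => hζ.ne_one hnp.one_lt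
      (σ.injective (h.trans (map_one σ).symm))⟩
  have hζ' : ζ ^ n = 1 := hζ.pow_eq_one
  have hord : ∀ (σ : Γℚ), IsLocalRing.residue A ⟨σ ζ, mem_of_pow_eq_one hnp.pos (hζσ σ).1⟩ ∉ V :=
    fun σ h => hnV _ h (orderOf_residue hA hnp hnl (hζσ σ).1 (hζσ σ).2)
  obtain ⟨hx0, hxo⟩ := ord_pole S.hx S.hcx
  obtain ⟨hf0, hfo⟩ := ord_sub_const (v := C.inf) (x := S.x) (by omega) ζ
  obtain ⟨P, hP⟩ := exists_place_ord_pos
    (transcendental_of_ord_ne_zero (K := Qbar) (v := C.inf) (by rw [hfo, hxo]; omega))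
  have hPσ : ∀ σ : Γℚ, 0 < (gal F₀ σ • P).ord (S.x - algebraMap Qbar ↥(FBar F₀) (σ ζ)) := by
    intro σ
    rw [← gal_sub_const σ (S.hgx σ) ζ, SemilinearAut.ord_smul]
    exact hP
  refine ⟨P, fun σ hmem => ?_, fun σ τ hτ => ?_, ?_⟩
  · refine hord σ (Or.inr (Set.mem_biUnion hmem (ordGe_of_le_ord ?_)))
    have := (ord_pos_red hi S.hx S.hcx S.hcxb S.hrx
      ⟨σ ζ, mem_of_pow_eq_one hnp.pos (hζσ σ).1⟩ (hPσ σ)).2
    omega
  · set a : A := ⟨σ ζ, mem_of_pow_eq_one hnp.pos (hζσ σ).1⟩ with ha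
    set Q := gal F₀ σ • P with hQdef
    have hQ : 0 < Q.ord (S.x - algebraMap Qbar ↥(FBar F₀) a) := hPσ σ
    have hτQ : 0 < (gal F₀ τ • Q).ord (S.x - algebraMap Qbar ↥(FBar F₀) a) := by
      have e : gal F₀ τ • (S.x - algebraMap Qbar ↥(FBar F₀) (a : Qbar)) =
          S.x - algebraMap Qbar ↥(FBar F₀) (a : Qbar) := by
        rw [gal_sub_const τ (S.hgx τ), inertia_fix_root hA hnp hnl (hζσ σ).1 hτ]
      rw [← e, SemilinearAut.ord_smul]
      exact hQ
    have hB : IsLocalRing.residue A a ∉ S.B := fun h => hord σ (Or.inl h)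
    obtain ⟨b, hb, hbr⟩ := S.exists_value_red hQ
    obtain ⟨b', hb', hbr'⟩ := S.exists_value_red hτQ
    refine S.eq_of_r_eq hB hτQ hQ ?_
    have hval : (b' : Qbar) = τ b := by
      refine value_unique hb' ?_
      have h := ordGe_gal τ hb
      rwa [gal_sub_const τ (S.hgy τ)] at h
    have hres : IsLocalRing.residue A b' = IsLocalRing.residue A b := by
      rw [← sub_eq_zero, ← map_sub, IsLocalRing.residue_eq_zero_iff,
        ← ValuationSubring.coe_mem_nonunits_iff, AddSubgroupClass.coe_sub, hval]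
      exact (mem_inertiaSubgroupIn_iff.1 hτ).2 b b.2
    rw [hres] at hbr'
    exact (S.sep _ hB _ (ord_pos_red hi S.hx S.hcx S.hcxb S.hrx a hτQ).2).2 _
      (ord_pos_red hi S.hx S.hcx S.hcxb S.hrx a hQ).2 _ hbr' hbr
  · have hP' : 0 < P.ord (S.x - algebraMap Qbar ↥(FBar F₀)
        ((⟨ζ, mem_of_pow_eq_one hnp.pos hζ'⟩ : A) : Qbar)) := hP
    obtain ⟨b, hb, hbr⟩ := S.exists_value_red hP'
    refine ⟨IntermediateField.adjoin ℚ {ζ, (b : Qbar)}, ?_, fun τ hτ => ?_⟩
    · have : Algebra.IsAlgebraic ℚ Qbar := AlgebraicClosure.isAlgebraic ℚ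
      have : Finite ({ζ, (b : Qbar)} : Set Qbar) := (Set.toFinite _).to_subtype
      exact IntermediateField.finiteDimensional_adjoin fun z _ => Algebra.IsIntegral.isIntegral z
    have hζfix : τ ζ = ζ := hτ ζ (IntermediateField.subset_adjoin ℚ _ (by simp))
    have hbfix : τ b = b := hτ b (IntermediateField.subset_adjoin ℚ _ (by simp))
    have hτP : 0 < (gal F₀ τ • P).ord (S.x - algebraMap Qbar ↥(FBar F₀)
        ((⟨ζ, mem_of_pow_eq_one hnp.pos hζ'⟩ : A) : Qbar)) := by
      have e := gal_sub_const τ (S.hgx τ) ζ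
      rw [hζfix] at e
      show 0 < (gal F₀ τ • P).ord (S.x - algebraMap Qbar ↥(FBar F₀) ζ)
      rw [← e, SemilinearAut.ord_smul]
      exact hP
    have hB : IsLocalRing.residue A ⟨ζ, mem_of_pow_eq_one hnp.pos hζ'⟩ ∉ S.B :=
      fun h => hord 1 (Or.inl h)
    obtain ⟨b', hb', hbr'⟩ := S.exists_value_red hτP
    refine S.eq_of_r_eq hB hτP hP' ?_
    have hval : b' = b := by
      refine Subtype.ext (value_unique hb' ?_)
      have h := ordGe_gal τ hb
      rwa [gal_sub_const τ (S.hgy τ), hbfix] at h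
    rw [hval] at hbr'
    exact (S.sep _ hB _ (ord_pos_red hi S.hx S.hcx S.hcxb S.hrx _ hτP).2).2 _
      (ord_pos_red hi S.hx S.hcx S.hcxb S.hrx _ hP').2 _ hbr' hbr

end CurveDatum

end FLTAgent.FlatModel
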