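import Fermat.Agent.GoodRed.GaussDegree
import Fermat.Agent.GoodRed.Series
import Fermat.Agent.GoodRed.RRTools
import Fermat.Agent.FlatModel.CurveDatum
import Fermat.Agent.Genus.EmbPlace
import Mathlib.RingTheory.Valuation.LocalSubring

/-!
# Expansions of residually integral functions regular off the poles of the coordinate

In a field of series with a Gauss basis, a function in the valuation ring, regular wherever the
coordinate is, has integral coefficients, and its residue is the series of residual coefficients.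
Also the place of a field of series given by the order.
-/

set_option autoImplicit false
set_option linter.unusedSectionVars false

noncomputable section

open Polynomial ModularCurve AlgebraicCurve

namespace FLTAgent.FlatModel

open FLTAgent.FunctionField FLTAgent.GoodRed

variable {L k : Type*} [Field L] [Field k] {A : ValuationSubring L}

/-- Almost integral series have integral coefficients. -/
theorem coeff_mem_of_almostIntegral (hA : IsRankOne A) {y : LaurentSeries L}
    {b : LaurentSeries A} (hb : b ≠ 0)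
    (hn : ∀ n : ℕ, ∃ a : LaurentSeries A, y ^ n * iotaL A b = iotaL A a) (m : ℤ) :
    y.coeff m ∈ A := by
  classical
  by_contra hbad
  have hy0 : ∀ i < y.order, y.coeff i ∈ A := fun i hi => by
    rw [HahnSeries.coeff_eq_zero_of_lt_order hi]; exact zero_mem _
  obtain ⟨m₀, hm₀, hmin⟩ : ∃ m₀, y.coeff m₀ ∉ A ∧ ∀ i < m₀, y.coeff i ∈ A := by
    obtain ⟨m₀, hm₀, hmin⟩ := Int.exists_least_of_bdd (P := fun i => y.coeff i ∉ A)
      ⟨y.order, fun i hi => le_of_not_gt fun h => hi (hy0 i h)⟩ ⟨m, hbad⟩
    exact ⟨m₀, hm₀, fun i hi => by_contra fun h => absurd (hmin i h) (not_le.2 hi)⟩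
  let lo : LaurentSeries A := HahnSeries.ofSuppBddBelow
    (fun i => if h : i < m₀ then ⟨y.coeff i, hmin i h⟩ else 0)
    ⟨y.order, fun i hi => by
      by_contra hlt
      push Not at hlt
      refine hi ?_
      show (if h : i < m₀ then (⟨y.coeff i, hmin i h⟩ : A) else 0) = 0
      split
      · exact Subtype.ext (HahnSeries.coeff_eq_zero_of_lt_order hlt)
      · rfl⟩
  set w := y - iotaL A lo with hw
  have hwc : ∀ i, w.coeff i = if i < m₀ then 0 else y.coeff i := fun i => by
    show y.coeff i - (A.subtype (if h : i < m₀ then (⟨y.coeff i, hmin i h⟩ : A) else 0)) = _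
    by_cases h : i < m₀ <;> simp [h]
  have hc : y.coeff m₀ ≠ 0 := fun h => hm₀ (by rw [h]; exact zero_mem _)
  have hw0 : w ≠ 0 := fun h => hc (by
    simpa [h] using (hwc m₀).symm)
  have hword : w.order = m₀ := by
    refine le_antisymm (HahnSeries.order_le_of_coeff_ne_zero (by simpa [hwc] using hc))
      ((HahnSeries.le_order_iff_forall hw0).2 fun i hi => by rw [hwc, if_pos hi])
  have hlead : w.leadingCoeff = y.coeff m₀ := by
    rw [HahnSeries.leadingCoeff_eq, hword, hwc, if_neg (lt_irrefl _)]
  set β := (iotaL A b).leadingCoeff with hβ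
  have hb' : iotaL A b ≠ 0 := fun h => hb (iotaL_injective (by rw [h, map_zero]))
  have hβ0 : β ≠ 0 := HahnSeries.leadingCoeff_ne_zero.2 hb'
  have hmem : ∀ n : ℕ, y.coeff m₀ ^ n * β ∈ A := by
    intro n
    choose a ha using hn
    have hser : w ^ n * iotaL A b = iotaL A
        (∑ i ∈ Finset.range (n + 1), a i * (-lo) ^ (n - i) * (n.choose i : LaurentSeries A)) := by
      rw [hw, sub_eq_add_neg, add_pow, Finset.sum_mul, map_sum]
      refine Finset.sum_congr rfl fun i _ => ?_
      rw [map_mul, map_mul, map_pow, map_natCast, map_neg, ← ha]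
      ring
    have h1 : (w ^ n * iotaL A b).leadingCoeff = y.coeff m₀ ^ n * β := by
      rw [HahnSeries.leadingCoeff_mul, ← hβ]
      congr 1
      clear hser
      induction n with
      | zero => simp
      | succ j ih => rw [pow_succ, pow_succ, HahnSeries.leadingCoeff_mul, ih, hlead]
    rw [← h1, hser, HahnSeries.leadingCoeff_eq, coeffMap_coeff]
    exact SetLike.coe_mem _
  have hinv : (y.coeff m₀)⁻¹ ∈ A.nonunits := by
    rw [ValuationSubring.inv_mem_nonunits_iff]; exact Or.inr hm₀
  obtain ⟨n, hn'⟩ := hA β _ hβ0 hinv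
  have h1 := (A.valuation_le_one_iff _).2 (hmem (n + 1))
  have hgt : 1 < A.valuation (y.coeff m₀) := lt_of_not_ge fun h => hm₀ ((A.valuation_le_one_iff _).1 h)
  rw [map_mul, map_pow] at h1
  rw [map_inv₀, inv_pow] at hn'
  have hpos : 0 < A.valuation (y.coeff m₀) ^ (n + 1) :=
    pow_pos (lt_trans zero_lt_one hgt) _
  have h2 : A.valuation (y.coeff m₀) ^ (n + 1) * (A.valuation (y.coeff m₀) ^ n)⁻¹ ≤ 1 :=
    (mul_le_mul' le_rfl hn').trans h1
  rw [pow_succ', mul_assoc, mul_inv_cancel₀ (pow_ne_zero _ (ne_of_gt (lt_trans zero_lt_one hgt))),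
    mul_one] at h2
  exact absurd h2 (not_le.2 hgt)

variable {π : A →+* k} {F : IntermediateField L (LaurentSeries L)}
  {Fb : IntermediateField k (LaurentSeries k)} {n : ℕ} (G : GaussBasis π F Fb n)

include G in
/-- Numerators of residually integral elements are integral. -/
theorem exists_integral_num (hπ : IsResidueMap A π) {w : F} (hw : w ∈ G.valRing) {q : A[X]}
    (hq : q.map π ≠ 0) {p : Fin n → L[X]}
    (hp : (w : LaurentSeries L) * aeval (iotaL A G.x) (q.map A.subtype) =
      ∑ i, aeval (iotaL A G.x) (p i) * iotaL A (G.e i)) :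
    ∃ a, (w : LaurentSeries L) * iotaL A (aeval G.x q) = iotaL A a := by
  classical
  have hq' : iotaL A (aeval G.x q) = aeval (iotaL A G.x) (q.map A.subtype) := coeffMap_aeval _ _ _
  by_cases h0 : ∀ i, p i = 0
  · exact ⟨0, by rw [hq', hp]; simp [h0]⟩
  push Not at h0
  obtain ⟨c, pA, hc, hpA, hpb⟩ := exists_scale_polys A π p h0
  have hnum : iotaL A (G.num pA) =
      algebraMap L (LaurentSeries L) c * ((w : LaurentSeries L) * iotaL A (aeval G.x q)) := by
    rw [G.iotaL_num, hq', hp, Finset.mul_sum]
    exact Finset.sum_congr rfl fun i _ => by rw [hpA, map_mul, aeval_C, mul_assoc]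
  by_cases hcA : c⁻¹ ∈ A
  · refine ⟨algebraMap A _ ⟨c⁻¹, hcA⟩ * G.num pA, ?_⟩
    rw [map_mul, hnum, iotaL, coeffMap_algebraMap_laurent, show A.subtype ⟨c⁻¹, hcA⟩ = c⁻¹ from rfl,
      map_inv₀, ← iotaL, inv_mul_cancel_left₀ (by simpa using hc)]
  · exfalso
    have hcn : c ∈ A.nonunits := by
      rw [← inv_inv c, ValuationSubring.inv_mem_nonunits_iff]; exact Or.inr hcA
    have hz : π ⟨c, A.nonunits_subset hcn⟩ = 0 := (hπ.eq_zero_iff _).2 hcn
    obtain ⟨a, b, hb, hab⟩ := G.mem_valRing_iff.1 hw
    have heq : algebraMap A (LaurentSeries A) ⟨c, A.nonunits_subset hcn⟩ * aeval G.x q * a =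
        G.num pA * b := by
      apply iotaL_injective
      rw [map_mul, map_mul, map_mul, hnum, ← hab, iotaL, coeffMap_algebraMap_laurent]
      show algebraMap L (LaurentSeries L) c * _ * _ = _
      ring
    have h2 := congrArg (coeffMap π) heq
    rw [map_mul, map_mul, map_mul, coeffMap_algebraMap_laurent, hz, map_zero, zero_mul, zero_mul]
      at h2
    exact mul_ne_zero (G.coeffMap_num_ne_zero hpb) hb h2.symm

/-- A function regular wherever `x` is satisfies a monic equation over the polynomials in `x`. -/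
theorem exists_monic_of_regAway {K G' : Type*} [Field K] [Field G'] [Algebra K G']
    [IsFunctionField K G'] {x y : G'} (h : RegAway (K := K) x y) :
    ∃ (D : ℕ) (r : ℕ → K[X]), y ^ D = ∑ i ∈ Finset.range D, aeval x (r i) * y ^ i := by
  classical
  set s : Set G' := Set.range (algebraMap K G') ∪ {x} with hs
  have hy : y ∈ (⨅ V : {V : ValuationSubring G' // s ⊆ V.toSubring}, V.1.toSubring) := by
    refine Subring.mem_iInf.2 fun ⟨V, hV⟩ => ?_
    rcases eq_or_ne V ⊤ with rfl | htop
    · exact ValuationSubring.mem_top _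
    set v : Place K G' := placeOfValuationSubring V (fun a => hV (Or.inl ⟨a, rfl⟩)) htop
    rcases eq_or_ne x 0 with hx0 | hx0
    · exact h v (by rw [hx0, Place.ord_zero])
    · exact h v ((mem_iff_ord_nonneg hx0).1 (show x ∈ v.toValuationSubring from hV (Or.inr rfl)))
  rw [iInf_valuationSubring_superset, Subalgebra.mem_toSubring, mem_integralClosure_iff] at hy
  obtain ⟨P, hP, hP0⟩ := hy
  have hle : Subring.closure s ≤ (Algebra.adjoin K {x}).toSubring := by
    refine Subring.closure_le.2 ?_
    rintro z (⟨a, rfl⟩ | hz)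
    · exact Subalgebra.algebraMap_mem _ a
    · exact Algebra.subset_adjoin hz
  have hcoe : ∀ i, ∃ r : K[X], aeval x r = ((P.coeff i : Subring.closure s) : G') := fun i => by
    have h' := hle (P.coeff i).2
    rw [Subalgebra.mem_toSubring, Algebra.adjoin_singleton_eq_range_aeval, AlgHom.mem_range] at h'
    exact h'
  choose r hr using hcoe
  refine ⟨P.natDegree, fun i => -r i, ?_⟩
  rw [← eval₂_congr rfl rfl hP.as_sum.symm] at hP0
  simp only [eval₂_add, eval₂_X_pow, eval₂_finsetSum, eval₂_mul, eval₂_C] at hP0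
  rw [eq_comm, ← sub_eq_zero, ← neg_eq_zero, neg_sub, ← hP0, sub_eq_add_neg, ← Finset.sum_neg_distrib]
  congr 1
  exact Finset.sum_congr rfl fun i _ => by rw [map_neg, neg_mul, neg_neg, hr]; rfl

include G in
/-- Residually integral functions regular off the poles of the coordinate reduce coefficientwise. -/
theorem coeff_mem_and_residue (hπ : IsResidueMap A π) (hA : IsRankOne A) [IsFunctionField L F]
    {y : F} {z : Fb} (hred : (G.datum hπ).Red y z) (hreg : RegAway (K := L) G.xF y) (m : ℤ) :
    ∃ h : (y : LaurentSeries L).coeff m ∈ A,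
      π ⟨_, h⟩ = (z : LaurentSeries k).coeff m := by
  classical
  obtain ⟨D, r, hr⟩ := exists_monic_of_regAway hreg
  obtain ⟨N, q, hq, hs⟩ := G.orth_elems ((Finset.range D).image fun i => y ^ i)
  have hspan : ∀ j : ℕ, ∃ p : Fin n → L[X],
      ((y ^ j : F) : LaurentSeries L) * aeval (iotaL A G.x) (q.map A.subtype) =
        ∑ i, aeval (iotaL A G.x) (p i) * iotaL A (G.e i) := by
    intro j
    induction j using Nat.strong_induction_on with
    | _ j ih =>
      rcases lt_or_ge j D with hj | hj
      · obtain ⟨p, -, hp⟩ := hs _ (Finset.mem_image_of_mem _ (Finset.mem_range.2 hj))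
        exact ⟨p, hp⟩
      · have he : y ^ j = ∑ i ∈ Finset.range D, aeval G.xF (r i) * y ^ (i + (j - D)) := by
          rw [← Nat.add_sub_cancel' hj, pow_add, hr, Finset.sum_mul]
          refine Finset.sum_congr rfl fun i _ => ?_
          rw [Nat.add_sub_cancel_left, pow_add, mul_assoc]
        choose! p hp using fun i (hi : i ∈ Finset.range D) =>
          ih (i + (j - D)) (by have := Finset.mem_range.1 hi; omega)
        refine ⟨fun l => ∑ i ∈ Finset.range D, r i * p i l, ?_⟩
        rw [he]
        simp only [map_sum, map_mul, Finset.sum_mul]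
        rw [show ((∑ i ∈ Finset.range D, aeval G.xF (r i) * y ^ (i + (j - D)) : F) : LaurentSeries L) =
          ∑ i ∈ Finset.range D, ((aeval G.xF (r i) * y ^ (i + (j - D)) : F) : LaurentSeries L) from
          map_sum F.val _ _, Finset.sum_mul, Finset.sum_comm (s := Finset.univ)]
        refine Finset.sum_congr rfl fun i hi => ?_
        rw [IntermediateField.coe_mul, mul_assoc, hp i hi, Finset.mul_sum]
        refine Finset.sum_congr rfl fun l _ => ?_
        rw [mul_assoc]
        congr 1
        exact (aeval_algHom_apply F.val G.xF (r i)).symm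
  have hmem := hred.mem
  have hb : aeval G.x q ≠ 0 := fun h => G.coeffMap_den_ne_zero hq (by rw [h, map_zero])
  have hco := coeff_mem_of_almostIntegral hA hb (y := (y : LaurentSeries L)) fun j => by
    obtain ⟨p, hp⟩ := hspan j
    obtain ⟨a, ha⟩ := exists_integral_num G hπ (w := y ^ j) (pow_mem hmem j) hq hp
    exact ⟨a, by rw [← ha]; rfl⟩
  let yA : LaurentSeries A := HahnSeries.ofSuppBddBelow
    (fun i => ⟨(y : LaurentSeries L).coeff i, hco i⟩)
    ⟨(y : LaurentSeries L).order, fun i hi => le_of_not_gt fun h =>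
      hi (Subtype.ext (HahnSeries.coeff_eq_zero_of_lt_order h))⟩
  have hyA : iotaL A yA = (y : LaurentSeries L) := HahnSeries.ext (funext fun i => rfl)
  obtain ⟨a, b, ⟨hb', hab⟩, hz⟩ := (G.red_iff hπ).1 hred
  have hyb : yA * b = a := iotaL_injective (by rw [map_mul, hyA, hab])
  have hzy : (z : LaurentSeries k) = coeffMap π yA := by
    refine mul_right_cancel₀ hb' ?_
    rw [hz, ← hyb, map_mul]
  exact ⟨hco m, by rw [hzy, coeffMap_coeff]; rfl⟩

/-- The place of the order, when some element has order one. -/
theorem exists_isInfPlace {K : Type*} [Field K] {E : IntermediateField K (LaurentSeries K)}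
    {f : E} (hf : (f : LaurentSeries K).order = 1) : ∃ v : Place K E, IsInfPlace v := by
  have hφ : Genus.Over (RingHom.id K) (E.val.toRingHom) := fun a =>
    algebraMap_laurentSeries_eq_single K a
  have hpos : ∃ g : E, 0 < (E.val.toRingHom g).order :=
    ⟨f, by show 0 < (f : LaurentSeries K).order; omega⟩
  obtain ⟨e, he, hord⟩ := Genus.exists_induces_placeOfEmb E.val.toRingHom hφ hpos
  refine ⟨Genus.placeOfEmb E.val.toRingHom hφ hpos, fun g _ => ?_⟩
  have h1 := hord f
  change (f : LaurentSeries K).order = _ at h1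
  rw [hf] at h1
  have he1 : e = 1 := Int.eq_one_of_dvd_one he.le ⟨_, h1⟩
  have h := hord g
  rw [he1, one_mul] at h
  exact h.symm

end FLTAgent.FlatModel
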