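import Fermat.Agent.FlatModel.Restrict
import Mathlib.Algebra.Group.AddChar
import Mathlib.LinearAlgebra.Basis.Basic

/-!
# The Cartier dual of a model
-/

set_option autoImplicit false

namespace FLTAgent.FlatModel

variable {K : Type*} [Field K] {p : ℕ} {A : ValuationSubring K} {I : Subgroup (K ≃+* K)}
  {X : Type*} [AddCommGroup X]

/-- The action of `I` on characters. -/
def charAction (ρ : I →* AddMonoid.End X) : I →* AddMonoid.End (Additive (AddChar X K)) where
  toFun τ :=
    { toFun := fun ψ => Additive.ofMul
        ((((τ : K ≃+* K) : K →+* K) : K →* K).compAddChar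
          ((Additive.toMul ψ).compAddMonoidHom (ρ τ⁻¹)))
      map_zero' := by
        apply Additive.toMul.injective
        ext x
        simp
      map_add' := fun a b => by
        apply Additive.toMul.injective
        ext x
        simp }
  map_one' := by
    refine AddMonoidHom.ext fun ψ => ?_
    apply Additive.toMul.injective
    ext x
    simp
    rfl
  map_mul' τ σ := by
    refine AddMonoidHom.ext fun ψ => ?_
    apply Additive.toMul.injective
    ext x
    simp
    rfl

@[simp] theorem charAction_apply (ρ : I →* AddMonoid.End X) (τ : I) (ψ : Additive (AddChar X K))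
    (x : X) :
    Additive.toMul (charAction ρ τ ψ) x = (τ : K ≃+* K) (Additive.toMul ψ (ρ τ⁻¹ x)) := rfl

variable {ρ : I →* AddMonoid.End X} {H : Submodule (baseRing A I) (X → K)}

omit [AddCommGroup X] in
theorem eq_of_sum_mul_eq {ι : Type*} [Fintype ι] {b : ι → X → K} (hli : LinearIndependent K b)
    {g h : ι → K} (e : ∀ x, ∑ i, g i * b i x = ∑ i, h i * b i x) : g = h := by
  funext i
  refine sub_eq_zero.mp (Fintype.linearIndependent_iff.mp hli (fun i => g i - h i) ?_ i)
  funext x
  simp [Finset.sum_apply, sub_mul, Finset.sum_sub_distrib, e x]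

omit [AddCommGroup X] in
theorem exists_tensor_coeff {n : ℕ} {b : Fin n → X → K}
    (hspan : Submodule.span (baseRing A I) (Set.range b) = H) {m : ℕ} {a a' : Fin m → X → K}
    (ha : ∀ i, a i ∈ H) (ha' : ∀ i, a' i ∈ H) :
    ∃ c : Fin n → Fin n → baseRing A I, ∀ x y,
      ∑ i, a i x * a' i y = ∑ j, ∑ k, (c j k : K) * (b j x * b k y) := by
  have h : ∀ f ∈ H, ∃ d : Fin n → baseRing A I, ∀ x, f x = ∑ j, (d j : K) * b j x := by
    intro f hf
    rw [← hspan] at hf
    obtain ⟨d, hd⟩ := (Submodule.mem_span_range_iff_exists_fun _).mp hf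
    exact ⟨d, fun x => by rw [← hd]; simp [Finset.sum_apply, Subring.smul_def]⟩
  choose d hd using fun i => h _ (ha i)
  choose d' hd' using fun i => h _ (ha' i)
  refine ⟨fun j k => ∑ i, d i j * d' i k, fun x y => ?_⟩
  simp only [hd, hd', Finset.sum_mul_sum]
  simp only [AddSubmonoidClass.coe_finsetSum, MulMemClass.coe_mul, Finset.sum_mul]
  rw [Finset.sum_comm]
  refine Finset.sum_congr rfl fun j _ => ?_
  rw [Finset.sum_comm]
  exact Finset.sum_congr rfl fun k _ => Finset.sum_congr rfl fun i _ => by ring

/-- The dual of a model is a model. -/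
theorem IsModel.exists_dual [Finite X] (hH : IsModel ρ H) :
    ∃ H' : Submodule (baseRing A I) (Additive (AddChar X K) → K), IsModel (charAction ρ) H' := by
  classical
  obtain ⟨n, b, hbH, hli, hspan, htop⟩ := hH.exists_fullBasis
  let B := Module.Basis.mk hli htop.ge
  let u : Fin n → Additive (AddChar X K) → K := fun k (ψ : Additive (AddChar X K)) =>
    B.repr (⇑(Additive.toMul ψ)) k
  have hu : ∀ (ψ : Additive (AddChar X K)) (x : X),
      Additive.toMul ψ x = ∑ k, u k ψ * b k x := fun ψ x => by
    have h := congrFun (B.sum_repr (⇑(Additive.toMul ψ))) x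
    simpa [u, B, Finset.sum_apply] using h.symm
  choose m a a' ha ha' hab using fun k => hH.coprod _ (hbH k)
  choose c hc using fun k => exists_tensor_coeff hspan (ha k) (ha' k)
  have huu : ∀ ψ i j, u i ψ * u j ψ = ∑ k, u k ψ * (c k i j : K) := by
    intro ψ i j
    have e : ∀ x y, ∑ i, (∑ j, u i ψ * u j ψ * b j y) * b i x =
        ∑ i, (∑ j, (∑ k, u k ψ * (c k i j : K)) * b j y) * b i x := by
      intro x y
      have h1 : ∑ i, (∑ j, u i ψ * u j ψ * b j y) * b i x =
          Additive.toMul ψ x * Additive.toMul ψ y := by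
        rw [hu, hu, Finset.sum_mul_sum]
        simp only [Finset.sum_mul]
        exact Finset.sum_congr rfl fun _ _ => Finset.sum_congr rfl fun _ _ => by ring
      rw [h1, ← AddChar.map_add_eq_mul, hu]
      simp only [hab, hc, Finset.mul_sum, Finset.sum_mul]
      rw [Finset.sum_comm]
      refine Finset.sum_congr rfl fun i _ => ?_
      rw [Finset.sum_comm]
      exact Finset.sum_congr rfl fun _ _ => Finset.sum_congr rfl fun _ _ => by ring
    have e1 : ∀ i y, ∑ j, u i ψ * u j ψ * b j y =
        ∑ j, (∑ k, u k ψ * (c k i j : K)) * b j y := fun i y =>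
      congrFun (eq_of_sum_mul_eq hli fun x => e x y) i
    exact congrFun (eq_of_sum_mul_eq hli (e1 i)) j
  have hmem : ∀ k, u k ∈ Submodule.span (baseRing A I) (Set.range u) := fun k =>
    Submodule.subset_span ⟨k, rfl⟩
  have huA : ∀ k ψ, u k ψ ∈ A := by
    intro k ψ
    obtain ⟨j, -, hj⟩ := Finset.univ.exists_max_image (fun i => A.valuation (u i ψ))
      ⟨k, Finset.mem_univ k⟩
    refine (A.valuation_le_one_iff _).mp ((hj k (Finset.mem_univ k)).trans ?_)
    by_contra hgt
    rw [not_le] at hgt
    have h : A.valuation (u j ψ * u j ψ) ≤ A.valuation (u j ψ) := by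
      rw [huu]
      refine A.valuation.map_sum_le fun l _ => ?_
      rw [map_mul]
      exact (mul_le_of_le_one_right' ((A.valuation_le_one_iff _).mpr (c l j j).2.1)).trans
        (hj l (Finset.mem_univ l))
    rw [map_mul] at h
    exact absurd h (not_le.mpr (lt_mul_of_one_lt_left (zero_lt_one.trans hgt) hgt))
  have hequ : ∀ k τ ψ, u k (charAction ρ τ ψ) = (τ : K ≃+* K) (u k ψ) := by
    intro k τ ψ
    refine congrFun (eq_of_sum_mul_eq hli (g := fun k => u k (charAction ρ τ ψ))
      (h := fun k => (τ : K ≃+* K) (u k ψ)) fun x => ?_) k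
    rw [← hu, charAction_apply, hu, map_sum]
    exact Finset.sum_congr rfl fun i _ => by
      rw [map_mul, ← hH.apply_map (hbH i), apply_inv_apply]
  have hb0 : ∀ k, b k 0 ∈ baseRing A I := fun k =>
    ⟨hH.integral _ (hbH k) 0, fun τ hτ => hH.map_zero_fixed (hbH k) ⟨τ, hτ⟩⟩
  choose μ hμ using fun i j =>
    (Submodule.mem_span_range_iff_exists_fun _).mp
      (hspan ▸ hH.mul_mem _ (hbH i) _ (hbH j) : b i * b j ∈ _)
  have hadd : ∀ k ψ φ, u k (ψ + φ) = ∑ i, ∑ j, u i ψ * u j φ * (μ i j k : K) := by
    intro k ψ φ
    refine congrFun (eq_of_sum_mul_eq hli (g := fun k => u k (ψ + φ))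
      (h := fun k => ∑ i, ∑ j, u i ψ * u j φ * (μ i j k : K)) fun x => ?_) k
    rw [← hu, toMul_add, AddChar.mul_apply, hu, hu, Finset.sum_mul_sum]
    simp only [Finset.sum_mul]
    conv_rhs => rw [Finset.sum_comm]
    refine Finset.sum_congr rfl fun i _ => ?_
    conv_rhs => rw [Finset.sum_comm]
    refine Finset.sum_congr rfl fun j _ => ?_
    have hbb : b i x * b j x = ∑ l, (μ i j l : K) * b l x := by
      rw [← Pi.mul_apply, ← hμ]
      simp [Finset.sum_apply, Subring.smul_def]
    rw [show u i ψ * b i x * (u j φ * b j x) = u i ψ * u j φ * (b i x * b j x) by ring, hbb,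
      Finset.mul_sum]
    exact Finset.sum_congr rfl fun _ _ => by ring
  refine ⟨Submodule.span (baseRing A I) (Set.range u), ?_⟩
  constructor
  · exact Submodule.fg_span (Set.finite_range u)
  · have : (1 : Additive (AddChar X K) → K) = ∑ k, (⟨b k 0, hb0 k⟩ : baseRing A I) • u k := by
      funext ψ
      rw [Pi.one_apply, ← AddChar.map_zero_eq_one (Additive.toMul ψ), hu]
      simp only [Finset.sum_apply, Pi.smul_apply, Subring.smul_def, smul_eq_mul]
      exact Finset.sum_congr rfl fun _ _ => by ring
    rw [this]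
    exact Submodule.sum_mem _ fun k _ => Submodule.smul_mem _ _ (hmem k)
  · intro f hf g hg
    induction hf using Submodule.span_induction with
    | mem f hf =>
      obtain ⟨i, rfl⟩ := hf
      induction hg using Submodule.span_induction with
      | mem g hg =>
        obtain ⟨j, rfl⟩ := hg
        rw [show u i * u j = ∑ k, c k i j • u k from funext fun ψ => by
          simp [Finset.sum_apply, Subring.smul_def, huu, mul_comm]]
        exact Submodule.sum_mem _ fun k _ => Submodule.smul_mem _ _ (hmem k)
      | zero => rw [mul_zero]; exact Submodule.zero_mem _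
      | add g g' _ _ e e' => rw [mul_add]; exact Submodule.add_mem _ e e'
      | smul r g _ e => rw [mul_smul_comm]; exact Submodule.smul_mem _ r e
    | zero => rw [zero_mul]; exact Submodule.zero_mem _
    | add f f' _ _ e e' => rw [add_mul]; exact Submodule.add_mem _ e e'
    | smul r f _ e => rw [smul_mul_assoc]; exact Submodule.smul_mem _ r e
  · intro f hf ψ
    induction hf using Submodule.span_induction with
    | mem f hf => obtain ⟨i, rfl⟩ := hf; exact huA i ψ
    | zero => exact zero_mem A
    | add f f' _ _ e e' => exact add_mem e e'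
    | smul r f _ e => exact baseRing_smul_mem r e
  · intro f hf
    induction hf using Submodule.span_induction with
    | mem f hf => obtain ⟨i, rfl⟩ := hf; exact hequ i
    | zero => intro τ x; simp
    | add f f' _ _ e e' => intro τ x; simp only [Pi.add_apply, map_add, e τ x, e' τ x]
    | smul r f _ e => exact isEquivariant_smul e r
  · intro ψ φ h
    apply Additive.toMul.injective
    refine DFunLike.ext _ _ fun x => ?_
    rw [hu, hu]
    exact Finset.sum_congr rfl fun k _ => by rw [h _ (hmem k)]
  · intro f hf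
    obtain ⟨d, hd⟩ := (Submodule.mem_span_range_iff_exists_fun _).mp hf
    refine ⟨n, u, fun i => ∑ j, (∑ k, d k * μ i j k) • u j, hmem,
      fun i => Submodule.sum_mem _ fun j _ => Submodule.smul_mem _ _ (hmem j), fun ψ φ => ?_⟩
    rw [← hd]
    simp only [Finset.sum_apply, Pi.smul_apply, Subring.smul_def, smul_eq_mul, hadd,
      Finset.mul_sum, Finset.sum_mul, AddSubmonoidClass.coe_finsetSum, MulMemClass.coe_mul]
    rw [Finset.sum_comm]
    refine Finset.sum_congr rfl fun i _ => ?_
    rw [Finset.sum_comm]
    exact Finset.sum_congr rfl fun _ _ => Finset.sum_congr rfl fun _ _ => by ring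

end FLTAgent.FlatModel
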