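import Fermat.Agent.FlatModel.Trivial
import Fermat.Agent.FlatModel.Dual
import Mathlib.GroupTheory.FiniteAbelian.Duality
import Mathlib.RingTheory.RootsOfUnity.AlgebraicallyClosed
import Mathlib.GroupTheory.Exponent

/-!
# Models with cyclotomic layers carry the cyclotomic action
-/

set_option autoImplicit false

namespace FLTAgent.FlatModel

variable {K : Type*} [Field K] [CharZero K] {p : ℕ} {A : ValuationSubring K}
  {I : Subgroup (K ≃+* K)}

omit [CharZero K] in
theorem finite_addChar (X : Type*) [AddCommGroup X] [Finite X] :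
    Finite (AddChar X K) := by
  have := Fintype.ofFinite X
  have : Finite (Multiplicative X →* K) := (linearIndependent_monoidHom (Multiplicative X) K).finite
  exact Finite.of_equiv _ AddChar.toMonoidHomEquiv.symm

theorem exists_char_ne_one [IsAlgClosed K] (X : Type*) [AddCommGroup X] [Finite X] {x : X}
    (hx : x ≠ 0) : ∃ ψ : AddChar X K, ψ x ≠ 1 := by
  have : NeZero (Monoid.exponent (Multiplicative X)) :=
    ⟨Monoid.ExponentExists.exponent_ne_zero Monoid.ExponentExists.of_finite⟩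
  obtain ⟨φ, hφ⟩ := CommGroup.exists_apply_ne_one_of_hasEnoughRootsOfUnity (Multiplicative X) K
    (a := Multiplicative.ofAdd x) (by simpa using hx)
  refine ⟨AddChar.toMonoidHomEquiv.symm ((Units.coeHom K).comp φ), fun h => hφ ?_⟩
  exact Units.ext (by simpa using h)

variable {X : Type*} [AddCommGroup X] {ρ : I →* AddMonoid.End X}
  {H : Submodule (baseRing A I) (X → K)}

/-- A stable subgroup of a model with a stable filtration with `p`-killed layers on
which inertia acts by the cyclotomic character has cyclotomic action. -/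
theorem IsModel.cyclotomic_of_layers [IsAlgClosed K] [Finite X]
    (hI : IsUnramifiedBase p A I) (hp2 : p ≠ 2) (hH : IsModel ρ H) {n : ℕ}
    (hn : ∀ x : X, p ^ n • x = 0) (χ : I → ℕ)
    (hχ : ∀ (τ : I) (ζ : K), ζ ^ p ^ n = 1 → (τ : K ≃+* K) ζ = ζ ^ χ τ)
    (Y : AddSubgroup X) (hY : ∀ τ, ∀ y ∈ Y, ρ τ y ∈ Y)
    (F : ℕ → AddSubgroup X) (L : ℕ) (hF0 : F 0 = ⊥) (hFL : Y ≤ F L)
    (hFst : ∀ j τ, ∀ y ∈ Y, y ∈ F j → ρ τ y ∈ F j)
    (hFp : ∀ j, ∀ y ∈ Y, y ∈ F (j + 1) → p • y ∈ F j)
    (hFχ : ∀ j τ, ∀ y ∈ Y, y ∈ F (j + 1) → χ τ • y - ρ τ y ∈ F j) :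
    ∀ τ, ∀ y ∈ Y, ρ τ y = χ τ • y := by
  classical
  let ρY := restrictAction ρ Y hY
  have hHY := hH.restrict Y hY
  have := finite_addChar (K := K) Y
  have : Finite (Additive (AddChar Y K)) := Finite.of_equiv _ Additive.ofMul
  obtain ⟨H', hH'⟩ := hHY.exists_dual
  have hval : ∀ (τ : I) (ψ : AddChar Y K) (z : Y), (τ : K ≃+* K) (ψ z) = ψ (χ τ • z) := by
    intro τ ψ z
    rw [AddChar.map_nsmul_eq_pow]
    refine hχ τ _ ?_
    rw [← AddChar.map_nsmul_eq_pow,
      show p ^ n • z = 0 from Subtype.ext (by simpa using hn (z : X)), AddChar.map_zero_eq_one]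
  let D : ℕ → AddSubgroup (Additive (AddChar Y K)) := fun j =>
    { carrier := {ψ | ∀ y : Y, (y : X) ∈ F (L - j) → Additive.toMul ψ y = 1}
      add_mem' := fun {a b} ha hb y hy => by
        rw [toMul_add, AddChar.mul_apply, ha y hy, hb y hy, one_mul]
      zero_mem' := fun y _ => by simp
      neg_mem' := fun {a} ha y hy => by
        rw [toMul_neg, AddChar.inv_apply, AddChar.map_neg_eq_inv, ha y hy, inv_one] }
  have hmemD : ∀ j ψ, ψ ∈ D j ↔ ∀ y : Y, (y : X) ∈ F (L - j) → Additive.toMul ψ y = 1 :=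
    fun _ _ => Iff.rfl
  -- one step up the filtration of the dual
  have hC : ∀ j, hH'.connectedPart ⊓ D j ≤ ⊥ := by
    intro j
    induction j with
    | zero =>
      rintro ψ ⟨-, hψ⟩
      rw [AddSubgroup.mem_bot]
      apply Additive.toMul.injective
      refine DFunLike.ext _ _ fun y => ?_
      rw [toMul_zero, AddChar.one_apply]
      exact hψ y (by simpa using hFL y.2)
    | succ j ih =>
      rcases Nat.lt_or_ge j L with hjL | hjL
      swap
      · have hle : D (j + 1) ≤ D j := by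
          intro ψ hψ y hy
          exact hψ y (by rwa [show L - (j + 1) = L - j by omega])
        exact le_trans (inf_le_inf_left _ hle) ih
      have hL : L - j = (L - (j + 1)) + 1 := by omega
      refine hH'.le_of_connected_trivial hI hp2 _ ⊥ ?_ ?_ inf_le_left ?_ ?_
      · rintro τ ψ ⟨h1, h2⟩
        refine ⟨hH'.map_mem_connectedPart hI τ h1, fun y hy => ?_⟩
        rw [charAction_apply, h2 _ (hFst _ τ⁻¹ _ y.2 hy), map_one]
      · intro τ u hu
        rw [AddSubgroup.mem_bot] at hu ⊢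
        rw [hu, map_zero]
      · rintro τ ψ ⟨h1, h2⟩
        refine ih ⟨AddSubgroup.sub_mem _ (hH'.map_mem_connectedPart hI τ h1) h1, fun y hy => ?_⟩
        rw [toMul_sub, AddChar.div_apply, charAction_apply, hval, ← AddChar.map_add_eq_mul]
        refine h2 _ ?_
        have h := hFχ (L - (j + 1)) τ _ (ρY τ⁻¹ y).2 (hL ▸ hFst _ τ⁻¹ _ y.2 hy)
        have hy' : ρ τ ((ρY τ⁻¹ y : Y) : X) = (y : X) := apply_inv_apply ρ τ (y : X)
        rw [hy'] at h
        simpa [← sub_eq_add_neg] using h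
      · rintro ψ ⟨h1, h2⟩
        refine ih ⟨AddSubgroup.nsmul_mem _ h1 p, fun y hy => ?_⟩
        rw [toMul_nsmul, AddChar.pow_apply, ← AddChar.map_nsmul_eq_pow]
        exact h2 _ (hFp _ _ y.2 (hL ▸ hy))
  intro τ y hy
  refine sub_eq_zero.mp (by_contra fun hne => ?_)
  obtain ⟨ψ, hψ⟩ := exists_char_ne_one (K := K) Y
    (x := ρY τ ⟨y, hy⟩ - χ τ • ⟨y, hy⟩) (fun h => hne (by
      exact congrArg Subtype.val h))
  have hall : ∀ z : Y, (z : X) ∈ F (L - L) → Additive.toMul
      (charAction ρY τ (Additive.ofMul ψ) - Additive.ofMul ψ) z = 1 := by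
    intro z hz
    rw [Nat.sub_self, hF0, AddSubgroup.mem_bot] at hz
    rw [show z = 0 from Subtype.ext hz, AddChar.map_zero_eq_one]
  have hfix : charAction ρY τ (Additive.ofMul ψ) - Additive.ofMul ψ = 0 := by
    rw [← AddSubgroup.mem_bot]
    exact hC L ⟨hH'.map_sub_mem_connectedPart hI τ _, hall⟩
  have h := DFunLike.congr_fun (congrArg Additive.toMul (sub_eq_zero.mp hfix)) (ρY τ ⟨y, hy⟩)
  rw [charAction_apply, inv_apply_apply, toMul_ofMul, hval] at h
  refine hψ ?_
  rw [sub_eq_add_neg, AddChar.map_add_eq_mul, AddChar.map_neg_eq_inv, ← h]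
  exact mul_inv_cancel₀ (AddChar.val_isUnit ψ _).ne_zero

end FLTAgent.FlatModel
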