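import Fermat.Agent.FlatModel.OrdinaryLayers
import Fermat.Agent.FlatModel.Comap

/-!
# An isogeny decomposition kills the ordinary defect up to an integer

Two quotients with models and a common kernel on which inertia is cyclotomic up to `C` give
`C N (σ - χ σ) (τ - 1) = 0` once `N` factors through the quotients modulo the kernel.
-/

set_option autoImplicit false

namespace FLTAgent.FlatModel

variable {K : Type*} [Field K] {p n : ℕ} {A : ValuationSubring K} {I : Subgroup (K ≃+* K)}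
  {R : Type*} [CommRing R] {𝔪 : Ideal R} {G : Type*} [Group G]
  {X X' : Type*} [AddCommGroup X] [Module R X] [AddCommGroup X'] [Module R X']
  {ρ : G →* Module.End R X} {ρ' : G →* Module.End R X'} {t d : G → R} {ι : I →* G} {χ : I → ℕ}
  {s : I} {h : G}

theorem ResidualData.of_surjective (D : ResidualData p n 𝔪 ρ t d ι χ s h) (π : X →ₗ[R] X')
    (hπ : Function.Surjective π) (hρ : ∀ g x, π (ρ g x) = ρ' g (π x)) :
    ResidualData p n 𝔪 ρ' t d ι χ s h where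
  natCast_mem := D.natCast_mem
  rel := ⟨fun g x => by
    obtain ⟨x, rfl⟩ := hπ x
    rw [← hρ, ← hρ, ← map_smul π, ← map_smul π, ← map_sub π, ← map_add π, D.rel.1, map_zero],
    fun g g' x => by
    obtain ⟨x, rfl⟩ := hπ x
    rw [← map_smul, D.rel.2, map_smul]⟩
  pow_smul x := by
    obtain ⟨x, rfl⟩ := hπ x
    rw [← map_nsmul, D.pow_smul, map_zero]
  det_smul τ x := by
    obtain ⟨x, rfl⟩ := hπ x
    rw [← map_smul, D.det_smul, map_nsmul]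
  det_sub_mem := D.det_sub_mem
  trace_sub_mem := D.trace_sub_mem
  chi_distinct := D.chi_distinct
  chi_mul := D.chi_mul
  irred := D.irred
  lower := D.lower
  upper := D.upper

theorem ResidualData.of_injective (D : ResidualData p n 𝔪 ρ t d ι χ s h) (π : X' →ₗ[R] X)
    (hπ : Function.Injective π) (hρ : ∀ g x, π (ρ' g x) = ρ g (π x)) :
    ResidualData p n 𝔪 ρ' t d ι χ s h where
  natCast_mem := D.natCast_mem
  rel := ⟨fun g x => hπ (by
    rw [map_add, map_sub, map_smul, map_smul, hρ, hρ, D.rel.1, map_zero]),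
    fun g g' x => hπ (by rw [map_smul, map_smul, D.rel.2])⟩
  pow_smul x := hπ (by rw [map_nsmul, D.pow_smul, map_zero])
  det_smul τ x := hπ (by rw [map_smul, D.det_smul, map_nsmul])
  det_sub_mem := D.det_sub_mem
  trace_sub_mem := D.trace_sub_mem
  chi_distinct := D.chi_distinct
  chi_mul := D.chi_mul
  irred := D.irred
  lower := D.lower
  upper := D.upper

/-- A stable submodule with a model on the quotient absorbs the defect. -/
theorem defect_mem_of_model [CharZero K] [IsAlgClosed K] [Finite X] [𝔪.IsMaximal]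
    (hI : IsUnramifiedBase p A I) (hp2 : p ≠ 2) (D : ResidualData p n 𝔪 ρ t d ι χ s h)
    (hχ : ∀ (τ : I) (ζ : K), ζ ^ p ^ n = 1 → (τ : K ≃+* K) ζ = ζ ^ χ τ)
    (hnil : ∃ L, ∀ r ∈ 𝔪 ^ L, ∀ x : X, r • x = 0) (W : Submodule R X)
    (hW : ∀ g, ∀ x ∈ W, ρ g x ∈ W) {P : Type*} [AddCommGroup P] (π : X →+ P)
    (hker : ∀ x, π x = 0 ↔ x ∈ W) (σP : I →* AddMonoid.End P)
    (hπ : ∀ τ x, π (ρ (ι τ) x) = σP τ (π x))
    {H : Submodule (baseRing A I) (P → K)} (hH : IsModel σP H) (σ τ : I) (x : X) :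
    ρ (ι σ) (ρ (ι τ) x - x) - χ σ • (ρ (ι τ) x - x) ∈ W := by
  have hle : ∀ g, W ≤ W.comap (ρ g) := fun g y hy => hW g y hy
  let ρ' : G →* Module.End R (X ⧸ W) :=
    { toFun := fun g => W.mapQ W (ρ g) (hle g)
      map_one' := Submodule.linearMap_qext _ (LinearMap.ext fun y => by simp)
      map_mul' := fun g g' => Submodule.linearMap_qext _ (LinearMap.ext fun y => by simp) }
  have D' : ResidualData p n 𝔪 ρ' t d ι χ s h :=
    D.of_surjective W.mkQ (Submodule.mkQ_surjective W) fun g y => rfl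
  have : Finite (X ⧸ W) := Finite.of_surjective _ (Submodule.mkQ_surjective W)
  let φ : (⊤ : AddSubgroup (X ⧸ W)) →+ P :=
    (QuotientAddGroup.lift W.toAddSubgroup π fun y hy => (hker y).2 hy).comp
      (AddSubgroup.subtype ⊤)
  have hφ : Function.Injective φ := by
    rintro ⟨a, ha⟩ ⟨b, hb⟩ hab
    obtain ⟨a, rfl⟩ := Submodule.mkQ_surjective W a
    obtain ⟨b, rfl⟩ := Submodule.mkQ_surjective W b
    refine Subtype.ext ((Submodule.Quotient.eq W).2 ((hker _).1 ?_))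
    rw [map_sub]
    exact sub_eq_zero.2 hab
  have hst : ∀ τ, ∀ y ∈ (⊤ : AddSubgroup (X ⧸ W)), inertiaAction ρ' ι τ y ∈
      (⊤ : AddSubgroup (X ⧸ W)) := fun _ _ _ => trivial
  have hH' := hH.comap (ρ' := restrictAction (inertiaAction ρ' ι) ⊤ hst) φ hφ fun τ y => by
    obtain ⟨y, hy⟩ := y
    obtain ⟨y, rfl⟩ := Submodule.mkQ_surjective W y
    exact hπ τ y
  have key := smul_sub_eq_of_model hI hp2 D' hχ
    (hnil.imp fun L hL r hr y => by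
      obtain ⟨y, rfl⟩ := Submodule.mkQ_surjective W y
      rw [← map_smul, hL r hr, map_zero])
    ⊤ hst (fun _ _ => trivial) hH' σ τ (W.mkQ x)
  rw [← Submodule.Quotient.eq W]
  simpa [ρ'] using key

omit [CommRing R] in
/-- The integer kills the defect. -/
theorem nsmul_defect_eq_zero {R : Type*} [CommRing R] {X : Type*} [AddCommGroup X] [Module R X]
    {ρ : G →* Module.End R X} (W₁ W₂ : Submodule R X)
    (hW₁ : ∀ g, ∀ x ∈ W₁, ρ g x ∈ W₁) (hW₂ : ∀ g, ∀ x ∈ W₂, ρ g x ∈ W₂)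
    (h₁ : ∀ (σ τ : I) (x : X), ρ (ι σ) (ρ (ι τ) x - x) - χ σ • (ρ (ι τ) x - x) ∈ W₁)
    (h₂ : ∀ (σ τ : I) (x : X), ρ (ι σ) (ρ (ι τ) x - x) - χ σ • (ρ (ι τ) x - x) ∈ W₂)
    (GA : AddSubgroup X) (hmove : ∀ (τ : I) (x : X), ρ (ι τ) x - x ∈ GA) {C : ℕ}
    (hlayer : ∀ (τ : I), ∀ x ∈ GA, x ∈ W₁ → x ∈ W₂ → C • (ρ (ι τ) x - χ τ • x) = 0)
    {N : ℕ} (f : AddMonoid.End X) (hf : ∀ (τ : I) x, f (ρ (ι τ) x) = ρ (ι τ) (f x))
    (hf0 : ∀ x, x ∈ W₁ → x ∈ W₂ → f x = 0) (hfN : ∀ x, N • x - f x ∈ W₁ ⊓ W₂)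
    (σ τ : I) (x : X) :
    (C * N) • (ρ (ι σ) (ρ (ι τ) x - x) - χ σ • (ρ (ι τ) x - x)) = 0 := by
  set E : X → X := fun y => ρ (ι σ) (ρ (ι τ) y - y) - χ σ • (ρ (ι τ) y - y) with hE
  have hEK : ∀ y ∈ W₁ ⊓ W₂, C • E y = 0 := fun y hy =>
    hlayer σ _ (hmove τ y) (sub_mem (hW₁ _ _ hy.1) hy.1) (sub_mem (hW₂ _ _ hy.2) hy.2)
  have hEadd : ∀ a b, E (a + b) = E a + E b := fun a b => by
    simp only [hE, map_add, map_sub, smul_sub, smul_add]; abel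
  have hEf : E (f x) = 0 := by
    have h := hf0 _ (h₁ σ τ x) (h₂ σ τ x)
    rw [map_sub, map_nsmul, hf, map_sub, hf] at h
    exact h
  have hN : N • E x = E (N • x) := by
    simp only [hE, map_nsmul, map_sub, smul_sub, smul_comm N]
  show (C * N) • E x = 0
  rw [mul_smul, hN, show N • x = (N • x - f x) + f x by abel, hEadd, hEf, add_zero,
    hEK _ (hfN x)]

/-- The same on a submodule of an ambient module with Galois stable data. -/
theorem nsmul_defect_part [CharZero K] [IsAlgClosed K] [𝔪.IsMaximal] {V : Type*} [AddCommGroup V]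
    [Module R V] [Finite V] (hI : IsUnramifiedBase p A I) (hp2 : p ≠ 2) (Y : Submodule R V)
    (act : G → AddMonoid.End V) (ρY : G →* Module.End R Y)
    (hρ : ∀ g (x : Y), (ρY g x : V) = act g x) (D : ResidualData p n 𝔪 ρY t d ι χ s h)
    (hχ : ∀ (τ : I) (ζ : K), ζ ^ p ^ n = 1 → (τ : K ≃+* K) ζ = ζ ^ χ τ)
    (hnil : ∃ L, ∀ r ∈ 𝔪 ^ L, ∀ x : Y, r • x = 0)
    (W₁ W₂ : AddSubgroup V) (hW₁ : ∀ g, ∀ x ∈ W₁, act g x ∈ W₁)
    (hW₂ : ∀ g, ∀ x ∈ W₂, act g x ∈ W₂) (hR₁ : ∀ (r : R) x, x ∈ W₁ → r • x ∈ W₁)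
    (hR₂ : ∀ (r : R) x, x ∈ W₂ → r • x ∈ W₂)
    {P₁ : Type*} [AddCommGroup P₁] (π₁ : V →+ P₁) (hk₁ : ∀ x, π₁ x = 0 ↔ x ∈ W₁)
    (σ₁ : I →* AddMonoid.End P₁) (he₁ : ∀ τ x, π₁ (act (ι τ) x) = σ₁ τ (π₁ x))
    {H₁ : Submodule (baseRing A I) (P₁ → K)} (hH₁ : IsModel σ₁ H₁)
    {P₂ : Type*} [AddCommGroup P₂] (π₂ : V →+ P₂) (hk₂ : ∀ x, π₂ x = 0 ↔ x ∈ W₂)
    (σ₂ : I →* AddMonoid.End P₂) (he₂ : ∀ τ x, π₂ (act (ι τ) x) = σ₂ τ (π₂ x))
    {H₂ : Submodule (baseRing A I) (P₂ → K)} (hH₂ : IsModel σ₂ H₂)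
    (GA : AddSubgroup V) (hmove : ∀ (τ : I) (x : V), act (ι τ) x - x ∈ GA)
    {C : ℕ}
    (hlayer : ∀ (τ : I), ∀ x ∈ GA, x ∈ W₁ → x ∈ W₂ → C • (act (ι τ) x - χ τ • x) = 0)
    {N : ℕ} (f : AddMonoid.End V) (hf : ∀ g x, f (act g x) = act g (f x))
    (hfY : ∀ x ∈ Y, f x ∈ Y)
    (hf0 : ∀ x, x ∈ W₁ → x ∈ W₂ → f x = 0) (hfN : ∀ x, N • x - f x ∈ W₁ ⊓ W₂)
    (σ τ : I) (x : Y) :
    (C * N) • (ρY (ι σ) (ρY (ι τ) x - x) - χ σ • (ρY (ι τ) x - x)) = 0 := by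
  let Q₁ : Submodule R Y :=
    { carrier := {x | (x : V) ∈ W₁}
      add_mem' := fun ha hb => W₁.add_mem ha hb
      zero_mem' := W₁.zero_mem
      smul_mem' := fun r x hx => hR₁ r x hx }
  let Q₂ : Submodule R Y :=
    { carrier := {x | (x : V) ∈ W₂}
      add_mem' := fun ha hb => W₂.add_mem ha hb
      zero_mem' := W₂.zero_mem
      smul_mem' := fun r x hx => hR₂ r x hx }
  have hst₁ : ∀ g, ∀ x ∈ Q₁, ρY g x ∈ Q₁ := fun g x hx => by
    show ((ρY g x : Y) : V) ∈ W₁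
    rw [hρ]; exact hW₁ g _ hx
  have hst₂ : ∀ g, ∀ x ∈ Q₂, ρY g x ∈ Q₂ := fun g x hx => by
    show ((ρY g x : Y) : V) ∈ W₂
    rw [hρ]; exact hW₂ g _ hx
  let fY : AddMonoid.End Y := AddMonoidHom.mk' (fun x => ⟨f (x : V), hfY _ x.2⟩)
    fun a b => Subtype.ext (map_add f _ _)
  exact nsmul_defect_eq_zero Q₁ Q₂ hst₁ hst₂
    (defect_mem_of_model hI hp2 D hχ hnil Q₁ hst₁ (π₁.comp Y.subtype.toAddMonoidHom)
      (fun x => hk₁ _) σ₁ (fun τ x => (congrArg π₁ (hρ _ x)).trans (he₁ τ _)) hH₁)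
    (defect_mem_of_model hI hp2 D hχ hnil Q₂ hst₂ (π₂.comp Y.subtype.toAddMonoidHom)
      (fun x => hk₂ _) σ₂ (fun τ x => (congrArg π₂ (hρ _ x)).trans (he₂ τ _)) hH₂)
    (GA.comap Y.subtype.toAddMonoidHom)
    (fun w x => by show ((ρY _ x - x : Y) : V) ∈ GA; rw [Submodule.coe_sub, hρ]; exact hmove w _)
    (fun w x hx h1 h2 => Subtype.ext (by
      have := hlayer w _ hx h1 h2
      simpa [hρ] using this))
    fY (fun w x => Subtype.ext (by show f _ = _; rw [hρ, hρ]; exact hf _ _))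
    (fun x h1 h2 => Subtype.ext (hf0 _ h1 h2)) (fun x => ⟨(hfN _).1, (hfN _).2⟩) σ τ x

end FLTAgent.FlatModel
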