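import Fermat.Agent.GalRep.Approx
import Fermat.Agent.GalRep.Span
import Fermat.Agent.GalRep.AdicRep
import Fermat.Prelude.Def_CuspForm_HeckeGaloisRepDatum
import Mathlib.LinearAlgebra.Matrix.Charpoly.Coeff

/-!
# The determinant of a Hecke representation is cyclotomic
-/

set_option autoImplicit false

namespace FLTAgent.FlatModel

open Matrix GalRep Polynomial

local notation "Γℚ" => AlgebraicClosure ℚ ≃ₐ[ℚ] AlgebraicClosure ℚ

variable {A : Type} [CommRing A] [IsLocalRing A]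

theorem eq_of_forall_sub_mem_pow [IsHausdorff (IsLocalRing.maximalIdeal A) A] {a b : A}
    (h : ∀ n, a - b ∈ IsLocalRing.maximalIdeal A ^ n) : a = b :=
  sub_eq_zero.mp ((‹IsHausdorff (IsLocalRing.maximalIdeal A) A›).haus _ fun n => by
    rw [SModEq.zero, Ideal.smul_eq_mul, Ideal.mul_top]
    exact h n)

theorem det_sub_mem (ρ : GaloisRepAdic A) {n : ℕ} {g σ : Γℚ}
    (h : ∀ v, ρ.ρ (g⁻¹ * σ) v - v ∈ IsLocalRing.maximalIdeal A ^ n • (⊤ : Submodule A ρ.V)) :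
    (repMat ρ σ).det - (repMat ρ g).det ∈ IsLocalRing.maximalIdeal A ^ n := by
  classical
  have h1 : (Ideal.Quotient.mk (IsLocalRing.maximalIdeal A ^ n)).mapMatrix (repMat ρ (g⁻¹ * σ))
      = 1 := by
    ext i j
    have hm := repr_mem_of_mem_smul_top (repBasis ρ) (h (repBasis ρ j)) i
    rw [map_sub, Finsupp.sub_apply, Module.Basis.repr_self] at hm
    rw [← map_one (Ideal.Quotient.mk (IsLocalRing.maximalIdeal A ^ n)).mapMatrix]
    simp only [RingHom.mapMatrix_apply, Matrix.map_apply, Ideal.Quotient.eq]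
    show LinearMap.toMatrix (repBasis ρ) (repBasis ρ) (ρ.ρ (g⁻¹ * σ)) i j - _ ∈ _
    rw [LinearMap.toMatrix_apply, Matrix.one_apply]
    rw [Finsupp.single_apply] at hm
    convert hm using 2
    simp [eq_comm]
  rw [← Ideal.Quotient.eq, RingHom.map_det, RingHom.map_det,
    show σ = g * (g⁻¹ * σ) by group, map_mul, map_mul, h1, mul_one]

theorem det_eq_of_charpoly (ρ : GaloisRepAdic A) {a b : A} {g : Γℚ}
    (h : LinearMap.charpoly (ρ.ρ g) = Polynomial.X ^ 2 - Polynomial.C a * Polynomial.X +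
      Polynomial.C b) : (repMat ρ g).det = b := by
  rw [← LinearMap.charpoly_toMatrix (ρ.ρ g) (repBasis ρ)] at h
  show (LinearMap.toMatrix (repBasis ρ) (repBasis ρ) (ρ.ρ g)).det = b
  rw [Matrix.det_eq_sign_charpoly_coeff, h]
  simp [Fintype.card_fin]

variable {p : ℕ} [Fact p.Prime] {N : ℕ} [NeZero N] {S : Finset ℕ}
  {𝒪 : Type} [CommRing 𝒪] [IsDomain 𝒪] [IsDiscreteValuationRing 𝒪]
  [IsAdicComplete (IsLocalRing.maximalIdeal 𝒪) 𝒪]
  {θ : CuspForm.heckeAlgebra N 2 (↑S : Set ℕ) →+* IsLocalRing.ResidueField 𝒪}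
  {T : Type} [CommRing T] [IsLocalRing T] [IsNoetherianRing T]
  [IsAdicComplete (IsLocalRing.maximalIdeal T) T] [Algebra 𝒪 T] [IsLocalHom (algebraMap 𝒪 T)]
  [Module.Finite 𝒪 T] [Module.Free 𝒪 T]

omit [Fact p.Prime] [IsAdicComplete (IsLocalRing.maximalIdeal 𝒪) 𝒪] [IsNoetherianRing T]
  [IsAdicComplete (IsLocalRing.maximalIdeal T) T] [Module.Finite 𝒪 T] [Module.Free 𝒪 T] in
theorem natCast_mem_maximalIdeal_of_map (hp : (p : 𝒪) ∈ IsLocalRing.maximalIdeal 𝒪) :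
    (p : T) ∈ IsLocalRing.maximalIdeal T := by
  rw [← map_natCast (algebraMap 𝒪 T)]
  exact map_nonunit (algebraMap 𝒪 T) _ hp

/-- Approximation of a Galois element by a Frobenius element, for both the matrix model and the
representation. -/
theorem exists_joint_approx (M : MatModel N p ↑S) (hd : FrobeniusDense)
    (H : CuspForm.HeckeGaloisRepDatum N (↑S : Set ℕ) 𝒪 θ T) (ψ : ℤ_[p] →+* T)
    (hp : (p : T) ∈ IsLocalRing.maximalIdeal T) (g : Γℚ) (n : ℕ) :
    ∃ t : CuspForm.heckeAlgebra N 2 (↑S : Set ℕ),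
      redP p n (M.phi g) = redP p n (castP p (M.Tm t)) ∧
      H.ρ.trace g - H.π t ∈ IsLocalRing.maximalIdeal T ^ n ∧
      (repMat H.ρ g).det - ψ (cyclo p g : ℤ_[p]) ∈ IsLocalRing.maximalIdeal T ^ n := by
  obtain ⟨L₁, hL₁, h₁⟩ := H.ρ.isAdicContinuous n
  obtain ⟨L₂, hL₂, h₂⟩ := cyclo_continuous p n
  obtain ⟨ℓ, hℓ, hℓN, hℓS, A, hA, σ, hσ, hℓp, hag, happ⟩ := M.exists_approx hd g n (L₁ ⊔ L₂)
  have hfix := (fixing_of_agree hag).1
  have hv : ∀ v, H.ρ.ρ (g⁻¹ * σ) v - v ∈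
      IsLocalRing.maximalIdeal T ^ n • (⊤ : Submodule T H.ρ.V) :=
    h₁ _ fun x hx => hfix x (le_sup_left (b := L₂) hx)
  have hchar := H.charpoly_frob ℓ hℓ hℓN hℓS A hA σ hσ
  refine ⟨_, happ, ?_, ?_⟩
  · rw [← neg_mem_iff, neg_sub, ← trace_eq_of_charpoly H.ρ hchar]
    exact trace_sub_mem H.ρ hv
  · have hd1 := det_sub_mem H.ρ hv
    rw [det_eq_of_charpoly H.ρ hchar] at hd1
    have hd2 : (ℓ : T) - ψ (cyclo p g : ℤ_[p]) ∈ IsLocalRing.maximalIdeal T ^ n := by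
      rw [← map_natCast ψ, ← cyclo_frobenius hℓ hℓp hA hσ, ← map_sub]
      refine padicHom_mem_pow ψ hp ?_
      rw [map_sub, show σ = g * (g⁻¹ * σ) by group, map_mul, Units.val_mul, map_mul,
        h₂ _ fun x hx => hfix x (le_sup_right (a := L₁) hx), mul_one, sub_self]
    have := Ideal.sub_mem _ hd2 hd1
    rwa [sub_sub_sub_cancel_left] at this

/-- The determinant is the cyclotomic character. -/
theorem det_repMat_eq_cyclo (M : MatModel N p ↑S) (hd : FrobeniusDense)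
    (H : CuspForm.HeckeGaloisRepDatum N (↑S : Set ℕ) 𝒪 θ T) (ψ : ℤ_[p] →+* T)
    (hp : (p : T) ∈ IsLocalRing.maximalIdeal T) (g : Γℚ) :
    (repMat H.ρ g).det = ψ (cyclo p g : ℤ_[p]) :=
  eq_of_forall_sub_mem_pow fun n => by
    obtain ⟨t, -, -, h⟩ := exists_joint_approx M hd H ψ hp g n
    exact h

end FLTAgent.FlatModel
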