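import Fermat.Agent.FlatModel.HeckeOrdinary
import Fermat.Agent.GalRep.Assembly
import Fermat.Agent.GalRep.Dense
import Fermat.Agent.JTors.Model

/-!
# Ordinarity of Hecke representations from models on the torsion of `J₀(N)`
-/

set_option autoImplicit false

namespace FLTAgent.FlatModel

open GalRep AlgebraicCurve ModularCurve Matrix

local notation "Γℚ" => AlgebraicClosure ℚ ≃ₐ[ℚ] AlgebraicClosure ℚ

/-- The inertia group acting on `J₀(N)`. -/
noncomputable def jInertia (N : ℕ) (A : ValuationSubring (AlgebraicClosure ℚ)) :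
    inertiaRing A →* AddMonoid.End (JZero N) :=
  (DistribMulAction.toAddMonoidEnd Γℚ (JZero N)).comp (inertiaHom A)

/-- The geometric input at a place `A` over `p`: inertia moves the `p ^ n`-torsion into a subgroup
carrying an integral model. -/
def HasTorsionModels (N p : ℕ) (A : ValuationSubring (AlgebraicClosure ℚ)) : Prop :=
  ∀ n, ∃ (GA : AddSubgroup (JZero N)) (hGA : ∀ τ, ∀ x ∈ GA, jInertia N A τ x ∈ GA),
    (∀ τ, ∀ x : JZero N, p ^ n • x = 0 → jInertia N A τ x - x ∈ GA) ∧
    (∀ x ∈ GA, p ^ n • x = 0) ∧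
      ∃ H : Submodule (baseRing A (inertiaRing A)) (GA → AlgebraicClosure ℚ),
        IsModel (restrictAction (jInertia N A) GA hGA) H

variable {N : ℕ} [NeZero N] {p : ℕ} [Fact p.Prime]

/-- Models on the torsion give models on the levels of the matrix model. -/
theorem hasInertiaModels_of_torsion (M : TorsionModel N p) (hG : GaloisFacts N p) {S : Finset ℕ}
    (hS : levelPrimes N ⊆ (↑S : Set ℕ)) {A : ValuationSubring (AlgebraicClosure ℚ)}
    (h : HasTorsionModels N p A) : HasInertiaModels (M.matModel hG hS) A := by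
  intro n
  obtain ⟨GA, hGA, hmove, htors, H, hH⟩ := h n
  have : NeZero (p ^ n) := ⟨pow_ne_zero n (Fact.out : p.Prime).ne_zero⟩
  set Mm := M.matModel hG hS
  let lift : LevelVec Mm n → (Fin (Module.finrank ℤ M.H) → ℤ) := fun v i => ((v i).val : ℤ)
  have hlift : ∀ (v : LevelVec Mm n) (w : Fin (Module.finrank ℤ M.H) → ℤ),
      (∀ i, ((w i : ℤ) : ZMod (p ^ n)) = v i) → M.projv n (lift v) = M.projv n w := by
    intro v w hw
    rw [← sub_eq_zero, ← map_sub, M.projv_eq_zero_iff]
    intro i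
    rw [Pi.sub_apply, ← ZMod.intCast_zmod_eq_zero_iff_dvd, Int.cast_sub, hw]
    simp [lift]
  let Φ : LevelVec Mm n →+ JZero N :=
    AddMonoidHom.mk' (fun v => M.projv n (lift v)) fun u v => by
      rw [← map_add]
      exact hlift _ _ fun i => by simp [lift]
  have hΦinj : Function.Injective Φ := fun u v huv => by
    have h0 : M.projv n (lift u - lift v) = 0 := by rw [map_sub]; exact sub_eq_zero.mpr huv
    rw [M.projv_eq_zero_iff] at h0
    funext i
    have := (ZMod.intCast_zmod_eq_zero_iff_dvd _ (p ^ n)).mpr (h0 i)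
    simpa [lift, sub_eq_zero] using this
  have hΦ : ∀ τ v, Φ (levelInertia Mm n A τ v) = jInertia N A τ (Φ v) := by
    intro τ v
    show M.projv n (lift (redP p n (M.galMat (inertiaHom A τ)) *ᵥ v)) =
      inertiaHom A τ • M.projv n (lift v)
    rw [M.smul_projv]
    refine hlift _ _ fun i => ?_
    erw [M.redP_galMat]
    simp [Matrix.mulVec, dotProduct, lift]
    rfl
  have hΦtors : ∀ v, p ^ n • Φ v = 0 := fun v => M.pow_smul_projv n _
  refine ⟨GA.comap Φ, fun τ x hx => ?_, fun τ x => ?_, _, hH.comap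
    (AddMonoidHom.mk' (fun y : GA.comap Φ => (⟨Φ y, y.2⟩ : GA)) fun a b =>
      Subtype.ext (map_add Φ (a : LevelVec Mm n) (b : LevelVec Mm n))) ?_ fun τ y => ?_⟩
  · show Φ _ ∈ GA
    rw [hΦ]; exact hGA τ _ hx
  · show Φ _ ∈ GA
    rw [map_sub, hΦ]; exact hmove τ _ (hΦtors x)
  · exact fun a b hab => Subtype.ext (hΦinj (congrArg Subtype.val hab))
  · exact Subtype.ext (hΦ τ (y : LevelVec Mm n))

/-- Ordinarity at `p` of a residually ordinary Hecke representation, from the semistable models and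
the existence of good reduction specialisations. -/
theorem isOrdinaryAt_of_torsionModels {S : Finset ℕ}
    {𝒪 : Type} [CommRing 𝒪] [IsDomain 𝒪] [IsDiscreteValuationRing 𝒪]
    [IsAdicComplete (IsLocalRing.maximalIdeal 𝒪) 𝒪] [Finite (IsLocalRing.ResidueField 𝒪)]
    {θ : CuspForm.heckeAlgebra N 2 (↑S : Set ℕ) →+* IsLocalRing.ResidueField 𝒪}
    {T : Type} [CommRing T] [IsLocalRing T] [IsNoetherianRing T]
    [IsAdicComplete (IsLocalRing.maximalIdeal T) T] [Algebra 𝒪 T] [IsLocalHom (algebraMap 𝒪 T)]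
    [Module.Finite 𝒪 T] [Module.Free 𝒪 T]
    (hspec : SpecializationsExist)
    (hmod : ∀ A : ValuationSubring (AlgebraicClosure ℚ), A.LiesOverPrime p →
      HasTorsionModels N p A)
    (hp2 : p ≠ 2) (hp𝒪 : (p : 𝒪) ∈ IsLocalRing.maximalIdeal 𝒪)
    (hNS : ∀ q : ℕ, q.Prime → q ∣ N → q ∈ S)
    (H : CuspForm.HeckeGaloisRepDatum N (↑S : Set ℕ) 𝒪 θ T)
    (hres : (GaloisRepAdic.ofResidualGaloisRep H.ρ.residual).IsOrdinaryAt p) :
    H.ρ.IsOrdinaryAt p := by
  have : NeZero p := ⟨(Fact.out : p.Prime).ne_zero⟩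
  have hS : levelPrimes N ⊆ (↑S : Set ℕ) := fun q hq => hNS q hq.1 hq.2
  exact isOrdinaryAt_of_inertiaModels ((JTors.torsionModel N p).matModel (galoisFacts hspec N p) hS)
    frobeniusDense hp2 hp𝒪 H hres
    fun A hA => hasInertiaModels_of_torsion _ _ hS (hmod A hA)

end FLTAgent.FlatModel
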