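import Fermat.Agent.FlatModel.TwoStepOrdinary
import Fermat.Agent.FlatModel.JInput

/-!
# Ordinarity of Hecke representations from an isogeny decomposition of the torsion of `J₀(N)`
-/

set_option autoImplicit false

namespace FLTAgent.FlatModel

open GalRep AlgebraicCurve ModularCurve Matrix

local notation "Γℚ" => AlgebraicClosure ℚ ≃ₐ[ℚ] AlgebraicClosure ℚ

/-- The elements killed by `p ^ n`. -/
noncomputable def jTors (N p n : ℕ) : AddSubgroup (JZero N) :=
  (nsmulAddMonoidHom (α := JZero N) (p ^ n)).ker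

theorem mem_jTors {N p n : ℕ} {x : JZero N} : x ∈ jTors N p n ↔ p ^ n • x = 0 := Iff.rfl

/-- The geometric input at a place `A` over `p` up to the integer `D`. -/
def HasTorsionTwoStep (N p : ℕ) [Fact p.Prime] (A : ValuationSubring (AlgebraicClosure ℚ))
    (D : ℕ) : Prop :=
  ∀ n, ∃ (W₁ W₂ GA : AddSubgroup (JZero N)) (f : AddMonoid.End (JZero N)),
    (∀ g : Γℚ, ∀ x ∈ W₁, g • x ∈ W₁) ∧ (∀ g : Γℚ, ∀ x ∈ W₂, g • x ∈ W₂) ∧
    (∀ i : Bool, ∃ (P : Type) (_ : AddCommGroup P) (π : jTors N p n →+ P)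
      (σP : inertiaRing A →* AddMonoid.End P)
      (H : Submodule (baseRing A (inertiaRing A)) (P → AlgebraicClosure ℚ)),
      (∀ x : jTors N p n, π x = 0 ↔ (x : JZero N) ∈ (bif i then W₁ else W₂)) ∧
      (∀ τ (x : JZero N) (hx : x ∈ jTors N p n) (hx' : jInertia N A τ x ∈ jTors N p n),
        π ⟨jInertia N A τ x, hx'⟩ = σP τ (π ⟨x, hx⟩)) ∧ IsModel σP H) ∧
    (∀ τ, ∀ x ∈ jTors N p n, jInertia N A τ x - x ∈ GA) ∧
    (∃ C D' : ℕ, C * D' = D ∧
      (∀ (τ : inertiaRing A), ∀ x ∈ jTors N p n, x ∈ GA → x ∈ W₁ → x ∈ W₂ →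
        C • (jInertia N A τ x - ((cyclo p (inertiaHom A τ) : ℤ_[p]).toZModPow n).val • x) = 0) ∧
      ∀ x ∈ jTors N p n, D' • x - f x ∈ W₁ ⊓ W₂) ∧
    (∀ (g : Γℚ) x, f (g • x) = g • f x) ∧
    ∀ x, x ∈ W₁ → x ∈ W₂ → f x = 0

variable {N : ℕ} [NeZero N] {p : ℕ} [Fact p.Prime]

/-- A decomposition of the torsion decomposes the levels of the matrix model. -/
theorem hasTwoStep_of_torsion (M : TorsionModel N p) (hG : GaloisFacts N p) {S : Finset ℕ}
    (hS : levelPrimes N ⊆ (↑S : Set ℕ)) {A : ValuationSubring (AlgebraicClosure ℚ)} {D : ℕ}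
    (h : HasTorsionTwoStep N p A D) : HasTwoStep (M.matModel hG hS) A D := by
  intro n
  obtain ⟨W₁, W₂, GA, f, hW₁, hW₂, hP, hmove, ⟨C, D', hCD, hlayer, hfD⟩, hf, hf0⟩ := h n
  have : NeZero (p ^ n) := ⟨pow_ne_zero n (Fact.out : p.Prime).ne_zero⟩
  set Mm := M.matModel hG hS
  let lift : LevelVec Mm n → (Fin (Module.finrank ℤ M.H) → ℤ) := fun v i => ((v i).val : ℤ)
  have hlift : ∀ (v : LevelVec Mm n) (w : Fin (Module.finrank ℤ M.H) → ℤ),
      (∀ i, ((w i : ℤ) : ZMod (p ^ n)) = v i) → M.projv n (lift v) = M.projv n w := by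
    intro v w hw
    rw [← sub_eq_zero, ← map_sub, M.projv_eq_zero_iff]
    intro i
    rw [Pi.sub_apply, ← ZMod.intCast_zmod_eq_zero_iff_dvd, Int.cast_sub, hw]
    simp only [lift, Int.cast_natCast, ZMod.natCast_zmod_val, sub_self]
  let Φ : LevelVec Mm n →+ JZero N :=
    AddMonoidHom.mk' (fun v => M.projv n (lift v)) fun u v => by
      rw [← map_add]
      exact hlift _ _ fun i => by
        simp only [lift, Pi.add_apply, Int.cast_add, Int.cast_natCast, ZMod.natCast_zmod_val]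
        all_goals rfl
  have hΦinj : Function.Injective Φ := fun u v huv => by
    have h0 : M.projv n (lift u - lift v) = 0 := by rw [map_sub]; exact sub_eq_zero.mpr huv
    rw [M.projv_eq_zero_iff] at h0
    funext i
    have := (ZMod.intCast_zmod_eq_zero_iff_dvd _ (p ^ n)).mpr (h0 i)
    refine sub_eq_zero.1 ?_
    rw [← ZMod.natCast_zmod_val (u i), ← ZMod.natCast_zmod_val (v i)]
    have h2 : ((((u i).val : ℤ) - ((v i).val : ℤ) : ℤ) : ZMod (p ^ n)) = 0 := this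
    simpa only [Int.cast_sub, Int.cast_natCast] using h2
  have hΦg : ∀ (g : Γℚ) v, Φ (levelAct Mm n g v) = g • Φ v := by
    intro g v
    show M.projv n (lift (redP p n (M.galMat g) *ᵥ v)) = g • M.projv n (lift v)
    rw [M.smul_projv]
    refine hlift _ _ fun i => ?_
    erw [M.redP_galMat]
    simp [Matrix.mulVec, dotProduct, lift]
    rfl
  have hmem : ∀ v, Φ v ∈ jTors N p n := fun v => M.pow_smul_projv n _
  have hsurj : ∀ x ∈ jTors N p n, ∃ v, Φ v = x := fun x hx => by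
    obtain ⟨w, hw⟩ := M.exists_projv n x hx
    exact ⟨fun i => (w i : ZMod (p ^ n)), (hlift _ w fun i => rfl).trans hw⟩
  let Φ' : LevelVec Mm n →+ jTors N p n := Φ.codRestrict _ hmem
  choose inv hinv using fun v => hsurj _ (show f (Φ v) ∈ jTors N p n by
    rw [mem_jTors, ← map_nsmul, (mem_jTors.1 (hmem v)), map_zero])
  let fV : AddMonoid.End (LevelVec Mm n) := AddMonoidHom.mk' inv fun a b => hΦinj (by
    rw [map_add Φ, hinv, hinv, hinv, map_add, map_add])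
  refine ⟨W₁.comap Φ, W₂.comap Φ, GA.comap Φ, fV, fun g x hx => ?_, fun g x hx => ?_, fun i => ?_,
    fun τ x => ?_, ⟨C, D', hCD, fun τ x hx h1 h2 => hΦinj ?_, fun x => ?_⟩, fun g x => hΦinj ?_,
    fun x h1 h2 => hΦinj ?_⟩
  · show Φ _ ∈ W₁
    rw [hΦg]; exact hW₁ g _ hx
  · show Φ _ ∈ W₂
    rw [hΦg]; exact hW₂ g _ hx
  · obtain ⟨P, _, π, σP, H, hk, he, hH⟩ := hP i
    refine ⟨P, inferInstance, π.comp Φ', σP, H, fun x => ?_, fun τ x => ?_, hH⟩
    · refine (hk (Φ' x)).trans ?_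
      cases i <;> rfl
    · refine Eq.trans ?_ (he τ (Φ x) (hmem x) ?_)
      · exact congrArg π (Subtype.ext (hΦg _ _))
      · show inertiaHom A τ • Φ x ∈ jTors N p n
        rw [← hΦg]; exact hmem _
  · show Φ _ ∈ GA
    rw [map_sub]
    exact (hΦg (inertiaHom A τ) x).symm ▸ hmove τ _ (hmem x)
  · rw [map_nsmul, map_sub, map_nsmul, map_zero]
    exact (hΦg (inertiaHom A τ) x).symm ▸ hlayer τ (Φ x) (hmem x) hx h1 h2
  · show Φ (D' • x - inv x) ∈ W₁ ⊓ W₂
    rw [map_sub, map_nsmul, hinv]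
    exact hfD _ (hmem x)
  · show Φ (inv _) = Φ (levelAct Mm n g (inv x))
    rw [hinv, hΦg, hΦg, hinv, hf]
  · show Φ (inv x) = Φ 0
    rw [hinv, map_zero]
    exact hf0 _ h1 h2

/-- Ordinarity at `p` of a residually ordinary Hecke representation from a decomposition of the
torsion and the existence of good reduction specialisations. -/
theorem isOrdinaryAt_of_torsionTwoStep {S : Finset ℕ}
    {𝒪 : Type} [CommRing 𝒪] [IsDomain 𝒪] [IsDiscreteValuationRing 𝒪] [CharZero 𝒪]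
    [IsAdicComplete (IsLocalRing.maximalIdeal 𝒪) 𝒪] [Finite (IsLocalRing.ResidueField 𝒪)]
    {θ : CuspForm.heckeAlgebra N 2 (↑S : Set ℕ) →+* IsLocalRing.ResidueField 𝒪}
    {T : Type} [CommRing T] [IsLocalRing T] [IsNoetherianRing T]
    [IsAdicComplete (IsLocalRing.maximalIdeal T) T] [Algebra 𝒪 T] [IsLocalHom (algebraMap 𝒪 T)]
    [Module.Finite 𝒪 T] [Module.Free 𝒪 T]
    (hspec : SpecializationsExist) {D : ℕ} (hD : D ≠ 0)
    (hmod : ∀ A : ValuationSubring (AlgebraicClosure ℚ), A.LiesOverPrime p →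
      HasTorsionTwoStep N p A D)
    (hp2 : p ≠ 2) (hp𝒪 : (p : 𝒪) ∈ IsLocalRing.maximalIdeal 𝒪) (hpN : p ∣ N)
    (hNS : ∀ q : ℕ, q.Prime → q ∣ N → q ∈ S)
    (H : CuspForm.HeckeGaloisRepDatum N (↑S : Set ℕ) 𝒪 θ T)
    (hres : (GaloisRepAdic.ofResidualGaloisRep H.ρ.residual).IsOrdinaryAt p) :
    H.ρ.IsOrdinaryAt p := by
  have : NeZero p := ⟨(Fact.out : p.Prime).ne_zero⟩
  have hS : levelPrimes N ⊆ (↑S : Set ℕ) := fun q hq => hNS q hq.1 hq.2
  exact isOrdinaryAt_of_twoStep ((JTors.torsionModel N p).matModel (galoisFacts hspec N p) hS)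
    frobeniusDense hp2 hp𝒪 hpN hNS H hres hD
    fun A hA => hasTwoStep_of_torsion _ _ hS (hmod A hA)

end FLTAgent.FlatModel
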