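import Fermat.Agent.FlatModel.LevelSquare
import Fermat.Agent.FlatModel.TorsionTwoStep
import Fermat.Agent.Semistable.LevelAut
import Fermat.Agent.RT.AtP.Toric
import Fermat.Agent.Eisen.UnipJZero

/-!
# Inertia on the flat classes of the common kernel of the push-forwards

On `J₀(M e p)` flat classes killed by `p ^ n` with principal push-forwards are exactly cyclotomic;
pulled back, inertia is cyclotomic on the old kernel of `J₀(M p)` up to the degree of the pullback.
-/

set_option autoImplicit false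
set_option linter.style.haveILetI false
set_option linter.unusedSectionVars false
set_option synthInstance.maxHeartbeats 100000
set_option maxHeartbeats 800000

noncomputable section

namespace FLTAgent.FlatModel

open AlgebraicCurve ModularCurve IsLocalRing GalRep FLTAgent.Semistable FLTAgent.GoodRed
  FLTAgent.FunctionField FLTAgent.GoodRed.RedDatum

local notation "Qbar" => AlgebraicClosure ℚ
local notation "Γℚ" => AlgebraicClosure ℚ ≃ₐ[ℚ] AlgebraicClosure ℚ

local instance (priority := high) instCoeFunGaloisFKern {L : Type*} [Field L] [Algebra ℚ L]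
    (F₀ : IntermediateField ℚ (LaurentSeries ℚ)) :
    CoeFun ((L ≃ₐ[ℚ] L) →* SemilinearAut L (laurentBaseChange L F₀))
      fun _ => (L ≃ₐ[ℚ] L) → SemilinearAut L (laurentBaseChange L F₀) :=
  DFunLike.toCoeFun

local instance (priority := high) instAlgebraLaurentFKern {K : Type*} [Field K]
    (F : IntermediateField K (LaurentSeries K)) : Algebra K F :=
  SubalgebraClass.toAlgebra F

local instance (priority := high) instSMulLaurentFKern {K : Type*} [Field K]
    (F : IntermediateField K (LaurentSeries K)) : SMul K F :=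
  (SubalgebraClass.toAlgebra F).toSMul

local instance (priority := high) instModuleLaurentFKern {K : Type*} [Field K]
    (F : IntermediateField K (LaurentSeries K)) : Module K F :=
  (SubalgebraClass.toAlgebra F).toModule

section General

variable {K E F : Type*} [Field K] [IsAlgClosed K] [Field E] [Algebra K E] [IsFunctionField K E]
  [Field F] [Algebra K F] [IsFunctionField K F]

theorem divisorOf_pow' (f : F) (m : ℕ) : divisorOf (K := K) (f ^ m) = m • divisorOf (K := K) f :=
  Semistable.PTors.divisorOf_pow m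

/-- The norm of a function of a class with principal push-forward is a constant times a power. -/
theorem exists_norm_eq_of_push (φ : E →ₐ[K] F) (hφ : φ.toRingHom.IsIntegral)
    (hfin : FiniteAlong K φ) (hN : NormFormulaAlong K φ hfin) {m : ℕ} {X : Divisor K F}
    (hX : Divisor.pushforwardAlong φ hφ X ∈ Divisor.principal (K := K) (F := E)) {g : F}
    (hg : g ≠ 0) (hdiv : divisorOf g = m • X) :
    ∃ (c : K) (H : E), Hecke.normAlong φ g = algebraMap K E c * H ^ m := by
  obtain ⟨h, hh, hpush⟩ := Eisen.exists_divisorOf_of_principal hX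
  have hn : Hecke.normAlong φ g ≠ 0 := Hecke.normAlong_ne_zero φ hfin hg
  have e : divisorOf (K := K) (Hecke.normAlong φ g) = m • divisorOf (K := K) h := by
    ext v
    rw [divisorOf_apply, ← Hecke.pushforwardAlong_of_normFormula φ hφ hfin hN hg
      (fun w => divisorOf_apply g w) v, hdiv, map_nsmul, hpush]
  have hz : divisorOf (K := K) (Hecke.normAlong φ g / h ^ m) = 0 := by
    rw [div_eq_mul_inv, divisorOf_mul hn (inv_ne_zero (pow_ne_zero m hh)), divisorOf_inv,
      divisorOf_pow', e, add_neg_cancel]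
  obtain ⟨c, hc⟩ := exists_eq_algebraMap_of_divisorOf_eq_zero hz
  exact ⟨c, h, by rw [hc, div_mul_cancel₀ _ (pow_ne_zero m hh)]⟩

theorem isFlat_zero {L k G C C' : Type*} [Field L] [Field k] {A : ValuationSubring L} {π : A →+* k}
    [Field G] [Algebra L G] [IsFunctionField L G] [Field C] [Algebra k C] [Field C'] [Algebra k C']
    {D : RedDatum A π G C} {D' : RedDatum A π G C'} (m : ℕ) :
    NodeSystem.IsFlat (D := D) (D' := D') m 0 := by
  refine ⟨by simp, 1, one_ne_zero, by ext v; simp, 1, 1, one_ne_zero, one_ne_zero, ?_, ?_⟩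
  · rw [map_one]; exact red_one
  · rw [map_one]; exact red_one

end General

/-- Pulling back a subgroup along an equivariant map injective up to `C`. -/
theorem exists_comap_of_equivariant {N N' : ℕ} {p : ℕ} [Fact p.Prime] {A : ValuationSubring Qbar}
    (φ : JZero N →+ JZero N') (hφ : ∀ (g : Γℚ) x, φ (g • x) = g • φ x)
    (G : AddSubgroup (JZero N')) {P Q P' Q' : Type} [AddCommGroup P] [AddCommGroup Q]
    [AddCommGroup P'] [AddCommGroup Q'] (a' : JZero N' →+ P') (b' : JZero N' →+ Q')
    (a : JZero N →+ P) (b : JZero N →+ Q) {C n : ℕ} (hC : ∀ x, φ x = 0 → C • x = 0)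
    (hpush : ∀ x, a x = 0 → b x = 0 → a' (φ x) = 0 ∧ b' (φ x) = 0)
    (hmove : ∀ (τ : inertiaRing A) y, p ^ n • y = 0 → inertiaHom A τ • y - y ∈ G)
    (heq : ∀ (τ : inertiaRing A) y, y ∈ G → a' y = 0 → b' y = 0 →
      inertiaHom A τ • y = ((cyclo p (inertiaHom A τ) : ℤ_[p]).toZModPow n).val • y) :
    ∃ GA : AddSubgroup (JZero N),
      (∀ τ : inertiaRing A, ∀ x ∈ jTors N p n, jInertia N A τ x - x ∈ GA) ∧
      ∀ τ : inertiaRing A, ∀ x ∈ jTors N p n, x ∈ GA → x ∈ a.ker → x ∈ b.ker →
        C • (jInertia N A τ x - ((cyclo p (inertiaHom A τ) : ℤ_[p]).toZModPow n).val • x) = 0 := by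
  refine ⟨G.comap φ, fun τ x hx => ?_, fun τ x _ hxG ha hb => hC _ ?_⟩
  · show φ (inertiaHom A τ • x - x) ∈ G
    rw [map_sub, hφ]
    exact hmove τ _ (by rw [← map_nsmul, mem_jTors.1 hx, map_zero])
  · obtain ⟨ha', hb'⟩ := hpush x ha hb
    show φ (inertiaHom A τ • x - _) = 0
    rw [map_sub, map_nsmul, hφ, sub_eq_zero]
    exact heq τ _ hxG ha' hb'

theorem gammaPull_smul (M e p : ℕ) [NeZero M] [NeZero e] [NeZero p] [Fact p.Prime] (g : Γℚ) (x : JZero (M * p)) :
    gammaPull M e p (g • x) = g • gammaPull M e p x :=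
  Eisen.pullPic_smul e (gammaLevel M e p) g x

variable {M : ℕ} [NeZero M] {p : ℕ} [Fact p.Prime]

local instance : NeZero p := ⟨(Fact.out : p.Prime).ne_zero⟩

/-- The field of level `M` as a base through the second degeneracy map. -/
def BetaBase (M p : ℕ) [NeZero M] : Type := let _ := p; ↥(Hecke.MF Qbar M)

instance : Field (BetaBase M p) := inferInstanceAs (Field (Hecke.MF Qbar M))

instance : Algebra Qbar (BetaBase M p) := inferInstanceAs (Algebra Qbar (Hecke.MF Qbar M))

/-- The second degeneracy map on `BetaBase`. -/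
def betaBaseMap (M p : ℕ) [NeZero M] [NeZero p] :
    BetaBase M p →ₐ[Qbar] Hecke.MF Qbar (M * p) :=
  betaMap Qbar M p

variable {e : ℕ} [NeZero e]

local instance instAlgebraFlatKernel : Algebra (Hecke.MF Qbar M) (Hecke.MF Qbar (M * p)) :=
  algebraAlong (alphaMap Qbar M p)
local instance : IsScalarTower Qbar (Hecke.MF Qbar M) (Hecke.MF Qbar (M * p)) :=
  isScalarTower_along (alphaMap Qbar M p)
local instance instAlgebraFlatKernelBeta : Algebra (BetaBase M p) (Hecke.MF Qbar (M * p)) :=
  algebraAlong (betaBaseMap M p)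
local instance : IsScalarTower Qbar (BetaBase M p) (Hecke.MF Qbar (M * p)) :=
  isScalarTower_along (betaBaseMap M p)

local instance (priority := high) instModuleAlphaFKern :
    Module (Hecke.MF Qbar M) (Hecke.MF Qbar (M * p)) :=
  (algebraAlong (alphaMap Qbar M p)).toModule

section Kernel

variable {A : ValuationSubring Qbar} (hA : A.LiesOverPrime p) [CharP (ResidueField A) p]
  [IsAlgClosed (ResidueField A)] {hpM : ¬ p ∣ M}
  [IsFunctionField (ResidueField A) (modularFunctionFieldFullC (ResidueField A) M)]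
  {ι : Type} [Fintype ι]
  (Nd : NodeSystem (redInf A hA M hpM) (redZero A hA M hpM) ι)

/-- The classes with a flat representative. -/
def flatClasses (n : ℕ) : AddSubgroup (JZero (M * p)) :=
  haveI : IsFunctionField Qbar (Hecke.MF Qbar (M * p)) := GoodRed.instIsFunctionFieldBar (M * p)
  { carrier := {y | ∃ Y : Divisor.degZero (K := Qbar) (F := Hecke.MF Qbar (M * p)),
      Pic0.mk Y = y ∧ NodeSystem.IsFlat (D := redInf A hA M hpM) (D' := redZero A hA M hpM) (p ^ n)
        (Y : Divisor Qbar (Hecke.MF Qbar (M * p)))}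
    zero_mem' := ⟨0, rfl, isFlat_zero _⟩
    add_mem' := by
      rintro _ _ ⟨Y, rfl, hY⟩ ⟨Z, rfl, hZ⟩
      exact ⟨Y + Z, rfl, hY.add hZ⟩
    neg_mem' := by
      rintro _ ⟨Y, rfl, hY⟩
      exact ⟨-Y, rfl, hY.neg⟩ }

variable {hA}
variable {σ : Γℚ} (T : NodeSystem.NodeAut Nd)
  (hTs : T.s = arithmeticGalois (modularFunctionFieldFull (M * p)) σ) (hT : T.IsInertial)

include hTs hT

theorem smul_sub_mem_flatClasses {n : ℕ} {y : JZero (M * p)} (hy : p ^ n • y = 0) :
    σ • y - y ∈ flatClasses (hpM := hpM) hA n := by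
  haveI : IsFunctionField Qbar (Hecke.MF Qbar (M * p)) := GoodRed.instIsFunctionFieldBar (M * p)
  obtain ⟨Y, rfl⟩ := Pic0.mk_surjective y
  rw [← Eisen.mk_nsmul] at hy
  have h := (Eisen.mk_eq_mk_iff (E := 0)).1 hy
  rw [ZeroMemClass.coe_zero, sub_zero, AddSubmonoidClass.coe_nsmul] at h
  obtain ⟨g, hg, hdiv⟩ := Eisen.exists_divisorOf_of_principal h
  refine ⟨SemilinearAut.degZeroSMulHom T.s Y - Y, ?_, ?_⟩
  · rw [hTs, galois_smul_pic0_def, SemilinearAut.pic0_smul_mk]
    rfl
  · rw [AddSubgroup.coe_sub, SemilinearAut.coe_degZeroSMulHom]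
    exact T.isFlat_smul_sub hT (Divisor.mem_degZero.1 Y.2) hg hdiv.symm

theorem smul_eq_of_mem_flatClasses {n : ℕ} {y : JZero (M * p)} (hy : y ∈ flatClasses (hpM := hpM) hA n)
    (ha : alphaPush M p y = 0) (hb : betaPush M p y = 0) :
    σ • y = ((cyclo p σ : ℤ_[p]).toZModPow n).val • y := by
  haveI : IsFunctionField Qbar (Hecke.MF Qbar (M * p)) := GoodRed.instIsFunctionFieldBar (M * p)
  haveI : IsFunctionField Qbar (Hecke.MF Qbar M) := GoodRed.instIsFunctionFieldBar M
  haveI : IsFunctionField Qbar (BetaBase M p) := GoodRed.instIsFunctionFieldBar M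
  obtain ⟨Y, rfl, hY⟩ := hy
  have H := Hecke.levelFacts Qbar
  rw [alphaPush, LevelSq.pushPic_mk] at ha
  rw [betaPush, LevelSq.pushPic_mk] at hb
  have ha' := (Eisen.mk_eq_mk_iff (E := 0)).1 ha
  have hb' := (Eisen.mk_eq_mk_iff (E := 0)).1 hb
  rw [ZeroMemClass.coe_zero, sub_zero] at ha' hb'
  have hp : p.Prime := Fact.out
  haveI : Module.Finite (Hecke.MF Qbar M) (Hecke.MF Qbar (M * p)) := finite_alongAlpha M (q := p)
  haveI : Module.Finite (BetaBase M p) (Hecke.MF Qbar (M * p)) := finite_alongBeta M (q := p)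
  haveI : Module.Free (Hecke.MF Qbar M) (Hecke.MF Qbar (M * p)) := Module.Free.of_divisionRing _ _
  obtain ⟨ζ, hζ⟩ := HasEnoughRootsOfUnity.exists_primitiveRoot Qbar p
  have hζA : ζ ∈ A := GalRep.root_mem p hp.ne_zero hζ.pow_eq_one
  set χ := ((cyclo p σ : ℤ_[p]).toZModPow n).val with hχdef
  let DB : RedDatum A (residue A) (BetaBase M p)
      (modularFunctionFieldFullC (ResidueField A) M) := x0Datum A hA M hpM
  have hS' : OneSide DB (redZero A hA M hpM) (redInf A hA M hpM)
      (frobC (K := ResidueField A) p M) p := oneSide_beta hA hpM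
  obtain ⟨h, hh, hdiv⟩ := RT.AtP.smul_sub_nsmul_of_flat (DE := x0Datum A hA M hpM)
    (DE' := DB) T hT.2.2.2
    (Semistable.isRankOne_of_liesOverPrime hA Fact.out)
    ⟨(p : Qbar), Nat.cast_ne_zero.2 hp.ne_zero, hA⟩ (oneSide_alpha hA hpM) hS'
    (exists_frobC_eq_pow p M) (exists_frobC_eq_pow p M) (ζ := ⟨ζ, hζA⟩)
    (IsPrimitiveRoot.coe_submonoidClass_iff.1 hζ) (Nat.cast_ne_zero.2 hp.ne_zero)
    (n := n) (χ := χ)
    (fun μ hμ => by rw [hTs, baseAut_arithmeticGalois]; exact GalRep.cyclo_spec p σ hμ) hY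
    (fun g hdiv => by
      rcases eq_or_ne g 0 with rfl | hg
      · exact ⟨0, 0, by rw [Algebra.norm_zero, map_zero, zero_mul]⟩
      exact exists_norm_eq_of_push (alphaMap Qbar M p) (H.integral 1 (alphaLevel M p))
        (H.finite _ _ 1 (alphaLevel M p)) (H.norm _ _ 1 (alphaLevel M p) _) ha' hg hdiv)
    (fun g hdiv => by
      rcases eq_or_ne g 0 with rfl | hg
      · exact ⟨0, 0, by rw [Algebra.norm_zero, map_zero, zero_mul]⟩
      exact exists_norm_eq_of_push (betaBaseMap M p) (H.integral p (dvd_refl (M * p)))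
        (H.finite _ _ p (dvd_refl (M * p))) (H.norm _ _ p (dvd_refl (M * p)) _) hb' hg hdiv)
  rw [galois_smul_pic0_def, SemilinearAut.pic0_smul_mk, ← Eisen.mk_nsmul, Eisen.mk_eq_mk_iff,
    SemilinearAut.coe_degZeroSMulHom, AddSubmonoidClass.coe_nsmul, ← hTs, hdiv]
  exact Eisen.mem_principal_divisorOf hh

end Kernel

section Descend

variable {A : ValuationSubring Qbar} (hA : A.LiesOverPrime p) [CharP (ResidueField A) p]
  [IsAlgClosed (ResidueField A)] {hpMe : ¬ p ∣ M * e}
  [IsFunctionField (ResidueField A) (modularFunctionFieldFullC (ResidueField A) (M * e))]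
  {ι : Type} [Fintype ι]
  (Nd : NodeSystem (redInf A hA (M * e) hpMe) (redZero A hA (M * e) hpMe) ι)
  (hNd : ∀ σ ∈ A.inertiaSubgroupIn ℚ, ∃ T : NodeSystem.NodeAut Nd,
    T.s = arithmeticGalois (modularFunctionFieldFull (M * e * p)) σ ∧ T.IsInertial)

include Nd hNd

/-- A subgroup absorbing inertia on which inertia is cyclotomic on the old kernel up to the degree
of the pullback. -/
theorem exists_flatKernel (n : ℕ) :
    ∃ GA : AddSubgroup (JZero (M * p)),
      (∀ τ : inertiaRing A, ∀ x ∈ jTors (M * p) p n, jInertia (M * p) A τ x - x ∈ GA) ∧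
      ∀ τ : inertiaRing A, ∀ x ∈ jTors (M * p) p n, x ∈ GA →
        x ∈ (alphaPush M p).ker → x ∈ (betaPush M p).ker →
        finrankAlong Qbar (gammaTop M e p) • (jInertia (M * p) A τ x -
          ((cyclo p (inertiaHom A τ) : ℤ_[p]).toZModPow n).val • x) = 0 :=
  exists_comap_of_equivariant (gammaPull M e p) (gammaPull_smul M e p)
    (flatClasses (hpM := hpMe) hA n) (alphaPush (M * e) p) (betaPush (M * e) p) _ _
    (fun x => nsmul_eq_zero_of_gammaPull)
    (fun _ ha hb => push_gammaPull_eq_zero hpMe ha hb)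
    (fun τ _ hy => (hNd _ (inertiaHom_mem τ)).elim fun T hT =>
      smul_sub_mem_flatClasses Nd T hT.1 hT.2 hy)
    (fun τ _ hy ha hb => (hNd _ (inertiaHom_mem τ)).elim fun T hT =>
      smul_eq_of_mem_flatClasses Nd T hT.1 hT.2 hy ha hb)

end Descend

end FLTAgent.FlatModel
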