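import Fermat.Prelude.Def_CuspForm_HeckeAlgebra
import Mathlib.NumberTheory.ModularForms.Bounds

/-!
# `(ℓ + 1)² - T ℓ²` is injective on cusp forms of weight two

The function `τ ↦ ‖f τ‖ im τ` attains its maximum; an eigenvalue of absolute value `ℓ + 1` would
make it attain the maximum at `ℓ ^ r τ` for every `r`, where it tends to zero.
-/

set_option autoImplicit false

noncomputable section

namespace FLTAgent.FlatModel

open UpperHalfPlane hiding I
open Filter Topology CongruenceSubgroup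
open scoped MatrixGroups Modular ModularForm

/-- An invariant continuous nonnegative function vanishing at every cusp attains its maximum. -/
theorem exists_forall_le_of_zero_at_cusps {h : ℍ → ℝ} (hc : Continuous h) (h0 : ∀ τ, 0 ≤ h τ)
    {Γ : Subgroup SL(2, ℤ)} [Γ.FiniteIndex] (hinv : ∀ g ∈ Γ, ∀ τ, h (g • τ) = h τ)
    (hzero : ∀ g : SL(2, ℤ), Tendsto (fun τ => h (g • τ)) atImInfty (𝓝 0)) :
    ∃ τ₀, ∀ τ, h τ ≤ h τ₀ := by
  by_cases hall : ∀ τ, h τ = 0
  · exact ⟨UpperHalfPlane.I, fun τ => by rw [hall τ, hall UpperHalfPlane.I]⟩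
  obtain ⟨τ₁, hτ₁⟩ := not_forall.1 hall
  have hpos : 0 < h τ₁ := lt_of_le_of_ne (h0 τ₁) (Ne.symm hτ₁)
  have : Fintype (SL(2, ℤ) ⧸ Γ) := Subgroup.fintypeQuotientOfFiniteIndex
  have hev : ∀ q : SL(2, ℤ) ⧸ Γ, ∃ Y : ℝ, ∀ z : ℍ, Y ≤ z.im → h ((q.out)⁻¹ • z) < h τ₁ := fun q => by
    obtain ⟨Y, hY⟩ := UpperHalfPlane.atImInfty_mem _ |>.1
      ((hzero (q.out)⁻¹).eventually (gt_mem_nhds hpos))
    exact ⟨Y, fun z hz => hY z hz⟩
  choose Y hY using hev
  set y := ∑ q, |Y q| with hy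
  have hYy : ∀ q, Y q ≤ y := fun q =>
    (le_abs_self _).trans (Finset.single_le_sum (fun i _ => abs_nonneg (Y i)) (Finset.mem_univ q))
  have hred : ∀ τ, h τ₁ ≤ h τ → ∃ (q : SL(2, ℤ) ⧸ Γ) (z : ℍ),
      z ∈ ModularGroup.truncatedFundamentalDomain y ∧ h ((q.out)⁻¹ • z) = h τ := fun τ hτ => by
    obtain ⟨γ, hγ⟩ := ModularGroup.exists_smul_mem_fd τ
    set q : SL(2, ℤ) ⧸ Γ := QuotientGroup.mk γ with hq
    have hmem : (q.out)⁻¹ * γ ∈ Γ := QuotientGroup.eq.1 q.out_eq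
    have he : h ((q.out)⁻¹ • γ • τ) = h τ := by
      rw [← mul_smul]
      exact hinv _ hmem τ
    refine ⟨q, γ • τ, ⟨hγ, ?_⟩, he⟩
    by_contra hlt
    exact absurd (hY q (γ • τ) ((hYy q).trans (not_le.1 hlt).le)) (by rw [he]; exact not_lt.2 hτ)
  have hK := ModularGroup.isCompact_truncatedFundamentalDomain y
  obtain ⟨q₁, z₁, hz₁, -⟩ := hred τ₁ le_rfl
  have hmax : ∀ q : SL(2, ℤ) ⧸ Γ, ∃ z ∈ ModularGroup.truncatedFundamentalDomain y,
      ∀ w ∈ ModularGroup.truncatedFundamentalDomain y,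
        h ((q.out)⁻¹ • w) ≤ h ((q.out)⁻¹ • z) := fun q =>
    let ⟨z, hz, hz'⟩ := hK.exists_isMaxOn ⟨z₁, hz₁⟩ (f := fun w => h ((q.out)⁻¹ • w))
      (hc.comp (continuous_const_smul (((q.out)⁻¹ : SL(2, ℤ)) : GL (Fin 2) ℝ))).continuousOn
    ⟨z, hz, fun w hw => hz' hw⟩
  choose zq hzq hmaxq using hmax
  have : Nonempty (SL(2, ℤ) ⧸ Γ) := ⟨q₁⟩
  obtain ⟨qm, hqm⟩ := Finite.exists_max fun q => h ((q.out)⁻¹ • zq q)
  refine ⟨(qm.out)⁻¹ • zq qm, fun τ => ?_⟩
  rcases le_total (h τ₁) (h τ) with hτ | hτ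
  · obtain ⟨q, z, hz, he⟩ := hred τ hτ
    exact he ▸ (hmaxq q z hz).trans (hqm q)
  · obtain ⟨q, z, hz, he⟩ := hred τ₁ le_rfl
    exact hτ.trans (he ▸ (hmaxq q z hz).trans (hqm q))

set_option linter.unusedSectionVars false

variable {M : ℕ} [NeZero M]

/-- The invariant size of a form of weight two. -/
def formSize (f : CuspForm (Gamma0 M) 2) (τ : ℍ) : ℝ := ‖f τ‖ * τ.im

theorem formSize_sq (f : CuspForm (Gamma0 M) 2) (τ : ℍ) :
    formSize f τ ^ 2 = ‖petersson 2 f f τ‖ := by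
  rw [petersson, norm_mul, norm_mul, Complex.norm_conj, norm_zpow, Complex.norm_real,
    Real.norm_of_nonneg τ.im_pos.le, formSize]
  simp [zpow_ofNat]
  ring

theorem formSize_nonneg (f : CuspForm (Gamma0 M) 2) (τ : ℍ) : 0 ≤ formSize f τ :=
  mul_nonneg (norm_nonneg _) τ.im_pos.le

theorem exists_max_formSize (f : CuspForm (Gamma0 M) 2) :
    ∃ τ₀, ∀ τ, formSize f τ ≤ formSize f τ₀ := by
  have hinv : ∀ g ∈ Gamma0 M, ∀ τ : ℍ, ‖petersson 2 f f (g • τ)‖ = ‖petersson 2 f f τ‖ := fun g hg τ =>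
    SlashInvariantFormClass.norm_petersson_smul (k := 2)
      (Γ := ((Gamma0 M : Subgroup SL(2, ℤ)) : Subgroup (GL (Fin 2) ℝ)))
      (Subgroup.mem_map_of_mem _ hg)
  have hzero : ∀ g : SL(2, ℤ),
      Tendsto (fun τ => ‖petersson 2 f f (g • τ)‖) atImInfty (𝓝 0) := fun g => by
    rw [← tendsto_zero_iff_norm_tendsto_zero]
    simp_rw [← UpperHalfPlane.petersson_slash_SL]
    open ConjAct Pointwise in
    have : ((toConjAct (g : GL (Fin 2) ℝ)⁻¹) • ((Gamma0 M : Subgroup SL(2, ℤ)) :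
        Subgroup (GL (Fin 2) ℝ))).IsArithmetic := by
      simpa [(show Rat.castHom ℝ = algebraMap ℚ ℝ by rfl), map_inv,
        Matrix.SpecialLinearGroup.map_mapGL]
        using! Subgroup.IsArithmetic.conj ((Gamma0 M : Subgroup SL(2, ℤ)) :
          Subgroup (GL (Fin 2) ℝ)) (Matrix.SpecialLinearGroup.mapGL ℚ g)⁻¹
    exact (CuspFormClass.zero_at_infty (CuspForm.translate f g)).petersson_isZeroAtImInfty_left 2 _
      (CuspForm.translate f g)
  obtain ⟨τ₀, h₀⟩ := exists_forall_le_of_zero_at_cusps (h := fun τ => ‖petersson 2 f f τ‖)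
    (Γ := Gamma0 M) (by fun_prop) (fun τ => norm_nonneg _) hinv hzero
  refine ⟨τ₀, fun τ => (sq_le_sq₀ (formSize_nonneg f τ) (formSize_nonneg f τ₀)).1 ?_⟩
  simpa only [formSize_sq] using h₀ τ

theorem im_heckeMatrix_smul {ℓ : ℕ} (hℓ : ℓ ≠ 0) (j : ℕ) (τ : ℍ) :
    (ModularForm.heckeMatrix ℓ j • τ).im = τ.im / ℓ := by
  have h := congrArg Complex.im (ModularForm.coe_heckeMatrix_smul hℓ j τ)
  rw [Complex.div_natCast_im, Complex.add_im, Complex.natCast_im, add_zero] at h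
  exact h

theorem im_heckeDiagMatrix_smul {ℓ : ℕ} (hℓ : ℓ ≠ 0) (τ : ℍ) :
    (ModularForm.heckeDiagMatrix ℓ • τ).im = ℓ * τ.im := by
  have h := congrArg Complex.im (ModularForm.coe_heckeDiagMatrix_smul hℓ τ)
  rw [Complex.mul_im, Complex.natCast_re, Complex.natCast_im, zero_mul, add_zero] at h
  exact h

/-- A form with an eigenvalue of absolute value `ℓ + 1` under `T ℓ` vanishes. -/
theorem eq_zero_of_heckeT_eq {ℓ : ℕ} (hℓ : ℓ.Prime) (hℓM : ¬ ℓ ∣ M) {f : CuspForm (Gamma0 M) 2}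
    {c : ℂ} (hc : ‖c‖ = (ℓ : ℝ) + 1) (h : CuspForm.heckeTLin 2 hℓ hℓM f = c • f) : f = 0 := by
  obtain ⟨τ₀, hmax⟩ := exists_max_formSize f
  have hl0 : (ℓ : ℝ) ≠ 0 := Nat.cast_ne_zero.2 hℓ.ne_zero
  have hlpos : (0 : ℝ) < ℓ := Nat.cast_pos.2 hℓ.pos
  set C := formSize f τ₀
  have hstep : ∀ τ, formSize f τ = C → formSize f (ModularForm.heckeDiagMatrix ℓ • τ) = C := by
    intro τ hτ
    refine le_antisymm (hmax _) ?_
    have e : c * f τ = (ℓ : ℂ)⁻¹ *
        ∑ j ∈ Finset.range ℓ, f (ModularForm.heckeMatrix ℓ j • τ) +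
          (ℓ : ℂ) * f (ModularForm.heckeDiagMatrix ℓ • τ) := by
      have h' := DFunLike.congr_fun h τ
      rw [CuspForm.heckeTLin_apply_apply, ModularForm.heckeT_apply 2 hℓ.ne_zero] at h'
      norm_num at h'
      exact h'.symm
    have hle : ((ℓ : ℝ) + 1) * C ≤
        ∑ j ∈ Finset.range ℓ, formSize f (ModularForm.heckeMatrix ℓ j • τ) +
          formSize f (ModularForm.heckeDiagMatrix ℓ • τ) := by
      have h1 := congrArg (fun z => ‖z‖ * τ.im) e
      simp only [norm_mul, hc] at h1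
      rw [← hτ, formSize, ← mul_assoc, h1]
      refine (mul_le_mul_of_nonneg_right (norm_add_le _ _) τ.im_pos.le).trans (le_of_le_of_eq
        (mul_le_mul_of_nonneg_right (add_le_add_left
          (le_of_eq_of_le (norm_mul _ _) (mul_le_mul_of_nonneg_left (norm_sum_le _ _)
            (norm_nonneg _))) _) τ.im_pos.le) ?_)
      rw [norm_inv, norm_mul, Complex.norm_natCast, add_mul, Finset.mul_sum, Finset.sum_mul]
      simp only [formSize, im_heckeMatrix_smul hℓ.ne_zero, im_heckeDiagMatrix_smul hℓ.ne_zero]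
      congr 1
      · exact Finset.sum_congr rfl fun j _ => by ring
      · ring
    have hsum : ∑ j ∈ Finset.range ℓ, formSize f (ModularForm.heckeMatrix ℓ j • τ) ≤ ℓ * C := by
      refine (Finset.sum_le_card_nsmul _ _ C fun j _ => hmax _).trans ?_
      rw [Finset.card_range, nsmul_eq_mul]
    linarith
  let τr : ℕ → ℍ := fun r => (fun τ => ModularForm.heckeDiagMatrix ℓ • τ)^[r] τ₀
  have hr : ∀ r, formSize f (τr r) = C ∧ (τr r).im = (ℓ : ℝ) ^ r * τ₀.im := by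
    intro r
    induction r with
    | zero => exact ⟨rfl, by simp [τr]⟩
    | succ r ih =>
      have e : τr (r + 1) = ModularForm.heckeDiagMatrix ℓ • τr r :=
        Function.iterate_succ_apply' _ _ _
      exact ⟨e ▸ hstep _ ih.1, by rw [e, im_heckeDiagMatrix_smul hℓ.ne_zero, ih.2]; ring⟩
  have hz : Tendsto (fun r => formSize f (τr r)) atTop (𝓝 0) := by
    have ht : Tendsto τr atTop atImInfty := by
      rw [atImInfty, tendsto_comap_iff]
      simp only [Function.comp_def, (hr _).2]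
      exact (tendsto_pow_atTop_atTop_of_one_lt (by exact_mod_cast hℓ.one_lt)).atTop_mul_const
        τ₀.im_pos
    have h1 : Tendsto (fun τ => ‖petersson 2 f f τ‖) atImInfty (𝓝 0) :=
      tendsto_zero_iff_norm_tendsto_zero.1
        ((CuspFormClass.zero_at_infty f).petersson_isZeroAtImInfty_left 2 _ f)
    have h2 := (h1.comp ht).sqrt
    rw [Real.sqrt_zero] at h2
    refine h2.congr fun r => ?_
    rw [Function.comp_apply, ← formSize_sq, Real.sqrt_sq (formSize_nonneg f _)]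
  simp only [(hr _).1] at hz
  have hC : C = 0 := tendsto_nhds_unique tendsto_const_nhds hz
  refine DFunLike.ext _ _ fun τ => ?_
  have h0 := le_antisymm ((hmax τ).trans hC.le) (formSize_nonneg f τ)
  rw [formSize, mul_eq_zero, norm_eq_zero] at h0
  exact h0.resolve_right τ.im_ne_zero

/-- `(ℓ + 1)² - T ℓ²` is injective on the cusp forms of weight two and level prime to `ℓ`. -/
theorem eq_zero_of_sq_sub_heckeT_sq {ℓ : ℕ} (hℓ : ℓ.Prime) (hℓM : ¬ ℓ ∣ M)
    {f : CuspForm (Gamma0 M) 2}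
    (h : ((ℓ : ℂ) + 1) ^ 2 • f = CuspForm.heckeTLin 2 hℓ hℓM (CuspForm.heckeTLin 2 hℓ hℓM f)) :
    f = 0 := by
  set T := CuspForm.heckeTLin 2 hℓ hℓM
  have hn : ‖(ℓ : ℂ) + 1‖ = (ℓ : ℝ) + 1 := by
    rw [← Nat.cast_one, ← Nat.cast_add, Complex.norm_natCast]; push_cast; rfl
  have hg : T f + ((ℓ : ℂ) + 1) • f = 0 := by
    refine eq_zero_of_heckeT_eq hℓ hℓM (c := (ℓ : ℂ) + 1) hn ?_
    rw [map_add, map_smul, ← h, smul_add, smul_smul, sq, add_comm]
  refine eq_zero_of_heckeT_eq hℓ hℓM (c := -((ℓ : ℂ) + 1)) (by rw [norm_neg, hn]) ?_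
  rw [eq_neg_of_add_eq_zero_left hg]
  exact (_root_.neg_smul _ _).symm

end FLTAgent.FlatModel
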