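import Fermat.Agent.FlatModel.HeckeKernel
import Fermat.Agent.FlatModel.X0AllPrimes
import Fermat.Agent.RT.Cond.FlatCond
import Fermat.Agent.GalRep.Dense
import Fermat.Agent.GalRep.Inputs

/-!
# Hecke Galois representations of level prime to `p` are flat at `p`

Every level of the representation is a quotient of a power of the group generated by Galois inside
the maps of `J₀(N)[p ^ n]` to itself, which is a submodule of a power of `J₀(N)[p ^ n]`.
-/

set_option autoImplicit false
set_option linter.unusedSectionVars false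
set_option synthInstance.maxHeartbeats 100000

noncomputable section

namespace FLTAgent.FlatModel

open GalRep IsLocalRing AlgebraicCurve ModularCurve
open FLTAgent.RTCond FLTAgent.Frobenius

local notation "Qbar" => AlgebraicClosure ℚ

variable {p : ℕ} [Fact p.Prime] {N : ℕ} [NeZero N] {S : Finset ℕ}
  {𝒪 : Type} [CommRing 𝒪] [IsDomain 𝒪] [IsDiscreteValuationRing 𝒪]
  [IsAdicComplete (IsLocalRing.maximalIdeal 𝒪) 𝒪]
  {θ : CuspForm.heckeAlgebra N 2 (↑S : Set ℕ) →+* IsLocalRing.ResidueField 𝒪}
  {T : Type} [CommRing T] [IsLocalRing T] [IsNoetherianRing T]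
  [IsAdicComplete (IsLocalRing.maximalIdeal T) T] [Algebra 𝒪 T] [IsLocalHom (algebraMap 𝒪 T)]
  [Module.Finite 𝒪 T] [Module.Free 𝒪 T]

/-- Combinations of Galois elements killing the torsion kill the reduced matrices. -/
theorem sum_redP_eq_zero_of_torsion (M : TorsionModel N p) (n : ℕ) {ι : Type} (s : Finset ι)
    (a : ι → ℤ) (g : ι → Γℚ)
    (h : ∀ x : JZero N, p ^ n • x = 0 → ∑ i ∈ s, a i • g i • x = 0) :
    ∑ i ∈ s, a i • redP p n (M.galMat (g i)) = 0 := by
  classical
  have h1 := M.map_eq_of_projv_eq n (X := ∑ i ∈ s, a i • M.levelMat n (g i)) (Y := 0) fun v => by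
    rw [Matrix.zero_mulVec, map_zero, Matrix.sum_mulVec, map_sum]
    refine (Finset.sum_congr rfl fun i _ => ?_).trans (h _ (M.pow_smul_projv n v))
    rw [Matrix.smul_mulVec, map_zsmul, ← M.smul_projv]
  simp only [Matrix.map_zero _ Int.cast_zero] at h1
  refine Eq.trans ?_ h1
  show _ = (Int.castRingHom (ZMod (p ^ n))).mapMatrix _
  rw [map_sum]
  refine Finset.sum_congr rfl fun i _ => ?_
  rw [map_zsmul, M.redP_galMat]
  rfl

theorem torsion_smul_apply {n : ℕ} (σ : Γℚ) (x : ↥(Submodule.torsionBy ℤ (JZero N) (n : ℤ))) :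
    letI := torsionByAction N n
    ((σ • x : ↥(Submodule.torsionBy ℤ (JZero N) (n : ℤ))) : JZero N) = σ • (x : JZero N) :=
  rfl

/-- A Hecke representation is flat at a prime not dividing the level. -/
theorem isFlatAt_of_galoisFacts (M : TorsionModel N p) (hG : GaloisFacts N p) (hpN : ¬ p ∣ N)
    (hS : levelPrimes N ⊆ (↑S : Set ℕ)) [Finite (ResidueField 𝒪)]
    (hp𝒪 : (p : 𝒪) ∈ maximalIdeal 𝒪)
    (H : CuspForm.HeckeGaloisRepDatum N (↑S : Set ℕ) 𝒪 θ T) :
    H.ρ.IsFlatAt p := by
  classical
  have hfin : Finite (ResidueField T) := Finite.of_surjective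
    (fun r : ResidueField 𝒪 => ResidueField.map (algebraMap 𝒪 T) r) fun z => by
      obtain ⟨r, rfl⟩ := H.residue_surjective z
      exact ⟨residue 𝒪 r, by simp [ResidueField.map_residue]⟩
  refine (RTCond.isFlatAt_iff H.ρ).mpr ⟨hfin, fun I hI => ?_⟩
  have : IsArtinianRing (T ⧸ I) := inferInstance
  obtain ⟨K, hK⟩ := IsLocalRing.exists_maximalIdeal_pow_le_of_isArtinianRing_quotient I
  obtain ⟨c, hc⟩ := entry_sum_mem (M.matModel hG hS) frobeniusDense H
    (natCast_mem_maximalIdeal_of_map hp𝒪)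
  set n := K + c
  have hn : p ^ n ≠ 0 := pow_ne_zero n (Fact.out : p.Prime).ne_zero
  let W := ↥(Submodule.torsionBy ℤ (JZero N) ((p ^ n : ℕ) : ℤ))
  letI : DistribMulAction Γℚ W := torsionByAction N (p ^ n)
  have : Finite W := finite_torsionBy N (p ^ n) hn
  have hW : IsLevelled W := isLevelled_torsionBy N (p ^ n) hn
  -- the model of the maps from `W` to `W`
  have hpi : Nonempty (FunctionModel p (W → W)) := Flat.nonempty_pi W
    (nonempty_functionModel_jZero hpN (genusEqAt_of_not_dvd hpN) hW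
      (Submodule.subtype _).toAddMonoidHom (fun _ _ => rfl) Subtype.val_injective)
  let α : (Γℚ →₀ ℤ) →+ (W → W) :=
    Finsupp.liftAddHom fun g => (smulAddHom ℤ (W → W)).flip (fun w => g • w)
  have hα : ∀ g z, α (Finsupp.single g z) = z • fun w : W => g • w := fun g z => by simp [α]
  let R := α.range
  have hRstable : ∀ σ : Γℚ, ∀ f ∈ R, σ • f ∈ R := by
    rintro σ _ ⟨a, rfl⟩
    refine ⟨a.mapDomain (σ * ·), ?_⟩
    induction a using Finsupp.induction_linear with
    | zero => simp
    | add u v hu hv => rw [Finsupp.mapDomain_add, map_add, map_add, hu, hv, smul_add]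
    | single g z =>
      rw [Finsupp.mapDomain_single, hα, hα]
      funext w
      show z • (σ * g) • w = σ • (z • g • w)
      rw [mul_smul]
      exact (map_zsmul (DistribSMul.toAddMonoidHom W σ) z (g • w)).symm
  letI : DistribMulAction Γℚ R :=
    { smul := fun σ f => ⟨σ • f.1, hRstable σ f.1 f.2⟩
      one_smul := fun f => Subtype.ext (one_smul _ f.1)
      mul_smul := fun σ τ f => Subtype.ext (mul_smul σ τ f.1)
      smul_zero := fun σ => Subtype.ext (smul_zero σ)
      smul_add := fun σ f f' => Subtype.ext (smul_add σ f.1 f'.1) }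
  have hR : Nonempty (FunctionModel p R) :=
    Flat.nonempty_sub R.subtype (fun _ _ => rfl) Subtype.val_injective hpi
  -- the level as an image
  let ρ := H.ρ
  let e := repBasis ρ 0
  let β : (Γℚ →₀ ℤ) →+ Lvl ρ I :=
    Finsupp.liftAddHom fun g => (smulAddHom ℤ (Lvl ρ I)).flip (Lvl.mk ρ I (ρ.ρ g e))
  have hβ : ∀ g z, β (Finsupp.single g z) = z • Lvl.mk ρ I (ρ.ρ g e) := fun g z => by simp [β]
  have hker : α.rangeRestrict.ker ≤ β.ker := by
    intro a ha
    rw [AddMonoidHom.mem_ker] at ha ⊢
    have ha' : α a = 0 := congrArg Subtype.val ha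
    have hker0 : ∀ x : JZero N, p ^ n • x = 0 → ∑ g ∈ a.support, a g • g • x = 0 := by
      intro x hx
      have hx' : x ∈ Submodule.torsionBy ℤ (JZero N) ((p ^ n : ℕ) : ℤ) := by
        rw [Submodule.mem_torsionBy_iff, natCast_zsmul]; exact hx
      have h := congrArg (Submodule.subtype _).toAddMonoidHom (congrFun ha' ⟨x, hx'⟩)
      simp only [α, Finsupp.liftAddHom_apply, Finsupp.sum, AddMonoidHom.flip_apply,
        smulAddHom_apply, Finset.sum_apply, Pi.smul_apply, Pi.zero_apply, map_sum, map_zsmul,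
        map_zero] at h
      exact h
    have hX := hc n a.support a id (sum_redP_eq_zero_of_torsion M n a.support a id hker0)
    have hb : β a = Lvl.mk ρ I (∑ g ∈ a.support, a g • ρ.ρ g e) := by
      rw [map_sum]
      simp only [β, Finsupp.liftAddHom_apply, Finsupp.sum, AddMonoidHom.flip_apply,
        smulAddHom_apply, map_zsmul]
    rw [hb, Lvl.mk_eq_zero_iff, ← (repBasis ρ).sum_repr (∑ g ∈ a.support, a g • ρ.ρ g e)]
    refine Submodule.sum_mem _ fun i _ => Submodule.smul_mem_smul ?_ Submodule.mem_top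
    refine hK (Ideal.pow_le_pow_right (show K ≤ n - c by omega) ?_)
    convert hX i 0 using 1
    simp [Matrix.sum_apply, Finsupp.coe_finsetSum, Finsupp.smul_apply, Matrix.smul_apply, repMat,
      LinearMap.toMatrixAlgEquiv_apply, e, ρ, -zsmul_eq_mul]
  let φ : R →+ Lvl ρ I :=
    AddMonoidHom.liftOfSurjective α.rangeRestrict α.rangeRestrict_surjective ⟨β, hker⟩
  have hφ : ∀ a, φ (α.rangeRestrict a) = β a := fun a =>
    AddMonoidHom.liftOfRightInverse_comp_apply _ _ _ _ a
  have hφeq : Flat.IsEquivariantHom φ := by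
    intro σ f
    obtain ⟨a, rfl⟩ := α.rangeRestrict_surjective f
    induction a using Finsupp.induction_linear with
    | zero => simp
    | add u v hu hv => rw [map_add, smul_add, map_add, hu, hv, map_add, smul_add]
    | single g z =>
      have e1 : σ • α.rangeRestrict (Finsupp.single g z) =
          α.rangeRestrict (Finsupp.single (σ * g) z) := Subtype.ext (by
        show σ • α (Finsupp.single g z) = α (Finsupp.single (σ * g) z)
        rw [hα, hα]
        funext w
        show σ • (z • g • w) = z • (σ * g) • w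
        rw [mul_smul]
        exact map_zsmul (DistribSMul.toAddMonoidHom W σ) z (g • w))
      rw [e1, hφ, hφ, hβ, hβ, map_mul, Module.End.mul_apply, ← Lvl.smul_mk]
      exact (map_zsmul (DistribSMul.toAddMonoidHom (Lvl ρ I) σ) z (Lvl.mk ρ I (ρ.ρ g e))).symm
  let _ := Fintype.ofFinite (T ⧸ I)
  choose lift hlift using fun b : T ⧸ I => Ideal.Quotient.mk_surjective b
  let Ψ : ((T ⧸ I) → R) →+ Lvl ρ I :=
    { toFun := fun f => ∑ b, lift b • φ (f b)
      map_zero' := by simp
      map_add' := fun f f' => by simp [Finset.sum_add_distrib] }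
  have hΨ : Flat.IsEquivariantHom Ψ := fun σ f => by
    show ∑ b, lift b • φ (σ • f b) = σ • ∑ b, lift b • φ (f b)
    rw [Finset.smul_sum]
    exact Finset.sum_congr rfl fun b _ => by rw [hφeq, Lvl.smul_comm']
  have hkill : ∀ r ∈ I, ∀ x : Lvl ρ I, r • x = 0 := fun r hr x => by
    obtain ⟨v, rfl⟩ := Lvl.mk_surjective ρ I x
    rw [← map_smul, Lvl.mk_eq_zero_iff]
    exact Submodule.smul_mem_smul hr Submodule.mem_top
  have hgen : ∀ (t : T) (g : Γℚ), t • Lvl.mk ρ I (ρ.ρ g e) ∈ Ψ.range := by
    intro t g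
    refine ⟨Pi.single (Ideal.Quotient.mk I t) (α.rangeRestrict (Finsupp.single g 1)), ?_⟩
    show ∑ b, lift b • φ _ = _
    rw [Finset.sum_eq_single (Ideal.Quotient.mk I t)
      (fun b _ hb => by rw [Pi.single_eq_of_ne hb, map_zero, smul_zero]) (by simp),
      Pi.single_eq_same, hφ, hβ, one_smul, ← sub_eq_zero, ← sub_smul]
    exact hkill _ (by rw [← Ideal.Quotient.eq, hlift]) _
  have hspan : ∀ Y : Matrix (Fin 2) (Fin 2) T,
      ∀ t : T, t • Lvl.mk ρ I (Matrix.toLin (repBasis ρ) (repBasis ρ) Y e) ∈ Ψ.range := by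
    intro Y
    induction (span_range_repMat ρ H.residual_absIrr).ge (Submodule.mem_top : Y ∈ ⊤) using
      Submodule.span_induction with
    | mem Y hY =>
      obtain ⟨g, rfl⟩ := hY
      intro t
      rw [show Matrix.toLin (repBasis ρ) (repBasis ρ) (repMat ρ g) = ρ.ρ g from
        Matrix.toLin_toMatrix _ _ _]
      exact hgen t g
    | zero => intro t; simp
    | add Y Y' _ _ u u' =>
      intro t
      rw [map_add, LinearMap.add_apply, map_add, smul_add]
      exact add_mem (u t) (u' t)
    | smul r Y _ u =>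
      intro t
      rw [map_smul, LinearMap.smul_apply, map_smul, smul_smul]
      exact u _
  have hΨsurj : Function.Surjective Ψ := fun x => by
    obtain ⟨v, rfl⟩ := Lvl.mk_surjective ρ I x
    have h := hspan (Matrix.of fun i j => if j = 0 then (repBasis ρ).repr v i else 0) 1
    rw [one_smul, Matrix.toLin_self] at h
    simpa [(repBasis ρ).sum_repr] using h
  have hlev : IsLevelled ((T ⧸ I) → R) := by
    obtain ⟨L, hL, hfix⟩ := hW
    exact ⟨L, hL, fun σ hσ f => funext fun b => Subtype.ext (funext fun w => hfix σ hσ _)⟩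
  exact Flat.nonempty_quot hlev Ψ hΨ hΨsurj (Flat.nonempty_pi _ hR)

/-- Flatness from the good reduction specialisations. -/
theorem isFlatAt_of_specializations (hspec : SpecializationsExist) (hpN : ¬ p ∣ N)
    (hS : ∀ q : ℕ, q.Prime → q ∣ N → q ∈ S) [Finite (ResidueField 𝒪)]
    (hp𝒪 : (p : 𝒪) ∈ maximalIdeal 𝒪)
    (H : CuspForm.HeckeGaloisRepDatum N (↑S : Set ℕ) 𝒪 θ T) : H.ρ.IsFlatAt p :=
  haveI : NeZero p := ⟨(Fact.out : p.Prime).ne_zero⟩
  isFlatAt_of_galoisFacts (JTors.torsionModel N p) (galoisFacts hspec N p) hpN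
    (fun q hq => hS q hq.1 hq.2) hp𝒪 H

end FLTAgent.FlatModel
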