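import Fermat.Agent.FlatModel.DetCyclo
import Fermat.Agent.GalRep.MatModel
import Mathlib.LinearAlgebra.Matrix.Trace

/-!
# Integral group ring elements killing a level of the Tate module kill a level of a Hecke
representation

If `∑ aᵢ gᵢ` is zero on the `p ^ n`-level of a matrix model, then its image in a residually
absolutely irreducible Hecke representation is zero modulo `m ^ (n - c)`.  The Eichler-Shimura
relation shows that `∑ aᵢ χ(gᵢ) gᵢ⁻¹` acts as a Hecke operator which is killed, up to the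
saturation constant, by every `tr(hkw) - tr(khw)`, one of which is a unit.
-/

set_option autoImplicit false
set_option linter.unusedSectionVars false

namespace FLTAgent.FlatModel

open Matrix GalRep IsLocalRing

local notation "Γℚ" => AlgebraicClosure ℚ ≃ₐ[ℚ] AlgebraicClosure ℚ

section

variable {A : Type} [CommRing A] [IsLocalRing A] (ρ : GaloisRepAdic A)

/-- Matrices whose trace against the image lies in an ideal have entries in it. -/
theorem entry_mem_of_trace_mul_mem (h : ρ.residual.IsAbsolutelyIrreducible) (I : Ideal A)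
    (E : Matrix (Fin 2) (Fin 2) A) (hE : ∀ g, (E * repMat ρ g).trace ∈ I) (i j : Fin 2) :
    E i j ∈ I := by
  have hz : ∀ Y, (E * Y).trace ∈ I := by
    intro Y
    induction (span_range_repMat ρ h).ge (Submodule.mem_top : Y ∈ ⊤) using
      Submodule.span_induction with
    | mem Y hY => obtain ⟨g, rfl⟩ := hY; exact hE g
    | zero => simp
    | add Y Y' _ _ e e' => rw [mul_add, Matrix.trace_add]; exact add_mem e e'
    | smul c Y _ e => rw [mul_smul_comm, Matrix.trace_smul]; exact I.mul_mem_left _ e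
  have := hz (Matrix.single j i 1)
  fin_cases i <;> fin_cases j <;>
    simpa [Matrix.trace, Matrix.mul_apply, Matrix.single_apply, Fin.sum_univ_two] using this

/-- The traces see that the residual image is not commutative. -/
theorem exists_isUnit_trace_sub (h : ρ.residual.IsAbsolutelyIrreducible) :
    ∃ x y w : Γℚ, IsUnit (ρ.trace (x * y * w) - ρ.trace (y * x * w)) := by
  by_contra hall
  push Not at hall
  have hgen : ∀ x y : Γℚ, ∀ i j,
      (repMat ρ x * repMat ρ y - repMat ρ y * repMat ρ x) i j ∈ maximalIdeal A := fun x y =>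
    entry_mem_of_trace_mul_mem ρ h _ _ fun w => by
      rw [sub_mul, Matrix.trace_sub, ← map_mul, ← map_mul, ← map_mul, ← map_mul, trace_repMat,
        trace_repMat]
      exact (IsLocalRing.mem_maximalIdeal _).mpr (hall x y w)
  let φ := (residue A).mapMatrix (m := Fin 2)
  have hc : ∀ X Y : Matrix (Fin 2) (Fin 2) A, φ X * φ Y = φ Y * φ X := by
    intro X Y
    induction (span_range_repMat ρ h).ge (Submodule.mem_top : X ∈ ⊤) using
      Submodule.span_induction with
    | mem X hX =>
      obtain ⟨x, rfl⟩ := hX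
      induction (span_range_repMat ρ h).ge (Submodule.mem_top : Y ∈ ⊤) using
        Submodule.span_induction with
      | mem Y hY =>
        obtain ⟨y, rfl⟩ := hY
        rw [← sub_eq_zero, ← map_mul φ, ← map_mul φ, ← map_sub φ]
        ext i j
        exact (residue_eq_zero_iff _).mpr (hgen x y i j)
      | zero => simp
      | add Y Y' _ _ e e' => rw [map_add, mul_add, add_mul, e, e']
      | smul c Y _ e =>
        rw [show φ (c • Y) = residue A c • φ Y from Matrix.ext fun i j => by simp [φ],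
          mul_smul_comm, smul_mul_assoc, e]
    | zero => simp
    | add X X' _ _ e e' => rw [map_add, mul_add, add_mul, e, e']
    | smul c X _ e =>
      rw [show φ (c • X) = residue A c • φ X from Matrix.ext fun i j => by simp [φ],
        mul_smul_comm, smul_mul_assoc, e]
  have := congrFun (congrFun (hc (Matrix.single 0 1 1) (Matrix.single 1 0 1)) 0) 0
  simp [φ, Matrix.mul_apply, Fin.sum_univ_two] at this

end

variable {p : ℕ} [Fact p.Prime] {N : ℕ} [NeZero N] {S : Finset ℕ}
  {𝒪 : Type} [CommRing 𝒪] [IsDomain 𝒪] [IsDiscreteValuationRing 𝒪]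
  [IsAdicComplete (IsLocalRing.maximalIdeal 𝒪) 𝒪]
  {θ : CuspForm.heckeAlgebra N 2 (↑S : Set ℕ) →+* IsLocalRing.ResidueField 𝒪}
  {T : Type} [CommRing T] [IsLocalRing T] [IsNoetherianRing T]
  [IsAdicComplete (IsLocalRing.maximalIdeal T) T] [Algebra 𝒪 T] [IsLocalHom (algebraMap 𝒪 T)]
  [Module.Finite 𝒪 T] [Module.Free 𝒪 T]

/-- Combinations killing a level have small trace. -/
theorem trace_sum_mem (M : MatModel N p ↑S) (hd : FrobeniusDense)
    (H : CuspForm.HeckeGaloisRepDatum N (↑S : Set ℕ) 𝒪 θ T)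
    (hp : (p : T) ∈ maximalIdeal T) :
    ∃ c : ℕ, ∀ (n : ℕ) {ι : Type} (s : Finset ι) (a : ι → ℤ) (g : ι → Γℚ),
      ∑ i ∈ s, a i • redP p n (M.G (g i)) = 0 →
      ∑ i ∈ s, a i • H.ρ.trace (g i) ∈ maximalIdeal T ^ (n - c) := by
  classical
  obtain ⟨ψ⟩ := exists_padicHom p T hp
  obtain ⟨c, hc⟩ := M.exists_bound
  obtain ⟨x, y, w, hu⟩ := exists_isUnit_trace_sub H.ρ H.residual_absIrr
  refine ⟨c, fun n ι s a g hX => ?_⟩
  rcases Nat.eq_zero_or_pos (n - c) with h0 | hpos
  · rw [h0, pow_zero, Ideal.one_eq_top]; trivial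
  choose τ hτ hτtr hτdet using fun σ => exists_joint_approx M hd H ψ hp σ n
  let Gn : Γℚ →* Matrix (Fin M.r) (Fin M.r) (ZMod (p ^ n)) :=
    (redP p n).toMonoidHom.comp M.G
  let cn : Γℚ →* ZMod (p ^ n) :=
    ((PadicInt.toZModPow n).toMonoidHom.comp (Units.coeHom ℤ_[p])).comp (cyclo p)
  let Tn := (redP (r := M.r) p n).comp ((castP p).comp M.Tm)
  have hphi : ∀ σ, Tn (τ σ) = Gn σ + cn σ • Gn σ⁻¹ := fun σ => by
    show redP p n (castP p (M.Tm (τ σ))) = _
    rw [← hτ σ, MatModel.phi, map_add, redP_smul]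
    rfl
  have hcomm : ∀ σ t, Commute (Gn σ) (Tn t) := fun σ t => Commute.map (show Commute (M.G σ) (castP p (M.Tm t)) from M.G_comm σ t) (redP p n)
  set X := ∑ i ∈ s, a i • cn (g i) • Gn (g i)⁻¹ with hXdef
  have hsum : ∀ z, Tn (∑ i ∈ s, a i • τ (g i * z)) = cn z • (Gn z⁻¹ * X) := by
    intro z
    simp only [map_sum, map_zsmul, hphi, smul_add, Finset.sum_add_distrib]
    have h1 : ∑ i ∈ s, a i • Gn (g i * z) = 0 := by
      have : ∑ i ∈ s, a i • Gn (g i * z) = (∑ i ∈ s, a i • redP p n (M.G (g i))) * Gn z := by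
        rw [Finset.sum_mul]
        exact Finset.sum_congr rfl fun i _ => by rw [map_mul, smul_mul_assoc]; rfl
      rw [this, hX, zero_mul]
    rw [h1, zero_add, hXdef, Finset.mul_sum, Finset.smul_sum]
    refine Finset.sum_congr rfl fun i _ => ?_
    rw [_root_.mul_inv_rev, map_mul Gn, map_mul cn, mul_smul_comm, mul_smul_comm, smul_comm (cn z) (a i),
      smul_smul, mul_comm (cn z)]
  have hX1 : Tn (∑ i ∈ s, a i • τ (g i)) = X := by
    have h := hsum 1
    simp only [mul_one, inv_one, map_one, one_mul, one_smul] at h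
    exact h
  have hXc : ∀ σ, Gn σ * X = X * Gn σ := fun σ => by rw [← hX1]; exact hcomm σ _
  have hswap : ∀ σ σ', X * (Gn σ * Gn σ') = X * (Gn σ' * Gn σ) := by
    intro σ σ'
    have h1 : Gn σ * X = cn σ • Tn (∑ i ∈ s, a i • τ (g i * σ⁻¹)) := by
      rw [hsum, inv_inv, smul_smul, ← map_mul, mul_inv_cancel, map_one, one_smul]
    calc X * (Gn σ * Gn σ') = (Gn σ * X) * Gn σ' := by rw [hXc σ, mul_assoc]
      _ = Gn σ' * (Gn σ * X) := by
        rw [h1, smul_mul_assoc, mul_smul_comm, (hcomm σ' _).eq]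
      _ = X * (Gn σ' * Gn σ) := by rw [hXc σ, ← mul_assoc, hXc σ', mul_assoc]
  have hkill : Tn ((∑ i ∈ s, a i • τ (g i)) * (τ (x * y * w) - τ (y * x * w))) = 0 := by
    rw [map_mul, hX1, map_sub, hphi, hphi, mul_sub, sub_eq_zero, mul_add, mul_add,
      mul_smul_comm, mul_smul_comm]
    congr 1
    · rw [map_mul Gn, map_mul Gn, map_mul Gn, map_mul Gn, ← mul_assoc X (Gn x * Gn y), hswap,
        mul_assoc]
    · rw [show cn (x * y * w) = cn (y * x * w) by simp only [map_mul, mul_comm (cn x)]]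
      congr 1
      simp only [_root_.mul_inv_rev, map_mul Gn]
      rw [← mul_assoc X, ← hXc, mul_assoc, hswap, ← mul_assoc (Gn w⁻¹), hXc, mul_assoc]
  obtain ⟨t', ht'⟩ := hc n _ hkill
  have hmem : H.π (∑ i ∈ s, a i • τ (g i)) * (H.π (τ (x * y * w)) - H.π (τ (y * x * w))) ∈
      maximalIdeal T ^ (n - c) := by
    rw [← map_sub, ← map_mul, ht', map_nsmul, nsmul_eq_mul, Nat.cast_pow]
    exact Ideal.mul_mem_right _ _ (Ideal.pow_mem_pow hp _)
  have hunit : IsUnit (H.π (τ (x * y * w)) - H.π (τ (y * x * w))) := by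
    by_contra h
    refine (IsLocalRing.mem_maximalIdeal _).mp (?_ : H.ρ.trace (x * y * w) -
      H.ρ.trace (y * x * w) ∈ maximalIdeal T) hu
    have hle : maximalIdeal T ^ n ≤ maximalIdeal T :=
      Ideal.pow_le_self (show n ≠ 0 by omega)
    have h2 := Ideal.sub_mem _ (hle (hτtr (x * y * w))) (hle (hτtr (y * x * w)))
    have h3 := Ideal.add_mem _ h2 ((IsLocalRing.mem_maximalIdeal _).mpr h)
    rwa [show ∀ a b c d : T, (a - b) - (c - d) + (b - d) = a - c from fun a b c d => by ring] at h3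
  have hπ : H.π (∑ i ∈ s, a i • τ (g i)) ∈ maximalIdeal T ^ (n - c) :=
    (Ideal.mul_unit_mem_iff_mem _ hunit).mp hmem
  have hdiff : ∑ i ∈ s, a i • H.ρ.trace (g i) - H.π (∑ i ∈ s, a i • τ (g i)) ∈
      maximalIdeal T ^ n := by
    rw [map_sum, ← Finset.sum_sub_distrib]
    refine Ideal.sum_mem _ fun i _ => ?_
    rw [map_zsmul, ← smul_sub]
    exact zsmul_mem (hτtr (g i)) _
  have h := Ideal.add_mem _ (Ideal.pow_le_pow_right (Nat.sub_le n c) hdiff) hπ
  rwa [sub_add_cancel] at h

/-- Combinations killing a level of the Tate module are small in the Hecke representation. -/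
theorem entry_sum_mem (M : MatModel N p ↑S) (hd : FrobeniusDense)
    (H : CuspForm.HeckeGaloisRepDatum N (↑S : Set ℕ) 𝒪 θ T)
    (hp : (p : T) ∈ maximalIdeal T) :
    ∃ c : ℕ, ∀ (n : ℕ) {ι : Type} (s : Finset ι) (a : ι → ℤ) (g : ι → Γℚ),
      ∑ i ∈ s, a i • redP p n (M.G (g i)) = 0 → ∀ k l,
      (∑ i ∈ s, a i • repMat H.ρ (g i)) k l ∈ maximalIdeal T ^ (n - c) := by
  obtain ⟨c, hc⟩ := trace_sum_mem M hd H hp
  refine ⟨c, fun n ι s a g hX k l =>
    entry_mem_of_trace_mul_mem H.ρ H.residual_absIrr _ _ (fun z => ?_) k l⟩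
  rw [Finset.sum_mul, Matrix.trace_sum]
  have h := hc n s a (fun i => g i * z) (by
    have : ∑ i ∈ s, a i • redP p n (M.G (g i * z)) =
        (∑ i ∈ s, a i • redP p n (M.G (g i))) * redP p n (M.G z) := by
      rw [Finset.sum_mul]
      exact Finset.sum_congr rfl fun i _ => by rw [map_mul, map_mul, smul_mul_assoc]
    rw [this, hX, zero_mul])
  refine (congrArg (· ∈ _) (Finset.sum_congr rfl fun i _ => ?_)).mp h
  rw [smul_mul_assoc, Matrix.trace_smul, ← map_mul, trace_repMat]

end FLTAgent.FlatModel
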