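import Fermat.Agent.FlatModel.Transfer
import Fermat.Agent.Frobenius.Places
import Mathlib.LinearAlgebra.Matrix.Basis

/-!
# Ordinarity of a Hecke representation from integral models
-/

set_option autoImplicit false

namespace FLTAgent.FlatModel

open Matrix GalRep IsLocalRing
open scoped Pointwise

local notation "Γℚ" => AlgebraicClosure ℚ ≃ₐ[ℚ] AlgebraicClosure ℚ

section

variable {T : Type} [CommRing T] [IsLocalRing T] (ρ : GaloisRepAdic T)

theorem eq_zero_of_trace_mul_repMat (h : ρ.residual.IsAbsolutelyIrreducible)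
    (E : Matrix (Fin 2) (Fin 2) T) (hE : ∀ g, (repMat ρ g * E).trace = 0) : E = 0 := by
  have hz : ∀ Y, (Y * E).trace = 0 := by
    intro Y
    induction (span_range_repMat ρ h).ge (Submodule.mem_top : Y ∈ ⊤) using
      Submodule.span_induction with
    | mem Y hY => obtain ⟨g, rfl⟩ := hY; exact hE g
    | zero => simp
    | add Y Y' _ _ e e' => rw [add_mul, Matrix.trace_add, e, e', add_zero]
    | smul c Y _ e => rw [smul_mul_assoc, Matrix.trace_smul, e, smul_zero]
  ext a d
  have := hz (Matrix.single d a 1)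
  fin_cases a <;> fin_cases d <;>
    simpa [Matrix.trace, Matrix.mul_apply, Matrix.single_apply, Fin.sum_univ_two] using this

theorem repr_apply_eq_mulVec (g : Γℚ) (v : ρ.V) :
    ⇑((repBasis ρ).repr (ρ.ρ g v)) = repMat ρ g *ᵥ ⇑((repBasis ρ).repr v) :=
  (LinearMap.toMatrix_mulVec_repr (repBasis ρ) (repBasis ρ) (ρ.ρ g) v).symm

/-- A vector of `T ^ 2` with a unit coordinate starts a basis. -/
theorem exists_basis_fin_two (v : Fin 2 → T) (i : Fin 2) (hv : IsUnit (v i)) :
    ∃ b : Module.Basis (Fin 2) T (Fin 2 → T), b 0 = v := by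
  have hunit : ∀ w : Fin 2 → T, IsUnit (Matrix.det (Matrix.of ![v, w])) →
      ∃ b : Module.Basis (Fin 2) T (Fin 2 → T), b 0 = v := by
    intro w hw
    refine ⟨Module.Basis.mk (v := ![v, w]) ?_ ?_, by rw [Module.Basis.mk_apply]; rfl⟩
    · exact Matrix.linearIndependent_rows_of_isUnit ((Matrix.isUnit_iff_isUnit_det _).mpr hw)
    · rintro x -
      rw [Submodule.mem_span_range_iff_exists_fun]
      refine ⟨x ᵥ* (Matrix.of ![v, w])⁻¹, ?_⟩
      have h := congrArg (x ᵥ* ·) (Matrix.nonsing_inv_mul _ hw)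
      simp only [Matrix.vecMul_one, ← Matrix.vecMul_vecMul] at h
      conv_rhs => rw [← h]
      funext j
      simp [Matrix.vecMul, dotProduct, Fin.sum_univ_two]
  fin_cases i
  · refine hunit ![0, 1] ?_
    simpa [Matrix.det_fin_two] using hv
  · refine hunit ![1, 0] ?_
    simpa [Matrix.det_fin_two] using hv

end

variable {p : ℕ} [Fact p.Prime] {N : ℕ} [NeZero N] {S : Finset ℕ}
  {𝒪 : Type} [CommRing 𝒪] [IsDomain 𝒪] [IsDiscreteValuationRing 𝒪]
  [IsAdicComplete (IsLocalRing.maximalIdeal 𝒪) 𝒪]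
  {θ : CuspForm.heckeAlgebra N 2 (↑S : Set ℕ) →+* IsLocalRing.ResidueField 𝒪}
  {T : Type} [CommRing T] [IsLocalRing T] [IsNoetherianRing T]
  [IsAdicComplete (IsLocalRing.maximalIdeal T) T] [Algebra 𝒪 T] [IsLocalHom (algebraMap 𝒪 T)]
  [Module.Finite 𝒪 T] [Module.Free 𝒪 T]

/-- A residually ordinary representation is ordinary if `ρ σ (ρ τ - 1) = χ σ (ρ τ - 1)` on
inertia. -/
theorem isOrdinaryAt_of_defect (M : MatModel N p ↑S) (hd : FrobeniusDense) (hp2 : p ≠ 2)
    (H : CuspForm.HeckeGaloisRepDatum N (↑S : Set ℕ) 𝒪 θ T) (ψ : ℤ_[p] →+* T)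
    (hp : (p : T) ∈ maximalIdeal T)
    (hkey : ∀ P : ValuationSubring (AlgebraicClosure ℚ), P.LiesOverPrime p →
      ∀ σ ∈ P.inertiaSubgroupIn ℚ, ∀ τ ∈ P.inertiaSubgroupIn ℚ,
        repMat H.ρ σ * (repMat H.ρ τ - 1) = ψ (cyclo p σ : ℤ_[p]) • (repMat H.ρ τ - 1)) :
    H.ρ.IsOrdinaryAt p := by
  classical
  intro P hP
  let χ : Γℚ → T := fun g => ψ (cyclo p g : ℤ_[p])
  replace hkey := hkey P hP
  -- the distinguished inertia element
  obtain ⟨s, hs, hs1⟩ := exists_cyclo_ne_one hp2 hP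
  have hdet : ∀ g, (repMat H.ρ g).det = χ g := det_repMat_eq_cyclo M hd H ψ hp
  have hχ : IsUnit (χ s - 1) := by
    rw [show χ s - 1 = ψ ((cyclo p s : ℤ_[p]) - 1) by rw [map_sub, map_one]]
    refine RingHom.isUnit_map ψ ?_
    rw [← residue_ne_zero_iff_isUnit, Ne, residue_eq_zero_iff, PadicInt.maximalIdeal_eq_span_p,
      ← pow_one (p : ℤ_[p]), ← PadicInt.ker_toZModPow, RingHom.mem_ker, map_sub, map_one,
      sub_eq_zero]
    exact hs1
  set B := repMat H.ρ s - 1 with hB
  have hBne : ∃ i j, IsUnit (B i j) := by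
    by_contra! hne
    have h0 : ∀ i j, residue T (B i j) = 0 := fun i j =>
      (residue_eq_zero_iff _).mpr ((IsLocalRing.mem_maximalIdeal _).mpr (hne i j))
    have h1 : (residue T).mapMatrix (repMat H.ρ s) = 1 := by
      rw [← sub_eq_zero, ← map_one (residue T).mapMatrix, ← map_sub]
      ext i j
      exact h0 i j
    have h2 := congrArg Matrix.det h1
    rw [← RingHom.map_det, hdet, det_one, ← map_one (residue T), ← sub_eq_zero, ← map_sub] at h2
    exact (residue_ne_zero_iff_isUnit _).mpr hχ h2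
  obtain ⟨i, j, hij⟩ := hBne
  obtain ⟨b, hb⟩ := exists_basis_fin_two (fun a => B a j) i hij
  let e := (repBasis H.ρ).equivFun
  let bV : Module.Basis (Fin 2) T H.ρ.V := b.map e.symm
  have hbV : e (bV 0) = fun a => B a j := by simp [bV, hb]
  have hs0 : H.ρ.ρ s (bV 0) = χ s • bV 0 := by
    apply e.injective
    rw [map_smul, hbV, Module.Basis.equivFun_apply, repr_apply_eq_mulVec]
    rw [Module.Basis.equivFun_apply] at hbV
    rw [hbV]
    have h := hkey s hs s hs
    funext a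
    have ha := congrFun (congrFun h a) j
    rw [Matrix.mul_apply] at ha
    exact ha
  -- everything in the `χ s`-eigenspace lies on the line
  have hline : ∀ v, H.ρ.ρ s v = χ s • v → v ∈ T ∙ bV 0 := by
    intro v hv
    let Ms := LinearMap.toMatrix bV bV (H.ρ.ρ s)
    have h00 : Ms 0 0 = χ s ∧ Ms 1 0 = 0 := by
      constructor <;>
        simp [Ms, LinearMap.toMatrix_apply, hs0]
    have h11 : Ms 1 1 = 1 := by
      have hd2 : Ms.det = χ s := by
        rw [LinearMap.det_toMatrix, ← LinearMap.det_toMatrix (repBasis H.ρ)]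
        exact hdet s
      rw [Matrix.det_fin_two, h00.1, h00.2, mul_zero, sub_zero] at hd2
      have hu : IsUnit (χ s) := RingHom.isUnit_map ψ (cyclo p s).isUnit
      exact hu.mul_left_cancel (hd2.trans (mul_one _).symm)
    have hx := congrFun (LinearMap.toMatrix_mulVec_repr bV bV (H.ρ.ρ s) v) 1
    rw [hv, map_smul, Finsupp.smul_apply, smul_eq_mul, Matrix.mulVec, dotProduct,
      Fin.sum_univ_two] at hx
    change Ms 1 0 * _ + Ms 1 1 * _ = _ at hx
    rw [h00.2, h11, zero_mul, zero_add, one_mul] at hx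
    have h1 : bV.repr v 1 = 0 := by
      refine hχ.mul_left_cancel ?_
      rw [mul_zero, sub_mul, one_mul, ← hx, sub_self]
    refine Submodule.mem_span_singleton.mpr ⟨bV.repr v 0, ?_⟩
    conv_rhs => rw [← bV.sum_repr v, Fin.sum_univ_two, h1, zero_smul, add_zero]
  have himage : ∀ σ ∈ P.inertiaSubgroupIn ℚ, ∀ v, H.ρ.ρ σ v - v ∈ T ∙ bV 0 := by
    intro σ hσ v
    refine hline _ ((repBasis H.ρ).repr.injective ?_)
    ext a
    have h := congrFun (congrArg (fun Y => Y *ᵥ ⇑((repBasis H.ρ).repr v)) (hkey s hs σ hσ)) a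
    simp only [← Matrix.mulVec_mulVec, Matrix.sub_mulVec, Matrix.one_mulVec, Matrix.smul_mulVec,
      ← repr_apply_eq_mulVec] at h
    rw [repr_apply_eq_mulVec, map_smul, map_sub, Finsupp.coe_sub, Finsupp.smul_apply,
      Finsupp.sub_apply]
    simpa using h
  refine ⟨T ∙ bV 0, ⟨bV, rfl⟩, fun g hg v hv => ?_, himage⟩
  obtain ⟨r, rfl⟩ := Submodule.mem_span_singleton.mp hv
  rw [map_smul]
  refine Submodule.smul_mem _ r ?_
  obtain ⟨u, hu⟩ : ∃ u, H.ρ.ρ s u - u = bV 0 := by
    refine ⟨repBasis H.ρ j, e.injective ?_⟩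
    rw [hbV]
    funext a
    rw [Module.Basis.equivFun_apply, map_sub, Finsupp.sub_apply, repr_apply_eq_mulVec,
      Module.Basis.repr_self, Finsupp.single_eq_pi_single, Matrix.mulVec_single_one, hB,
      Matrix.sub_apply, Matrix.one_apply, Pi.single_apply]
    rfl
  have hgs : g * s * g⁻¹ ∈ P.inertiaSubgroupIn ℚ := by
    have h := Frobenius.inertiaSubgroupIn_conj hs g
    rwa [show g • P = P from hg] at h
  have h2 := himage _ hgs (H.ρ.ρ g u)
  have e2 : H.ρ.ρ (g * s * g⁻¹) (H.ρ.ρ g u) = H.ρ.ρ g (H.ρ.ρ s u) := by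
    rw [← Module.End.mul_apply, ← map_mul, inv_mul_cancel_right, map_mul, Module.End.mul_apply]
  rw [e2, ← map_sub, hu] at h2
  exact h2


/-- If every level of a matrix model has integral models at all places over `p`, a residually
ordinary representation attached to the Hecke algebra is ordinary at `p`. -/
theorem isOrdinaryAt_of_inertiaModels [Finite (IsLocalRing.ResidueField 𝒪)] (M : MatModel N p ↑S)
    (hd : FrobeniusDense) (hp2 : p ≠ 2) (hp𝒪 : (p : 𝒪) ∈ maximalIdeal 𝒪)
    (H : CuspForm.HeckeGaloisRepDatum N (↑S : Set ℕ) 𝒪 θ T)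
    (hres : (GaloisRepAdic.ofResidualGaloisRep H.ρ.residual).IsOrdinaryAt p)
    (hmod : ∀ A : ValuationSubring (AlgebraicClosure ℚ), A.LiesOverPrime p → HasInertiaModels M A) :
    H.ρ.IsOrdinaryAt p := by
  classical
  have hp : (p : T) ∈ maximalIdeal T := natCast_mem_maximalIdeal_of_map hp𝒪
  obtain ⟨ψ⟩ := exists_padicHom p T hp
  refine isOrdinaryAt_of_defect M hd hp2 H ψ hp fun P hP σ hσ τ hτ => ?_
  obtain ⟨c, hc⟩ := trace_defect_mem M hd hp2 H ψ hp hP (hmod P hP) hres
  refine sub_eq_zero.mp (eq_zero_of_trace_mul_repMat H.ρ H.residual_absIrr _ fun k => ?_)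
  refine eq_of_forall_sub_mem_pow fun n => ?_
  have h := Ideal.pow_le_pow_right (I := maximalIdeal T) (show n ≤ n + c + 1 - c by omega)
    (hc (n + c + 1) (by omega) σ hσ τ hτ k)
  rw [sub_zero]
  convert h using 1
  simp only [mul_sub, Matrix.mul_one, ← map_mul, Matrix.mul_smul, Matrix.trace_sub,
    Matrix.trace_smul, trace_repMat, smul_eq_mul, mul_assoc]

end FLTAgent.FlatModel
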