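import Fermat.Agent.Char.InertiaLift
import Mathlib.NumberTheory.RamificationInertia.Galois
import Mathlib.NumberTheory.RamificationInertia.HilbertTheory
import Mathlib.NumberTheory.NumberField.Basic
import Mathlib.RingTheory.DedekindDomain.Ideal.Lemmas
import Mathlib.RingTheory.RamificationInertia.Ramification
import Mathlib.RingTheory.Unramified.Locus

/-!
# The fixed field of one inertia group is absolutely unramified at its place
-/

set_option autoImplicit false

namespace FLTAgent.FlatModel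

open scoped NumberField Pointwise
open Ideal

local notation "ℚbar" => AlgebraicClosure ℚ

section

variable {F : Type*} [Field F] [NumberField F] {q : ℕ} (P : Ideal (𝓞 F)) [P.IsPrime]

/-- At a prime unramified over `q`, an element is a power of `q` times a unit. -/
theorem exists_mul_eq_pow_mul (hq : q.Prime) (hqP : (q : 𝓞 F) ∈ P)
    (he : P.ramificationIdx ℤ = 1) {z : 𝓞 F} (hz : z ≠ 0) :
    ∃ (k : ℕ) (s w : 𝓞 F), s ∉ P ∧ w ∉ P ∧ s * z = w * (q : 𝓞 F) ^ k := by
  classical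
  have hp0 : (Ideal.span {(q : ℤ)}).IsPrime :=
    (Ideal.span_singleton_prime (by exact_mod_cast hq.ne_zero)).2 (Nat.prime_iff_prime_int.1 hq)
  have hover : P.LiesOver (Ideal.span {(q : ℤ)}) := by
    refine (Ideal.liesOver_span_iff (Ideal.IsPrime.ne_top inferInstance)
      (Nat.prime_iff_prime_int.1 hq)).2 ?_
    rwa [map_natCast]
  have : PerfectField (Ideal.span {(q : ℤ)}).ResidueField := inferInstance
  have hunr : Algebra.IsUnramifiedAt ℤ P := Ideal.ramificationIdx_eq_one_iff.mp he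
  let := Localization.AtPrime.algebraOfLiesOver (Ideal.span {(q : ℤ)}) P
  have hmap := ((Algebra.isUnramifiedAt_iff_map_eq ℤ (Ideal.span {(q : ℤ)}) P).mp hunr).2
  have hex : ∃ k, z ∉ P ^ k := by
    by_contra! h
    refine hz ?_
    rw [← Ideal.mem_bot, ← Ideal.iInf_pow_eq_bot_of_isDomain P (Ideal.IsPrime.ne_top inferInstance),
      Ideal.mem_iInf]
    exact h
  obtain ⟨k, hk⟩ : ∃ k, Nat.find hex = k + 1 :=
    Nat.exists_eq_succ_of_ne_zero fun h => by
      have := Nat.find_spec hex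
      rw [h, pow_zero, Ideal.one_eq_top] at this
      exact this trivial
  have hin : z ∈ P ^ k := not_not.1 (Nat.find_min hex (hk ▸ Nat.lt_succ_self k))
  have hout : z ∉ P ^ (k + 1) := hk ▸ Nat.find_spec hex
  have hloc : algebraMap (𝓞 F) (Localization.AtPrime P) z ∈
      Ideal.map (algebraMap (𝓞 F) (Localization.AtPrime P)) (Ideal.span {(q : 𝓞 F) ^ k}) := by
    have h1 := Ideal.mem_map_of_mem (algebraMap (𝓞 F) (Localization.AtPrime P)) hin
    rw [Ideal.map_pow, Localization.AtPrime.map_eq_maximalIdeal, ← hmap,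
      Ideal.map_span, Set.image_singleton, Ideal.span_singleton_pow, map_natCast] at h1
    rwa [Ideal.map_span, Set.image_singleton, map_pow, map_natCast]
  obtain ⟨s, hs, hsz⟩ :=
    (IsLocalization.algebraMap_mem_map_algebraMap_iff P.primeCompl _ _ z).1 hloc
  obtain ⟨y, hy⟩ := Ideal.mem_span_singleton'.1 hsz
  refine ⟨k, s, y, hs, fun hyP => hout ?_, hy.symm⟩
  refine (Ideal.IsPrime.mul_mem_pow P (a := s) ?_).resolve_left hs
  rw [← hy, pow_succ']
  exact Ideal.mul_mem_mul hyP (Ideal.pow_mem_pow hqP k)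

end

/-- The inclusion of rings of integers into the algebraic integers. -/
noncomputable def toIntBar {F : Type*} [Field F] (φ : F →+* ℚbar) :
    𝓞 F →+* integralClosure ℤ ℚbar where
  toFun x := ⟨φ x, (NumberField.RingOfIntegers.isIntegral_coe x).map φ.toIntAlgHom⟩
  map_one' := Subtype.ext (map_one φ)
  map_mul' a b := Subtype.ext (map_mul φ (a : F) (b : F))
  map_zero' := Subtype.ext (map_zero φ)
  map_add' a b := Subtype.ext (map_add φ (a : F) (b : F))

theorem coe_toIntBar {F : Type*} [Field F] (φ : F →+* ℚbar) (x : 𝓞 F) :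
    ((toIntBar φ x : integralClosure ℤ ℚbar) : ℚbar) = φ x := rfl

theorem exists_valuation_eq_pow {F : Type*} [Field F] [NumberField F] (φ : F →+* ℚbar)
    {q : ℕ} (hq : q.Prime) {A : ValuationSubring ℚbar} (hA : A.LiesOverPrime q)
    (he : ((GalChar.centreIdeal A).comap (toIntBar φ)).ramificationIdx ℤ = 1)
    {x : F} (hx : x ≠ 0) : ∃ k : ℤ, A.valuation (φ x) = A.valuation (q : ℚbar) ^ k := by
  set P := (GalChar.centreIdeal A).comap (toIntBar φ) with hPdef
  have : P.IsPrime := Ideal.comap_isPrime _ _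
  have hqP : (q : 𝓞 F) ∈ P := by
    rw [hPdef, Ideal.mem_comap, map_natCast, GalChar.mem_centreIdeal]
    exact (ValuationSubring.mem_nonunits_iff _).1 hA
  have hv1 : ∀ z : 𝓞 F, z ∉ P → A.valuation (φ z) = 1 := fun z hz =>
    le_antisymm (GalChar.valuation_le_one_of_isIntegral A (toIntBar φ z).2) (not_lt.1 hz)
  have hint : ∀ z : 𝓞 F, z ≠ 0 → ∃ k : ℕ, A.valuation (φ z) = A.valuation (q : ℚbar) ^ k := by
    intro z hz
    obtain ⟨k, s, w, hs, hw, e⟩ := exists_mul_eq_pow_mul P hq hqP he hz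
    have e2 := congrArg (fun t : 𝓞 F => A.valuation (φ t)) e
    simp only [map_mul, map_pow, map_natCast, hv1 s hs, hv1 w hw, one_mul] at e2
    exact ⟨k, e2⟩
  obtain ⟨a, b, hb, hab⟩ := IsFractionRing.div_surjective (𝓞 F) x
  have ha : a ≠ 0 := fun h => hx (by rw [← hab, h]; simp)
  obtain ⟨k, hk⟩ := hint a ha
  obtain ⟨m, hm⟩ := hint b (nonZeroDivisors.ne_zero hb)
  refine ⟨(k : ℤ) - m, ?_⟩
  rw [← hab, map_div₀, map_div₀, zpow_sub₀, zpow_natCast, zpow_natCast, ← hk, ← hm]
  exact (Valuation.ne_zero_iff _).2 (Nat.cast_ne_zero.2 hq.ne_zero)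

/-- A number fixed by the inertia group of `A` has the valuation of a power of `q`. -/
theorem exists_valuation_eq_pow_of_fixed {q : ℕ} (hq : q.Prime) {A : ValuationSubring ℚbar}
    (hA : A.LiesOverPrime q) {x : ℚbar} (hx0 : x ≠ 0)
    (hfix : ∀ σ ∈ A.inertiaSubgroupIn ℚ, σ x = x) :
    ∃ k : ℤ, A.valuation x = A.valuation (q : ℚbar) ^ k := by
  have : IsAlgClosure ℚ ℚbar := ⟨inferInstance, AlgebraicClosure.isAlgebraic ℚ⟩
  have : Normal ℚ ℚbar := IsAlgClosure.normal ℚ ℚbar
  let E₀ : IntermediateField ℚ ℚbar := IntermediateField.adjoin ℚ {x}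
  have : FiniteDimensional ℚ E₀ :=
    IntermediateField.adjoin.finiteDimensional (Algebra.IsIntegral.isIntegral x)
  let L : IntermediateField ℚ ℚbar := IntermediateField.normalClosure ℚ E₀ ℚbar
  have : Normal ℚ L := normalClosure.normal ℚ E₀ ℚbar
  have : FiniteDimensional ℚ L := normalClosure.is_finiteDimensional ℚ E₀ ℚbar
  have : IsGalois ℚ L := ⟨⟩
  have : NumberField L := { to_finiteDimensional := inferInstance }
  have hxL : x ∈ L := E₀.le_normalClosure (IntermediateField.mem_adjoin_simple_self ℚ x)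
  let φ : L →+* ℚbar := L.val.toRingHom
  let P : Ideal (𝓞 L) := (GalChar.centreIdeal A).comap (toIntBar φ)
  have : P.IsPrime := Ideal.comap_isPrime _ _
  have hqP : (q : 𝓞 L) ∈ P := by
    rw [Ideal.mem_comap, map_natCast, GalChar.mem_centreIdeal]
    exact (ValuationSubring.mem_nonunits_iff _).1 hA
  let : MulSemiringAction Gal(L/ℚ) (𝓞 L) := IsIntegralClosure.MulSemiringAction ℤ ℚ L (𝓞 L)
  let H : Subgroup Gal(L/ℚ) := P.inertia Gal(L/ℚ)
  let E : IntermediateField ℚ L := FixedPoints.intermediateField H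
  have : NumberField E := { to_finiteDimensional := inferInstance }
  have hxE : (⟨x, hxL⟩ : L) ∈ E := by
    rintro ⟨g, hg⟩
    obtain ⟨σ₀, hσ₀⟩ := AlgEquiv.restrictNormalHom_surjective (F := ℚ) (K₁ := L) ℚbar g
    have hg' : ∀ y : L, σ₀ (y : ℚbar) = ((g y : L) : ℚbar) := fun y => by
      rw [← hσ₀]
      exact (AlgEquiv.restrictNormal_commutes σ₀ L y).symm
    obtain ⟨σ, hσ, hσL⟩ := GalChar.exists_mem_inertiaSubgroupIn_eq_on A L σ₀ fun y hy hyi => by
      have hyi' : IsIntegral ℤ (⟨y, hy⟩ : L) :=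
        (isIntegral_algHom_iff (L.val.restrictScalars ℤ) Subtype.val_injective).1 hyi
      obtain ⟨z, hz⟩ : ∃ z : 𝓞 L, (z : L) = ⟨y, hy⟩ := ⟨⟨⟨y, hy⟩, hyi'⟩, rfl⟩
      have h := hg z
      rw [Submodule.mem_toAddSubgroup, Ideal.mem_comap, GalChar.mem_centreIdeal, coe_toIntBar]
        at h
      have hsmul : (((g • z : 𝓞 L) : L)) = g ⟨y, hy⟩ :=
        hz ▸ algebraMap_galRestrict_apply (B := 𝓞 L) ℤ (g : L ≃ₐ[ℚ] L) z
      rw [hg' ⟨y, hy⟩]
      rw [show ((g • z - z : 𝓞 L) : L) = ((g • z : 𝓞 L) : L) - (z : L) from rfl, map_sub,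
        hsmul, hz] at h
      exact h
    refine Subtype.ext ?_
    show ((g ⟨x, hxL⟩ : L) : ℚbar) = x
    rw [← hg' ⟨x, hxL⟩, ← hσL x hxL]
    exact hfix σ hσ
  let P₀ : Ideal (𝓞 E) := (GalChar.centreIdeal A).comap (toIntBar (φ.comp (algebraMap E L)))
  have : P.LiesOver P₀ := ⟨by
    ext z
    simp only [P, P₀, Ideal.under_def, Ideal.mem_comap, GalChar.mem_centreIdeal, coe_toIntBar]
    rfl⟩
  have hp0 : (Ideal.span {(q : ℤ)}).IsPrime :=
    (Ideal.span_singleton_prime (by exact_mod_cast hq.ne_zero)).2 (Nat.prime_iff_prime_int.1 hq)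
  have hover : P.LiesOver (Ideal.span {(q : ℤ)}) := by
    refine (Ideal.liesOver_span_iff (Ideal.IsPrime.ne_top inferInstance)
      (Nat.prime_iff_prime_int.1 hq)).2 ?_
    rwa [map_natCast]
  have : PerfectField (Ideal.span {(q : ℤ)}).ResidueField := inferInstance
  have := IsGaloisGroup.of_isFractionRing Gal(L/ℚ) ℤ (𝓞 L) ℚ L
  have hGE : IsGaloisGroup H E L := IsGaloisGroup.subgroup Gal(L/ℚ) ℚ L H
  have := IsGaloisGroup.of_isFractionRing H (𝓞 E) (𝓞 L) E L
  have : Module.Finite (𝓞 E) (𝓞 L) := Module.Finite.right ℤ (𝓞 E) (𝓞 L)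
  have : P₀.IsPrime := Ideal.comap_isPrime _ _
  have hP₀ : P₀ ≠ ⊥ := fun h => by
    have hq0 : (q : 𝓞 E) ∈ P₀ := by
      rw [Ideal.mem_comap, map_natCast, GalChar.mem_centreIdeal]
      exact (ValuationSubring.mem_nonunits_iff _).1 hA
    rw [h, Ideal.mem_bot] at hq0
    exact hq.ne_zero (Nat.cast_eq_zero.1 hq0)
  have : P₀.IsMaximal := Ideal.IsPrime.isMaximal inferInstance hP₀
  have : Finite (𝓞 E ⧸ P₀) := Ring.HasFiniteQuotients.finiteQuotient hP₀
  have : PerfectField P₀.ResidueField := inferInstance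
  have h1 : Nat.card H = P.ramificationIdx ℤ := by
    rw [← Ideal.ramificationIdxIn_eq_ramificationIdx (Ideal.span {(q : ℤ)}) P Gal(L/ℚ)]
    exact Ideal.card_inertia_eq_ramificationIdxIn (Ideal.span {(q : ℤ)}) P
  have hin : P.inertia H = ⊤ := by
    refine (Subgroup.eq_top_iff' _).mpr fun g z => ?_
    exact g.2 z
  have h2 : Nat.card H = P.ramificationIdx (𝓞 E) := by
    rw [← Ideal.ramificationIdxIn_eq_ramificationIdx P₀ P H,
      ← Ideal.card_inertia_eq_ramificationIdxIn (G := H) P₀ P, hin, Subgroup.card_top]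
  have h3 := Ideal.ramificationIdx_tower (R := ℤ) P₀ P
  rw [← h1, ← h2] at h3
  have he : P₀.ramificationIdx ℤ = 1 :=
    (right_eq_mul₀ (Nat.card_pos).ne').mp h3
  exact exists_valuation_eq_pow (φ.comp (algebraMap E L)) hq hA he
    (x := ⟨⟨x, hxL⟩, hxE⟩) (fun h => hx0 (congrArg (fun t : E => ((t : L) : ℚbar)) h))

end FLTAgent.FlatModel
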