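import Fermat.Agent.FlatModel.Ctx
import Fermat.Agent.FlatModel.InertiaValue
import Fermat.Agent.Reduction.Decomposition
import Fermat.Agent.GalRep.Cyclo
import Mathlib.RingTheory.Polynomial.Cyclotomic.Eval

/-!
# Inertia at a place of `ℚbar` is an unramified base; the cyclotomic character is nontrivial on it
-/

set_option autoImplicit false

namespace FLTAgent.FlatModel

local notation "ℚbar" => AlgebraicClosure ℚ
local notation "Γℚ" => AlgebraicClosure ℚ ≃ₐ[ℚ] AlgebraicClosure ℚ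

/-- Automorphisms of the field are automorphisms of rings. -/
noncomputable def galToRing : Γℚ →* (ℚbar ≃+* ℚbar) where
  toFun σ := σ.toRingEquiv
  map_one' := rfl
  map_mul' _ _ := rfl

/-- The inertia group of `A` as a group of ring automorphisms. -/
noncomputable def inertiaRing (A : ValuationSubring ℚbar) : Subgroup (ℚbar ≃+* ℚbar) :=
  (A.inertiaSubgroupIn ℚ).map galToRing

/-- A ring automorphism as a Galois element. -/
noncomputable def galOfRing : (ℚbar ≃+* ℚbar) →* Γℚ where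
  toFun τ := AlgEquiv.ofRingEquiv (f := τ) fun r => by
    rw [eq_ratCast, map_ratCast]
  map_one' := AlgEquiv.ext fun _ => rfl
  map_mul' _ _ := AlgEquiv.ext fun _ => rfl

@[simp] theorem galOfRing_galToRing (σ : Γℚ) : galOfRing (galToRing σ) = σ :=
  AlgEquiv.ext fun _ => rfl

@[simp] theorem galOfRing_apply (τ : ℚbar ≃+* ℚbar) (x : ℚbar) : galOfRing τ x = τ x := rfl

/-- Inertia as Galois elements. -/
noncomputable def inertiaHom (A : ValuationSubring ℚbar) : inertiaRing A →* Γℚ :=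
  galOfRing.comp (inertiaRing A).subtype

theorem inertiaHom_mem {A : ValuationSubring ℚbar} (τ : inertiaRing A) :
    inertiaHom A τ ∈ A.inertiaSubgroupIn ℚ := by
  obtain ⟨_, σ, hσ, rfl⟩ := τ
  simpa [inertiaHom] using hσ

theorem exists_inertiaHom_eq {A : ValuationSubring ℚbar} {σ : Γℚ}
    (hσ : σ ∈ A.inertiaSubgroupIn ℚ) : ∃ τ : inertiaRing A, inertiaHom A τ = σ :=
  ⟨⟨galToRing σ, σ, hσ, rfl⟩, galOfRing_galToRing σ⟩

theorem isUnramifiedBase_inertia {p : ℕ} (hp : p.Prime) {A : ValuationSubring ℚbar}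
    (hA : A.LiesOverPrime p) : IsUnramifiedBase p A (inertiaRing A) := by
  have : Algebra.IsAlgebraic ℚ ℚbar := AlgebraicClosure.isAlgebraic ℚ
  have hlt : A.valuation (p : ℚbar) < 1 := (ValuationSubring.mem_nonunits_iff _).1 hA
  have hfix : ∀ x : ℚbar, (∀ τ ∈ inertiaRing A, τ x = x) → x ≠ 0 →
      ∃ k : ℤ, A.valuation x = A.valuation (p : ℚbar) ^ k := fun x hx hx0 =>
    exists_valuation_eq_pow_of_fixed hp hA hx0 fun σ hσ => hx (galToRing σ) ⟨σ, hσ, rfl⟩
  have hpos : 0 < A.valuation (p : ℚbar) :=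
    zero_lt_iff.mpr ((Valuation.ne_zero_iff _).mpr (Nat.cast_ne_zero.mpr hp.ne_zero))
  refine ⟨hp, hlt, ?_, ?_, ?_, ?_⟩
  · rintro _ ⟨σ, hσ, rfl⟩ x
    exact Reduction.v_map_eq (Reduction.inertia_le_decomposition hσ) x
  · rintro _ ⟨σ, hσ, rfl⟩ x hx
    exact Reduction.v_map_sub_lt_one hσ hx
  · intro x hx hx1
    rcases eq_or_ne x 0 with rfl | hx0
    · simp
    obtain ⟨k, hk⟩ := hfix x hx hx0
    rw [hk] at hx1 ⊢
    have hk1 : 1 ≤ k := by
      by_contra hk0
      refine absurd hx1 (not_lt.mpr ?_)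
      exact (zpow_zero _).symm.le.trans (zpow_le_zpow_right_of_le_one₀ hpos hlt.le (by omega))
    exact (zpow_le_zpow_right_of_le_one₀ hpos hlt.le hk1).trans (zpow_one _).le
  · intro x hx
    -- an integer multiple of `x⁻¹` is integral
    have halg : IsAlgebraic ℤ x⁻¹ :=
      (IsFractionRing.isAlgebraic_iff ℤ ℚ ℚbar).mpr (Algebra.IsAlgebraic.isAlgebraic _)
    obtain ⟨c, hc0, hc⟩ := halg.exists_integral_multiple
    rw [zsmul_eq_mul] at hc
    have hle := GalChar.valuation_le_one_of_isIntegral A hc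
    obtain ⟨k, hk⟩ := hfix (c : ℚbar) (fun τ _ => map_intCast τ c) (Int.cast_ne_zero.mpr hc0)
    rw [map_mul, hk, map_inv₀] at hle
    refine ⟨k.toNat + 1, ?_⟩
    have hxpos : 0 < A.valuation x := zero_lt_iff.mpr ((Valuation.ne_zero_iff _).mpr hx)
    rw [mul_inv_le_iff₀ hxpos, one_mul] at hle
    refine lt_of_lt_of_le ?_ ((zpow_le_zpow_right_of_le_one₀ hpos hlt.le k.self_le_toNat).trans hle)
    rw [zpow_natCast, pow_succ]
    exact mul_lt_of_lt_one_right (pow_pos hpos _) hlt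

/-- The mod `p` cyclotomic character is nontrivial on inertia at `p`. -/
theorem exists_cyclo_ne_one {p : ℕ} [Fact p.Prime] (hp2 : p ≠ 2) {A : ValuationSubring ℚbar}
    (hA : A.LiesOverPrime p) :
    ∃ σ ∈ A.inertiaSubgroupIn ℚ,
      PadicInt.toZModPow 1 (GalRep.cyclo p σ : ℤ_[p]) ≠ 1 := by
  by_contra! hall
  have hp : p.Prime := Fact.out
  have hI := isUnramifiedBase_inertia hp hA
  obtain ⟨ζ, hζ⟩ := HasEnoughRootsOfUnity.exists_primitiveRoot ℚbar (p ^ 1)
  rw [pow_one] at hζ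
  have h3 : 3 ≤ p := by have := hp.two_le; omega
  set v := A.valuation with hv
  have hfix : ∀ τ ∈ inertiaRing A, τ (ζ - 1) = ζ - 1 := by
    rintro _ ⟨σ, hσ, rfl⟩
    show σ (ζ - 1) = ζ - 1
    have h1 : ζ ^ p ^ 1 = 1 := by rw [pow_one, hζ.pow_eq_one]
    have : Fact (1 < p ^ 1) := ⟨by rw [pow_one]; exact hp.one_lt⟩
    rw [map_sub, map_one, GalRep.cyclo_spec p σ h1, hall σ hσ, ZMod.val_one, pow_one]
  have hζA : ζ ∈ A := GalRep.root_mem p hp.ne_zero hζ.pow_eq_one
  have hlt : v (ζ - 1) < 1 := by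
    obtain ⟨r, hr⟩ := exists_add_pow_prime_eq hp (⟨ζ, hζA⟩ : A) (-1)
    have hr' := congrArg A.subtype hr
    simp only [map_add, map_pow, map_mul, map_neg, map_one, map_natCast] at hr'
    change (ζ + -1) ^ p = ζ ^ p + (-1) ^ p + (p : ℚbar) * ζ * -1 * (r : ℚbar) at hr'
    rw [hζ.pow_eq_one, (hp.odd_of_ne_two hp2).neg_one_pow, add_neg_cancel, zero_add,
      ← sub_eq_add_neg] at hr'
    replace hr' := congrArg v hr'
    rw [map_pow, map_mul, map_mul, map_mul, Valuation.map_neg, map_one, mul_one] at hr'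
    refine (pow_lt_one_iff hp.ne_zero).mp (hr'.trans_lt ?_)
    exact (mul_le_of_le_one_right' ((A.valuation_le_one_iff _).mpr r.2)).trans_lt
      ((mul_le_of_le_one_right' ((A.valuation_le_one_iff _).mpr hζA)).trans_lt hI.natCast_lt)
  have hle : v (ζ - 1) ≤ v (p : ℚbar) := hI.le_natCast _ hfix hlt
  have hprod : v (p : ℚbar) ≤ v (ζ - 1) ^ (p - 1) := by
    obtain ⟨n, hn⟩ := Nat.exists_eq_add_of_le' hp.one_le
    subst hn
    rw [show ((n + 1 : ℕ) : ℚbar) = ∏ i ∈ Finset.range n, (1 - ζ ^ (i + 1)) by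
      simpa using hζ.prod_one_sub_pow_eq_order.symm, map_prod, Nat.add_sub_cancel]
    refine (Finset.prod_le_pow_card _ _ (v (ζ - 1)) fun i _ => ?_).trans (by rw [Finset.card_range])
    rw [← neg_sub, Valuation.map_neg, ← geom_sum_mul ζ (i + 1), map_mul]
    refine mul_le_of_le_one_left' (v.map_sum_le fun j _ => ?_)
    exact (A.valuation_le_one_iff _).mpr (pow_mem hζA j)
  have hpp := hprod.trans (pow_le_pow_left' hle (p - 1))
  refine absurd hpp (not_le.mpr ?_)
  calc v (p : ℚbar) ^ (p - 1) ≤ v (p : ℚbar) ^ 2 :=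
        pow_le_pow_right_of_le_one' hI.natCast_lt.le (by omega)
    _ < v (p : ℚbar) := by
        rw [pow_two]
        exact mul_lt_of_lt_one_right hI.valuation_natCast_pos hI.natCast_lt

end FLTAgent.FlatModel
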