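import Fermat.Agent.FlatModel.TraceLemma
import Mathlib.Algebra.Module.Torsion.Basic
import Mathlib.Algebra.BigOperators.Fin
import Mathlib.Data.Fin.VecNotation

/-!
# The filtration by powers of a maximal ideal and the operators killing its first step
-/

set_option autoImplicit false

namespace FLTAgent.FlatModel

variable {R : Type*} [CommRing R] (𝔪 : Ideal R) (X : Type*) [AddCommGroup X] [Module R X]

/-- The elements killed by `𝔪 ^ j`. -/
def torsionLevel (j : ℕ) : Submodule R X :=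
  Submodule.torsionBySet R X (𝔪 ^ j : Ideal R)

variable {𝔪 X}

theorem mem_torsionLevel {j : ℕ} {x : X} :
    x ∈ torsionLevel 𝔪 X j ↔ ∀ r ∈ 𝔪 ^ j, r • x = 0 :=
  ⟨fun h r hr => (Submodule.mem_torsionBySet_iff _ _).mp h ⟨r, hr⟩,
    fun h => (Submodule.mem_torsionBySet_iff _ _).mpr fun r => h r r.2⟩

theorem torsionLevel_zero : torsionLevel 𝔪 X 0 = ⊥ := by
  refine (Submodule.eq_bot_iff _).mpr fun x hx => ?_
  simpa using mem_torsionLevel.mp hx 1 (by simp)

theorem smul_mem_torsionLevel_one {j : ℕ} {x : X} (hx : x ∈ torsionLevel 𝔪 X (j + 1)) {r : R}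
    (hr : r ∈ 𝔪 ^ j) : r • x ∈ torsionLevel 𝔪 X 1 := by
  rw [mem_torsionLevel] at hx ⊢
  intro a ha
  rw [pow_one] at ha
  rw [smul_smul, mul_comm]
  exact hx _ (by rw [pow_succ]; exact Ideal.mul_mem_mul hr ha)

theorem mem_torsionLevel_of_kill {f : Module.End R X}
    (hf : ∀ y ∈ torsionLevel 𝔪 X 1, f y = 0) {j : ℕ} {x : X}
    (hx : x ∈ torsionLevel 𝔪 X (j + 1)) : f x ∈ torsionLevel 𝔪 X j := by
  rw [mem_torsionLevel]
  intro r hr
  rw [← map_smul]
  exact hf _ (smul_mem_torsionLevel_one hx hr)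

theorem mem_torsionLevel_of_smul {j : ℕ} {x : X} (hx : x ∈ torsionLevel 𝔪 X (j + 1)) {r : R}
    (hr : r ∈ 𝔪) : r • x ∈ torsionLevel 𝔪 X j := by
  rw [mem_torsionLevel] at hx ⊢
  intro a ha
  rw [smul_smul]
  exact hx _ (by rw [pow_succ]; exact Ideal.mul_mem_mul ha hr)

section

variable {G : Type*} [Group G] (ρ : G →* Module.End R X)

/-- The action on the first step. -/
def levelOneRep : G →* Module.End R (torsionLevel 𝔪 X 1) where
  toFun g := (ρ g).restrict fun y hy => mem_torsionLevel.mpr fun r hr => by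
    rw [← map_smul, mem_torsionLevel.mp hy r hr, map_zero]
  map_one' := LinearMap.ext fun y => Subtype.ext (by simp)
  map_mul' g h := LinearMap.ext fun y => Subtype.ext (by simp)

variable {ρ} {t d : G → R}

theorem HasQuadRelation.levelOne (hrel : HasQuadRelation ρ t d) :
    HasQuadRelation (levelOneRep (𝔪 := 𝔪) ρ) t d :=
  ⟨fun g y => Subtype.ext (hrel.1 g y), fun g h y => Subtype.ext (hrel.2 g h y)⟩

theorem levelOne_kill (r : R) (hr : r ∈ 𝔪) (y : torsionLevel 𝔪 X 1) : r • y = 0 :=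
  Subtype.ext (mem_torsionLevel.mp y.2 r (by rwa [pow_one]))

/-- The trace criterion for an operator to lower the filtration. -/
theorem sum_smul_mem_torsionLevel [𝔪.IsMaximal] (hrel : HasQuadRelation ρ t d) {s h : G}
    {a b : R} (hts : t s - (a + b) ∈ 𝔪) (hds : d s - a * b ∈ 𝔪)
    (hD : irredDisc t d s h a b ∉ 𝔪) {ι : Type*} [Fintype ι] (c : ι → R) (g : ι → G)
    (hperp : ∀ k, ∑ i, c i * t (g i * k) ∈ 𝔪) {j : ℕ} {x : X}
    (hx : x ∈ torsionLevel 𝔪 X (j + 1)) :
    ∑ i, c i • ρ (g i) x ∈ torsionLevel 𝔪 X j := by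
  have h := mem_torsionLevel_of_kill (f := ∑ i, c i • ρ (g i)) (fun y hy => ?_) hx
  · simpa using h
  · have e := eq_zero_of_trace 𝔪 hrel.levelOne (fun r hr y => levelOne_kill r hr y) hts hds hD c g
      hperp ⟨y, hy⟩
    have e' := congrArg Subtype.val e
    simpa [levelOneRep] using e'

/-- The operator `(u - a) (v - 1)` lowers the filtration. -/
theorem defect_mem_torsionLevel [𝔪.IsMaximal] (hrel : HasQuadRelation ρ t d) {s h : G}
    {a b : R} (hts : t s - (a + b) ∈ 𝔪) (hds : d s - a * b ∈ 𝔪)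
    (hD : irredDisc t d s h a b ∉ 𝔪) (u v : G) (c : R)
    (hperp : ∀ k, t (u * v * k) - t (u * k) - c * t (v * k) + c * t k ∈ 𝔪) {j : ℕ} {x : X}
    (hx : x ∈ torsionLevel 𝔪 X (j + 1)) :
    ρ u (ρ v x - x) - c • (ρ v x - x) ∈ torsionLevel 𝔪 X j := by
  have h := sum_smul_mem_torsionLevel hrel hts hds hD ![1, -1, -c, c] ![u * v, u, v, 1]
    (fun k => by
      simpa [Fin.sum_univ_four, sub_eq_add_neg, one_mul] using hperp k) hx
  convert h using 1
  simp only [Fin.sum_univ_four, Matrix.cons_val, one_smul, neg_smul, map_mul, map_one,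
    Module.End.mul_apply, Module.End.one_apply, map_sub, smul_sub]
  module

end

end FLTAgent.FlatModel
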