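import Fermat.Agent.FlatModel.OldKernel

/-!
# Base change of the two push-forwards from level `M p` to level `M e p`

The pullback along `x(q) ↦ x(q^e)` commutes with the push-forwards along both degeneracy maps.
-/

set_option autoImplicit false
set_option linter.style.haveILetI false
set_option linter.unusedSectionVars false
set_option maxHeartbeats 800000

noncomputable section

namespace FLTAgent.FlatModel

open AlgebraicCurve ModularCurve FLTAgent.FunctionField

local notation "Qbar" => AlgebraicClosure ℚ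

/-- Generation over an image transports along an automorphism preserving the second generators. -/
theorem adjoin_range_comp_eq_top {K A B Z : Type*} [Field K] [Field A] [Field B] [Field Z]
    [Algebra K A] [Algebra K B] [Algebra K Z] (a : A →ₐ[K] Z) (g : B →ₐ[K] Z) (w : Z ≃ₐ[K] Z)
    (hw : ∀ x, ∃ y, w (g x) = g y)
    (h : letI := algebraAlong a; Algebra.adjoin A (Set.range g) = ⊤) :
    letI := algebraAlong (w.toAlgHom.comp a); Algebra.adjoin A (Set.range g) = ⊤ := by
  have hcl : ∀ z, z ∈ Subring.closure (Set.range a ∪ Set.range g) := by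
    intro z
    letI := algebraAlong a
    have h1 : z ∈ (Algebra.adjoin A (Set.range g)).toSubring := by rw [h]; trivial
    rw [Algebra.adjoin_eq_ring_closure] at h1
    exact h1
  letI := algebraAlong (w.toAlgHom.comp a)
  refine eq_top_iff.2 fun z _ => ?_
  show z ∈ (Algebra.adjoin A (Set.range g)).toSubring
  rw [Algebra.adjoin_eq_ring_closure]
  have h2 : Subring.closure (Set.range a ∪ Set.range g) ≤
      (Subring.closure (Set.range (algebraMap A Z) ∪ Set.range g)).comap
        (w.toAlgHom.toRingHom) := by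
    refine Subring.closure_le.2 ?_
    rintro _ (⟨u, rfl⟩ | ⟨x, rfl⟩)
    · exact Subring.subset_closure (Or.inl ⟨u, rfl⟩)
    · obtain ⟨y, hy⟩ := hw x
      exact Subring.subset_closure (Or.inr ⟨y, hy.symm⟩)
  have h3 := h2 (hcl (w.symm z))
  rw [Subring.mem_comap] at h3
  simpa using h3

variable (M e p : ℕ) [NeZero M] [NeZero e] [NeZero p] [Fact p.Prime]

theorem gammaLevel : M * p * e ∣ M * e * p := ⟨1, by ring⟩

/-- The map `x(q) ↦ x(q^e)` from level `M` to level `M e`. -/
def gammaBase : Hecke.MF Qbar M →ₐ[Qbar] Hecke.MF Qbar (M * e) :=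
  Hecke.degMap Qbar e (dvd_refl (M * e))

/-- The map `x(q) ↦ x(q^e)` from level `M p` to level `M e p`. -/
def gammaTop : Hecke.MF Qbar (M * p) →ₐ[Qbar] Hecke.MF Qbar (M * e * p) :=
  Hecke.degMap Qbar e (gammaLevel M e p)

/-- The pullback along `gammaTop`. -/
def gammaPull : JZero (M * p) →+ JZero (M * e * p) := Eisen.pullPic e (gammaLevel M e p)

variable {M e p}

theorem gammaTop_alpha (x : Hecke.MF Qbar M) :
    gammaTop M e p (Semistable.alphaMap Qbar M p x) =
      Semistable.alphaMap Qbar (M * e) p (gammaBase M e x) :=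
  Hecke.degMap_comm Qbar 1 e e 1 _ _ _ _ (by ring) x

theorem gammaTop_beta (x : Hecke.MF Qbar M) :
    gammaTop M e p (Semistable.betaMap Qbar M p x) =
      Semistable.betaMap Qbar (M * e) p (gammaBase M e x) :=
  Hecke.degMap_comm Qbar p e e p _ _ _ _ (by ring) x

theorem adjoin_gamma_alpha :
    letI := algebraAlong (Semistable.alphaMap Qbar (M * e) p)
    Algebra.adjoin (Hecke.MF Qbar (M * e)) (Set.range (gammaTop M e p)) = ⊤ :=
  Hecke.adjoin_range_degMap (Hecke.levelFacts Qbar) (Hecke.degreeFacts Qbar) e _ _ (by ring)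

theorem swap_gammaTop {w : Hecke.MF Qbar (M * p) ≃ₐ[Qbar] Hecke.MF Qbar (M * p)}
    {w' : Hecke.MF Qbar (M * e * p) ≃ₐ[Qbar] Hecke.MF Qbar (M * e * p)}
    (hwα : ∀ u, w (Semistable.alphaMap Qbar M p u) = Semistable.betaMap Qbar M p u)
    (hwβ : ∀ u, w (Semistable.betaMap Qbar M p u) = Semistable.alphaMap Qbar M p u)
    (hwα' : ∀ u, w' (Semistable.alphaMap Qbar (M * e) p u) = Semistable.betaMap Qbar (M * e) p u)
    (hwβ' : ∀ u, w' (Semistable.betaMap Qbar (M * e) p u) = Semistable.alphaMap Qbar (M * e) p u)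
    (x : Hecke.MF Qbar (M * p)) : w' (gammaTop M e p x) = gammaTop M e p (w x) := by
  have key : w'.toAlgHom.comp (gammaTop M e p) = (gammaTop M e p).comp w.toAlgHom := by
    refine Semistable.algHom_MF_ext ?_ ?_
    · have e1 : (Hecke.jMF Qbar (M * p)) = Semistable.alphaMap Qbar M p (Hecke.jMF Qbar M) :=
        Subtype.ext (Semistable.coe_alphaMap Qbar M p (Hecke.jMF Qbar M)).symm
      show w' (gammaTop M e p _) = gammaTop M e p (w _)
      rw [e1, hwα, gammaTop_alpha, hwα', gammaTop_beta]
    · have e1 : (⟨Hecke.jd Qbar (M * p), Hecke.jd_mem Qbar dvd_rfl⟩ : Hecke.MF Qbar (M * p)) =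
          Semistable.betaMap Qbar M p ⟨Hecke.jd Qbar M, Hecke.jd_mem Qbar dvd_rfl⟩ := by
        refine Subtype.ext ?_
        rw [Semistable.coe_betaMap]
        show Hecke.jd Qbar (M * p) = qExpand Qbar p (Hecke.jd Qbar M)
        rw [Hecke.jd, Hecke.jd, qExpand_qExpand]
        exact qExpand_congr (mul_comm M p) _
      show w' (gammaTop M e p _) = gammaTop M e p (w _)
      rw [e1, hwβ, gammaTop_beta, hwβ', gammaTop_alpha]
  exact AlgHom.congr_fun key x

theorem adjoin_gamma_beta (hp : ¬ p ∣ M * e) :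
    letI := algebraAlong (Semistable.betaMap Qbar (M * e) p)
    Algebra.adjoin (Hecke.MF Qbar (M * e)) (Set.range (gammaTop M e p)) = ⊤ := by
  have hpM : ¬ p ∣ M := fun h => hp (h.mul_right e)
  obtain ⟨w, hwα, hwβ, -⟩ := Semistable.exists_swap Qbar M p Fact.out hpM
  obtain ⟨w', hwα', hwβ', -⟩ := Semistable.exists_swap Qbar (M * e) p Fact.out hp
  have eβ : Semistable.betaMap Qbar (M * e) p =
      w'.toAlgHom.comp (Semistable.alphaMap Qbar (M * e) p) := AlgHom.ext fun u => (hwα' u).symm
  rw [eβ]
  exact adjoin_range_comp_eq_top _ _ w'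
    (fun x => ⟨w x, swap_gammaTop hwα hwβ hwα' hwβ' x⟩) adjoin_gamma_alpha

theorem normAlong_gamma_alpha (hp : ¬ p ∣ M * e) (f : Hecke.MF Qbar (M * p)) :
    Hecke.normAlong (Semistable.alphaMap Qbar (M * e) p) (gammaTop M e p f) =
      gammaBase M e (Hecke.normAlong (Semistable.alphaMap Qbar M p) f) :=
  Hecke.normAlong_baseChange (gammaBase M e) (Semistable.alphaMap Qbar M p) (gammaTop M e p)
    (Semistable.alphaMap Qbar (M * e) p) (fun x => (gammaTop_alpha x).symm)
    ((Hecke.levelFacts Qbar).finite _ _ 1 _)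
    (by rw [Semistable.finrankAlong_alphaMap Qbar _ p Fact.out hp,
      Semistable.finrankAlong_alphaMap Qbar M p Fact.out fun h => hp (h.mul_right e)])
    adjoin_gamma_alpha f

theorem normAlong_gamma_beta (hp : ¬ p ∣ M * e) (f : Hecke.MF Qbar (M * p)) :
    Hecke.normAlong (Semistable.betaMap Qbar (M * e) p) (gammaTop M e p f) =
      gammaBase M e (Hecke.normAlong (Semistable.betaMap Qbar M p) f) :=
  Hecke.normAlong_baseChange (gammaBase M e) (Semistable.betaMap Qbar M p) (gammaTop M e p)
    (Semistable.betaMap Qbar (M * e) p) (fun x => (gammaTop_beta x).symm)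
    ((Hecke.levelFacts Qbar).finite _ _ p _)
    ((finrankAlong_beta hp).trans (finrankAlong_beta fun h => hp (h.mul_right e)).symm)
    (adjoin_gamma_beta hp) f

/-- Pullback commutes with a push-forward in a square where the norm commutes with base change. -/
theorem pushPic_gammaPull {d : ℕ} [NeZero d] (h : M * d ∣ M * p) (h' : M * e * d ∣ M * e * p)
    (hnorm : ∀ f, Hecke.normAlong (Hecke.degMap Qbar d h') (gammaTop M e p f) =
      gammaBase M e (Hecke.normAlong (Hecke.degMap Qbar d h) f)) (x : JZero (M * p)) :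
    LevelSq.pushPic d h' (gammaPull M e p x) =
      Eisen.pullPic e (dvd_refl (M * e)) (LevelSq.pushPic d h x) := by
  obtain ⟨D, rfl⟩ := Pic0.mk_surjective x
  rw [gammaPull, Eisen.pullPic_mk, LevelSq.pushPic_mk, LevelSq.pushPic_mk, Eisen.pullPic_mk]
  refine congrArg Pic0.mk (Subtype.ext ?_)
  have H := Hecke.levelFacts Qbar
  haveI := H.principal (M * e * p)
  haveI := H.principal (M * e)
  haveI := H.principal (M * p)
  exact (Hecke.pullbackAlong_pushforwardAlong (gammaBase M e) (Hecke.degMap Qbar d h)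
    (gammaTop M e p) (Hecke.degMap Qbar d h')
    (fun u => (Hecke.degMap_comm Qbar d e e d h (dvd_refl (M * e)) (gammaLevel M e p) h'
      (mul_comm e d) u).symm)
    (H.integral e _) (H.integral d h) (H.integral e _) (H.integral d h')
    (H.finite _ _ d h) (H.norm _ _ d h _) (H.finite _ _ d h') (H.norm _ _ d h' _) hnorm _).symm

/-- The pullback to level `M e p` preserves the common kernel of the push-forwards. -/
theorem push_gammaPull_eq_zero (hp : ¬ p ∣ M * e) {x : JZero (M * p)}
    (ha : alphaPush M p x = 0) (hb : betaPush M p x = 0) :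
    alphaPush (M * e) p (gammaPull M e p x) = 0 ∧ betaPush (M * e) p (gammaPull M e p x) = 0 := by
  constructor
  · rw [alphaPush, pushPic_gammaPull (alphaLevel M p) (alphaLevel (M * e) p)
      (normAlong_gamma_alpha hp), ← alphaPush, ha, map_zero]
  · rw [betaPush, pushPic_gammaPull (dvd_refl (M * p)) (dvd_refl (M * e * p))
      (normAlong_gamma_beta hp), ← betaPush, hb, map_zero]

theorem finrankAlong_gammaTop_ne_zero : finrankAlong Qbar (gammaTop M e p) ≠ 0 := by
  letI := algebraAlong (gammaTop M e p)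
  haveI : Module.Finite (Hecke.MF Qbar (M * p)) (Hecke.MF Qbar (M * e * p)) :=
    (Hecke.levelFacts Qbar).finite _ _ e (gammaLevel M e p)
  exact Module.finrank_pos.ne'

theorem nsmul_eq_zero_of_gammaPull {x : JZero (M * p)} (h : gammaPull M e p x = 0) :
    finrankAlong Qbar (gammaTop M e p) • x = 0 := by
  rw [gammaTop, ← Eisen.pushPic_pullPic, ← gammaPull, h, map_zero]

end FLTAgent.FlatModel
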