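import Fermat.Agent.FlatModel.InertiaBase
import Fermat.Agent.FlatModel.Comap
import Fermat.Agent.GalRep.MatModel

/-!
# The levels of a matrix model as Galois and Hecke modules, and the geometric input
-/

set_option autoImplicit false

namespace FLTAgent.FlatModel

open GalRep Matrix

local notation "Γℚ" => AlgebraicClosure ℚ ≃ₐ[ℚ] AlgebraicClosure ℚ

variable {N : ℕ} [NeZero N] {p : ℕ} [Fact p.Prime] {S : Set ℕ}

/-- The `p ^ n`-level of a matrix model. -/
abbrev LevelVec (M : MatModel N p S) (n : ℕ) : Type := Fin M.r → ZMod (p ^ n)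

/-- The Galois action on a level. -/
noncomputable def levelAct (M : MatModel N p S) (n : ℕ) :
    Γℚ →* AddMonoid.End (LevelVec M n) where
  toFun g := (Matrix.mulVecLin (redP p n (M.G g))).toAddMonoidHom
  map_one' := by
    refine AddMonoidHom.ext fun v => ?_
    show redP p n (M.G 1) *ᵥ v = v
    rw [map_one, map_one, Matrix.one_mulVec]
  map_mul' g h := by
    refine AddMonoidHom.ext fun v => ?_
    show redP p n (M.G (g * h)) *ᵥ v = redP p n (M.G g) *ᵥ (redP p n (M.G h) *ᵥ v)
    rw [map_mul, map_mul, Matrix.mulVec_mulVec]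

theorem levelAct_apply (M : MatModel N p S) (n : ℕ) (g : Γℚ) (v : LevelVec M n) :
    levelAct M n g v = redP p n (M.G g) *ᵥ v := rfl

/-- The inertia action on a level. -/
noncomputable def levelInertia (M : MatModel N p S) (n : ℕ)
    (A : ValuationSubring (AlgebraicClosure ℚ)) :
    inertiaRing A →* AddMonoid.End (LevelVec M n) :=
  (levelAct M n).comp (inertiaHom A)

/-- The geometric input at a semistable place: inertia moves every level into a subgroup which has
an integral model. -/
def HasInertiaModels (M : MatModel N p S) (A : ValuationSubring (AlgebraicClosure ℚ)) : Prop :=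
  ∀ n, ∃ (GA : AddSubgroup (LevelVec M n))
      (hGA : ∀ τ, ∀ x ∈ GA, levelInertia M n A τ x ∈ GA),
    (∀ τ x, levelInertia M n A τ x - x ∈ GA) ∧
      ∃ H : Submodule (baseRing A (inertiaRing A)) (GA → AlgebraicClosure ℚ),
        IsModel (restrictAction (levelInertia M n A) GA hGA) H

end FLTAgent.FlatModel
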