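import Mathlib.RingTheory.Nakayama
import Mathlib.RingTheory.Finiteness.Basic
import Mathlib.RingTheory.Noetherian.Basic
import Mathlib.Algebra.Module.Torsion.Basic

/-!
# Cutting a finite module down to one maximal ideal
-/

set_option autoImplicit false

namespace FLTAgent.FlatModel

/-- Some element outside `𝔪` maps a finite module into the part killed by a power of `𝔪`. -/
theorem exists_localiser {R : Type*} [CommRing R] (𝔪 : Ideal R) (h𝔪 : 𝔪 ≠ ⊤) (V : Type*)
    [AddCommGroup V] [Module R V] [Finite V] :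
    ∃ e : R, e ∉ 𝔪 ∧ ∃ L : ℕ, ∀ a ∈ 𝔪 ^ L, ∀ v : V, a • e • v = 0 := by
  let W : ℕ → Submodule R V := fun k => 𝔪 ^ k • ⊤
  have : Finite (Submodule R V) := Finite.of_injective _ SetLike.coe_injective
  obtain ⟨k, l, hne, hkl⟩ := Finite.exists_ne_map_eq_of_infinite W
  wlog hlt : k < l generalizing k l
  · exact this l k hne.symm hkl.symm (lt_of_le_of_ne (not_lt.1 hlt) hne.symm)
  have hle : W k ≤ 𝔪 • W k := by
    have h1 : W l ≤ W (k + 1) :=
      Submodule.smul_mono_left (Ideal.pow_le_pow_right hlt)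
    rw [← hkl] at h1
    refine h1.trans (le_of_eq ?_)
    show 𝔪 ^ (k + 1) • (⊤ : Submodule R V) = 𝔪 • (𝔪 ^ k • ⊤)
    rw [pow_succ', Submodule.mul_smul]
  obtain ⟨r, hr1, hr⟩ := Submodule.exists_sub_one_mem_and_smul_eq_zero_of_fg_of_le_smul 𝔪 (W k)
    (IsNoetherian.noetherian _) hle
  refine ⟨r, fun hr' => h𝔪 ((Ideal.eq_top_iff_one _).2 (by simpa using 𝔪.sub_mem hr' hr1)), k,
    fun a ha v => ?_⟩
  rw [smul_comm]
  exact hr _ (Submodule.smul_mem_smul ha Submodule.mem_top)

end FLTAgent.FlatModel
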