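import Fermat.Agent.FlatModel.InertiaBase
import Fermat.Agent.FlatModel.HopfOfFunctions
import Fermat.Agent.FlatModel.Basic
import Fermat.Agent.FlatModel.EqFun
import Fermat.Agent.FlatModel.Specialise

/-!
# The base change of a function model to the inertia base is an integral model
-/

set_option autoImplicit false

noncomputable section

namespace FLTAgent.FlatModel

open scoped TensorProduct

local notation "Qbar" => AlgebraicClosure ℚ
local notation "Γℚ" => AlgebraicClosure ℚ ≃ₐ[ℚ] AlgebraicClosure ℚ

variable {l : ℕ} {A : ValuationSubring Qbar}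

theorem algebraMap_ratLocalizedAt_mem_baseRing [Fact l.Prime] (hA : A.LiesOverPrime l)
    (r : ↥(GaloisRep.ratLocalizedAt l)) :
    algebraMap ↥(GaloisRep.ratLocalizedAt l) Qbar r ∈ baseRing A (inertiaRing A) :=
  ⟨mem_of_isIntegral_ratLocalizedAt hA isIntegral_algebraMap, fun τ hτ => by
    obtain ⟨σ, -, rfl⟩ := hτ
    exact map_algebraMap_ratLocalizedAt l σ r⟩

/-- The span of a function model of a finite levelled Galois module is a model over the inertia
base. -/
theorem isModel_span_functionModel [Fact l.Prime] (hA : A.LiesOverPrime l) {G : Type}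
    [AddCommGroup G] [DistribMulAction Γℚ G] [Finite G] (hlev : IsLevelled G)
    (M : FunctionModel l G) :
    IsModel ((DistribMulAction.toAddMonoidEnd Γℚ G).comp (inertiaHom A))
      (Submodule.span (baseRing A (inertiaRing A)) (M.H : Set (G → Qbar))) := by
  classical
  have : Algebra.IsAlgebraic ℚ Qbar := AlgebraicClosure.isAlgebraic ℚ
  have := finite_of_le_intFun hlev M.le_intFun
  obtain ⟨g, hg⟩ := Module.Finite.fg_top (R := ↥(GaloisRep.ratLocalizedAt l)) (M := M.H)
  set H := Submodule.span (baseRing A (inertiaRing A)) (M.H : Set (G → Qbar))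
    with hH
  have hmem : ∀ f : M.H, f.1 ∈ H := fun f => Submodule.subset_span f.2
  have hfg : H.FG := by
    refine ⟨g.image Subtype.val, le_antisymm (Submodule.span_mono fun f hf => ?_)
      (Submodule.span_le.2 fun f hf => ?_)⟩
    · obtain ⟨f, -, rfl⟩ := Finset.mem_image.1 hf
      exact f.2
    · have h : (⟨f, hf⟩ : M.H) ∈ Submodule.span ↥(GaloisRep.ratLocalizedAt l) (g : Set M.H) :=
        hg ▸ Submodule.mem_top
      suffices ∀ f' : M.H, f' ∈ Submodule.span ↥(GaloisRep.ratLocalizedAt l) (g : Set M.H) →
          f'.1 ∈ Submodule.span (baseRing A (inertiaRing A))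
            (g.image Subtype.val : Set (G → Qbar)) from this _ h
      intro f' hf'
      induction hf' using Submodule.span_induction with
      | mem y hy => exact Submodule.subset_span (Finset.mem_image_of_mem _ hy)
      | zero => exact Submodule.zero_mem _
      | add y z _ _ hy hz => exact Submodule.add_mem _ hy hz
      | smul r y _ hy =>
        have e : ((r • y : M.H) : G → Qbar)
            = (⟨_, algebraMap_ratLocalizedAt_mem_baseRing hA r⟩ : baseRing A (inertiaRing A)) •
              (y : G → Qbar) :=
          funext fun v => by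
            simp only [Pi.smul_apply, Algebra.smul_def]
            rfl
        rw [e]
        exact Submodule.smul_mem _ _ hy
  refine ⟨hfg, Submodule.subset_span (one_mem M.H), ?_, ?_, ?_, ?_, ?_⟩
  · intro f hf f' hf'
    induction hf using Submodule.span_induction with
    | mem f hf =>
      induction hf' using Submodule.span_induction with
      | mem f' hf' => exact Submodule.subset_span (mul_mem hf hf')
      | zero => rw [mul_zero]; exact H.zero_mem
      | add a b _ _ ha hb => rw [mul_add]; exact H.add_mem ha hb
      | smul t a _ ha => rw [mul_smul_comm]; exact H.smul_mem t ha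
    | zero => rw [zero_mul]; exact H.zero_mem
    | add a b _ _ ha hb => rw [add_mul]; exact H.add_mem ha hb
    | smul t a _ ha => rw [smul_mul_assoc]; exact H.smul_mem t ha
  · intro f hf v
    induction hf using Submodule.span_induction with
    | mem f hf =>
      exact mem_of_isIntegral_ratLocalizedAt hA
        ((mem_intFun.1 (M.le_intFun hf)).2 v)
    | zero => exact zero_mem A
    | add a b _ _ ha hb => exact add_mem ha hb
    | smul t a _ ha => exact baseRing_smul_mem t ha
  · intro f hf
    induction hf using Submodule.span_induction with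
    | mem f hf =>
      intro τ v
      exact (M.le_eqFun hf) (inertiaHom A τ) v
    | zero => intro τ v; exact (map_zero _).symm
    | add a b _ _ ha hb =>
      intro τ v
      rw [Pi.add_apply, Pi.add_apply, map_add, ha, hb]
    | smul t a _ ha => exact isEquivariant_smul ha t
  · exact fun v w h => M.separates v w fun f => h _ (hmem f)
  · intro f hf
    induction hf using Submodule.span_induction with
    | mem f hf =>
      obtain ⟨T, hT⟩ := M.add_mem ⟨f, hf⟩
      suffices ∀ T : M.H ⊗[↥(GaloisRep.ratLocalizedAt l)] M.H,
          ∃ (n : ℕ) (a b : Fin n → G → Qbar), (∀ i, a i ∈ H) ∧ (∀ i, b i ∈ H) ∧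
            ∀ v w, prodFun M.H M.H.val T (v, w) = ∑ i, a i v * b i w by
        obtain ⟨n, a, b, ha, hb, hab⟩ := this T
        refine ⟨n, a, b, ha, hb, fun v w => ?_⟩
        rw [← hab]
        exact (congrFun hT (v, w)).symm
      intro T
      induction T using TensorProduct.induction_on with
      | zero =>
        exact ⟨0, Fin.elim0, Fin.elim0, fun i => i.elim0, fun i => i.elim0, fun v w => by simp⟩
      | tmul a b =>
        exact ⟨1, fun _ => a.1, fun _ => b.1, fun _ => hmem a, fun _ => hmem b,
          fun v w => by simp⟩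
      | add a b ha hb =>
        obtain ⟨n, a₁, b₁, ha₁, hb₁, h₁⟩ := ha
        obtain ⟨m, a₂, b₂, ha₂, hb₂, h₂⟩ := hb
        refine ⟨n + m, Fin.append a₁ a₂, Fin.append b₁ b₂, fun i => ?_, fun i => ?_,
          fun v w => ?_⟩
        · induction i using Fin.addCases <;> simp [ha₁, ha₂]
        · induction i using Fin.addCases <;> simp [hb₁, hb₂]
        · rw [map_add, Pi.add_apply, h₁, h₂, Fin.sum_univ_add]
          simp
    | zero =>
      exact ⟨0, Fin.elim0, Fin.elim0, fun i => i.elim0, fun i => i.elim0, fun v w => by simp⟩
    | add a b _ _ ha hb =>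
      obtain ⟨n, a₁, b₁, ha₁, hb₁, h₁⟩ := ha
      obtain ⟨m, a₂, b₂, ha₂, hb₂, h₂⟩ := hb
      refine ⟨n + m, Fin.append a₁ a₂, Fin.append b₁ b₂, fun i => ?_, fun i => ?_, fun v w => ?_⟩
      · induction i using Fin.addCases <;> simp [ha₁, ha₂]
      · induction i using Fin.addCases <;> simp [hb₁, hb₂]
      · rw [Pi.add_apply, h₁, h₂, Fin.sum_univ_add]
        simp
    | smul t a _ ha =>
      obtain ⟨n, a₁, b₁, ha₁, hb₁, h₁⟩ := ha
      refine ⟨n, fun i => t • a₁ i, b₁, fun i => H.smul_mem t (ha₁ i), hb₁, fun v w => ?_⟩
      simp only [Pi.smul_apply, h₁, Finset.smul_sum, smul_mul_assoc]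

/-- A function model of a finite levelled Galois module gives a model over the inertia base. -/
theorem exists_isModel_of_functionModel [Fact l.Prime] (hA : A.LiesOverPrime l) {G : Type}
    [AddCommGroup G] [DistribMulAction Γℚ G] [Finite G] (hlev : IsLevelled G)
    (M : FunctionModel l G) :
    ∃ H : Submodule (baseRing A (inertiaRing A)) (G → Qbar),
      IsModel ((DistribMulAction.toAddMonoidEnd Γℚ G).comp (inertiaHom A)) H :=
  ⟨_, isModel_span_functionModel hA hlev M⟩

end FLTAgent.FlatModel
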