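import Fermat.Agent.Semistable.LevelW
import Fermat.Agent.Eisen.LevelPull
import Fermat.Agent.FlatModel.HeckeEigenBound
import Fermat.Agent.JTors.Model
import Mathlib.RingTheory.IntegralClosure.IsIntegralClosure.Basic

/-!
# The two degeneracy maps between `J₀(M p)` and `J₀(M)`, `p ∤ M`

The composite `(α_*, β_*) ∘ (α^*, β^*)` is `[[p + 1, T p], [T p, p + 1]]`, invertible up to a nonzero
integer on `p`-power torsion, so `J₀(M p)` splits up to that integer into the common kernel of the
push-forwards and the image of the pull-backs.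
-/

set_option autoImplicit false
set_option linter.style.haveILetI false
set_option linter.unusedSectionVars false
set_option maxHeartbeats 1000000

noncomputable section

namespace FLTAgent.FlatModel

open AlgebraicCurve ModularCurve Polynomial FLTAgent.FunctionField

local notation "Qbar" => AlgebraicClosure ℚ
local notation "Γℚ" => AlgebraicClosure ℚ ≃ₐ[ℚ] AlgebraicClosure ℚ

section Equiv

variable {K F F' : Type*} [Field K] [Field F] [Field F'] [Algebra K F] [Algebra K F']

theorem finrankAlong_algEquiv (w : F ≃ₐ[K] F') : finrankAlong K w.toAlgHom = 1 := by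
  letI := algebraAlong w.toAlgHom
  show Module.finrank F F' = 1
  refine finrank_eq_one (1 : F') one_ne_zero fun z => ⟨w.symm z, ?_⟩
  rw [Algebra.smul_def, mul_one]
  exact w.apply_symm_apply z

end Equiv

theorem map_aeval_apply {A B : Type*} [AddCommGroup A] [AddCommGroup B] {T : Module.End ℤ A}
    {T' : Module.End ℤ B} (g : A →+ B) (hg : ∀ a, g (T a) = T' (g a)) (S : ℤ[X]) (a : A) :
    g (aeval T S a) = aeval T' S (g a) := by
  induction S using Polynomial.induction_on generalizing a with
  | C c =>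
    rw [aeval_C, aeval_C, eq_intCast, eq_intCast, Module.End.intCast_apply,
      Module.End.intCast_apply, map_zsmul]
  | add S S' hS hS' =>
    rw [map_add, map_add, LinearMap.add_apply, LinearMap.add_apply, map_add, hS, hS']
  | monomial m c ih =>
    rw [pow_succ, ← mul_assoc, map_mul (aeval T) (C c * X ^ m), map_mul (aeval T') (C c * X ^ m),
      aeval_X, aeval_X, Module.End.mul_apply,
      Module.End.mul_apply, ih, hg]

theorem aeval_quad {R : Type*} [CommRing R] (x : R) (c : ℤ) :
    aeval x (C c - X ^ 2) = (c : R) - x * x := by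
  rw [map_sub, aeval_C, map_pow, aeval_X, sq, eq_intCast]

theorem quad_mul_apply {A : Type*} [AddCommGroup A] (T : Module.End ℤ A) (R : ℤ[X]) (s : ℕ) (y : A) :
    aeval T ((C ((s : ℤ) ^ 2) - X ^ 2) * R) y = s • s • aeval T R y - T (T (aeval T R y)) := by
  rw [map_mul, Module.End.mul_apply, map_sub, aeval_C, map_pow (aeval T) X, aeval_X, LinearMap.sub_apply,
    eq_intCast, Module.End.intCast_apply, sq T, Module.End.mul_apply, smul_smul, ← natCast_zsmul _
      (s * s), Nat.cast_mul, sq]

theorem quad_identity {A : Type*} [AddCommGroup A] (s : ℕ) (T Q : Module.End ℤ A)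
    (hQT : ∀ y, Q (T y) = T (Q y)) (a b : A) :
    s • Q (s • a - T b) + T (Q (s • b - T a)) = s • s • Q a - T (T (Q a)) := by
  simp only [map_sub, map_nsmul, smul_sub, hQT]
  abel

variable (M p : ℕ) [NeZero M] [Fact p.Prime] [NeZero p]

theorem alphaLevel : M * 1 ∣ M * p := mul_dvd_mul_left M (one_dvd p)

/-- The pushforward along the first degeneracy map. -/
def alphaPush : JZero (M * p) →+ JZero M := LevelSq.pushPic 1 (alphaLevel M p)

/-- The pushforward along the second degeneracy map. -/
def betaPush : JZero (M * p) →+ JZero M := LevelSq.pushPic p (dvd_refl (M * p))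

/-- The pullback along the first degeneracy map. -/
def alphaPull : JZero M →+ JZero (M * p) := Eisen.pullPic 1 (alphaLevel M p)

/-- The pullback along the second degeneracy map. -/
def betaPull : JZero M →+ JZero (M * p) := Eisen.pullPic p (dvd_refl (M * p))

/-- The operator `T p` of level `M`. -/
def tOp : Module.End ℤ (JZero M) := heckeOperatorBar M ⟨p, Fact.out⟩

variable {M p}

theorem tOp_smul (σ : Γℚ) (x : JZero M) : tOp M p (σ • x) = σ • tOp M p x :=
  Hecke.heckeOperatorBar_galois_smul_of_facts M (Hecke.levelFacts Qbar) _ σ x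

theorem finrankAlong_beta (hpM : ¬ p ∣ M) :
    finrankAlong Qbar (Hecke.degMap Qbar p (dvd_refl (M * p))) = p + 1 := by
  obtain ⟨w, hw, -, -⟩ := Semistable.exists_swap Qbar M p Fact.out hpM
  have e : Hecke.degMap Qbar p (dvd_refl (M * p)) =
      w.toAlgHom.comp (Semistable.alphaMap Qbar M p) := AlgHom.ext fun u => (hw u).symm
  rw [e, Hecke.finrankAlong_comp, finrankAlong_algEquiv, mul_one,
    Semistable.finrankAlong_alphaMap Qbar M p Fact.out hpM]

theorem alphaPush_alphaPull (hpM : ¬ p ∣ M) (x : JZero M) :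
    alphaPush M p (alphaPull M p x) = (p + 1) • x := by
  rw [alphaPush, alphaPull, Eisen.pushPic_pullPic]
  exact congrArg (· • x) (Semistable.finrankAlong_alphaMap Qbar M p Fact.out hpM)

theorem betaPush_betaPull (hpM : ¬ p ∣ M) (x : JZero M) :
    betaPush M p (betaPull M p x) = (p + 1) • x := by
  rw [betaPush, betaPull, Eisen.pushPic_pullPic, finrankAlong_beta hpM]

theorem alphaPush_betaPull (x : JZero M) :
    alphaPush M p (betaPull M p x) = tOp M p x := by
  obtain ⟨D, rfl⟩ := Pic0.mk_surjective x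
  have H := Hecke.levelFacts Qbar
  haveI := H.principal (M * p)
  have hα := Hecke.alphaBarIntegral_of_facts H M p
  have hβ := Hecke.betaBarIntegral_of_facts H M p
  show alphaPush M p (betaPull M p (Pic0.mk D)) = heckeOperatorAlong Qbar M p (Pic0.mk D)
  rw [Hecke.heckeOperatorAlong_mk H M p D hα hβ (Hecke.heckeDivBar_mem_degZero H M p hα hβ D),
    betaPull, alphaPush, Eisen.pullPic_mk, LevelSq.pushPic_mk]
  exact congrArg Pic0.mk (Subtype.ext (Hecke.heckeDivBar_eq H M p hα hβ (alphaLevel M p) _).symm)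

theorem betaPush_alphaPull (hpM : ¬ p ∣ M) (x : JZero M) :
    betaPush M p (alphaPull M p x) = tOp M p x := by
  rw [← alphaPush_betaPull]
  obtain ⟨D, rfl⟩ := Pic0.mk_surjective x
  rw [betaPush, alphaPull, alphaPush, betaPull, Eisen.pullPic_mk, Eisen.pullPic_mk,
    LevelSq.pushPic_mk, LevelSq.pushPic_mk]
  refine congrArg Pic0.mk (Subtype.ext ?_)
  have H := Hecke.levelFacts Qbar
  haveI := H.principal (M * p)
  haveI : IsFunctionField Qbar (Hecke.MF Qbar M) := GoodRed.instIsFunctionFieldBar M
  haveI : IsFunctionField Qbar (Hecke.MF Qbar (M * p)) := GoodRed.instIsFunctionFieldBar (M * p)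
  obtain ⟨w, hwα, hwβ, -⟩ := Semistable.exists_swap Qbar M p Fact.out hpM
  set α := Hecke.degMap Qbar 1 (alphaLevel M p)
  set β := Hecke.degMap Qbar p (dvd_refl (M * p))
  have hα := H.integral 1 (alphaLevel M p)
  have hβ := H.integral p (dvd_refl (M * p))
  have hw : w.toAlgHom.toRingHom.IsIntegral :=
    RingHom.isIntegral_of_surjective _ w.surjective
  have eβ : β = w.toAlgHom.comp α := AlgHom.ext fun u => (hwα u).symm
  have eα : α = w.toAlgHom.comp β := AlgHom.ext fun u => (hwβ u).symm
  show Divisor.pushforwardAlong β hβ (Divisor.pullbackAlong α hα (D : Divisor Qbar _)) =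
    Divisor.pushforwardAlong α hα (Divisor.pullbackAlong β hβ (D : Divisor Qbar _))
  rw [Hecke.pullbackAlong_congr eα hα (Hecke.isIntegral_comp hβ hw),
    Hecke.pullbackAlong_comp β w.toAlgHom hβ hw,
    Hecke.pushforwardAlong_congr eβ hβ (Hecke.isIntegral_comp hα hw),
    Hecke.pushforwardAlong_comp α w.toAlgHom (H.deg_pos M) hα hw,
    Eisen.pushforwardAlong_pullbackAlong w.toAlgHom hw (fundamentalIdentityAlong w.toAlgHom hw)
      (fun v => deg_eq_one v) (fun v => deg_eq_one v),
    finrankAlong_algEquiv, one_smul]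

/-- A polynomial in `T p` inverting `(p + 1)² - T p²` on `p`-power torsion up to a nonzero
integer. -/
theorem exists_quasiInverse (hpM : ¬ p ∣ M) :
    ∃ (R : ℤ[X]) (D : ℕ), D ≠ 0 ∧ ∀ (n : ℕ) (x : JZero M), p ^ n • x = 0 →
      aeval (tOp M p) ((C (((p : ℤ) + 1) ^ 2) - X ^ 2) * R) x = D • x := by
  set MM := JTors.torsionModel M p
  set t : GalRep.awayHecke M := GalRep.awayT M Fact.out hpM
  set y : GalRep.awayHecke M := aeval t (C (((p : ℤ) + 1) ^ 2) - X ^ 2) with hy
  have hreg : ∀ z : GalRep.awayHecke M, y * z = 0 → z = 0 := fun z hz => by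
    refine Subtype.ext (LinearMap.ext fun f => eq_zero_of_sq_sub_heckeT_sq Fact.out hpM ?_)
    rw [hy, aeval_quad] at hz
    have h := LinearMap.congr_fun (congrArg Subtype.val hz) f
    rw [sub_mul, AddSubgroupClass.coe_sub, LinearMap.sub_apply] at h
    have h' := sub_eq_zero.1 h
    simp only [MulMemClass.coe_mul, SubringClass.coe_intCast, Module.End.mul_apply,
      Module.End.intCast_apply] at h'
    refine Eq.trans ?_ h'
    rw [← Int.cast_smul_eq_zsmul ℂ]
    push_cast
    rfl
  have hint : IsIntegral ℤ y := (isIntegral_algHom_iff MM.act.toIntAlgHom MM.act_injective).1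
    (IsIntegral.of_finite ℤ _)
  set P := minpoly ℤ y
  obtain ⟨Q, hQ⟩ : X ∣ P - C (P.coeff 0) := X_dvd_iff.2 (by simp)
  have hP0 : P.coeff 0 ≠ 0 := fun h0 => by
    rw [h0, map_zero, sub_zero] at hQ
    have hQm : Q.Monic := monic_X.of_mul_monic_left (hQ ▸ minpoly.monic hint)
    have hz : y * aeval y Q = 0 := by
      have := minpoly.aeval ℤ y
      rwa [show minpoly ℤ y = X * Q from hQ, map_mul, aeval_X] at this
    have hle := natDegree_le_natDegree (minpoly.min ℤ y hQm (hreg _ hz))
    rw [show minpoly ℤ y = X * Q from hQ, natDegree_X_mul hQm.ne_zero] at hle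
    omega
  set ε : ℤ := Int.sign (P.coeff 0)
  refine ⟨C (-ε) * Q.comp (C (((p : ℤ) + 1) ^ 2) - X ^ 2), (P.coeff 0).natAbs,
    Int.natAbs_ne_zero.2 hP0, fun n x hx => ?_⟩
  have key : aeval t ((C (((p : ℤ) + 1) ^ 2) - X ^ 2) *
      (C (-ε) * Q.comp (C (((p : ℤ) + 1) ^ 2) - X ^ 2))) = ((P.coeff 0).natAbs : ℤ) • 1 := by
    rw [map_mul, map_mul, aeval_C, aeval_comp, ← hy]
    have h := congrArg (aeval y) hQ
    rw [map_sub, minpoly.aeval, map_mul, aeval_X, aeval_C, zero_sub] at h
    rw [← Int.sign_mul_self_eq_natAbs, mul_left_comm, ← h, zsmul_one, eq_intCast, eq_intCast]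
    push_cast
    ring
  obtain ⟨h, rfl⟩ := MM.exists_proj n x hx
  have hproj : ∀ (S : ℤ[X]) (h : MM.H),
      aeval (tOp M p) S (MM.proj n h) = MM.proj n (MM.act (aeval t S) h) := fun S h => by
    rw [show MM.act (aeval t S) = aeval (MM.act t) S from
      (aeval_algHom_apply MM.act.toIntAlgHom t S).symm]
    exact (map_aeval_apply (MM.proj n) (fun a => MM.proj_act n p Fact.out hpM a) S h).symm
  rw [hproj, key, map_zsmul, map_one, LinearMap.smul_apply, Module.End.one_apply, map_zsmul,
    natCast_zsmul]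

theorem exists_isogeny (hpM : ¬ p ∣ M) :
    ∃ (D : ℕ) (f : AddMonoid.End (JZero (M * p))), D ≠ 0 ∧
      (∀ (g : Γℚ) x, f (g • x) = g • f x) ∧
      (∀ x, alphaPush M p x = 0 → betaPush M p x = 0 → f x = 0) ∧
      ∀ (n : ℕ) x, p ^ n • x = 0 →
        D • x - f x ∈ (alphaPush M p).ker ⊓ (betaPush M p).ker := by
  obtain ⟨R, D, hD, hR⟩ := exists_quasiInverse hpM
  set T := tOp M p with hT
  set Q := aeval T R with hQ
  set s : Module.End ℤ (JZero M) := ((p + 1 : ℕ) : Module.End ℤ (JZero M)) with hs
  have hsa : ∀ y, s y = (p + 1) • y := fun y => Module.End.natCast_apply _ _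
  have hQT : ∀ y, Q (T y) = T (Q y) := fun y => by
    have h : aeval T (R * X) = aeval T (X * R) := by rw [mul_comm]
    rw [map_mul, map_mul, aeval_X] at h
    exact LinearMap.congr_fun h y
  have hQg : ∀ (g : Γℚ) y, Q (g • y) = g • Q y := fun g y =>
    (map_aeval_apply (DistribSMul.toAddMonoidHom (JZero M) g) (fun a => (tOp_smul g a).symm) R y).symm
  let u : JZero (M * p) →+ JZero M :=
    s.toAddMonoidHom.comp (alphaPush M p) - T.toAddMonoidHom.comp (betaPush M p)
  let v : JZero (M * p) →+ JZero M :=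
    s.toAddMonoidHom.comp (betaPush M p) - T.toAddMonoidHom.comp (alphaPush M p)
  let f : AddMonoid.End (JZero (M * p)) :=
    (alphaPull M p).comp (Q.toAddMonoidHom.comp u) + (betaPull M p).comp (Q.toAddMonoidHom.comp v)
  have hf : ∀ x, f x = alphaPull M p (Q ((p + 1) • alphaPush M p x - T (betaPush M p x))) +
      betaPull M p (Q ((p + 1) • betaPush M p x - T (alphaPush M p x))) := fun x => by
    rw [← hsa, ← hsa]; rfl
  clear_value f
  refine ⟨D, f, hD, fun g x => ?_, fun x ha hb => ?_, fun n x hx => ?_⟩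
  · have hlin : ∀ (m : ℕ) (a b : JZero M), g • (m • a - T b) = m • (g • a) - T (g • b) :=
      fun m a b => by
        rw [hT, tOp_smul]
        exact (map_sub (DistribSMul.toAddMonoidHom (JZero M) g) _ _).trans
          (congrArg₂ _ (GalRep.smul_nsmul_jZero g m a) rfl)
    have hadd : ∀ a b : JZero (M * p), g • (a + b) = g • a + g • b :=
      fun a b => map_add (DistribSMul.toAddMonoidHom (JZero (M * p)) g) a b
    rw [hf, hf, hadd]
    simp only [alphaPush, betaPush, alphaPull, betaPull, LevelSq.pushPic_smul, ← Eisen.pullPic_smul,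
      ← hQg, hlin]
  · rw [hf, ha, hb, nsmul_zero, map_zero, sub_zero, map_zero, map_zero, map_zero, add_zero]
  · have hkey : ∀ y : JZero M, p ^ n • y = 0 →
        (p + 1) • (p + 1) • Q y - T (T (Q y)) = D • y := fun y hy => by
      have h := hR n y hy
      have h' := quad_mul_apply T R (p + 1) y
      rw [Nat.cast_add, Nat.cast_one] at h'
      exact h'.symm.trans h
    have ha := hkey (alphaPush M p x) (by rw [← map_nsmul, hx, map_zero])
    have hb := hkey (betaPush M p x) (by rw [← map_nsmul, hx, map_zero])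
    have hca := quad_identity (p + 1) T Q hQT (alphaPush M p x) (betaPush M p x)
    have hcb := quad_identity (p + 1) T Q hQT (betaPush M p x) (alphaPush M p x)
    refine AddSubgroup.mem_inf.2 ⟨?_, ?_⟩
    · rw [AddMonoidHom.mem_ker, map_sub, sub_eq_zero, map_nsmul, hf, map_add,
        alphaPush_alphaPull hpM, alphaPush_betaPull]
      exact ha.symm.trans hca.symm
    · rw [AddMonoidHom.mem_ker, map_sub, sub_eq_zero, map_nsmul, hf, map_add,
        betaPush_betaPull hpM, betaPush_alphaPull hpM]
      exact (hb.symm.trans hcb.symm).trans (add_comm _ _)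

end FLTAgent.FlatModel
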