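import Fermat.Agent.FlatModel.X0Curve
import Fermat.Agent.FlatModel.CurveModel
import Fermat.Agent.GalRep.OpenStab
import Fermat.Agent.JTors.Proj
import Fermat.Agent.Frobenius.Places

/-!
# Finite flat models of finite Galois submodules of the Jacobian of level `M` at `l ∤ M`
-/

set_option autoImplicit false
set_option linter.unusedSectionVars false
set_option synthInstance.maxHeartbeats 100000

noncomputable section

open ModularCurve IsLocalRing AlgebraicCurve

namespace FLTAgent.FlatModel

open FLTAgent.FunctionField FLTAgent.GoodRed FLTAgent.Frobenius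

local notation "Qbar" => AlgebraicClosure ℚ

/-- Equality of genus of the curve of level `M` and of its reduction at every place above `l`. -/
def GenusEqAt (M l : ℕ) [NeZero M] : Prop :=
  ∀ A : ValuationSubring (AlgebraicClosure ℚ), A.LiesOverPrime l →
    genusFF (AlgebraicClosure ℚ) (modularFunctionFieldBar M) =
      genusFF (ResidueField A) (modularFunctionFieldFullC (ResidueField A) M)

theorem genusEqAt_of_five_le {M l : ℕ} [NeZero M] [Fact l.Prime] (hlM : ¬ l ∣ M) (hl : 5 ≤ l) :
    GenusEqAt M l :=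
  fun A hA => genusFF_eq_x0_of_five_le A hA M hlM hl

variable {l : ℕ} [Fact l.Prime] {M : ℕ} [NeZero M]

/-- The function model of a finite Galois module embedded in the Jacobian of level `M`. -/
theorem nonempty_functionModel_jZero (hlM : ¬ l ∣ M) (hg : GenusEqAt M l) {G : Type}
    [AddCommGroup G] [DistribMulAction Γℚ G] [Finite G] (hG : IsLevelled G) (ψ : G →+ JZero M)
    (hψ : ∀ (σ : Γℚ) (x : G), ψ (σ • x) = σ • ψ x) (hinj : Function.Injective ψ) :
    Nonempty (FunctionModel l G) := by
  obtain ⟨A, hA⟩ := exists_liesOverPrime (Fact.out : l.Prime)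
  have := isAlgClosed_residue A
  have := isFunctionField_fullC A hA M hlM
  obtain ⟨C⟩ := exists_x0CurveDatum A hA M hlM (hg A hA)
  obtain ⟨B⟩ := exists_goodBase C hA (fun x : G => ψ x)
  exact ⟨B.functionModel hA hψ hG id (fun _ _ => rfl) (fun x y => map_add ψ x y) hinj⟩

section Torsion

variable (N : ℕ) (n : ℕ)

/-- The action of Galois on the torsion. -/
@[reducible] def torsionByAction :
    DistribMulAction Γℚ ↥(Submodule.torsionBy ℤ (JZero N) (n : ℤ)) where
  smul σ x := ⟨σ • (x : JZero N), by
    rw [Submodule.mem_torsionBy_iff]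
    show (n : ℤ) • DistribSMul.toAddMonoidHom (JZero N) σ (x : JZero N) = 0
    rw [← map_zsmul, (Submodule.mem_torsionBy_iff _ _).1 x.2, map_zero]⟩
  one_smul x := Subtype.ext (one_smul _ (x : JZero N))
  mul_smul σ τ x := Subtype.ext (mul_smul σ τ (x : JZero N))
  smul_zero σ := Subtype.ext (smul_zero σ)
  smul_add σ x y := Subtype.ext (smul_add σ (x : JZero N) y)

variable [NeZero N]

theorem finite_torsionBy (hn : n ≠ 0) : Finite ↥(Submodule.torsionBy ℤ (JZero N) (n : ℤ)) := by
  have h : {x : JZero N | n • x = 0}.Finite := JTors.finite_jZero_torsion N hn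
  refine Set.Finite.to_subtype (h.subset fun x hx => ?_)
  rw [SetLike.mem_coe, Submodule.mem_torsionBy_iff, natCast_zsmul] at hx
  exact hx

theorem isLevelled_torsionBy (hn : n ≠ 0) :
    @IsLevelled ↥(Submodule.torsionBy ℤ (JZero N) (n : ℤ)) (torsionByAction N n).toMulAction := by
  obtain ⟨L, hL, h⟩ := GalRep.exists_common_level_set (JTors.finite_jZero_torsion N hn)
    (fun x _ => GalRep.isFiniteLevel_jZero N x)
  exact ⟨L, hL, fun σ hσ t => Subtype.ext (h σ hσ t (by
    have := t.2
    rw [Submodule.mem_torsionBy_iff, natCast_zsmul] at this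
    exact this))⟩

/-- Torsion of the Jacobian of level `N`, embedded equivariantly in that of level `M`, extends to
finite flat group schemes at `l`. -/
theorem exists_finiteFlat_torsion (hn : n ≠ 0) (hlM : ¬ l ∣ M) (hg : GenusEqAt M l)
    (ψ : ↥(Submodule.torsionBy ℤ (JZero N) (n : ℤ)) →+ JZero M)
    (hψ : ∀ (σ : Γℚ) (x y : ↥(Submodule.torsionBy ℤ (JZero N) (n : ℤ))),
      (y : JZero N) = σ • (x : JZero N) → ψ y = σ • ψ x)
    (hinj : Function.Injective ψ) :
    ∃ (H : Type) (_ : CommRing H) (_ : HopfAlgebra (GaloisRep.ratLocalizedAt l) H),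
      Module.Finite (GaloisRep.ratLocalizedAt l) H ∧ Module.Flat (GaloisRep.ratLocalizedAt l) H ∧
      Coalgebra.IsCocomm (GaloisRep.ratLocalizedAt l) H ∧
      ∃ e : WithConv (H →ₐ[GaloisRep.ratLocalizedAt l] Qbar) ≃
          ↥(Submodule.torsionBy ℤ (JZero N) (n : ℤ)),
        (∀ f g, e (f * g) = e f + e g) ∧
        ∀ (σ : Γℚ) (f g : WithConv (H →ₐ[GaloisRep.ratLocalizedAt l] Qbar)),
          (∀ h : H, g h = σ (f h)) → ((e g : JZero N)) = σ • (e f : JZero N) := by
  letI := torsionByAction N n
  have := finite_torsionBy N n hn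
  obtain ⟨F⟩ := nonempty_functionModel_jZero hlM hg (isLevelled_torsionBy N n hn) ψ
    (fun σ x => hψ σ x _ rfl) hinj
  obtain ⟨H, hR, hH, hfin, hflat, hco, e, he, hσ⟩ :=
    F.exists_finiteFlat (isLevelled_torsionBy N n hn)
  exact ⟨H, hR, hH, hfin, hflat, hco, e, he, fun σ f g h => congrArg Subtype.val (hσ σ f g h)⟩

end Torsion

end FLTAgent.FlatModel
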