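import Fermat.Agent.FlatModel.ModelOfFunction
import Fermat.Agent.FlatModel.X0AllPrimes
import Fermat.Agent.FlatModel.X0Torsion
import Fermat.Agent.FlatModel.TorsionTwoStep

/-!
# Models of the images of torsion in a Jacobian of level prime to `p`
-/

set_option autoImplicit false
set_option linter.style.haveILetI false

noncomputable section

namespace FLTAgent.FlatModel

open AlgebraicCurve ModularCurve

local notation "Qbar" => AlgebraicClosure ℚ
local notation "Γℚ" => AlgebraicClosure ℚ ≃ₐ[ℚ] AlgebraicClosure ℚ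

variable {N M p : ℕ} [NeZero N] [NeZero M] [Fact p.Prime]

/-- The image of the `p ^ n`-torsion under an equivariant map to a Jacobian with good reduction at
`p` carries an integral model. -/
theorem exists_model_of_hom (hpM : ¬ p ∣ M) {A : ValuationSubring Qbar} (hA : A.LiesOverPrime p)
    (φ : JZero N →+ JZero M) (hφ : ∀ (g : Γℚ) x, φ (g • x) = g • φ x) (n : ℕ) :
    ∃ (P : Type) (_ : AddCommGroup P) (π : jTors N p n →+ P)
      (σP : inertiaRing A →* AddMonoid.End P)
      (H : Submodule (baseRing A (inertiaRing A)) (P → Qbar)),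
      (∀ x : jTors N p n, π x = 0 ↔ (x : JZero N) ∈ φ.ker) ∧
      (∀ τ (x : JZero N) (hx : x ∈ jTors N p n) (hx' : jInertia N A τ x ∈ jTors N p n),
        π ⟨jInertia N A τ x, hx'⟩ = σP τ (π ⟨x, hx⟩)) ∧ IsModel σP H := by
  letI := torsionByAction M (p ^ n)
  have hn : p ^ n ≠ 0 := pow_ne_zero n (Fact.out : p.Prime).ne_zero
  have := finite_torsionBy M (p ^ n) hn
  have hlev := isLevelled_torsionBy M (p ^ n) hn
  set P := ↥(Submodule.torsionBy ℤ (JZero M) ((p ^ n : ℕ) : ℤ))
  obtain ⟨F⟩ := nonempty_functionModel_jZero hpM (genusEqAt_of_not_dvd hpM) (G := P) hlev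
    (Submodule.torsionBy ℤ (JZero M) ((p ^ n : ℕ) : ℤ)).subtype.toAddMonoidHom (fun _ _ => rfl)
    Subtype.val_injective
  obtain ⟨H, hH⟩ := exists_isModel_of_functionModel hA hlev F
  have hmem : ∀ x : jTors N p n, φ x ∈ Submodule.torsionBy ℤ (JZero M) ((p ^ n : ℕ) : ℤ) :=
    fun x => by
      rw [Submodule.mem_torsionBy_iff, natCast_zsmul, ← map_nsmul, mem_jTors.1 x.2, map_zero]
  let π : jTors N p n →+ P :=
    AddMonoidHom.mk' (fun x => ⟨φ x, hmem x⟩) fun a b => Subtype.ext (map_add φ _ _)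
  refine ⟨P, inferInstance, π, _, H, fun x => ?_, fun τ x hx hx' => ?_, hH⟩
  · exact (Subtype.ext_iff (a1 := π x) (a2 := 0)).trans AddMonoidHom.mem_ker.symm
  · exact Subtype.ext (hφ (inertiaHom A τ) x)

end FLTAgent.FlatModel
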