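import Fermat.Agent.FlatModel.FlatKernel
import Fermat.Agent.FlatModel.OldModels
import Fermat.Agent.Semistable.X0Node
import Fermat.Agent.Semistable.Count

/-!
# The decomposition of the torsion of `J₀(M p)` at the places over `p`, `p ∤ M`, `p` odd
-/

set_option autoImplicit false
set_option linter.style.haveILetI false
set_option synthInstance.maxHeartbeats 100000

noncomputable section

namespace FLTAgent.FlatModel

open AlgebraicCurve ModularCurve IsLocalRing

local notation "Qbar" => AlgebraicClosure ℚ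

theorem nuTwo_mul_four_eq_zero (M : ℕ) : nuTwo (M * 4) = 0 := by
  have : IsEmpty {x : ZMod (M * 4) // x ^ 2 + 1 = 0} := ⟨fun ⟨x, hx⟩ => by
    have h := congrArg (ZMod.castHom (dvd_mul_left 4 M) (ZMod 4)) hx
    rw [map_add, map_pow, map_one, map_zero] at h
    exact (by decide : ∀ y : ZMod 4, y ^ 2 + 1 ≠ 0) _ h⟩
  exact Nat.card_of_isEmpty

theorem nuThree_mul_four_eq_zero (M : ℕ) : nuThree (M * 4) = 0 := by
  have : IsEmpty {x : ZMod (M * 4) // x ^ 2 + x + 1 = 0} := ⟨fun ⟨x, hx⟩ => by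
    have h := congrArg (ZMod.castHom (dvd_mul_left 4 M) (ZMod 4)) hx
    rw [map_add, map_add, map_pow, map_one, map_zero] at h
    exact (by decide : ∀ y : ZMod 4, y ^ 2 + y + 1 ≠ 0) _ h⟩
  exact Nat.card_of_isEmpty

variable {M p : ℕ} [NeZero M] [Fact p.Prime]

/-- The torsion of `J₀(M p)` decomposes at every place over `p`, up to a nonzero integer
independent of the place. -/
theorem exists_hasTorsionTwoStep (hp2 : p ≠ 2) (hpM : ¬ p ∣ M) :
    ∃ D, D ≠ 0 ∧ ∀ A : ValuationSubring Qbar, A.LiesOverPrime p →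
      HasTorsionTwoStep (M * p) p A D := by
  have hp : p.Prime := Fact.out
  haveI : NeZero p := ⟨hp.ne_zero⟩
  have hp4 : ¬ p ∣ M * 4 := fun h => (hp.dvd_mul.1 h).elim hpM fun h' => hp2
    ((Nat.prime_dvd_prime_iff_eq hp Nat.prime_two).1 (hp.dvd_of_dvd_pow (n := 2) h'))
  obtain ⟨D', f, hD', hf, hf0, hfD⟩ := exists_isogeny hpM
  refine ⟨finrankAlong Qbar (gammaTop M 4 p) * D', mul_ne_zero finrankAlong_gammaTop_ne_zero hD',
    fun A hA n => ?_⟩
  haveI := WeilPairing.charP_residueField hp hA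
  haveI := GoodRed.isAlgClosed_residue A
  haveI := GoodRed.isFunctionField_fullC A hA (M * 4) hp4
  letI := algebraAlong (Semistable.alphaMap Qbar (M * 4) p)
  haveI := isScalarTower_along (Semistable.alphaMap Qbar (M * 4) p)
  haveI := Semistable.finite_alongAlpha (M * 4) (q := p)
  obtain ⟨ι, _, X, hfr, hx, hG₁, hG₂⟩ :=
    Semistable.exists_x0CrossData hA hp4 (nuTwo_mul_four_eq_zero M) (nuThree_mul_four_eq_zero M)
      (Semistable.mul_psi_le_card_crossingSet hA hp4 (nuTwo_mul_four_eq_zero M)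
        (nuThree_mul_four_eq_zero M) (fun h => absurd h hp2)
        (fun _ => dvd_mul_of_dvd_right (by norm_num) M))
  obtain ⟨GA, hmove, hlayer⟩ := exists_flatKernel hA X.nodeSystem
    (fun σ hσ => Semistable.exists_inertial_nodeAut hfr hx hG₁ hG₂ hσ) n
  refine ⟨(alphaPush M p).ker, (betaPush M p).ker, GA, f, fun g x hx => ?_, fun g x hx => ?_,
    fun i => ?_, hmove, ⟨_, D', rfl, hlayer, fun x hx => hfD n x hx⟩, hf, fun x ha hb => hf0 x ha hb⟩
  · rw [AddMonoidHom.mem_ker] at hx ⊢
    rw [alphaPush, LevelSq.pushPic_smul, ← alphaPush, hx, smul_zero]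
  · rw [AddMonoidHom.mem_ker] at hx ⊢
    rw [betaPush, LevelSq.pushPic_smul, ← betaPush, hx, smul_zero]
  · cases i
    · exact exists_model_of_hom hpM hA (betaPush M p) (LevelSq.pushPic_smul p _) n
    · exact exists_model_of_hom hpM hA (alphaPush M p) (LevelSq.pushPic_smul 1 _) n

end FLTAgent.FlatModel
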