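import Mathlib.Algebra.Polynomial.AlgebraMap
import Mathlib.Algebra.Polynomial.Eval.Subring
import Mathlib.RingTheory.Coprime.Lemmas
import Mathlib.RingTheory.Int.Basic
import Mathlib.Algebra.Module.LinearMap.End
import Mathlib.Tactic.LinearCombination
import Mathlib.Tactic.Ring

/-!
# Splitting a finite `p`-group with respect to an operator with two eigenvalues
-/

set_option autoImplicit false

namespace FLTAgent.FlatModel

open Polynomial

variable {X : Type*} [AddCommGroup X]

theorem aeval_mem {σ : AddMonoid.End X} {Y : AddSubgroup X} (hY : ∀ y ∈ Y, σ y ∈ Y) (f : ℤ[X])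
    {y : X} (hy : y ∈ Y) : aeval σ f y ∈ Y := by
  induction f using Polynomial.induction_on generalizing y with
  | C a =>
    rw [aeval_C, algebraMap_int_eq, eq_intCast, AddMonoid.End.intCast_apply]
    exact Y.zsmul_mem hy a
  | add f g hf hg => rw [map_add]; exact Y.add_mem (hf hy) (hg hy)
  | monomial n a ih =>
    rw [pow_succ, ← mul_assoc, map_mul, aeval_X, AddMonoid.End.coe_mul, Function.comp_apply]
    exact ih (hY y hy)

/-- If `b - 1` is invertible modulo `p`, kernels of powers of `σ - b` and `σ - 1` split `X`. -/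
theorem exists_split (σ : AddMonoid.End X) {p n L : ℕ} (hp : p.Prime)
    (hn : ∀ x : X, p ^ n • x = 0) {b : ℕ} (hb : ¬ (p : ℤ) ∣ (b : ℤ) - 1) :
    ∃ e f : ℤ[X], ∀ x : X,
      x = aeval σ (e * (Polynomial.X - C (b : ℤ)) ^ L) x +
        aeval σ (f * (Polynomial.X - 1) ^ L) x := by
  obtain ⟨w, m, hwm⟩ : IsCoprime ((b : ℤ) - 1) ((p : ℤ) ^ n) :=
    (((Nat.prime_iff_prime_int.mp hp).coprime_iff_not_dvd.mpr hb).symm).pow_right
  have hcop : IsCoprime (Polynomial.X - C (b : ℤ) : ℤ[X])
      (C w * (Polynomial.X - 1) + C m * C ((p : ℤ) ^ n)) := by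
    refine ⟨-C w, 1, ?_⟩
    have h := congrArg (C : ℤ → ℤ[X]) hwm
    simp only [map_add, map_mul, map_sub, map_one] at h
    linear_combination h
  obtain ⟨e, f, hef⟩ := hcop.pow (m := L) (n := L)
  refine ⟨e, f * C w ^ L, fun x => ?_⟩
  have hZ : aeval σ (C w * (Polynomial.X - 1) + C m * C ((p : ℤ) ^ n) : ℤ[X]) =
      aeval σ (C w * (Polynomial.X - 1) : ℤ[X]) := by
    rw [map_add, add_eq_left, ← map_mul, aeval_C, algebraMap_int_eq, eq_intCast]
    refine AddMonoidHom.ext fun y => ?_
    show ((m * (p : ℤ) ^ n : ℤ) : AddMonoid.End X) y = (0 : X)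
    rw [AddMonoid.End.intCast_apply, mul_smul, ← Nat.cast_pow,
      natCast_zsmul, hn, smul_zero]
  have h := congrArg (fun g => aeval σ g x) hef
  simp only [map_one, AddMonoid.End.one_apply] at h
  conv_lhs => rw [← h]
  rw [map_add, map_mul _ f, map_pow _ (C w * (Polynomial.X - 1) + _), hZ, ← map_pow, ← map_mul,
    mul_pow, mul_assoc f]
  rfl

end FLTAgent.FlatModel

namespace FLTAgent.FlatModel

open Polynomial

variable {X : Type*} [AddCommGroup X]

theorem aeval_comm {σ g : AddMonoid.End X} (h : ∀ x, g (σ x) = σ (g x)) (f : ℤ[X]) (x : X) :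
    g (aeval σ f x) = aeval σ f (g x) := by
  induction f using Polynomial.induction_on generalizing x with
  | C a => simp
  | add f f' hf hf' =>
    rw [map_add]
    show g (aeval σ f x + aeval σ f' x) = aeval σ f (g x) + aeval σ f' (g x)
    rw [map_add, hf, hf']
  | monomial n a ih =>
    rw [pow_succ, ← mul_assoc, map_mul, aeval_X, AddMonoid.End.coe_mul, Function.comp_apply,
      Function.comp_apply, ih, h]

end FLTAgent.FlatModel
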