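import Fermat.Agent.FlatModel.Layers
import Fermat.Agent.FlatModel.Split
import Fermat.Agent.FlatModel.Cyclotomic

/-!
# Residually ordinary modules with a model on the image of inertia are ordinary

If inertia moves a module into a subgroup carrying an integral model and the residual
pseudo-representation is ordinary, then `(σ - χ σ) (τ - 1) = 0` for all inertia elements.
-/

set_option autoImplicit false

namespace FLTAgent.FlatModel

open Polynomial

variable {K : Type*} [Field K] {p n : ℕ} {A : ValuationSubring K} {I : Subgroup (K ≃+* K)}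
  {R : Type*} [CommRing R] {𝔪 : Ideal R} {G : Type*} [Group G]
  {X : Type*} [AddCommGroup X] [Module R X]

/-- The action of inertia by additive maps. -/
def inertiaAction (ρ : G →* Module.End R X) (ι : I →* G) : I →* AddMonoid.End X where
  toFun τ := (ρ (ι τ)).toAddMonoidHom
  map_one' := by
    ext x
    show ρ (ι 1) x = x
    simp
  map_mul' a b := by
    ext x
    show ρ (ι (a * b)) x = ρ (ι a) (ρ (ι b) x)
    simp

@[simp] theorem inertiaAction_apply (ρ : G →* Module.End R X) (ι : I →* G) (τ : I) (x : X) :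
    inertiaAction ρ ι τ x = ρ (ι τ) x := rfl

/-- The pseudo-representation data: relation and residual ordinarity. -/
structure ResidualData (p n : ℕ) (𝔪 : Ideal R) (ρ : G →* Module.End R X) (t d : G → R)
    (ι : I →* G) (χ : I → ℕ) (s : I) (h : G) : Prop where
  natCast_mem : (p : R) ∈ 𝔪
  rel : HasQuadRelation ρ t d
  pow_smul : ∀ x : X, p ^ n • x = 0
  det_smul : ∀ (τ : I) (x : X), d (ι τ) • x = χ τ • x
  det_sub_mem : ∀ τ : I, d (ι τ) - χ τ ∈ 𝔪
  trace_sub_mem : t (ι s) - (1 + χ s) ∈ 𝔪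
  chi_distinct : ¬ (p : ℤ) ∣ (χ s : ℤ) - 1
  chi_mul : ∀ τ σ : I, (p : ℤ) ∣ (χ (τ * σ) : ℤ) - χ τ * χ σ
  irred : irredDisc t d (ι s) h 1 (χ s) ∉ 𝔪
  lower : ∀ (τ : I) (k : G),
    t (ι s * ι τ * k) - t (ι s * k) - χ s * t (ι τ * k) + χ s * t k ∈ 𝔪
  upper : ∀ (τ : I) (k : G),
    t (ι τ * ι s * k) - t (ι τ * k) - χ τ * t (ι s * k) + χ τ * t k ∈ 𝔪

/-- The main criterion. -/
theorem smul_sub_eq_of_model [CharZero K] [IsAlgClosed K] [Finite X] [𝔪.IsMaximal]
    (hI : IsUnramifiedBase p A I) (hp2 : p ≠ 2) {ρ : G →* Module.End R X} {t d : G → R}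
    {ι : I →* G} {χ : I → ℕ} {s : I} {h : G} (D : ResidualData p n 𝔪 ρ t d ι χ s h)
    (hχ : ∀ (τ : I) (ζ : K), ζ ^ p ^ n = 1 → (τ : K ≃+* K) ζ = ζ ^ χ τ)
    (hnil : ∃ L, ∀ r ∈ 𝔪 ^ L, ∀ x : X, r • x = 0)
    (GA : AddSubgroup X) (hGA : ∀ τ, ∀ x ∈ GA, inertiaAction ρ ι τ x ∈ GA)
    (hmove : ∀ (τ : I) (x : X), ρ (ι τ) x - x ∈ GA)
    {H : Submodule (baseRing A I) (GA → K)}
    (hH : IsModel (restrictAction (inertiaAction ρ ι) GA hGA) H) :
    ∀ (σ τ : I) (x : X), ρ (ι σ) (ρ (ι τ) x - x) = χ σ • (ρ (ι τ) x - x) := by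
  classical
  obtain ⟨L, hL⟩ := hnil
  set T := torsionLevel 𝔪 X with hT
  have hTL : ∀ x : X, x ∈ T L := fun x => mem_torsionLevel.mpr fun r hr => hL r hr x
  have hcast : ∀ (m : ℕ) (x : X), (m : R) • x = m • x := fun m x => Nat.cast_smul_eq_nsmul R m x
  set act := inertiaAction ρ ι with hact
  set b := χ s with hb
  set σ₀ : AddMonoid.End X := act s with hσ₀
  set M := L + 2 with hM
  set P : ℤ[X] := Polynomial.X - C (b : ℤ) with hP
  set Q : ℤ[X] := Polynomial.X - 1 with hQ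
  have hPapp : ∀ x, aeval σ₀ P x = ρ (ι s) x - b • x := fun x => by
    rw [hP, map_sub, aeval_X, aeval_C, algebraMap_int_eq, eq_intCast]
    show σ₀ x - ((b : ℤ) : AddMonoid.End X) x = _
    rw [AddMonoid.End.intCast_apply, natCast_zsmul]
    rfl
  have hQapp : ∀ x, aeval σ₀ Q x = ρ (ι s) x - x := fun x => by
    rw [hQ, map_sub, aeval_X, map_one]
    rfl
  have hmulapp : ∀ (f g : ℤ[X]) (x : X), aeval σ₀ (f * g) x = aeval σ₀ f (aeval σ₀ g x) :=
    fun f g x => by rw [map_mul]; rfl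
  have hlin : ∀ (f : ℤ[X]) (r : R) (x : X), aeval σ₀ f (r • x) = r • aeval σ₀ f x :=
    fun f r x => (aeval_comm (g := DistribSMul.toAddMonoidHom X r) (σ := σ₀)
      (fun y => by show r • ρ (ι s) y = ρ (ι s) (r • y); rw [map_smul]) f x).symm
  have hstT : ∀ (f : ℤ[X]) j x, x ∈ T j → aeval σ₀ f x ∈ T j := fun f j x hx =>
    mem_torsionLevel.mpr fun r hr => by
      rw [← hlin, mem_torsionLevel.mp hx r hr, map_zero]
  have hρT : ∀ (g : G) j x, x ∈ T j → ρ g x ∈ T j := fun g j x hx =>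
    mem_torsionLevel.mpr fun r hr => by
      rw [← map_smul, mem_torsionLevel.mp hx r hr, map_zero]
  have hds : d (ι s) - 1 * (b : R) ∈ 𝔪 := by rw [one_mul]; exact D.det_sub_mem s
  have lower : ∀ (τ : I) j x, x ∈ T (j + 1) → aeval σ₀ P (ρ (ι τ) x - x) ∈ T j :=
    fun τ j x hx => by
      rw [hPapp, ← hcast b]
      exact defect_mem_torsionLevel D.rel D.trace_sub_mem hds D.irred _ _ _ (D.lower τ) hx
  have upper : ∀ (τ : I) j x, x ∈ T (j + 1) →
      ρ (ι τ) (aeval σ₀ Q x) - χ τ • aeval σ₀ Q x ∈ T j := fun τ j x hx => by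
    rw [hQapp, ← hcast]
    exact defect_mem_torsionLevel D.rel D.trace_sub_mem hds D.irred _ _ _ (D.upper τ) hx
  -- nilpotence and splitting
  have hPQ : ∀ j x, x ∈ T j → aeval σ₀ ((P * Q) ^ j) x = 0 := by
    intro j
    induction j with
    | zero =>
      intro x hx
      rw [hT, torsionLevel_zero, Submodule.mem_bot] at hx
      rw [hx, map_zero]
    | succ j ih =>
      intro x hx
      rw [pow_succ, hmulapp, hmulapp P]
      refine ih _ ?_
      rw [hQapp]
      exact lower s j x hx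
  let Yb : AddSubgroup X := AddMonoidHom.ker (aeval σ₀ (P ^ M) : X →+ X)
  let Ya : AddSubgroup X := AddMonoidHom.ker (aeval σ₀ (Q ^ M) : X →+ X)
  have hYb : ∀ x, x ∈ Yb ↔ aeval σ₀ (P ^ M) x = 0 := fun _ => Iff.rfl
  have hYa : ∀ x, x ∈ Ya ↔ aeval σ₀ (Q ^ M) x = 0 := fun _ => Iff.rfl
  obtain ⟨e, f, hef⟩ := exists_split (L := M) σ₀ hI.prime D.pow_smul D.chi_distinct
  let pa : X → X := fun x => aeval σ₀ (e * P ^ M) x
  let pb : X → X := fun x => aeval σ₀ (f * Q ^ M) x
  have hsum : ∀ x, x = pa x + pb x := hef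
  have hPQM : ∀ x, aeval σ₀ ((P * Q) ^ M) x = 0 := fun x => by
    rw [show M = 2 + L by omega, pow_add, hmulapp, hPQ L x (hTL x), map_zero]
  have hpa : ∀ x, pa x ∈ Ya := fun x => by
    show aeval σ₀ (Q ^ M) (aeval σ₀ (e * P ^ M) x) = 0
    rw [← hmulapp, show Q ^ M * (e * P ^ M) = e * (P * Q) ^ M by rw [mul_pow]; ring, hmulapp, hPQM, map_zero]
  have hpb : ∀ x, pb x ∈ Yb := fun x => by
    show aeval σ₀ (P ^ M) (aeval σ₀ (f * Q ^ M) x) = 0
    rw [← hmulapp, show P ^ M * (f * Q ^ M) = f * (P * Q) ^ M by rw [mul_pow]; ring, hmulapp, hPQM, map_zero]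
  have hpb0 : ∀ x ∈ Ya, pb x = 0 := fun x hx => by
    show aeval σ₀ (f * Q ^ M) x = 0
    rw [hmulapp, (hYa x).mp hx, map_zero]
  have hpa0 : ∀ x ∈ Yb, pa x = 0 := fun x hx => by
    show aeval σ₀ (e * P ^ M) x = 0
    rw [hmulapp, (hYb x).mp hx, map_zero]
  have hdisj : ∀ x ∈ Ya, x ∈ Yb → x = 0 := fun x ha hb => by
    rw [hsum x, hpa0 x hb, hpb0 x ha, add_zero]
  have hfromb : ∀ x, pa x = 0 → x ∈ Yb := fun x h0 => by
    rw [hsum x, h0, zero_add]; exact hpb x
  -- the connected part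
  let K0 : AddSubgroup X := hH.connectedPart.map GA.subtype
  have hK0st : ∀ τ, ∀ x ∈ K0, act τ x ∈ K0 := by
    rintro τ _ ⟨y, hy, rfl⟩
    exact ⟨restrictAction act GA hGA τ y, hH.map_mem_connectedPart hI τ hy, rfl⟩
  have hK0move : ∀ τ, ∀ x ∈ GA, ρ (ι τ) x - x ∈ K0 := fun τ x hx =>
    ⟨restrictAction act GA hGA τ ⟨x, hx⟩ - ⟨x, hx⟩, hH.map_sub_mem_connectedPart hI τ ⟨x, hx⟩,
      rfl⟩
  have hK0GA : ∀ x ∈ K0, x ∈ GA := by rintro _ ⟨y, -, rfl⟩; exact y.2
  have hYbK0 : ∀ x ∈ Yb, x ∈ K0 := by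
    intro x hx
    have e1 : x = aeval σ₀ Q (aeval σ₀ Q (aeval σ₀ (f * Q ^ L) x)) := by
      rw [← hmulapp, ← hmulapp, show Q * Q * (f * Q ^ L) = f * Q ^ M by rw [hM]; ring]
      conv_lhs => rw [hsum x, hpa0 x hx, zero_add]
    rw [e1, hQapp, hQapp (aeval σ₀ (f * Q ^ L) x)]
    exact hK0move s _ (hmove s _)
  have hK0pa : ∀ x ∈ K0, pa x ∈ K0 := fun x hx =>
    aeval_mem (σ := σ₀) (fun y hy => hK0st s y hy) _ hx
  -- connected classes in the étale eigenspace vanish
  have hzero : ∀ j, ∀ x ∈ K0, x ∈ Ya → x ∈ T j → x = 0 := by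
    intro j
    induction j with
    | zero => intro x _ _ hx; rwa [hT, torsionLevel_zero, Submodule.mem_bot] at hx
    | succ j ih =>
      let W : AddSubgroup GA :=
        hH.connectedPart ⊓ (T (j + 1)).toAddSubgroup.addSubgroupOf GA
      let U : AddSubgroup GA := (Yb ⊓ (T (j + 1)).toAddSubgroup).addSubgroupOf GA
      have key : ∀ z ∈ K0, z ∈ T (j + 1) → pa z ∈ T j → z ∈ Yb := fun z h0 h1 h2 =>
        hfromb z (ih (pa z) (hK0pa z h0) (hpa z) h2)
      have hU : ∀ τ, ∀ u ∈ U, restrictAction act GA hGA τ u ∈ U := by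
        rintro τ u ⟨hu1, hu2⟩
        have hz0 : ρ (ι τ) (u : X) ∈ K0 := hK0st τ _ (hYbK0 _ hu1)
        refine ⟨key _ hz0 (hρT _ _ _ hu2) ?_, hρT _ _ _ hu2⟩
        set v := aeval σ₀ (f * Q ^ (L + 1)) (u : X) with hv
        have hu' : (u : X) = aeval σ₀ Q v := by
          rw [hv, ← hmulapp, show Q * (f * Q ^ (L + 1)) = f * Q ^ M by rw [hM]; ring]
          conv_lhs => rw [hsum (u : X), hpa0 (u : X) hu1, zero_add]
        have h3 := hstT (e * P ^ M) _ _ (upper τ j v (hstT _ _ _ hu2))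
        rw [← hu', map_sub, map_nsmul] at h3
        have h4 : aeval σ₀ (e * P ^ M) (u : X) = 0 := hpa0 _ hu1
        rwa [h4, smul_zero, sub_zero] at h3
      have htriv : ∀ τ, ∀ w ∈ W, restrictAction act GA hGA τ w - w ∈ U := by
        rintro τ w ⟨hw1, hw2⟩
        have hz0 : ρ (ι τ) (w : X) - w ∈ K0 := hK0move τ _ w.2
        have hzT : ρ (ι τ) (w : X) - w ∈ T (j + 1) :=
          Submodule.sub_mem _ (hρT _ _ _ hw2) hw2
        refine ⟨key _ hz0 hzT ?_, hzT⟩
        show aeval σ₀ (e * P ^ M) _ ∈ T j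
        rw [show e * P ^ M = e * P ^ (L + 1) * P by rw [hM]; ring, hmulapp]
        exact hstT _ _ _ (lower τ j _ hw2)
      have hpW : ∀ w ∈ W, p • w ∈ U := by
        rintro w ⟨hw1, hw2⟩
        have hz0 : p • (w : X) ∈ K0 := K0.nsmul_mem ⟨w, hw1, rfl⟩ p
        have hzj : p • (w : X) ∈ T j := by
          rw [← hcast]; exact mem_torsionLevel_of_smul hw2 D.natCast_mem
        refine ⟨key _ hz0 (Submodule.smul_of_tower_mem _ p hw2) (hstT _ _ _ hzj),
          Submodule.smul_of_tower_mem _ p hw2⟩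
      have hWU := hH.le_of_connected_trivial hI hp2 W U
        (fun τ w hw => ⟨hH.map_mem_connectedPart hI τ hw.1, hρT _ _ _ hw.2⟩) hU inf_le_left
        htriv hpW
      rintro x ⟨y, hy, rfl⟩ hxa hxT
      exact hdisj _ hxa (hWU ⟨hy, hxT⟩).1
  have hK0Yb : ∀ x ∈ K0, x ∈ Yb := fun x hx =>
    hfromb x (hzero L _ (hK0pa x hx) (hpa x) (hTL _))
  have hYbst : ∀ τ, ∀ x ∈ Yb, ρ (ι τ) x ∈ Yb := fun τ x hx =>
    hK0Yb _ (hK0st τ x (hYbK0 x hx))
  -- inertia is cyclotomic on the connected eigenspace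
  have hcyc : ∀ τ, ∀ x ∈ Yb, ρ (ι τ) x = χ τ • x := by
    have key := hH.cyclotomic_of_layers hI hp2 (n := n)
      (fun y => Subtype.ext (D.pow_smul (y : X))) χ hχ (Yb.addSubgroupOf GA)
      (fun τ y hy => hYbst τ y hy) (fun j => (T j).toAddSubgroup.addSubgroupOf GA) L
      (by
        ext y
        simp [hT, torsionLevel_zero])
      (fun y _ => hTL y)
      (fun j τ y _ hy => hρT _ _ _ hy)
      (fun j y _ hy => by
        show p • (y : X) ∈ T j
        rw [← hcast]; exact mem_torsionLevel_of_smul hy D.natCast_mem)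
      (fun j τ y hy hyj => by
        show χ τ • (y : X) - ρ (ι τ) y ∈ T j
        have hu' : (y : X) = aeval σ₀ Q (aeval σ₀ (f * Q ^ (L + 1)) (y : X)) := by
          rw [← hmulapp, show Q * (f * Q ^ (L + 1)) = f * Q ^ M by rw [hM]; ring]
          conv_lhs => rw [hsum (y : X), hpa0 (y : X) hy, zero_add]
        rw [hu', ← neg_sub]
        exact Submodule.neg_mem _ (upper τ j _ (hstT _ _ _ hyj)))
    intro τ x hx
    exact congrArg Subtype.val (key τ ⟨x, hK0GA x (hYbK0 x hx)⟩ hx)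
  -- the quadratic relation becomes `(τ - χ τ) (τ - 1) = 0`
  have htr : ∀ (τ : I) (x : X), t (ι τ) • x = x + χ τ • x := by
    intro τ
    have hb0 : ∀ x ∈ Yb, (t (ι τ) - (1 + (χ τ : R))) • x = 0 := by
      intro x hx
      have e := D.rel.1 (ι τ) x
      rw [D.det_smul, hcyc τ x hx, map_nsmul, hcyc τ x hx] at e
      have h1 : ρ (ι τ) ((t (ι τ) - (1 + (χ τ : R))) • x) = 0 := by
        rw [map_smul, hcyc τ x hx, ← neg_eq_zero, ← e, ← hcast, ← hcast]
        module
      have h2 := congrArg (ρ (ι τ)⁻¹) h1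
      rwa [map_zero, ← Module.End.mul_apply, ← map_mul, inv_mul_cancel, map_one,
        Module.End.one_apply] at h2
    set c := t (ι τ) - (1 + (χ τ : R)) with hc
    have hca : ∀ x, c • x ∈ Ya := fun x => by
      rw [hsum x, smul_add, hb0 _ (hpb x), add_zero, hYa, hlin, (hYa _).mp (hpa x), smul_zero]
    have hstep : ∀ k, ∀ x, c • x ∈ T (L - k) := by
      intro k
      induction k with
      | zero => intro x; simpa using hTL _
      | succ k ih =>
        intro x
        rcases Nat.lt_or_ge k L with hk | hk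
        swap
        · rw [show L - (k + 1) = L - k by omega]; exact ih x
        have hfix : ∀ y : X, c • y ∈ T 1 → ρ (ι s) (c • y) = c • y := by
          intro y hy
          rw [← sub_eq_zero, ← hQapp]
          refine hdisj _ ?_ ?_
          · rw [hYa, ← hmulapp, mul_comm, hmulapp, (hYa _).mp (hca y), map_zero]
          · rw [hYb, show M = (L + 1) + 1 by omega, pow_succ, hmulapp]
            have : aeval σ₀ P (aeval σ₀ Q (c • y)) ∈ T 0 := by
              rw [hQapp]; exact lower s 0 _ hy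
            rw [hT, torsionLevel_zero, Submodule.mem_bot] at this
            rw [this, map_zero]
        rw [mem_torsionLevel]
        intro r hr
        rw [smul_comm]
        have h1 : c • (r • x) ∈ T 1 := by
          rw [smul_comm]
          refine smul_mem_torsionLevel_one (j := L - (k + 1)) ?_ hr
          rw [show L - (k + 1) + 1 = L - k by omega]
          exact ih x
        have h2 : c • ρ h (r • x) ∈ T 1 := by
          rw [← map_smul]; exact hρT h 1 _ h1
        exact congrArg Subtype.val (eq_zero_of_eigen 𝔪 D.rel.levelOne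
          (fun r hr y => levelOne_kill r hr y) D.trace_sub_mem D.irred (h := h)
          (m := ⟨_, h1⟩) (Subtype.ext (by simpa [levelOneRep] using hfix _ h1))
          (Subtype.ext (by
            have h3 := hfix _ h2
            simpa [levelOneRep] using h3)))
    intro x
    have hz := hstep L x
    rw [Nat.sub_self, hT, torsionLevel_zero, Submodule.mem_bot, hc, sub_smul, sub_eq_zero,
      add_smul, one_smul, hcast] at hz
    exact hz
  have hquad : ∀ (τ : I) (x : X),
      ρ (ι τ) (ρ (ι τ) x - x) = χ τ • (ρ (ι τ) x - x) := by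
    intro τ x
    have e := D.rel.1 (ι τ) x
    rw [htr, D.det_smul] at e
    rw [← sub_eq_zero, ← e, map_sub, smul_sub]
    abel
  -- inertia is trivial modulo the connected eigenspace
  have hbig : ∀ τ : I, ¬ (p : ℤ) ∣ (χ τ : ℤ) - 1 → ∀ x, ρ (ι τ) x - x ∈ Yb := by
    intro τ hτ
    suffices ∀ j, ∀ x ∈ T j, ρ (ι τ) x - x ∈ Yb from fun x => this L x (hTL x)
    intro j
    induction j with
    | zero =>
      intro x hx
      rw [hT, torsionLevel_zero, Submodule.mem_bot] at hx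
      subst hx
      simp
    | succ j ih =>
      intro x hx
      set z := ρ (ι τ) x - x with hz
      refine hfromb z ?_
      have hzj : pa z ∈ T j := by
        show aeval σ₀ (e * P ^ M) z ∈ T j
        rw [show e * P ^ M = e * P ^ (L + 1) * P by rw [hM]; ring, hmulapp]
        exact hstT _ _ _ (lower τ j x hx)
      have hzz : ρ (ι τ) (pa z) = χ τ • pa z := by
        have h1 := hquad τ x
        rw [← hz, hsum z, map_add, smul_add, hcyc τ _ (hpb z)] at h1
        exact add_right_cancel h1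
      have h2 := ih _ hzj
      rw [hzz] at h2
      have h3 : ((χ τ : ℤ) - 1) • pa z = 0 := by
        refine hdisj _ (Ya.zsmul_mem (hpa z) _) ?_
        rwa [sub_smul, one_smul, natCast_zsmul]
      obtain ⟨w, m, hwm⟩ : IsCoprime ((χ τ : ℤ) - 1) ((p : ℤ) ^ n) :=
        (((Nat.prime_iff_prime_int.mp hI.prime).coprime_iff_not_dvd.mpr hτ).symm).pow_right
      rw [← one_smul ℤ (pa z), ← hwm, add_smul, mul_smul, h3, smul_zero, zero_add, mul_smul,
        ← Nat.cast_pow, natCast_zsmul, D.pow_smul, smul_zero]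
  have hall : ∀ (τ : I) x, ρ (ι τ) x - x ∈ Yb := by
    intro τ x
    by_cases hτ : (p : ℤ) ∣ (χ τ : ℤ) - 1
    swap
    · exact hbig τ hτ x
    have hτs : ¬ (p : ℤ) ∣ (χ (τ * s) : ℤ) - 1 := fun hd => D.chi_distinct (by
      have h1 := dvd_sub hd (D.chi_mul τ s)
      have h2 := dvd_mul_of_dvd_left hτ (χ s : ℤ)
      rw [show (χ s : ℤ) - 1 = ((χ (τ * s) : ℤ) - 1) - ((χ (τ * s) : ℤ) - χ τ * χ s) -
        ((χ τ : ℤ) - 1) * χ s by ring]
      exact dvd_sub h1 h2)
    obtain ⟨y, rfl⟩ : ∃ y, ρ (ι s) y = x := ⟨ρ (ι s)⁻¹ x, by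
      rw [← Module.End.mul_apply, ← map_mul, mul_inv_cancel, map_one, Module.End.one_apply]⟩
    have h1 := Yb.sub_mem (hbig _ hτs y) (hbig s D.chi_distinct y)
    rw [map_mul, map_mul, Module.End.mul_apply, sub_sub_sub_cancel_right] at h1
    exact h1
  exact fun σ τ x => hcyc σ _ (hall τ x)

end FLTAgent.FlatModel
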