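import Fermat.Agent.FlatModel.Ordinary

/-!
# Residually ordinary modules with a cyclotomic subgroup are ordinary

If inertia moves a module into a subgroup on whose `p`-layers it acts by the cyclotomic character
and the residual pseudo-representation is ordinary, then `(σ - χ σ) (τ - 1) = 0` on inertia.
-/

set_option autoImplicit false

namespace FLTAgent.FlatModel

open Polynomial

variable {K : Type*} [Field K] {p n : ℕ} {I : Subgroup (K ≃+* K)}
  {R : Type*} [CommRing R] {𝔪 : Ideal R} {G : Type*} [Group G]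
  {X : Type*} [AddCommGroup X] [Module R X]

/-- The criterion from layers. -/
theorem smul_sub_eq_of_layers [𝔪.IsMaximal] (hp : p.Prime) {ρ : G →* Module.End R X} {t d : G → R}
    {ι : I →* G} {χ : I → ℕ} {s : I} {h : G} (D : ResidualData p n 𝔪 ρ t d ι χ s h)
    (hnil : ∃ L, ∀ r ∈ 𝔪 ^ L, ∀ x : X, r • x = 0)
    (GA : AddSubgroup X) (hmove : ∀ (τ : I) (x : X), ρ (ι τ) x - x ∈ GA)
    (hlayer : ∀ (τ : I) (j : ℕ), ∀ x ∈ GA, p ^ (j + 1) • x = 0 →
      p ^ j • (ρ (ι τ) x - χ τ • x) = 0) :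
    ∀ (σ τ : I) (x : X), ρ (ι σ) (ρ (ι τ) x - x) = χ σ • (ρ (ι τ) x - x) := by
  classical
  obtain ⟨L, hL⟩ := hnil
  set T := torsionLevel 𝔪 X with hT
  have hTL : ∀ x : X, x ∈ T L := fun x => mem_torsionLevel.mpr fun r hr => hL r hr x
  have hcast : ∀ (m : ℕ) (x : X), (m : R) • x = m • x := fun m x => Nat.cast_smul_eq_nsmul R m x
  set b := χ s with hb
  set σ₀ : AddMonoid.End X := (ρ (ι s)).toAddMonoidHom with hσ₀
  set M := L + n + 2 with hM
  set P : ℤ[X] := Polynomial.X - C (b : ℤ) with hP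
  set Q : ℤ[X] := Polynomial.X - 1 with hQ
  have hPapp : ∀ x, aeval σ₀ P x = ρ (ι s) x - b • x := fun x => by
    rw [hP, map_sub, aeval_X, aeval_C, algebraMap_int_eq, eq_intCast]
    show σ₀ x - ((b : ℤ) : AddMonoid.End X) x = _
    rw [AddMonoid.End.intCast_apply, natCast_zsmul]
    rfl
  have hQapp : ∀ x, aeval σ₀ Q x = ρ (ι s) x - x := fun x => by
    rw [hQ, map_sub, aeval_X, map_one]
    rfl
  have hmulapp : ∀ (f g : ℤ[X]) (x : X), aeval σ₀ (f * g) x = aeval σ₀ f (aeval σ₀ g x) :=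
    fun f g x => by rw [map_mul]; rfl
  have hlin : ∀ (f : ℤ[X]) (r : R) (x : X), aeval σ₀ f (r • x) = r • aeval σ₀ f x :=
    fun f r x => (aeval_comm (g := DistribSMul.toAddMonoidHom X r) (σ := σ₀)
      (fun y => by show r • ρ (ι s) y = ρ (ι s) (r • y); rw [map_smul]) f x).symm
  have hρT : ∀ (g : G) j x, x ∈ T j → ρ g x ∈ T j := fun g j x hx =>
    mem_torsionLevel.mpr fun r hr => by
      rw [← map_smul, mem_torsionLevel.mp hx r hr, map_zero]
  have hds : d (ι s) - 1 * (b : R) ∈ 𝔪 := by rw [one_mul]; exact D.det_sub_mem s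
  have lower : ∀ (τ : I) j x, x ∈ T (j + 1) → aeval σ₀ P (ρ (ι τ) x - x) ∈ T j :=
    fun τ j x hx => by
      rw [hPapp, ← hcast b]
      exact defect_mem_torsionLevel D.rel D.trace_sub_mem hds D.irred _ _ _ (D.lower τ) hx
  have hPQ : ∀ j x, x ∈ T j → aeval σ₀ ((P * Q) ^ j) x = 0 := by
    intro j
    induction j with
    | zero =>
      intro x hx
      rw [hT, torsionLevel_zero, Submodule.mem_bot] at hx
      rw [hx, map_zero]
    | succ j ih =>
      intro x hx
      rw [pow_succ, hmulapp, hmulapp P]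
      refine ih _ ?_
      rw [hQapp]
      exact lower s j x hx
  obtain ⟨e, f, hef⟩ := exists_split (L := M) σ₀ hp D.pow_smul D.chi_distinct
  have hPQM : ∀ x, aeval σ₀ ((P * Q) ^ M) x = 0 := fun x => by
    rw [show M = (n + 2) + L by omega, pow_add, hmulapp, hPQ L x (hTL x), map_zero]
  -- the subgroup is the kernel of a power of `P`
  have hGst : ∀ τ, ∀ x ∈ GA, ρ (ι τ) x ∈ GA := fun τ x hx => by
    simpa using GA.add_mem (hmove τ x) hx
  have hPn : ∀ j, ∀ x ∈ GA, p ^ j • x = 0 → aeval σ₀ (P ^ j) x = 0 := by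
    intro j
    induction j with
    | zero => intro x _ hx; rw [pow_zero, one_smul] at hx; rw [hx, map_zero]
    | succ j ih =>
      intro x hx hxj
      rw [pow_succ, hmulapp]
      refine ih _ (aeval_mem (σ := σ₀) (fun y hy => hGst s y hy) P hx) ?_
      rw [hPapp]
      exact hlayer s j x hx hxj
  have hGAP : ∀ x ∈ GA, aeval σ₀ (P ^ M) x = 0 := fun x hx => by
    rw [show M = (L + 2) + n by omega, pow_add, hmulapp, hPn n x hx (D.pow_smul x), map_zero]
  have hPGA : ∀ x, aeval σ₀ (P ^ M) x = 0 → x ∈ GA := fun x hx => by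
    have e1 : x = aeval σ₀ Q (aeval σ₀ (f * Q ^ (L + n + 1)) x) := by
      rw [← hmulapp, show Q * (f * Q ^ (L + n + 1)) = f * Q ^ M by rw [hM]; ring]
      conv_lhs => rw [hef x]
      rw [hmulapp e, hx, map_zero, zero_add]
    rw [e1, hQapp]
    exact hmove s _
  have hdisj : ∀ x, aeval σ₀ (P ^ M) x = 0 → aeval σ₀ (Q ^ M) x = 0 → x = 0 := fun x h1 h2 => by
    rw [hef x, hmulapp e, h1, map_zero, hmulapp f, h2, map_zero, add_zero]
  -- the trace is `1 + χ`
  have htr : ∀ (τ : I) (x : X), t (ι τ) • x = x + χ τ • x := by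
    intro τ
    set c := t (ι τ) - (1 + (χ τ : R)) with hc
    have hcG : ∀ x, aeval σ₀ (P ^ M) (c • x) = 0 := fun x => hGAP _ (by
      have e0 := D.rel.1 (ι τ) x
      rw [D.det_smul] at e0
      have h1 := GA.sub_mem (hmove τ (ρ (ι τ) x)) (hmove τ (t (ι τ) • x - x))
      have h2 : c • x = (ρ (ι τ) (ρ (ι τ) x) - ρ (ι τ) x) -
          (ρ (ι τ) (t (ι τ) • x - x) - (t (ι τ) • x - x)) := by
        rw [map_sub, map_smul, hc, sub_smul, add_smul, one_smul, hcast, ← sub_eq_zero, ← neg_eq_zero,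
          ← e0]
        abel
      rw [h2]; exact h1)
    have hfix : ∀ y : X, c • y ∈ T 1 → ρ (ι s) (c • y) = (b : R) • (c • y) := by
      intro y hy
      rw [hcast, ← sub_eq_zero, ← hPapp]
      refine hdisj _ ?_ ?_
      · rw [← hmulapp, mul_comm, hmulapp, hcG, map_zero]
      · rw [show M = (L + n + 1) + 1 by omega, pow_succ, hmulapp, ← hmulapp Q P, mul_comm Q P,
          hmulapp P Q]
        have : aeval σ₀ P (aeval σ₀ Q (c • y)) ∈ T 0 := by
          rw [hQapp]; exact lower s 0 _ hy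
        rw [hT, torsionLevel_zero, Submodule.mem_bot] at this
        rw [this, map_zero]
    have hD' : irredDisc t d (ι s) h (b : R) 1 ∉ 𝔪 := by
      convert D.irred using 1
      rw [hb]; unfold irredDisc; ring
    have hstep : ∀ k, ∀ x, c • x ∈ T (L - k) := by
      intro k
      induction k with
      | zero => intro x; simpa using hTL _
      | succ k ih =>
        intro x
        rcases Nat.lt_or_ge k L with hk | hk
        swap
        · rw [show L - (k + 1) = L - k by omega]; exact ih x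
        rw [mem_torsionLevel]
        intro r hr
        rw [smul_comm]
        have h1 : c • (r • x) ∈ T 1 := by
          rw [smul_comm]
          refine smul_mem_torsionLevel_one (j := L - (k + 1)) ?_ hr
          rw [show L - (k + 1) + 1 = L - k by omega]
          exact ih x
        have h2 : c • ρ h (r • x) ∈ T 1 := by
          rw [← map_smul]; exact hρT h 1 _ h1
        exact congrArg Subtype.val (eq_zero_of_eigen 𝔪 D.rel.levelOne
          (fun r hr y => levelOne_kill r hr y) (by rw [add_comm]; exact D.trace_sub_mem) hD' (h := h)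
          (m := ⟨_, h1⟩) (Subtype.ext (by simpa [levelOneRep] using hfix _ h1))
          (Subtype.ext (by
            have h3 := hfix _ h2
            simpa [levelOneRep] using h3)))
    intro x
    have hz := hstep L x
    rw [Nat.sub_self, hT, torsionLevel_zero, Submodule.mem_bot, hc, sub_smul, sub_eq_zero,
      add_smul, one_smul, hcast] at hz
    exact hz
  have hquad : ∀ (τ : I) (x : X), ρ (ι τ) (ρ (ι τ) x) - ρ (ι τ) x - χ τ • ρ (ι τ) x + χ τ • x = 0 := by
    intro τ x
    have e := D.rel.1 (ι τ) x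
    rw [htr, D.det_smul] at e
    rw [← e]
    abel
  -- inertia is cyclotomic on the subgroup
  have hnice : ∀ τ, ¬ (p : ℤ) ∣ (χ τ : ℤ) - 1 → ∀ x ∈ GA, ρ (ι τ) x = χ τ • x := by
    intro τ hτ
    suffices ∀ j, ∀ y ∈ GA, p ^ j • y = 0 → ρ (ι τ) y = y → y = 0 from fun x hx => by
      rw [← sub_eq_zero]
      refine this n _ (GA.sub_mem (hGst τ x hx) (GA.nsmul_mem hx _)) (D.pow_smul _) ?_
      rw [map_sub, map_nsmul, ← sub_eq_zero, ← hquad τ x]
      abel
    intro j
    induction j with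
    | zero => intro y _ hy _; rwa [pow_zero, one_smul] at hy
    | succ j ih =>
      intro y hy hyj hfy
      refine ih y hy ?_ hfy
      obtain ⟨w, m, hwm⟩ : IsCoprime ((χ τ : ℤ) - 1) ((p : ℤ) ^ n) :=
        (((Nat.prime_iff_prime_int.mp hp).coprime_iff_not_dvd.mpr hτ).symm).pow_right
      have h0 := hlayer τ j y hy hyj
      rw [hfy, smul_sub, smul_comm, sub_eq_zero] at h0
      have h3 : ((χ τ : ℤ) - 1) • (p ^ j • y) = 0 := by
        rw [sub_smul, one_smul, natCast_zsmul, ← h0, sub_self]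
      rw [← one_smul ℤ (p ^ j • y), ← hwm, add_smul, mul_smul, h3, smul_zero, zero_add, mul_smul,
        ← Nat.cast_pow, natCast_zsmul, D.pow_smul, smul_zero]
  have hall : ∀ τ, ∀ x ∈ GA, ρ (ι τ) x = χ τ • x := by
    intro τ x hx
    by_cases hτ : (p : ℤ) ∣ (χ τ : ℤ) - 1
    swap
    · exact hnice τ hτ x hx
    have hτs : ¬ (p : ℤ) ∣ (χ (τ * s) : ℤ) - 1 := fun hd => D.chi_distinct (by
      have h1 := dvd_sub hd (D.chi_mul τ s)
      have h2 := dvd_mul_of_dvd_left hτ (χ s : ℤ)
      rw [show (χ s : ℤ) - 1 = ((χ (τ * s) : ℤ) - 1) - ((χ (τ * s) : ℤ) - χ τ * χ s) -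
        ((χ τ : ℤ) - 1) * χ s by ring]
      exact dvd_sub h1 h2)
    obtain ⟨y, rfl⟩ : ∃ y, ρ (ι s) y = x := ⟨ρ (ι s)⁻¹ x, by
      rw [← Module.End.mul_apply, ← map_mul, mul_inv_cancel, map_one, Module.End.one_apply]⟩
    have hy : y ∈ GA := by simpa using GA.sub_mem hx (hmove s y)
    have hm : χ (τ * s) • y = χ τ • χ s • y := by
      rw [← D.det_smul, ← D.det_smul s, ← D.det_smul τ, map_mul, D.rel.2, mul_smul]
    rw [← Module.End.mul_apply, ← map_mul, ← map_mul, hnice _ hτs y hy, hnice s D.chi_distinct y hy,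
      hm]
  exact fun σ τ x => hall σ _ (hmove τ x)

end FLTAgent.FlatModel
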