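import Fermat.Agent.GalRep.Span
import Fermat.Prelude.Def_GaloisRep_LocalConditions
import Mathlib.LinearAlgebra.Matrix.Determinant.Basic
import Mathlib.LinearAlgebra.Determinant

/-!
# The matrices of a residually ordinary representation
-/

set_option autoImplicit false

namespace FLTAgent.FlatModel

open Matrix IsLocalRing GalRep TensorProduct

local notation "Γℚ" => AlgebraicClosure ℚ ≃ₐ[ℚ] AlgebraicClosure ℚ

variable {T : Type} [CommRing T] [IsLocalRing T] (ρ : GaloisRepAdic T)

/-- The residual representation in the basis of `repBasis`. -/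
noncomputable def residualMat : Γℚ →* Matrix (Fin 2) (Fin 2) (ResidueField T) :=
  ((residue T).mapMatrix.toMonoidHom).comp (repMat ρ)

theorem residualMat_eq_toMatrix (g : Γℚ) :
    residualMat ρ g =
      LinearMap.toMatrix (Algebra.TensorProduct.basis (ResidueField T) (repBasis ρ))
        (Algebra.TensorProduct.basis (ResidueField T) (repBasis ρ)) (ρ.residual.ρ g) :=
  (LinearMap.toMatrix_baseChange (A := ResidueField T) (ρ.ρ g) (repBasis ρ) (repBasis ρ)).symm

theorem span_range_residualMat (h : ρ.residual.IsAbsolutelyIrreducible) :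
    Submodule.span (ResidueField T) (Set.range (residualMat ρ)) = ⊤ := by
  refine eq_top_iff.mpr fun X _ => ?_
  choose Y hY using fun a b => residue_surjective (X a b)
  have hX : X = (residue T).mapMatrix (Matrix.of Y) := by ext a b; simp [hY]
  rw [hX]
  have hmem := (span_range_repMat ρ h).ge (Submodule.mem_top : Matrix.of Y ∈ ⊤)
  generalize Matrix.of Y = Z at hmem ⊢
  induction hmem using Submodule.span_induction with
  | mem y hy => obtain ⟨g, rfl⟩ := hy; exact Submodule.subset_span ⟨g, rfl⟩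
  | zero => rw [map_zero]; exact Submodule.zero_mem _
  | add y z _ _ e e' => rw [map_add]; exact Submodule.add_mem _ e e'
  | smul c y _ e =>
    rw [show (residue T).mapMatrix (c • y) = residue T c • (residue T).mapMatrix y by
      ext a b; simp [residue]]
    exact Submodule.smul_mem _ _ e

/-- The residual data at an ordinary place: a matrix form `M`, triangular on inertia with
diagonal `(det, 1)` and diagonal at `s`, together with an element with nonzero off-diagonal
entries. -/
theorem exists_residual_shape (h : ρ.residual.IsAbsolutelyIrreducible) {p : ℕ}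
    (hord : (GaloisRepAdic.ofResidualGaloisRep ρ.residual).IsOrdinaryAt p)
    {P : ValuationSubring (AlgebraicClosure ℚ)} (hP : P.LiesOverPrime p) {s : Γℚ}
    (hs : s ∈ P.inertiaSubgroupIn ℚ) (hsd : (residualMat ρ s).det ≠ 1) :
    ∃ M : Γℚ →* Matrix (Fin 2) (Fin 2) (ResidueField T),
      (∀ g, (M g).trace = residue T (ρ.trace g)) ∧ (∀ g, (M g).det = (residualMat ρ g).det) ∧
      (∀ τ ∈ P.inertiaSubgroupIn ℚ, M τ 1 0 = 0 ∧ M τ 1 1 = 1) ∧ M s 0 1 = 0 ∧
      ∃ g, M g 0 1 ≠ 0 ∧ M g 1 0 ≠ 0 := by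
  classical
  set k := ResidueField T
  obtain ⟨L, ⟨e, hL⟩, -, hI⟩ := hord P hP
  let bk : Module.Basis (Fin 2) k ρ.residual.V := Algebra.TensorProduct.basis k (repBasis ρ)
  let e' : Module.Basis (Fin 2) k ρ.residual.V := e
  let C : Matrix (Fin 2) (Fin 2) k := e'.toMatrix bk
  let C' : Matrix (Fin 2) (Fin 2) k := bk.toMatrix e'
  have hCC' : C * C' = 1 := e'.toMatrix_mul_toMatrix_flip bk
  have hC'C : C' * C = 1 := bk.toMatrix_mul_toMatrix_flip e'
  have hconj : ∀ g, C * residualMat ρ g * C' = LinearMap.toMatrix e' e' (ρ.residual.ρ g) :=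
    fun g => by
      rw [residualMat_eq_toMatrix]
      exact basis_toMatrix_mul_linearMap_toMatrix_mul_basis_toMatrix e' bk e' bk _
  have htri : ∀ τ ∈ P.inertiaSubgroupIn ℚ,
      (C * residualMat ρ τ * C') 1 0 = 0 ∧ (C * residualMat ρ τ * C') 1 1 = 1 := by
    intro τ hτ
    rw [hconj]
    have hj : ∀ j, e'.repr (ρ.residual.ρ τ (e' j)) 1 = e'.repr (e' j) 1 := by
      intro j
      have hm := hI τ hτ (e' j)
      rw [hL] at hm
      obtain ⟨c, hc⟩ := Submodule.mem_span_singleton.mp hm
      have hc' : c • e' 0 = ρ.residual.ρ τ (e' j) - e' j := hc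
      have h0 := congrArg (fun v => e'.repr v 1) hc'
      simp only [map_smul, Module.Basis.repr_self, map_sub, Finsupp.smul_single, smul_eq_mul,
        mul_one, Finsupp.coe_sub, Pi.sub_apply] at h0
      rw [Finsupp.single_eq_of_ne (by decide : (1 : Fin 2) ≠ 0)] at h0
      rw [Module.Basis.repr_self]
      exact sub_eq_zero.mp h0.symm
    simp only [LinearMap.toMatrix_apply, hj, Module.Basis.repr_self]
    exact ⟨Finsupp.single_eq_of_ne (by decide), Finsupp.single_eq_same⟩
  set M₁ := C * residualMat ρ s * C' with hM₁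
  obtain ⟨hs10, hs11⟩ := htri s hs
  rw [← hM₁] at hs10 hs11
  have hdetC : C.det * C'.det = 1 := by rw [← det_mul, hCC', det_one]
  have hs00 : M₁ 0 0 ≠ 1 := by
    have hd : M₁.det = (residualMat ρ s).det := by
      rw [hM₁, det_mul, det_mul, mul_comm C.det, mul_assoc, hdetC, mul_one]
    rw [det_fin_two, hs10, hs11, mul_one, mul_zero, sub_zero] at hd
    rwa [hd]
  set t := M₁ 0 1 / (1 - M₁ 0 0) with ht
  let D : Matrix (Fin 2) (Fin 2) k := !![1, -t; 0, 1] * C
  let D' : Matrix (Fin 2) (Fin 2) k := C' * !![1, t; 0, 1]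
  have hU : (!![1, -t; 0, 1] : Matrix (Fin 2) (Fin 2) k) * !![1, t; 0, 1] = 1 := by
    simp [one_fin_two]
  have hU' : (!![1, t; 0, 1] : Matrix (Fin 2) (Fin 2) k) * !![1, -t; 0, 1] = 1 := by
    simp [one_fin_two]
  have hDD' : D * D' = 1 := by
    simp only [D, D', Matrix.mul_assoc]
    rw [← Matrix.mul_assoc C, hCC', Matrix.one_mul, hU]
  have hD'D : D' * D = 1 := by
    simp only [D, D', Matrix.mul_assoc]
    rw [← Matrix.mul_assoc !![1, t; 0, 1], hU', Matrix.one_mul, hC'C]
  let M : Γℚ →* Matrix (Fin 2) (Fin 2) k :=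
    { toFun := fun g => D * residualMat ρ g * D'
      map_one' := by rw [map_one, Matrix.mul_one, hDD']
      map_mul' := fun g g' => by
        rw [map_mul]
        simp only [Matrix.mul_assoc]
        rw [← Matrix.mul_assoc D', hD'D, Matrix.one_mul] }
  have hMg : ∀ g, M g = !![1, -t; 0, 1] * (C * residualMat ρ g * C') * !![1, t; 0, 1] := fun g => by
    simp only [M, MonoidHom.coe_mk, OneHom.coe_mk, D, D', Matrix.mul_assoc]
  refine ⟨M, fun g => ?_, fun g => ?_, fun τ hτ => ?_, ?_, ?_⟩
  · show (D * residualMat ρ g * D').trace = _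
    rw [trace_mul_comm, ← Matrix.mul_assoc, hD'D, Matrix.one_mul, residualMat,
      MonoidHom.comp_apply, ← trace_repMat]
    exact (AddMonoidHom.map_trace (residue T).toAddMonoidHom _).symm
  · show (D * residualMat ρ g * D').det = _
    rw [det_mul, det_mul, mul_comm D.det, mul_assoc, ← det_mul, hDD', det_one, mul_one]
  · obtain ⟨h10, h11⟩ := htri τ hτ
    rw [hMg]
    generalize C * residualMat ρ τ * C' = Y at h10 h11 ⊢
    rw [Matrix.eta_fin_two Y, h10, h11]
    simp [Matrix.mul_fin_two]
  · rw [hMg, ← hM₁, Matrix.eta_fin_two M₁, hs10, hs11]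
    simp [Matrix.mul_fin_two]
    have e : t * (1 - M₁ 0 0) = M₁ 0 1 := div_mul_cancel₀ _ (sub_ne_zero.mpr (Ne.symm hs00))
    linear_combination -e
  · have hspan : ∀ a b : Fin 2, ∃ g, M g a b ≠ 0 := by
      intro a b
      by_contra! hall
      let φ : Matrix (Fin 2) (Fin 2) k →ₗ[k] k :=
        (Matrix.entryLinearMap k k a b) ∘ₗ (LinearMap.mulRight k D') ∘ₗ (LinearMap.mulLeft k D)
      have h0 : φ = 0 := LinearMap.ext_on (span_range_residualMat ρ h) (by
        rintro _ ⟨g, rfl⟩
        exact hall g)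
      have h1 := LinearMap.congr_fun h0 (D' * Matrix.single a b 1 * D)
      simp only [φ, LinearMap.comp_apply, LinearMap.mulLeft_apply, LinearMap.mulRight_apply,
        Matrix.entryLinearMap_apply, LinearMap.zero_apply, Matrix.mul_assoc] at h1
      rw [hDD', Matrix.mul_one, ← Matrix.mul_assoc D, hDD', Matrix.one_mul] at h1
      simp at h1
    obtain ⟨g₁, h₁⟩ := hspan 1 0
    obtain ⟨g₂, h₂⟩ := hspan 0 1
    by_cases e1 : M g₁ 0 1 = 0
    swap
    · exact ⟨g₁, e1, h₁⟩
    by_cases e2 : M g₂ 1 0 = 0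
    swap
    · exact ⟨g₂, h₂, e2⟩
    have hne : ∀ g, (M g).det ≠ 0 := fun g hg => by
      have h1 : (M g).det * (M g⁻¹).det = 1 := by
        rw [← det_mul, ← map_mul, mul_inv_cancel, map_one, det_one]
      rw [hg, zero_mul] at h1
      exact zero_ne_one h1
    have d1 := hne g₁
    have d2 := hne g₂
    rw [det_fin_two, e1, zero_mul, sub_zero] at d1
    rw [det_fin_two, e2, mul_zero, sub_zero] at d2
    refine ⟨g₁ * g₂, ?_, ?_⟩
    · rw [map_mul, Matrix.mul_apply, Fin.sum_univ_two, e1, zero_mul, add_zero]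
      exact mul_ne_zero (left_ne_zero_of_mul d1) h₂
    · rw [map_mul, Matrix.mul_apply, Fin.sum_univ_two, e2, mul_zero, add_zero]
      exact mul_ne_zero h₁ (left_ne_zero_of_mul d2)

end FLTAgent.FlatModel
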