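import Fermat.Agent.FlatModel.Span

/-!
# Restricting a model to a stable subgroup
-/

set_option autoImplicit false

namespace FLTAgent.FlatModel

variable {K : Type*} [Field K] {p : ℕ} {A : ValuationSubring K} {I : Subgroup (K ≃+* K)}
  {X : Type*} [AddCommGroup X]

/-- The action on a stable subgroup. -/
def restrictAction (ρ : I →* AddMonoid.End X) (Y : AddSubgroup X)
    (hY : ∀ τ, ∀ y ∈ Y, ρ τ y ∈ Y) : I →* AddMonoid.End Y where
  toFun τ :=
    { toFun := fun y => ⟨ρ τ y, hY τ y y.2⟩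
      map_zero' := Subtype.ext (map_zero (ρ τ))
      map_add' := fun a b => Subtype.ext (map_add (ρ τ) (a : X) (b : X)) }
  map_one' := by
    ext y
    show ρ 1 (y : X) = y
    rw [map_one]; rfl
  map_mul' τ σ := by
    ext y
    show ρ (τ * σ) (y : X) = ρ τ (ρ σ (y : X))
    rw [map_mul]; rfl

variable {ρ : I →* AddMonoid.End X} {H : Submodule (baseRing A I) (X → K)}

theorem IsModel.restrict (hH : IsModel ρ H) (Y : AddSubgroup X)
    (hY : ∀ τ, ∀ y ∈ Y, ρ τ y ∈ Y) :
    IsModel (restrictAction ρ Y hY) (H.map (LinearMap.funLeft _ _ (fun y : Y => (y : X)))) where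
  fg := hH.fg.map _
  one_mem := ⟨1, hH.one_mem, rfl⟩
  mul_mem := by
    rintro _ ⟨f, hf, rfl⟩ _ ⟨g, hg, rfl⟩
    exact ⟨f * g, hH.mul_mem f hf g hg, rfl⟩
  integral := by rintro _ ⟨f, hf, rfl⟩ y; exact hH.integral f hf y
  equivariant := by rintro _ ⟨f, hf, rfl⟩ τ y; exact hH.apply_map hf τ (y : X)
  separates := fun x y h => Subtype.ext (hH.separates _ _ fun f hf => h _ ⟨f, hf, rfl⟩)
  coprod := by
    rintro _ ⟨f, hf, rfl⟩
    obtain ⟨n, a, b, ha, hb, hab⟩ := hH.coprod f hf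
    exact ⟨n, fun i => LinearMap.funLeft _ _ (fun y : Y => (y : X)) (a i),
      fun i => LinearMap.funLeft _ _ (fun y : Y => (y : X)) (b i),
      fun i => ⟨_, ha i, rfl⟩, fun i => ⟨_, hb i, rfl⟩, fun x y => hab (x : X) (y : X)⟩

end FLTAgent.FlatModel
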