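import Fermat.Agent.FlatModel.Ctx
import Mathlib.Data.Nat.Choose.Dvd
import Mathlib.Algebra.BigOperators.Fin
import Mathlib.Tactic.LinearCombination
import Mathlib.Tactic.Ring

/-!
# A connected model over an unramified base with trivial action and exponent `p` is trivial

The proof compares `f (k • x)` with its expansion to second order in the smallest possible
`p`-content.
-/

set_option autoImplicit false

namespace FLTAgent.FlatModel

variable {K : Type*} [Field K] {p : ℕ} {A : ValuationSubring K} {I : Subgroup (K ≃+* K)}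

theorem valuation_natCast_le_one (A : ValuationSubring K) (k : ℕ) : A.valuation (k : K) ≤ 1 :=
  (A.valuation_le_one_iff _).mpr (natCast_mem A k)

theorem coprod_defect {X : Type*} [AddCommGroup X] {n : ℕ} {f : X → K} {a b : Fin n → X → K}
    (hab : ∀ x y, f (x + y) = ∑ i, a i x * b i y) (x y : X) :
    f (x + y) - f x - f y + f 0 = ∑ i, (a i x - a i 0) * (b i y - b i 0) := by
  rw [show f x = ∑ i, a i x * b i 0 by rw [← hab, add_zero],
    show f y = ∑ i, a i 0 * b i y by rw [← hab, zero_add],
    show f 0 = ∑ i, a i 0 * b i 0 by rw [← hab, add_zero], hab, ← Finset.sum_sub_distrib,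
    ← Finset.sum_sub_distrib, ← Finset.sum_add_distrib]
  exact Finset.sum_congr rfl fun i _ => by ring

/-- Functions with fixed values on a connected group of exponent `p` (odd) are constant. -/
theorem eq_apply_zero_of_connected [CharZero K] (hI : IsUnramifiedBase p A I) (hp2 : p ≠ 2)
    {X : Type*} [AddCommGroup X] (S : Set (X → K))
    (fixed : ∀ f ∈ S, ∀ x, ∀ τ ∈ I, τ (f x) = f x)
    (conn : ∀ f ∈ S, ∀ x, A.valuation (f x - f 0) < 1)
    (period : ∀ f ∈ S, ∀ x, f (p • x) = f 0)
    (coprod : ∀ f ∈ S, ∃ (n : ℕ) (a b : Fin n → X → K), (∀ i, a i ∈ S) ∧ (∀ i, b i ∈ S) ∧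
      ∀ x y, f (x + y) = ∑ i, a i x * b i y)
    {f₀ : X → K} (hf₀ : f₀ ∈ S) (x₀ : X) : f₀ x₀ = f₀ 0 := by
  classical
  set v := A.valuation with hvdef
  set π := v (p : K) with hπ
  have hπ0 : 0 < π := hI.valuation_natCast_pos
  have hπ1 : π < 1 := hI.natCast_lt
  by_contra hne
  have hP : ∃ m, ∃ f ∈ S, ∃ x, π ^ (m + 1) < v (f x - f 0) := by
    obtain ⟨m, hm⟩ := hI.exists_pow_lt _ (sub_ne_zero.mpr hne)
    exact ⟨m, f₀, hf₀, x₀, (pow_le_pow_right_of_le_one' hπ1.le m.le_succ).trans_lt hm⟩
  set m := Nat.find hP with hm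
  have hbase : ∀ f ∈ S, ∀ x, v (f x - f 0) ≤ π := fun f hf x => by
    simpa using hI.le_pow_succ (m := 0) (x := f x - f 0)
      (fun τ hτ => by rw [map_sub, fixed f hf x τ hτ, fixed f hf 0 τ hτ])
      (by simpa using conn f hf x)
  have hle : ∀ f ∈ S, ∀ x, v (f x - f 0) ≤ π ^ m := by
    intro f hf x
    rcases Nat.eq_zero_or_pos m with h0 | h0
    · rw [h0, pow_zero]; exact (conn f hf x).le
    · have := Nat.find_min hP (show m - 1 < m by omega)
      push Not at this
      simpa [Nat.sub_add_cancel h0] using this f hf x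
  obtain ⟨f, hf, u, hfu⟩ := Nat.find_spec hP
  rw [← hm] at hfu
  set d := f u - f 0 with hd
  have hpd : π ^ (m + 2) < v ((p : K) * d) := by
    rw [map_mul, pow_succ' π (m + 1)]
    exact mul_lt_mul_of_pos_left hfu hπ0
  -- first order
  have first : ∀ g ∈ S, ∀ k : ℕ, v (g (k • u) - g 0 - k * (g u - g 0)) ≤ π ^ (2 * m) := by
    intro g hg k
    induction k with
    | zero => simp
    | succ k ih =>
      obtain ⟨n, a, b, ha, hb, hab⟩ := coprod g hg
      have h2 : v (∑ i, (a i (k • u) - a i 0) * (b i u - b i 0)) ≤ π ^ (2 * m) := by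
        refine v.map_sum_le fun i _ => ?_
        rw [map_mul, two_mul, pow_add]
        exact mul_le_mul' (hle _ (ha i) _) (hle _ (hb i) _)
      rw [← coprod_defect hab] at h2
      rw [succ_nsmul, Nat.cast_succ, show g (k • u + u) - g 0 - (k + 1 : K) * (g u - g 0) =
        (g (k • u) - g 0 - k * (g u - g 0)) + (g (k • u + u) - g (k • u) - g u + g 0) by ring]
      exact (v.map_add _ _).trans (max_le ih h2)
  have hm1 : m = 1 := by
    have hpos : 0 < m := by
      by_contra h0
      rw [Nat.eq_zero_of_not_pos h0, zero_add, pow_one] at hfu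
      exact (hbase f hf u).not_gt hfu
    have h := first f hf p
    rw [period f hf, sub_self, zero_sub, v.map_neg] at h
    by_contra h1
    exact ((hpd.trans_le h).trans_le (pow_le_pow_right_of_le_one' hπ1.le
      (show m + 2 ≤ 2 * m by omega))).false
  rw [hm1] at hle hfu hpd
  simp only [hm1, Nat.mul_one] at first
  -- second order
  obtain ⟨n, a, b, ha, hb, hab⟩ := coprod f hf
  set C := ∑ i, (a i u - a i 0) * (b i u - b i 0) with hC
  have hCle : v C ≤ π ^ 2 := v.map_sum_le fun i _ => by
    rw [map_mul, pow_two]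
    simpa using mul_le_mul' (hle _ (ha i) u) (hle _ (hb i) u)
  have second : ∀ k : ℕ, v (f (k • u) - f 0 - k * d - (k.choose 2 : ℕ) * C) ≤ π ^ 3 := by
    intro k
    induction k with
    | zero => simp
    | succ k ih =>
      have h3 : v (f (k • u + u) - f (k • u) - f u + f 0 - k * C) ≤ π ^ 3 := by
        rw [coprod_defect hab, hC, Finset.mul_sum, ← Finset.sum_sub_distrib]
        refine v.map_sum_le fun i _ => ?_
        rw [show ∀ r s t w : K, r * s - t * (w * s) = (r - t * w) * s by intros; ring, map_mul,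
          pow_succ π 2]
        exact mul_le_mul' (first _ (ha i) k) (by simpa using hle _ (hb i) u)
      rw [succ_nsmul, show (k + 1).choose 2 = k + k.choose 2 by
          rw [Nat.choose_succ_succ', Nat.choose_one_right], Nat.cast_add k (k.choose 2), Nat.cast_succ,
        show f (k • u + u) - f 0 - (k + 1 : K) * d - ((k : K) + (k.choose 2 : ℕ)) * C =
          (f (k • u) - f 0 - k * d - (k.choose 2 : ℕ) * C) +
            (f (k • u + u) - f (k • u) - f u + f 0 - k * C) by rw [hd]; ring]
      exact (v.map_add _ _).trans (max_le ih h3)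
  have hdvd : p ∣ p.choose 2 :=
    hI.prime.dvd_choose_self two_ne_zero (lt_of_le_of_ne hI.prime.two_le (Ne.symm hp2))
  obtain ⟨q, hq⟩ := hdvd
  have h := second p
  rw [period f hf, sub_self, zero_sub, hq, Nat.cast_mul] at h
  have h4 : v ((p : K) * q * C) ≤ π ^ 3 := by
    rw [map_mul, map_mul, pow_succ' π 2, mul_assoc]
    exact mul_le_mul' le_rfl ((mul_le_of_le_one_left' (valuation_natCast_le_one A q)).trans hCle)
  have h5 : v ((p : K) * d) ≤ π ^ 3 := by
    rw [show (p : K) * d = -((-((p : K) * d) - p * q * C) + p * q * C) by ring, v.map_neg]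
    exact (v.map_add _ _).trans (max_le h h4)
  exact (hpd.trans_le h5).false

end FLTAgent.FlatModel
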