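import Fermat.Agent.FlatModel.Basis
import Mathlib.Algebra.Algebra.Operations
import Mathlib.Algebra.Algebra.Pi

/-!
# A separating module of functions on a finite set spans all functions
-/

set_option autoImplicit false

namespace FLTAgent.FlatModel

variable {K : Type*} [Field K] {p : ℕ} {A : ValuationSubring K} {I : Subgroup (K ≃+* K)}
  {X : Type*} [AddCommGroup X] {ρ : I →* AddMonoid.End X}
  {H : Submodule (baseRing A I) (X → K)}

theorem apply_inv_apply (ρ : I →* AddMonoid.End X) (τ : I) (x : X) : ρ τ (ρ τ⁻¹ x) = x := by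
  show (ρ τ * ρ τ⁻¹) x = x
  rw [← map_mul, mul_inv_cancel, map_one]
  rfl

theorem inv_apply_apply (ρ : I →* AddMonoid.End X) (τ : I) (x : X) : ρ τ⁻¹ (ρ τ x) = x := by
  simpa using apply_inv_apply ρ τ⁻¹ x

theorem surjective_action (ρ : I →* AddMonoid.End X) (τ : I) :
    Function.Surjective (ρ τ) := fun x => ⟨ρ τ⁻¹ x, apply_inv_apply ρ τ x⟩

namespace IsModel

variable (hH : IsModel ρ H)
include hH

theorem span_eq_top [Finite X] : Submodule.span K (H : Set (X → K)) = ⊤ := by
  classical
  have := Fintype.ofFinite X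
  set M := Submodule.span K (H : Set (X → K)) with hM
  have h1 : (1 : X → K) ∈ M := Submodule.subset_span hH.one_mem
  have hmul : ∀ f g, f ∈ M → g ∈ M → f * g ∈ M := by
    intro f g hf hg
    have h := Submodule.mul_mem_mul hf hg
    rw [hM, Submodule.span_mul_span] at h
    refine Submodule.span_mono ?_ h
    rintro _ ⟨a, ha, b, hb, rfl⟩
    exact hH.mul_mem a ha b hb
  let B : Subalgebra K (X → K) := M.toSubalgebra h1 hmul
  have hδ : ∀ x : X, Pi.single x (1 : K) ∈ M := by
    intro x
    have hsep : ∀ y : X, ∃ f ∈ M, f x = 1 ∧ (y ≠ x → f y = 0) := by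
      intro y
      by_cases hy : y = x
      · exact ⟨1, h1, rfl, fun h => absurd hy h⟩
      obtain ⟨f, hf, hne⟩ : ∃ f ∈ H, f x ≠ f y := by
        by_contra! h
        exact hy (hH.separates x y h).symm
      refine ⟨(f x - f y)⁻¹ • (f - f y • 1), M.smul_mem _ (M.sub_mem (Submodule.subset_span hf)
        (M.smul_mem _ h1)), ?_, fun _ => by simp⟩
      simp [sub_ne_zero.mpr hne]
    choose f hf hfx hfy using hsep
    have hprod : ∏ y : X, f y ∈ B := prod_mem fun y _ => hf y
    have : (∏ y : X, f y) = Pi.single x (1 : K) := by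
      funext z
      rw [Finset.prod_apply]
      by_cases hz : z = x
      · subst hz; simp [hfx]
      · rw [Pi.single_eq_of_ne hz]
        exact Finset.prod_eq_zero (Finset.mem_univ z) (hfy z hz)
    rw [← this]; exact hprod
  refine eq_top_iff.mpr fun f _ => ?_
  rw [pi_eq_sum_univ f]
  refine M.sum_mem fun x _ => M.smul_mem _ ?_
  convert hδ x using 1
  funext z
  simp [Pi.single_apply, eq_comm]

/-- The model has an `A ^ I`-basis which is a `K`-basis of all functions. -/
theorem exists_fullBasis [Finite X] :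
    ∃ (n : ℕ) (b : Fin n → X → K), (∀ i, b i ∈ H) ∧ LinearIndependent K b ∧
      Submodule.span (baseRing A I) (Set.range b) = H ∧ Submodule.span K (Set.range b) = ⊤ := by
  obtain ⟨n, b, hli, hb⟩ := exists_basis (ρ := fun τ => ρ τ) (surjective_action ρ) H hH.fg
    hH.equivariant
  refine ⟨n, b, fun i => hb ▸ Submodule.subset_span ⟨i, rfl⟩, hli, hb, ?_⟩
  refine eq_top_iff.mpr (hH.span_eq_top.ge.trans (Submodule.span_le.mpr fun f hf => ?_))
  rw [SetLike.mem_coe, ← hb] at hf
  exact Submodule.span_le_restrictScalars (baseRing A I) K _ hf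

/-- Some nonzero multiple of an equivariant function lies in the model. -/
theorem exists_pow_smul_mem [CharZero K] [Finite X] (hI : IsUnramifiedBase p A I) {f : X → K}
    (hf : IsEquivariant (fun τ => ρ τ) f) :
    ∃ N : ℕ, (fun x => (p : K) ^ N * f x) ∈ H := by
  obtain ⟨n, b, hbH, hli, -, htop⟩ := hH.exists_fullBasis
  obtain ⟨g, hg⟩ := (Submodule.mem_span_range_iff_exists_fun K).mp
    (htop ▸ Submodule.mem_top : f ∈ _)
  have hfix := coeff_fixed hli (fun i => hH.equivariant _ (hbH i)) (surjective_action ρ) hf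
    (g := g) fun x => by rw [← hg]; simp [Finset.sum_apply]
  choose N hN using fun i => hI.exists_pow_mul_mem (g i)
  refine ⟨∑ i, N i, ?_⟩
  have hc : ∀ i, (p : K) ^ (∑ i, N i) * g i ∈ baseRing A I := by
    intro i
    refine ⟨?_, fun τ hτ => by rw [map_mul, map_pow, map_natCast, hfix τ hτ]⟩
    rw [← Nat.sub_add_cancel (Finset.single_le_sum (fun i _ => Nat.zero_le (N i))
      (Finset.mem_univ i)), pow_add, mul_assoc]
    exact MulMemClass.mul_mem (pow_mem (natCast_mem A p) _) (hN i)
  have : (fun x => (p : K) ^ (∑ i, N i) * f x) =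
      ∑ i, (⟨_, hc i⟩ : baseRing A I) • b i := by
    funext x
    rw [← hg]
    simp only [Finset.sum_apply, Pi.smul_apply, Subring.smul_def, smul_eq_mul, Finset.mul_sum]
    exact Finset.sum_congr rfl fun i _ => by ring
  rw [this]
  exact H.sum_mem fun i _ => H.smul_mem _ (hbH i)

end IsModel

end FLTAgent.FlatModel
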