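import Mathlib.RingTheory.Ideal.Quotient.Basic
import Mathlib.Algebra.Module.LinearMap.End
import Mathlib.Algebra.BigOperators.Group.Finset.Basic
import Mathlib.Algebra.Module.BigOperators
import Mathlib.Tactic.LinearCombination
import Mathlib.Tactic.Module

/-!
# A module killed by the Cayley–Hamilton relation of an irreducible pseudo-representation

If `g ^ 2 - t g • g + d g = 0` on a module killed by a maximal ideal `𝔪`, and the traces `t` come
from an irreducible two-dimensional representation, then a formal combination of group elements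
which is orthogonal to all group elements for `t` acts as zero.
-/

set_option autoImplicit false

namespace FLTAgent.FlatModel

variable {R : Type*} [CommRing R] {M : Type*} [AddCommGroup M] [Module R M] {G : Type*} [Group G]

/-- The Cayley–Hamilton relation for `t` and `d`. -/
def HasQuadRelation (ρ : G →* Module.End R M) (t d : G → R) : Prop :=
  (∀ g m, ρ g (ρ g m) - t g • ρ g m + d g • m = 0) ∧ ∀ g h m, d (g * h) • (m : M) = (d g * d h) • m

variable {ρ : G →* Module.End R M} {t d : G → R}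

theorem HasQuadRelation.apply_eq (hrel : HasQuadRelation ρ t d) (g : G) (m : M) :
    d g • ρ g⁻¹ m = t g • m - ρ g m := by
  have h := hrel.1 g (ρ g⁻¹ m)
  rw [← Module.End.mul_apply (ρ g) (ρ g⁻¹), ← map_mul, mul_inv_cancel, map_one,
    Module.End.one_apply] at h
  rw [← sub_eq_zero, ← h]
  module

/-- Polarisation: `(g h)^* = h^* g^*`. -/
theorem HasQuadRelation.star_mul (hrel : HasQuadRelation ρ t d) (g h : G) (m : M) :
    t (g * h) • m - ρ g (ρ h m) =
      t h • (t g • m - ρ g m) - ρ h (t g • m - ρ g m) := by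
  rw [← hrel.apply_eq g m, ← hrel.apply_eq h (d g • ρ g⁻¹ m), map_smul,
    show ρ g (ρ h m) = ρ (g * h) m by rw [map_mul]; rfl, ← hrel.apply_eq, mul_inv_rev, map_mul,
    Module.End.mul_apply, smul_smul, hrel.2, mul_comm (d g) (d h)]

theorem HasQuadRelation.polar (hrel : HasQuadRelation ρ t d) (g h : G) (m : M) :
    ρ g (ρ h m) + ρ h (ρ g m) =
      t g • ρ h m + t h • ρ g m + t (g * h) • m - (t g * t h) • m := by
  have e := hrel.star_mul g h m
  rw [map_sub, map_smul, smul_sub, smul_smul] at e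
  rw [← sub_eq_zero]
  rw [← sub_eq_zero] at e
  rw [← neg_eq_zero, ← e]
  module

variable (𝔪 : Ideal R) [𝔪.IsMaximal]

theorem injective_smul_of_notMem (hkill : ∀ r ∈ 𝔪, ∀ m : M, r • m = 0) {r : R} (hr : r ∉ 𝔪)
    {m : M} (hm : r • m = 0) : m = 0 := by
  obtain ⟨s, hs⟩ := Ideal.Quotient.exists_inv (I := 𝔪) (a := Ideal.Quotient.mk 𝔪 r)
    (by rwa [Ne, Ideal.Quotient.eq_zero_iff_mem])
  obtain ⟨s, rfl⟩ := Ideal.Quotient.mk_surjective s
  rw [← map_mul, ← map_one (Ideal.Quotient.mk 𝔪), Ideal.Quotient.eq] at hs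
  have h := hkill _ hs m
  rwa [sub_smul, one_smul, mul_comm, mul_smul, hm, smul_zero, zero_sub, neg_eq_zero] at h

/-- The discriminant of the two-dimensional algebra generated by `s`, `h`. -/
def irredDisc (t d : G → R) (s h : G) (a b : R) : R :=
  (t (s * h) - b * t h) ^ 2 - t h * (a - b) * (t (s * h) - b * t h) + d h * (a - b) ^ 2

/-- No nonzero vector and its `h`-image are eigenvectors of `s`. -/
theorem eq_zero_of_eigen (hrel : HasQuadRelation ρ t d) (hkill : ∀ r ∈ 𝔪, ∀ m : M, r • m = 0)
    {s h : G} {a b : R} (hts : t s - (a + b) ∈ 𝔪) (hD : irredDisc t d s h a b ∉ 𝔪) {m : M}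
    (hm : ρ s m = a • m) (hhm : ρ s (ρ h m) = a • ρ h m) : m = 0 := by
  set u := t (s * h) - b * t h with hu
  have hts' : ∀ y : M, t s • y = (a + b) • y := fun y =>
    sub_eq_zero.mp (by rw [← sub_smul]; exact hkill _ hts y)
  have h1 : (a - b) • ρ h m = u • m := by
    have e := hrel.polar s h m
    rw [hhm, hm, map_smul, show (t s * t h) • m = t h • (t s • m) by rw [smul_smul, mul_comm],
      hts', hts'] at e
    rw [← sub_eq_zero] at e ⊢
    rw [← e, hu]
    module
  refine injective_smul_of_notMem 𝔪 hkill hD ?_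
  have e := hrel.1 h m
  have e2 : ((a - b) ^ 2) • ρ h (ρ h m) = (u * u) • m := by
    rw [pow_two, mul_smul, ← map_smul, h1, map_smul, smul_comm, h1, smul_smul]
  have e3 : ((a - b) ^ 2 * t h) • ρ h m = (t h * (a - b) * u) • m := by
    rw [show (a - b) ^ 2 * t h = (t h * (a - b)) * (a - b) by ring, mul_smul, h1, smul_smul]
  have e4 := congrArg (fun y : M => (a - b) ^ 2 • y) e
  simp only [smul_add, smul_sub, smul_smul, smul_zero, e2, e3] at e4
  rw [← e4, irredDisc, ← hu]
  module

/-- A combination of group elements that is orthogonal for `t` to all group elements acts as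
zero. -/
theorem eq_zero_of_trace (hrel : HasQuadRelation ρ t d) (hkill : ∀ r ∈ 𝔪, ∀ m : M, r • m = 0)
    {s h : G} {a b : R} (hts : t s - (a + b) ∈ 𝔪) (hds : d s - a * b ∈ 𝔪)
    (hD : irredDisc t d s h a b ∉ 𝔪) {ι : Type*} [Fintype ι] (c : ι → R) (g : ι → G)
    (hperp : ∀ k, ∑ i, c i * t (g i * k) ∈ 𝔪) (m : M) : ∑ i, c i • ρ (g i) m = 0 := by
  set x : M →ₗ[R] M := ∑ i, c i • ρ (g i) with hx
  have hxm : ∀ y, x y = ∑ i, c i • ρ (g i) y := fun y => by simp [hx]
  have h1 : ∀ y : M, (∑ i, c i * t (g i)) • y = 0 := fun y =>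
    hkill _ (by simpa using hperp 1) y
  have hanti : ∀ k y, ρ k (x y) = x (t k • y - ρ k y) := by
    intro k y
    rw [map_sub, map_smul, hxm, hxm, map_sum, Finset.smul_sum, ← Finset.sum_sub_distrib,
      ← sub_eq_zero, ← Finset.sum_sub_distrib]
    have hsum : ∀ i, ρ k (c i • ρ (g i) y) -
        (t k • c i • ρ (g i) y - c i • ρ (g i) (ρ k y)) =
        (c i * t (g i)) • ρ k y + (c i * t (g i * k)) • y - (c i * t (g i)) • (t k • y) := by
      intro i
      rw [map_smul]
      have e := congrArg (fun z : M => c i • z) (hrel.polar (g i) k y)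
      rw [← sub_eq_zero] at e ⊢
      rw [← e]
      module
    rw [Finset.sum_congr rfl fun i _ => hsum i, Finset.sum_sub_distrib, Finset.sum_add_distrib,
      ← Finset.sum_smul, ← Finset.sum_smul, ← Finset.sum_smul, h1, h1,
      hkill _ (hperp k) y, add_zero, sub_zero]
  have hcomm : ∀ k l y, ρ k (ρ l (x y)) = ρ l (ρ k (x y)) := by
    intro k l y
    have e1 : ρ k (ρ l (x y)) = x (t (k * l) • y - ρ k (ρ l y)) := by
      rw [show ρ k (ρ l (x y)) = ρ (k * l) (x y) by rw [map_mul]; rfl, hanti, map_mul]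
      rfl
    rw [e1, hrel.star_mul, hanti k y, hanti l]
  have hfix : ∀ {a b : R}, t s - (a + b) ∈ 𝔪 → d s - a * b ∈ 𝔪 →
      irredDisc t d s h a b ∉ 𝔪 → ∀ y, ρ s (x y) = b • x y := by
    intro a b hts hds hD y
    refine sub_eq_zero.mp (eq_zero_of_eigen 𝔪 hrel hkill hts hD ?_ ?_)
    · have e := hrel.1 s (x y)
      have e1 := hkill _ hts (ρ s (x y))
      have e2 := hkill _ hds (x y)
      rw [sub_smul] at e1 e2
      rw [map_sub, map_smul, ← sub_eq_zero]
      rw [← e, ← sub_eq_zero]
      rw [sub_eq_zero] at e1 e2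
      rw [e1, e2]
      module
    · have e := hrel.1 s (ρ h (x y))
      have e1 := hkill _ hts (ρ s (ρ h (x y)))
      have e2 := hkill _ hds (ρ h (x y))
      rw [sub_smul, sub_eq_zero] at e1 e2
      rw [map_sub, map_smul, ← hcomm s h y, map_sub, map_smul, ← sub_eq_zero, ← e, e1, e2,
        ← sub_eq_zero]
      module
  rw [← hxm]
  refine eq_zero_of_eigen 𝔪 hrel hkill (h := h) (a := b) (b := a) (by rwa [add_comm]) ?_
    (hfix hts hds hD m) ?_
  · convert hD using 1
    unfold irredDisc
    ring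
  · rw [hanti]
    exact hfix hts hds hD _

end FLTAgent.FlatModel
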