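import Fermat.Agent.FlatModel.Ordinary
import Fermat.Agent.FlatModel.LevelVec
import Fermat.Agent.FlatModel.DetCyclo
import Fermat.Agent.FlatModel.ResidualShape
import Fermat.Agent.FlatModel.Transfer
import Fermat.Agent.FlatModel.DefectKill
import Fermat.Agent.CommAlg.FrobeniusExists

/-!
# From an isogeny decomposition of the levels to an identity of traces
-/

set_option autoImplicit false

namespace FLTAgent.FlatModel

open Matrix GalRep IsLocalRing

local notation "Γℚ" => AlgebraicClosure ℚ ≃ₐ[ℚ] AlgebraicClosure ℚ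

variable {p : ℕ} [Fact p.Prime] {N : ℕ} [NeZero N] {S : Finset ℕ}
  {𝒪 : Type} [CommRing 𝒪] [IsDomain 𝒪] [IsDiscreteValuationRing 𝒪]
  [IsAdicComplete (IsLocalRing.maximalIdeal 𝒪) 𝒪]
  {θ : CuspForm.heckeAlgebra N 2 (↑S : Set ℕ) →+* IsLocalRing.ResidueField 𝒪}
  {T : Type} [CommRing T] [IsLocalRing T] [IsNoetherianRing T]
  [IsAdicComplete (IsLocalRing.maximalIdeal T) T] [Algebra 𝒪 T] [IsLocalHom (algebraMap 𝒪 T)]
  [Module.Finite 𝒪 T] [Module.Free 𝒪 T]

set_option quotPrecheck false in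
local notation "𝕋" => CuspForm.heckeAlgebra N 2 (↑S : Set ℕ)

/-- The geometric input at a place over `p`, up to the integer `D`: two quotients of every level with
models, a subgroup absorbing inertia on which inertia is cyclotomic on the common kernel up to a factor of `D`, and an
endomorphism factoring `D` through the quotients. -/
def HasTwoStep (M : MatModel N p ↑S) (A : ValuationSubring (AlgebraicClosure ℚ)) (D : ℕ) : Prop :=
  ∀ n, ∃ (W₁ W₂ GA : AddSubgroup (LevelVec M n)) (f : AddMonoid.End (LevelVec M n)),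
    (∀ g, ∀ x ∈ W₁, levelAct M n g x ∈ W₁) ∧ (∀ g, ∀ x ∈ W₂, levelAct M n g x ∈ W₂) ∧
    (∀ i : Bool, ∃ (P : Type) (_ : AddCommGroup P) (π : LevelVec M n →+ P)
      (σP : inertiaRing A →* AddMonoid.End P)
      (H : Submodule (baseRing A (inertiaRing A)) (P → AlgebraicClosure ℚ)),
      (∀ x, π x = 0 ↔ x ∈ (bif i then W₁ else W₂)) ∧
      (∀ τ x, π (levelInertia M n A τ x) = σP τ (π x)) ∧ IsModel σP H) ∧
    (∀ τ x, levelInertia M n A τ x - x ∈ GA) ∧
    (∃ C D' : ℕ, C * D' = D ∧ (∀ (τ : inertiaRing A), ∀ x ∈ GA, x ∈ W₁ → x ∈ W₂ →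
      C • (levelInertia M n A τ x -
        ((cyclo p (inertiaHom A τ) : ℤ_[p]).toZModPow n).val • x) = 0) ∧
      ∀ x, D' • x - f x ∈ W₁ ⊓ W₂) ∧
    (∀ g x, f (levelAct M n g x) = levelAct M n g (f x)) ∧
    ∀ x, x ∈ W₁ → x ∈ W₂ → f x = 0

/-- An additive map commuting with Galois commutes with the Hecke algebra. -/
theorem commute_levelHecke (M : MatModel N p ↑S) (hpN : p ∣ N)
    (hS : ∀ q : ℕ, q.Prime → q ∣ N → q ∈ S) (n : ℕ) {P : Type*} [AddCommGroup P]
    (π : LevelVec M n →+ P) (ρP : Γℚ → AddMonoid.End P)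
    (hπ : ∀ g x, π (levelAct M n g x) = ρP g (π x)) (t : 𝕋) :
    ∀ x, π x = 0 → π (redP p n (castP p (M.Tm t)) *ᵥ x) = 0 := by
  obtain ⟨t, ht⟩ := t
  induction ht using Algebra.adjoin_induction with
  | mem t ht =>
    rcases ht with ⟨ℓ, hℓ, hℓN, hℓS, rfl⟩ | ⟨q, hqN, hq, hqS, -⟩
    · intro x hx
      obtain ⟨A', hA', σ, hσ⟩ := CommAlg.exists_liesOverPrime_isFrobeniusAt hℓ
      show π (redP p n (castP p (M.Tm (CuspForm.heckeAlgebra.T hℓ hℓN hℓS))) *ᵥ x) = 0
      rw [← M.frob ℓ hℓ hℓN hℓS (fun h => hℓN (h ▸ hpN)) A' hA' σ hσ, map_add, redP_smul,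
        map_natCast, Matrix.add_mulVec, Matrix.smul_mulVec, map_add, Nat.cast_smul_eq_nsmul,
        map_nsmul, ← levelAct_apply, ← levelAct_apply, hπ, hπ, hx, map_zero, map_zero, smul_zero,
        add_zero]
    · exact absurd (hS q hq hqN) hqS
  | algebraMap r =>
    intro x hx
    show π (redP p n (castP p (M.Tm ((r : ℤ) : 𝕋))) *ᵥ x) = 0
    rw [map_intCast, map_intCast, map_intCast, Matrix.intCast_mulVec, Int.cast_smul_eq_zsmul, map_zsmul, hx,
      smul_zero]
  | add a b ha hb iha ihb =>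
    intro x hx
    show π (redP p n (castP p (M.Tm (⟨a, ha⟩ + ⟨b, hb⟩))) *ᵥ x) = 0
    rw [map_add, map_add, map_add, Matrix.add_mulVec, map_add, iha x hx, ihb x hx, add_zero]
  | mul a b ha hb iha ihb =>
    intro x hx
    show π (redP p n (castP p (M.Tm (⟨a, ha⟩ * ⟨b, hb⟩))) *ᵥ x) = 0
    rw [map_mul, map_mul, map_mul, ← Matrix.mulVec_mulVec]
    exact iha _ (ihb x hx)

/-- A Galois equivariant map of a level is Hecke linear. -/
theorem commute_map (M : MatModel N p ↑S) (hpN : p ∣ N)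
    (hS : ∀ q : ℕ, q.Prime → q ∣ N → q ∈ S) (n : ℕ) (f : AddMonoid.End (LevelVec M n))
    (hf : ∀ g x, f (levelAct M n g x) = levelAct M n g (f x)) (t : 𝕋) :
    ∀ x, f (redP p n (castP p (M.Tm t)) *ᵥ x) = redP p n (castP p (M.Tm t)) *ᵥ f x := by
  obtain ⟨t, ht⟩ := t
  induction ht using Algebra.adjoin_induction with
  | mem t ht =>
    rcases ht with ⟨ℓ, hℓ, hℓN, hℓS, rfl⟩ | ⟨q, hqN, hq, hqS, -⟩
    · intro x
      obtain ⟨A', hA', σ, hσ⟩ := CommAlg.exists_liesOverPrime_isFrobeniusAt hℓ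
      show f (redP p n (castP p (M.Tm (CuspForm.heckeAlgebra.T hℓ hℓN hℓS))) *ᵥ x) =
        redP p n (castP p (M.Tm (CuspForm.heckeAlgebra.T hℓ hℓN hℓS))) *ᵥ f x
      simp only [← M.frob ℓ hℓ hℓN hℓS (fun h => hℓN (h ▸ hpN)) A' hA' σ hσ, map_add, redP_smul,
        map_natCast, Matrix.add_mulVec, Matrix.smul_mulVec, Nat.cast_smul_eq_nsmul,
        map_nsmul, ← levelAct_apply, hf]
    · exact absurd (hS q hq hqN) hqS
  | algebraMap r =>
    intro x
    show f (redP p n (castP p (M.Tm ((r : ℤ) : 𝕋))) *ᵥ x) =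
      redP p n (castP p (M.Tm ((r : ℤ) : 𝕋))) *ᵥ f x
    simp only [map_intCast, Matrix.intCast_mulVec, Int.cast_smul_eq_zsmul, map_zsmul]
  | add a b ha hb iha ihb =>
    intro x
    show f (redP p n (castP p (M.Tm (⟨a, ha⟩ + ⟨b, hb⟩))) *ᵥ x) =
      redP p n (castP p (M.Tm (⟨a, ha⟩ + ⟨b, hb⟩))) *ᵥ f x
    simp only [map_add, Matrix.add_mulVec, iha, ihb]
  | mul a b ha hb iha ihb =>
    intro x
    show f (redP p n (castP p (M.Tm (⟨a, ha⟩ * ⟨b, hb⟩))) *ᵥ x) =
      redP p n (castP p (M.Tm (⟨a, ha⟩ * ⟨b, hb⟩))) *ᵥ f x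
    simp only [map_mul, ← Matrix.mulVec_mulVec, iha, ihb]

/-- The identity forced on traces by a decomposed level, for an abstract ring of operators. -/
theorem nsmul_trace_defect_core {R : Type} [CommRing R] (M : MatModel N p ↑S) (hp2 : p ≠ 2)
    (Tm : R →+* Matrix (Fin M.r) (Fin M.r) ℤ)
    (hGc : ∀ g r, M.G g * castP p (Tm r) = castP p (Tm r) * M.G g) (πT : R →+* T)
    (ρT : GaloisRepAdic T) (habs : ρT.residual.IsAbsolutelyIrreducible) (ψ : ℤ_[p] →+* T)
    (hdet : ∀ g, (repMat ρT g).det = ψ (cyclo p g : ℤ_[p]))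
    (hp : (p : T) ∈ maximalIdeal T) {A : ValuationSubring (AlgebraicClosure ℚ)}
    (hA : A.LiesOverPrime p) {D₀ : ℕ} (hmod : HasTwoStep M A D₀)
    (hres : (GaloisRepAdic.ofResidualGaloisRep ρT.residual).IsOrdinaryAt p)
    (𝔪 : Ideal R) [𝔪.IsMaximal] (hker : ∀ t : R, t ∈ 𝔪 ↔ residue T (πT t) = 0)
    {c n : ℕ} (hn : c < n)
    (hc : ∀ r, redP p n (castP p (Tm r)) = 0 → ∃ r', r = p ^ (n - c) • r') (t : Γℚ → R)
    (ht1 : ∀ g, redP p n (M.phi g) = redP p n (castP p (Tm (t g))))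
    (ht2 : ∀ g, ρT.trace g - πT (t g) ∈ maximalIdeal T ^ n)
    (hcW : ∀ {P : Type} [AddCommGroup P] (π : LevelVec M n →+ P) (ρP : Γℚ → AddMonoid.End P),
      (∀ g x, π (levelAct M n g x) = ρP g (π x)) →
        ∀ (r : R) x, π x = 0 → π (redP p n (castP p (Tm r)) *ᵥ x) = 0)
    (hcT : ∀ f : AddMonoid.End (LevelVec M n), (∀ g x, f (levelAct M n g x) = levelAct M n g (f x)) →
      ∀ (r : R) x, f (redP p n (castP p (Tm r)) *ᵥ x) = redP p n (castP p (Tm r)) *ᵥ f x)
    {σ τ : Γℚ} (hσ : σ ∈ A.inertiaSubgroupIn ℚ) (hτ : τ ∈ A.inertiaSubgroupIn ℚ) (k : Γℚ) :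
    (D₀ : T) * (ρT.trace (k * σ * τ) - ρT.trace (k * σ) -
      ψ (cyclo p σ : ℤ_[p]) * (ρT.trace (k * τ) - ρT.trace k)) ∈ maximalIdeal T ^ (n - c) := by
  classical
  let : Module R (LevelVec M n) := Module.compHom _
    ((Matrix.toLinAlgEquiv'.toRingHom).comp ((redP p n).comp ((castP p).comp Tm)))
  have hsmul : ∀ (t : R) (v : LevelVec M n), t • v = redP p n (castP p (Tm t)) *ᵥ v :=
    fun t v => rfl
  have hpn1 : 1 ≤ n := by omega
  have : NeZero (p ^ n) := ⟨pow_ne_zero n (Fact.out : p.Prime).ne_zero⟩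
  -- traces and the cyclotomic character as Hecke elements
  let dn : Γℚ → ℕ := fun g => ((cyclo p g : ℤ_[p]).toZModPow n).val
  let d : Γℚ → R := fun g => (dn g : R)
  have hdT : ∀ g, (dn g : T) - ψ (cyclo p g : ℤ_[p]) ∈ maximalIdeal T ^ n := fun g => by
    rw [← map_natCast ψ, ← map_sub]
    exact padicHom_mem_pow ψ hp (by rw [map_sub, map_natCast]; simp [dn])
  have hrest : ∀ g, residue T (πT (t g)) = residue T (ρT.trace g) := fun g => by
    refine (Ideal.Quotient.eq.mpr (Ideal.pow_le_self (show n ≠ 0 by omega) ?_))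
    rw [← neg_mem_iff, neg_sub]
    exact ht2 g
  have hresd : ∀ g, residue T (πT (d g)) = residue T (ψ (cyclo p g : ℤ_[p])) := fun g => by
    rw [map_natCast]
    exact Ideal.Quotient.eq.mpr (Ideal.pow_le_self (show n ≠ 0 by omega) (hdT g))
  have hresdet : ∀ g, residue T (πT (d g)) = (residualMat ρT g).det := fun g => by
    rw [hresd, ← hdet g]
    exact RingHom.map_det _ _
  -- a localiser and the part at `𝔪`
  obtain ⟨e, he, L, hL⟩ := exists_localiser 𝔪 (Ideal.IsMaximal.ne_top inferInstance) (LevelVec M n)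
  let X : Submodule R (LevelVec M n) := LinearMap.range (e • (LinearMap.id : LevelVec M n →ₗ[R] _))
  have hcomm : ∀ g (r : R) (v : LevelVec M n),
      levelAct M n g (r • v) = r • levelAct M n g v := fun g r v => by
    rw [levelAct_apply, levelAct_apply, hsmul, hsmul, Matrix.mulVec_mulVec, Matrix.mulVec_mulVec,
      ← map_mul, ← map_mul, hGc]
  let gl : Γℚ → (LevelVec M n →ₗ[R] LevelVec M n) := fun g =>
    { toFun := levelAct M n g
      map_add' := map_add _
      map_smul' := hcomm g }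
  let ρ : Γℚ →* Module.End R X :=
    { toFun := fun g => (gl g).restrict (p := X) (q := X) (by
        rintro _ ⟨v, rfl⟩
        exact ⟨levelAct M n g v, (hcomm g e v).symm⟩)
      map_one' := LinearMap.ext fun x => Subtype.ext (by
        show levelAct M n 1 (x : LevelVec M n) = x
        rw [map_one]; rfl)
      map_mul' := fun g g' => LinearMap.ext fun x => Subtype.ext (by
        show levelAct M n (g * g') (x : LevelVec M n) =
          levelAct M n g (levelAct M n g' (x : LevelVec M n))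
        rw [map_mul]; rfl) }
  have hd_smul : ∀ g (v : LevelVec M n),
      d g • v = ((cyclo p g : ℤ_[p]).toZModPow n) • v := fun g v => by
    rw [Nat.cast_smul_eq_nsmul, ← natCast_smul_levelVec, ZMod.natCast_zmod_val]
  have hphi : ∀ g (v : LevelVec M n),
      t g • v = levelAct M n g v + d g • levelAct M n g⁻¹ v := fun g v => by
    rw [hsmul, ← ht1, MatModel.phi, map_add, redP_smul, Matrix.add_mulVec, Matrix.smul_mulVec,
      hd_smul]
    rfl
  -- local data
  obtain ⟨s₀, hs₀, hs₀1⟩ := exists_cyclo_ne_one hp2 hA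
  obtain ⟨s, rfl⟩ := exists_inertiaHom_eq hs₀
  have hp1 : ∀ g, ((p : ℤ) ∣ (dn g : ℤ) - 1) ↔ (cyclo p g : ℤ_[p]).toZModPow 1 = 1 := fun g => by
    have h : ((dn g : ℕ) : ZMod (p ^ 1)) = (cyclo p g : ℤ_[p]).toZModPow 1 := by
      have h1 := congrArg (fun r : ℤ_[p] →+* ZMod (p ^ 1) => r (cyclo p g : ℤ_[p]))
        (PadicInt.zmod_cast_comp_toZModPow 1 n hpn1)
      rw [← h1]
      simp only [RingHom.comp_apply, dn]
      rw [← ZMod.natCast_zmod_val ((cyclo p g : ℤ_[p]).toZModPow n), map_natCast,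
        ZMod.natCast_zmod_val]
    rw [← h]
    constructor
    · intro hdvd
      have := (ZMod.intCast_zmod_eq_zero_iff_dvd ((dn g : ℤ) - 1) (p ^ 1)).mpr (by rwa [pow_one])
      rwa [Int.cast_sub, Int.cast_natCast, Int.cast_one, sub_eq_zero] at this
    · intro h1
      have := (ZMod.intCast_zmod_eq_zero_iff_dvd ((dn g : ℤ) - 1) (p ^ 1)).mp
        (by rw [Int.cast_sub, Int.cast_natCast, Int.cast_one, h1, sub_self])
      rwa [pow_one] at this
  have hsd : (residualMat ρT (inertiaHom A s)).det ≠ 1 := by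
    intro h
    rw [← hresdet, map_natCast, ← map_one (residue T)] at h
    apply hs₀1
    rw [← hp1]
    have h' : (residue T) (((dn (inertiaHom A s) : ℤ) - 1 : ℤ) : T) = 0 := by
      rw [Int.cast_sub, Int.cast_natCast, Int.cast_one, map_sub, h, sub_self]
    by_contra hnd
    obtain ⟨a, b, hab⟩ := ((Nat.prime_iff_prime_int.mp (Fact.out : p.Prime)).coprime_iff_not_dvd.mpr
      hnd)
    have h2 := congrArg (fun z : ℤ => residue T (z : T)) hab
    rw [residue_eq_zero_iff] at h'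
    have h3 := (residue_eq_zero_iff ((p : T))).mpr hp
    have h4 := (residue_eq_zero_iff _).mpr h'
    simp only [Int.cast_add, Int.cast_mul, map_add, map_mul, Int.cast_natCast, h3, h4, mul_zero,
      add_zero, Int.cast_one, map_one] at h2
    exact zero_ne_one h2
  obtain ⟨Mr, hMtr, hMdet, hMtri, hMs, h₀, hh₀⟩ :=
    exists_residual_shape ρT habs hres hA hs₀ hsd
  have hres_t : ∀ g, residue T (πT (t g)) = Mr g 0 0 + Mr g 1 1 := fun g => by
    rw [hrest, ← hMtr, Matrix.trace_fin_two]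
  have hres_d : ∀ g, residue T (πT (d g)) = Mr g 0 0 * Mr g 1 1 - Mr g 0 1 * Mr g 1 0 := fun g => by
    rw [hresdet, ← hMdet, Matrix.det_fin_two]
  have hdet_tri : ∀ g ∈ A.inertiaSubgroupIn ℚ, residue T (πT (d g)) = Mr g 0 0 := fun g hg => by
    rw [hres_d, (hMtri g hg).1, (hMtri g hg).2, mul_one, mul_zero, sub_zero]
  have hdefect : ∀ u ∈ A.inertiaSubgroupIn ℚ, ∀ v ∈ A.inertiaSubgroupIn ℚ, ∀ g,
      t (u * v * g) - t (u * g) - d u * t (v * g) + d u * t g ∈ 𝔪 := by
    intro u hu v hv g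
    rw [hker]
    simp only [map_add, map_sub, map_mul, hdet_tri u hu, hres_t, Matrix.mul_apply,
      Fin.sum_univ_two, (hMtri u hu).1, (hMtri u hu).2, (hMtri v hv).1, (hMtri v hv).2]
    ring
  let χ : inertiaRing A → ℕ := fun w => dn (inertiaHom A w)
  have D : ResidualData p n 𝔪 ρ t d (inertiaHom A) χ s h₀ := by
    constructor
    · rw [hker, map_natCast]; exact (residue_eq_zero_iff _).mpr hp
    · refine ⟨fun g x => Subtype.ext ?_, fun g h x => Subtype.ext ?_⟩
      · show levelAct M n g (levelAct M n g (x : LevelVec M n)) -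
          t g • levelAct M n g (x : LevelVec M n) + d g • (x : LevelVec M n) = 0
        rw [hphi, show levelAct M n g⁻¹ (levelAct M n g (x : LevelVec M n)) = x by
          show (levelAct M n g⁻¹ * levelAct M n g) (x : LevelVec M n) = x
          rw [← map_mul, inv_mul_cancel, map_one]; rfl]
        abel
      · show d (g * h) • (x : LevelVec M n) = (d g * d h) • (x : LevelVec M n)
        rw [mul_smul, hd_smul, hd_smul, hd_smul, map_mul, Units.val_mul, map_mul, mul_smul]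
    · intro x
      refine Subtype.ext ?_
      show p ^ n • (x : LevelVec M n) = 0
      rw [← natCast_smul_levelVec, ZMod.natCast_self, zero_smul]
    · exact fun w x => Nat.cast_smul_eq_nsmul _ _ _
    · intro w; simp [d, χ]
    · show t _ - (1 + (dn _ : R)) ∈ 𝔪
      rw [hker, map_sub, map_add, map_one, map_sub, map_add, map_one, hres_t,
        hdet_tri _ hs₀, (hMtri _ hs₀).2]
      ring
    · rw [hp1]; exact hs₀1
    · intro w w'
      have e : ((dn (inertiaHom A (w * w')) : ℤ) - dn (inertiaHom A w) * dn (inertiaHom A w') :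
          ZMod (p ^ n)) = 0 := by
        simp only [dn, Int.cast_natCast, Int.cast_mul, map_mul, Units.val_mul, ZMod.natCast_zmod_val,
          sub_self]
      refine dvd_trans (dvd_pow_self (p : ℤ) (show n ≠ 0 by omega)) ?_
      rw [← Nat.cast_pow, ← ZMod.intCast_zmod_eq_zero_iff_dvd]
      simpa [χ] using e
    · show irredDisc t d _ h₀ 1 (dn _ : R) ∉ 𝔪
      rw [hker, irredDisc]
      simp only [map_add, map_sub, map_mul, map_pow, map_one, hres_t, hres_d, Matrix.mul_apply,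
        Fin.sum_univ_two]
      have hb : residue T (πT (dn (inertiaHom A s) : R)) = Mr (inertiaHom A s) 0 0 :=
        hdet_tri _ hs₀
      rw [hb, (hMtri _ hs₀).1, (hMtri _ hs₀).2, hMs]
      intro h
      have hne : Mr (inertiaHom A s) 0 0 ≠ 1 := by
        intro h1
        have := hMdet (inertiaHom A s)
        rw [Matrix.det_fin_two, (hMtri _ hs₀).1, (hMtri _ hs₀).2, h1] at this
        exact hsd (by rw [← this]; ring)
      refine mul_ne_zero (mul_ne_zero hh₀.1 hh₀.2)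
        (pow_ne_zero 2 (sub_ne_zero.mpr (Ne.symm hne))) ?_
      linear_combination (-1 : ResidueField T) * h
    · intro w g
      exact hdefect _ hs₀ _ (inertiaHom_mem w) g
    · intro w g
      exact hdefect _ (inertiaHom_mem w) _ hs₀ g
  have hχroot : ∀ (w : inertiaRing A) (ζ : AlgebraicClosure ℚ), ζ ^ p ^ n = 1 →
      (w : AlgebraicClosure ℚ ≃+* AlgebraicClosure ℚ) ζ = ζ ^ χ w :=
    fun w ζ hζ => cyclo_spec p (inertiaHom A w) hζ
  obtain ⟨W₁, W₂, GA, f, hW₁, hW₂, hquot, hmove, ⟨C, D', hCD, hlayer, hfD⟩, hf, hf0⟩ := hmod n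
  have hT : ∀ (W : AddSubgroup (LevelVec M n)), (∀ g, ∀ x ∈ W, levelAct M n g x ∈ W) →
      ∀ (r : R) (x : LevelVec M n), x ∈ W → r • x ∈ W := fun W hW r x hx => by
    show redP p n (castP p (Tm r)) *ᵥ x ∈ W
    rw [← QuotientAddGroup.eq_zero_iff]
    exact hcW (QuotientAddGroup.mk' W)
      (fun g => QuotientAddGroup.map W W (levelAct M n g) fun y hy => hW g y hy) (fun g y => rfl) r x
      ((QuotientAddGroup.eq_zero_iff x).2 hx)
  obtain ⟨P₁, _, π₁, σ₁, H₁, hk₁, he₁, hH₁⟩ := hquot true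
  obtain ⟨P₂, _, π₂, σ₂, H₂, hk₂, he₂, hH₂⟩ := hquot false
  have key := fun u w => nsmul_defect_part (isUnramifiedBase_inertia (Fact.out : p.Prime) hA) hp2 X
    (fun g => levelAct M n g) ρ (fun g x => rfl) D hχroot ⟨L, fun r hr x => by
      obtain ⟨v, hv⟩ := x.2
      refine Subtype.ext ?_
      show r • (x : LevelVec M n) = 0
      rw [← hv]
      exact hL r hr v⟩ W₁ W₂ hW₁ hW₂ (hT W₁ hW₁) (hT W₂ hW₂) π₁ hk₁ σ₁ he₁ hH₁ π₂ hk₂ σ₂ he₂ hH₂
    GA hmove hlayer f hf
    (fun x hx => by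
      obtain ⟨v, rfl⟩ := hx
      exact ⟨f v, (hcT f hf e v).symm⟩)
    hf0 hfD u w
  simp only [hCD] at key
  obtain ⟨w₁, rfl⟩ := exists_inertiaHom_eq hσ
  obtain ⟨w₂, rfl⟩ := exists_inertiaHom_eq hτ
  set σ := inertiaHom A w₁
  set τ := inertiaHom A w₂
  set z := t (k * σ * τ) - t (k * σ) - d σ * (t (k * τ) - t k) with hz
  -- `D₀ z` kills `X`
  have hzero : ∀ x : X, (D₀ : R) • (z • x) = 0 := by
    intro x
    have hrel : ∀ g (y : X), t g • y = ρ g y + d g • ρ g⁻¹ y := fun g y => Subtype.ext (hphi g _)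
    have hcomp : ∀ g g' (y : X), ρ (g * g') y = ρ g (ρ g' y) := fun g g' y => by rw [map_mul]; rfl
    have hdmul : ∀ g g' (y : X), d (g * g') • y = d g • d g' • y := fun g g' y => by
      rw [← mul_smul]; exact D.rel.2 g g' y
    set y := ρ k⁻¹ x with hy
    set u := ρ σ⁻¹ y - y with hu
    have e1 : (D₀ : R) • ρ σ (ρ τ x - x) = (D₀ : R) • (d σ • (ρ τ x - x)) := by
      have h := key w₁ w₂ x
      rw [nsmul_sub, sub_eq_zero] at h
      rw [Nat.cast_smul_eq_nsmul, Nat.cast_smul_eq_nsmul]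
      exact h.trans (congrArg (D₀ • ·) (Nat.cast_smul_eq_nsmul _ _ _).symm)
    have e2 : (D₀ : R) • u = (D₀ : R) • (d τ • ρ τ⁻¹ u) := by
      have h := key w₂ w₁⁻¹ y
      rw [map_inv (inertiaHom A)] at h
      rw [nsmul_sub, sub_eq_zero] at h
      have h' : (D₀ : R) • ρ τ u = (D₀ : R) • (d τ • u) := by
        rw [Nat.cast_smul_eq_nsmul, Nat.cast_smul_eq_nsmul]
        exact h.trans (congrArg (D₀ • ·) (Nat.cast_smul_eq_nsmul _ _ _).symm)
      rw [← map_smul (ρ τ⁻¹), ← map_smul (ρ τ⁻¹), ← h', map_smul, ← hcomp, inv_mul_cancel, map_one]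
      rfl
    have expand : ∀ a b c a' b' : R,
        (a - b - c * (a' - b')) • x = a • x - b • x - c • (a' • x - b' • x) := fun a b c a' b' =>
      (sub_smul _ _ x).trans (congrArg₂ (· - ·) (sub_smul a b x)
        ((mul_smul c (a' - b') x).trans (congrArg (c • ·) (sub_smul a' b' x))))
    rw [hz, expand]
    simp only [hrel, smul_sub, smul_add, hdmul]
    simp only [_root_.mul_inv_rev, hcomp, ← hy]
    rw [map_sub] at e1
    have e1' := congrArg (ρ k) e1
    simp only [map_sub, map_smul, smul_sub] at e1'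
    have e2' := congrArg (fun v => d k • d σ • v) e2
    simp only [hu, map_sub, smul_sub] at e2'
    linear_combination (norm := module) e1' - e2'
  -- hence it is divisible by a high power of `p`
  have hze : redP p n (castP p (Tm ((D₀ : R) * z * e))) = 0 := by
    refine Matrix.ext_iff_mulVec.mpr fun v => ?_
    have h := congrArg Subtype.val (hzero ⟨e • v, v, rfl⟩)
    rw [Matrix.zero_mulVec, ← hsmul, mul_smul, mul_smul]
    exact h
  obtain ⟨z', hz'⟩ := hc _ hze
  have he' : IsUnit (πT e) := by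
    rw [← residue_ne_zero_iff_isUnit, Ne, ← hker]
    exact he
  have hπz : (D₀ : T) * πT z ∈ maximalIdeal T ^ (n - c) := by
    have h := congrArg πT hz'
    rw [map_mul, map_mul, map_natCast, map_nsmul, nsmul_eq_mul, Nat.cast_pow] at h
    rw [← Ideal.unit_mul_mem_iff_mem _ he', mul_comm, h]
    exact Ideal.mul_mem_right _ _ (Ideal.pow_mem_pow hp _)
  have hmn : maximalIdeal T ^ n ≤ maximalIdeal T ^ (n - c) := Ideal.pow_le_pow_right (Nat.sub_le n c)
  have ha := fun g => hmn (ht2 g)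
  have hb := hmn (hdT σ)
  simp only [hz, map_sub, map_mul, map_natCast, d] at hπz
  have : (D₀ : T) * (ρT.trace (k * σ * τ) - ρT.trace (k * σ) -
      ψ (cyclo p σ : ℤ_[p]) * (ρT.trace (k * τ) - ρT.trace k)) =
    (D₀ : T) * (πT (t (k * σ * τ)) - πT (t (k * σ)) -
      (dn σ : T) * (πT (t (k * τ)) - πT (t k))) +
      (D₀ : T) * ((ρT.trace (k * σ * τ) - πT (t (k * σ * τ))) -
        (ρT.trace (k * σ) - πT (t (k * σ))) -
        ψ (cyclo p σ : ℤ_[p]) * ((ρT.trace (k * τ) - πT (t (k * τ))) -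
          (ρT.trace k - πT (t k))) +
        ((dn σ : T) - ψ (cyclo p σ : ℤ_[p])) * (πT (t (k * τ)) - πT (t k))) := by ring
  rw [this]
  exact add_mem hπz (Ideal.mul_mem_left _ _ (add_mem (sub_mem (sub_mem (ha _) (ha _))
    (Ideal.mul_mem_left _ _ (sub_mem (ha _) (ha _)))) (Ideal.mul_mem_right _ _ hb)))


/-- The identity forced on traces, up to `D`, modulo `𝔪 ^ (n - c)`. -/
theorem nsmul_trace_defect_mem [Finite (IsLocalRing.ResidueField 𝒪)] (M : MatModel N p ↑S)
    (hd : FrobeniusDense) (hp2 : p ≠ 2)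
    (H : CuspForm.HeckeGaloisRepDatum N (↑S : Set ℕ) 𝒪 θ T) (ψ : ℤ_[p] →+* T)
    (hp : (p : T) ∈ maximalIdeal T) {A : ValuationSubring (AlgebraicClosure ℚ)}
    (hA : A.LiesOverPrime p) {D₀ : ℕ} (hmod : HasTwoStep M A D₀) (hpN : p ∣ N)
    (hS : ∀ q : ℕ, q.Prime → q ∣ N → q ∈ S)
    (hres : (GaloisRepAdic.ofResidualGaloisRep H.ρ.residual).IsOrdinaryAt p) :
    ∃ c, ∀ n, c < n → ∀ σ ∈ A.inertiaSubgroupIn ℚ, ∀ τ ∈ A.inertiaSubgroupIn ℚ, ∀ k : Γℚ,
      (D₀ : T) * (H.ρ.trace (k * σ * τ) - H.ρ.trace (k * σ) -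
        ψ (cyclo p σ : ℤ_[p]) * (H.ρ.trace (k * τ) - H.ρ.trace k)) ∈ maximalIdeal T ^ (n - c) := by
  classical
  obtain ⟨c, hc⟩ := M.exists_bound
  refine ⟨c, fun n hn σ hσ τ hτ k => ?_⟩
  set 𝔪 : Ideal 𝕋 := RingHom.ker θ with h𝔪
  have hker : ∀ t : 𝕋, t ∈ 𝔪 ↔ residue T (H.π t) = 0 := fun t => by
    rw [h𝔪, RingHom.mem_ker, H.residue_π]
    exact (map_eq_zero_iff (IsLocalRing.ResidueField.map (algebraMap 𝒪 T))
      (RingHom.injective _)).symm
  have : Finite θ.range := Finite.of_injective _ Subtype.val_injective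
  have : 𝔪.IsMaximal := by
    let : Field θ.range := (Finite.isField_of_domain θ.range).toField
    rw [h𝔪, ← RingHom.ker_rangeRestrict θ]
    exact RingHom.ker_isMaximal_of_surjective θ.rangeRestrict θ.rangeRestrict_surjective
  choose t ht1 ht2 ht3 using fun g => exists_joint_approx M hd H ψ hp g n
  exact nsmul_trace_defect_core M hp2 M.Tm M.G_comm H.π H.ρ H.residual_absIrr ψ
    (det_repMat_eq_cyclo M hd H ψ hp) hp hA hmod hres 𝔪 hker hn (hc n) t ht1 ht2
    (fun π ρP hπ => commute_levelHecke M hpN hS n π ρP hπ) (commute_map M hpN hS n) hσ hτ k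

end FLTAgent.FlatModel
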