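import Fermat.Agent.FlatModel.Span
import Fermat.Agent.FlatModel.SecondOrder
import Mathlib.GroupTheory.QuotientGroup.Defs

/-!
# A connected subquotient of exponent `p` with trivial inertia action is trivial
-/

set_option autoImplicit false

namespace FLTAgent.FlatModel

variable {K : Type*} [Field K] {p : ℕ} {A : ValuationSubring K} {I : Subgroup (K ≃+* K)}

theorem eq_sum_coeff {X : Type*} {n : ℕ} {ε : Fin n → X → K} {f : X → K}
    (hf : f ∈ Submodule.span (baseRing A I) (Set.range ε)) :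
    ∃ c : Fin n → baseRing A I, ∀ x, f x = ∑ j, (c j : K) * ε j x := by
  obtain ⟨c, hc⟩ := (Submodule.mem_span_range_iff_exists_fun _).mp hf
  exact ⟨c, fun x => by rw [← hc]; simp [Finset.sum_apply, Subring.smul_def]⟩

section

variable {X : Type*} [AddCommGroup X] {ρ : I →* AddMonoid.End X}
  {H : Submodule (baseRing A I) (X → K)}

/-- If `U ≤ X` are stable, `W` lies in the connected part, inertia is trivial on `W` modulo `U`
and `p W ⊆ U`, then `W ⊆ U`. -/
theorem IsModel.le_of_connected_trivial [CharZero K] [Finite X] (hI : IsUnramifiedBase p A I)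
    (hp2 : p ≠ 2) (hH : IsModel ρ H) (W U : AddSubgroup X)
    (hW : ∀ τ, ∀ w ∈ W, ρ τ w ∈ W) (hU : ∀ τ, ∀ u ∈ U, ρ τ u ∈ U)
    (hconn : W ≤ hH.connectedPart) (htriv : ∀ τ, ∀ w ∈ W, ρ τ w - w ∈ U)
    (hpW : ∀ w ∈ W, p • w ∈ U) : W ≤ U := by
  classical
  -- restriction to `W`
  let r : (X → K) →ₗ[baseRing A I] (W → K) := LinearMap.funLeft _ _ (fun w : W => (w : X))
  let ρW : I → W → W := fun τ w => ⟨ρ τ w, hW τ w w.2⟩
  have hρW : ∀ τ, Function.Surjective (ρW τ) := fun τ w =>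
    ⟨⟨ρ τ⁻¹ w, hW τ⁻¹ w w.2⟩, Subtype.ext (by
      exact apply_inv_apply ρ τ (w : X))⟩
  let M := H.map r
  have hMeq : ∀ f ∈ M, IsEquivariant ρW f := by
    rintro _ ⟨f, hf, rfl⟩ τ w
    exact hH.apply_map hf τ w
  have hMcoprod : ∀ f ∈ M, ∃ (n : ℕ) (a b : Fin n → W → K), (∀ i, a i ∈ M) ∧ (∀ i, b i ∈ M) ∧
      ∀ x y, f (x + y) = ∑ i, a i x * b i y := by
    rintro _ ⟨f, hf, rfl⟩
    obtain ⟨n, a, b, ha, hb, hab⟩ := hH.coprod f hf
    exact ⟨n, fun i => r (a i), fun i => r (b i), fun i => ⟨_, ha i, rfl⟩,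
      fun i => ⟨_, hb i, rfl⟩, fun x y => hab x y⟩
  let U' : AddSubgroup W := U.addSubgroupOf W
  -- defect of invariance under `U'`
  let ψ : (W → K) →ₗ[baseRing A I] (W × U' → K) :=
    LinearMap.funLeft _ _ (fun q : W × U' => q.1 + (q.2 : W)) -
      LinearMap.funLeft _ _ (fun q : W × U' => q.1)
  have hψ : ∀ (f : W → K) (q : W × U'), ψ f q = f (q.1 + (q.2 : W)) - f q.1 := fun f q => rfl
  let ρ2 : I → W × U' → W × U' := fun τ q => (ρW τ q.1, ⟨ρW τ q.2, hU τ _ q.2.2⟩)
  have hρ2 : ∀ τ, Function.Surjective (ρ2 τ) := fun τ q => by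
    obtain ⟨w, hw⟩ := hρW τ q.1
    obtain ⟨u, hu⟩ := hρW τ q.2
    refine ⟨(w, ⟨u, ?_⟩), ?_⟩
    · show (u : X) ∈ U
      have h := hU τ⁻¹ _ q.2.2
      rw [← hu] at h
      simpa [ρW, inv_apply_apply] using h
    · exact Prod.ext hw (Subtype.ext hu)
  have heqψ : ∀ g ∈ M.map ψ, IsEquivariant ρ2 g := by
    rintro _ ⟨f, hf, rfl⟩ τ q
    rw [hψ, hψ, map_sub, ← hMeq f hf, ← hMeq f hf]
    congr 2
    exact Subtype.ext (map_add (ρ τ) (q.1 : X) ((q.2 : W) : X)).symm
  have hMfg : M.FG := hH.fg.map r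
  obtain ⟨n, e, hli, he⟩ := exists_basis hρ2 (M.map ψ) (hMfg.map ψ) heqψ
  have hlift : ∀ j, ∃ ε ∈ M, ψ ε = e j := fun j =>
    Submodule.mem_map.mp (he ▸ Submodule.subset_span ⟨j, rfl⟩ : e j ∈ M.map ψ)
  choose ε hεM hεψ using hlift
  let S : Set (W → K) := {f | f ∈ M ∧ ∀ w u : W, u ∈ U' → f (w + u) = f w}
  have hcoprod : ∀ f ∈ S, ∃ (m : ℕ) (a b : Fin m → W → K), (∀ i, a i ∈ S) ∧ (∀ i, b i ∈ S) ∧
      ∀ x y, f (x + y) = ∑ i, a i x * b i y := by
    rintro f ⟨hfM, hfU⟩
    obtain ⟨m, a, b, ha, hb, hab⟩ := hMcoprod f hfM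
    choose c hc using fun i => eq_sum_coeff
      (he ▸ Submodule.mem_map_of_mem (hb i) : ψ (b i) ∈ Submodule.span _ (Set.range e))
    let g : Fin m → W → K := fun i => b i - ∑ j, c i j • ε j
    have hgS : ∀ i, g i ∈ S := fun i =>
      ⟨M.sub_mem (hb i) (M.sum_mem fun j _ => M.smul_mem _ (hεM j)), fun w u hu => by
        have : ψ (g i) (w, ⟨u, hu⟩) = 0 := by
          simp only [g, map_sub, map_sum, map_smul, hεψ]
          simp only [Pi.sub_apply, Finset.sum_apply, Pi.smul_apply, Subring.smul_def,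
            smul_eq_mul, ← hc i, sub_self]
        rwa [hψ, sub_eq_zero] at this⟩
    have hfg : ∀ x y, f (x + y) = ∑ i, a i x * g i y := by
      intro x y
      have hα : ∀ j, ∑ i, a i x * (c i j : K) = 0 := by
        refine Fintype.linearIndependent_iff.mp hli _ ?_
        funext q
        have h0 : ψ (fun y => f (x + y)) q = 0 := by
          rw [hψ, ← add_assoc, hfU _ _ q.2.2, sub_self]
        have h1 : (fun y => f (x + y)) = fun y => ∑ i, a i x * b i y := funext (hab x)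
        rw [h1, hψ, ← Finset.sum_sub_distrib] at h0
        simp only [← mul_sub, ← hψ, hc, Finset.mul_sum, ← mul_assoc] at h0
        rw [Finset.sum_comm] at h0
        simpa [Finset.sum_apply, Finset.sum_mul] using h0
      rw [hab]
      have : ∑ i, a i x * ∑ j, (c i j : K) * ε j y = 0 := by
        simp only [Finset.mul_sum, ← mul_assoc]
        rw [Finset.sum_comm]
        simp [← Finset.sum_mul, hα]
      simp only [g, Pi.sub_apply, Finset.sum_apply, Pi.smul_apply, Subring.smul_def, smul_eq_mul,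
        mul_sub, Finset.sum_sub_distrib, this, sub_zero]
    obtain ⟨l, e', hli', he'⟩ := exists_basis hρW
      (Submodule.span (baseRing A I) (Set.range g))
      (Submodule.fg_span (Set.finite_range g))
      (fun h hh => hMeq h (Submodule.span_le.mpr (by
        rintro _ ⟨i, rfl⟩; exact (hgS i).1) hh))
    have he'S : ∀ k, e' k ∈ S := by
      intro k
      have hk : e' k ∈ Submodule.span (baseRing A I) (Set.range g) :=
        he' ▸ Submodule.subset_span ⟨k, rfl⟩
      refine ⟨Submodule.span_le.mpr (by rintro _ ⟨i, rfl⟩; exact (hgS i).1) hk,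
        fun w u hu => ?_⟩
      obtain ⟨d, hd⟩ := eq_sum_coeff hk
      simp [hd, (hgS _).2 w u hu]
    choose d hd using fun i => eq_sum_coeff (f := g i) (he' ▸ Submodule.subset_span ⟨i, rfl⟩ :
      g i ∈ Submodule.span (baseRing A I) (Set.range e'))
    let a' : Fin l → W → K := fun k => ∑ i, d i k • a i
    have hfa : ∀ x y, f (x + y) = ∑ k, a' k x * e' k y := by
      intro x y
      simp only [hfg, hd, a', Finset.sum_apply, Pi.smul_apply, Subring.smul_def, smul_eq_mul,
        Finset.mul_sum, Finset.sum_mul]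
      rw [Finset.sum_comm]
      exact Finset.sum_congr rfl fun _ _ => Finset.sum_congr rfl fun _ _ => by ring
    refine ⟨l, a', e', fun k => ⟨M.sum_mem fun i _ => M.smul_mem _ (ha i), fun w u hu => ?_⟩,
      he'S, hfa⟩
    refine sub_eq_zero.mp (Fintype.linearIndependent_iff.mp hli'
      (fun k => a' k (w + u) - a' k w) ?_ k)
    funext y
    simp only [Finset.sum_apply, Pi.smul_apply, smul_eq_mul, Pi.zero_apply, sub_mul,
      Finset.sum_sub_distrib, ← hfa, sub_eq_zero]
    rw [add_assoc, add_comm u y, ← add_assoc, hfU _ _ hu]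
  have key : ∀ f ∈ S, ∀ w, f w = f 0 := fun f hf w =>
    eq_apply_zero_of_connected hI hp2 S
      (fun f hf w τ hτ => by
        rw [← hMeq f hf.1 ⟨τ, hτ⟩ w]
        have hu : ρW ⟨τ, hτ⟩ w - w ∈ U' := htriv _ _ w.2
        have := hf.2 w _ hu
        rwa [add_sub_cancel] at this)
      (fun f hf w => by
        obtain ⟨f', hf', rfl⟩ := hf.1
        exact hconn w.2 f' hf')
      (fun f hf w => by
        have := hf.2 0 (p • w) (hpW _ w.2)
        rwa [zero_add] at this)
      hcoprod hf w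
  intro w hw
  by_contra hwU
  let ind : X → K := fun x => if x ∈ U then 1 else 0
  have hind : IsEquivariant (fun τ => ρ τ) ind := fun τ x => by
    have hiff : ρ τ x ∈ U ↔ x ∈ U := ⟨fun h => by
      simpa [inv_apply_apply] using hU τ⁻¹ _ h, hU τ x⟩
    by_cases hx : x ∈ U <;> simp [ind, hiff, hx]
  obtain ⟨N, hN⟩ := hH.exists_pow_smul_mem hI hind
  have h := key (r fun x => (p : K) ^ N * ind x) ⟨⟨_, hN, rfl⟩, fun x u hu => by
    simp [r, LinearMap.funLeft_apply, ind, U.add_mem_cancel_right (show (u : X) ∈ U from hu)]⟩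
    ⟨w, hw⟩
  simp [r, LinearMap.funLeft_apply, ind, hwU] at h
  exact pow_ne_zero N hI.natCast_ne_zero h.symm

end

end FLTAgent.FlatModel
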