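import Fermat.Agent.FlatModel.HeckeOrdinary
import Fermat.Agent.FlatModel.TransferKill

/-!
# Ordinarity of a Hecke representation from an isogeny decomposition of the levels
-/

set_option autoImplicit false

namespace FLTAgent.FlatModel

open Matrix GalRep IsLocalRing

variable {p : ℕ} [Fact p.Prime] {N : ℕ} [NeZero N] {S : Finset ℕ}
  {𝒪 : Type} [CommRing 𝒪] [IsDomain 𝒪] [IsDiscreteValuationRing 𝒪]
  [IsAdicComplete (IsLocalRing.maximalIdeal 𝒪) 𝒪]
  {θ : CuspForm.heckeAlgebra N 2 (↑S : Set ℕ) →+* IsLocalRing.ResidueField 𝒪}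
  {T : Type} [CommRing T] [IsLocalRing T] [IsNoetherianRing T]
  [IsAdicComplete (IsLocalRing.maximalIdeal T) T] [Algebra 𝒪 T] [IsLocalHom (algebraMap 𝒪 T)]
  [Module.Finite 𝒪 T] [Module.Free 𝒪 T]

omit [IsAdicComplete (IsLocalRing.maximalIdeal 𝒪) 𝒪] [IsDiscreteValuationRing 𝒪] [IsLocalRing T]
  [IsNoetherianRing T] [IsAdicComplete (IsLocalRing.maximalIdeal T) T]
  [IsLocalHom (algebraMap 𝒪 T)] [Module.Finite 𝒪 T] in
theorem eq_zero_of_natCast_mul [CharZero 𝒪] {D : ℕ} (hD : D ≠ 0) {x : T} (h : (D : T) * x = 0) :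
    x = 0 := by
  have h' : (D : 𝒪) • x = 0 := by
    rw [Algebra.smul_def, map_natCast, h]
  let b := Module.Free.chooseBasis 𝒪 T
  refine b.repr.injective (Finsupp.ext fun i => ?_)
  have h2 := DFunLike.congr_fun (congrArg b.repr h') i
  rw [map_smul, Finsupp.smul_apply, smul_eq_mul, map_zero, Finsupp.zero_apply, mul_eq_zero] at h2
  rw [map_zero, Finsupp.zero_apply]
  exact h2.resolve_left (Nat.cast_ne_zero.2 hD)

/-- If every level of a matrix model decomposes at all places over `p` up to a nonzero integer, a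
residually ordinary representation attached to the Hecke algebra is ordinary at `p`. -/
theorem isOrdinaryAt_of_twoStep [Finite (IsLocalRing.ResidueField 𝒪)] [CharZero 𝒪]
    (M : MatModel N p ↑S) (hd : FrobeniusDense) (hp2 : p ≠ 2) (hp𝒪 : (p : 𝒪) ∈ maximalIdeal 𝒪)
    (hpN : p ∣ N) (hS : ∀ q : ℕ, q.Prime → q ∣ N → q ∈ S)
    (H : CuspForm.HeckeGaloisRepDatum N (↑S : Set ℕ) 𝒪 θ T)
    (hres : (GaloisRepAdic.ofResidualGaloisRep H.ρ.residual).IsOrdinaryAt p) {D : ℕ} (hD : D ≠ 0)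
    (hmod : ∀ A : ValuationSubring (AlgebraicClosure ℚ), A.LiesOverPrime p → HasTwoStep M A D) :
    H.ρ.IsOrdinaryAt p := by
  classical
  have hp : (p : T) ∈ maximalIdeal T := natCast_mem_maximalIdeal_of_map hp𝒪
  obtain ⟨ψ⟩ := exists_padicHom p T hp
  refine isOrdinaryAt_of_defect M hd hp2 H ψ hp fun P hP σ hσ τ hτ => ?_
  obtain ⟨c, hc⟩ := nsmul_trace_defect_mem M hd hp2 H ψ hp hP (hmod P hP) hpN hS hres
  refine sub_eq_zero.mp (eq_zero_of_trace_mul_repMat H.ρ H.residual_absIrr _ fun k => ?_)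
  refine eq_zero_of_natCast_mul (𝒪 := 𝒪) hD (eq_of_forall_sub_mem_pow fun n => ?_)
  have h := Ideal.pow_le_pow_right (I := maximalIdeal T) (show n ≤ n + c + 1 - c by omega)
    (hc (n + c + 1) (by omega) σ hσ τ hτ k)
  rw [sub_zero]
  convert h using 1
  simp only [mul_sub, Matrix.mul_one, ← map_mul, Matrix.mul_smul, Matrix.trace_sub,
    Matrix.trace_smul, trace_repMat, smul_eq_mul, mul_assoc]

end FLTAgent.FlatModel
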