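import Fermat.Agent.GoodRed.X0Good
import Fermat.Agent.FlatModel.CuspRegular
import Fermat.Prelude.Thm_ModularCurve_coeff_jqModC_neg_one
import Fermat.Prelude.Thm_ModularCurve_coeff_jqModC_pow_of_lt

/-!
# The modular curve of level `M` as a curve with good reduction at `l ∤ M`
-/

set_option autoImplicit false
set_option linter.unusedSectionVars false
set_option synthInstance.maxHeartbeats 100000

noncomputable section

open Polynomial ModularCurve IsLocalRing AlgebraicCurve

namespace FLTAgent.FlatModel

open FLTAgent.FunctionField FLTAgent.GoodRed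

local notation "Qbar" => AlgebraicClosure ℚ

theorem jqModC_order (K : Type*) [Field K] : (jqModC K).order = -1 := by
  have h1 : (jqModC K).coeff (-1) ≠ 0 := by rw [coeff_jqModC_neg_one]; exact one_ne_zero
  refine le_antisymm (HahnSeries.order_le_of_coeff_ne_zero h1)
    ((HahnSeries.le_order_iff_forall (fun h => h1 (by rw [h]; rfl))).2 fun i hi => ?_)
  simpa using coeff_jqModC_pow_of_lt K (b := 1) (m := i) (by simpa using hi)

theorem order_inv_of_order_eq {K : Type*} [Field K] {f : LaurentSeries K} (hf : f.order = -1) :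
    f⁻¹.order = 1 := by
  rw [Genus.order_inv', hf]
  rfl

variable (A : ValuationSubring (AlgebraicClosure ℚ)) {l : ℕ} [Fact l.Prime]
  (hA : A.LiesOverPrime l) (M : ℕ) [NeZero M] (hlM : ¬ l ∣ M)
  [IsFunctionField (IsLocalRing.ResidueField A)
    (modularFunctionFieldFullC (IsLocalRing.ResidueField A) M)]

include hA hlM in
/-- Good reduction of the curve of level `M` with reduction of expansions at the cusp. -/
theorem exists_x0CurveDatum
    (h : genusFF (AlgebraicClosure ℚ) (modularFunctionFieldBar M) =
      genusFF (ResidueField A) (modularFunctionFieldFullC (ResidueField A) M)) :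
    Nonempty (CurveDatum (modularFunctionFieldFull M) A
      (modularFunctionFieldFullC (ResidueField A) M)) := by
  have := isAlgClosed_residue A
  obtain ⟨-, ⟨R⟩⟩ := exists_placeRed_x0_of_genus_eq A hA M hlM h
  obtain ⟨g, c, hL, hk⟩ : ∃ (g : ℕ) (c : ℤ),
      RRLarge Qbar (modularFunctionFieldBar M) g c ∧
        RRLarge (ResidueField A) (modularFunctionFieldFullC (ResidueField A) M) g c := by
    obtain ⟨d₁, hd₁⟩ := exists_forall_finrank_H1_eq_zero (K := Qbar) (F := modularFunctionFieldBar M)
    obtain ⟨d₂, hd₂⟩ := exists_forall_finrank_H1_eq_zero (K := ResidueField A)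
      (F := modularFunctionFieldFullC (ResidueField A) M)
    refine ⟨genusFF Qbar (modularFunctionFieldBar M), max d₁ d₂, fun W hW => ?_, fun W hW => ?_⟩
    · exact finrank_rr_eq_add Qbar W (hd₁ W (by omega))
    · rw [h]; exact finrank_rr_eq_add (ResidueField A) W (hd₂ W (by omega))
  have hord : ((x0J A hA M hlM : modularFunctionFieldBar M) : LaurentSeries Qbar).order = -1 := by
    rw [coe_x0J]; exact jqModC_order _
  have hordb : ((x0Jb A hA M hlM : modularFunctionFieldFullC (ResidueField A) M) :
      LaurentSeries (ResidueField A)).order = -1 := by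
    rw [coe_x0Jb]; exact jqModC_order _
  obtain ⟨v, hv⟩ := exists_isInfPlace (f := (x0J A hA M hlM)⁻¹) (by
    rw [IntermediateField.coe_inv]; exact order_inv_of_order_eq hord)
  obtain ⟨vb, hvb⟩ := exists_isInfPlace (f := (x0Jb A hA M hlM)⁻¹) (by
    rw [IntermediateField.coe_inv]; exact order_inv_of_order_eq hordb)
  have hx0 : x0J A hA M hlM ≠ 0 := fun h0 => by rw [h0] at hord; simp at hord
  have hxb0 : x0Jb A hA M hlM ≠ 0 := fun h0 => by rw [h0] at hordb; simp at hordb
  exact ⟨{
    D := x0Datum A hA M hlM
    R := R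
    g := g
    c := c
    hL := hL
    hk := hk
    inf := v
    hinf := hv
    infb := vb
    hinfb := hvb
    x := x0J A hA M hlM
    xb := x0Jb A hA M hlM
    red_x := red_x0J A hA M hlM
    ord_x := by rw [hv _ hx0, hord]; norm_num
    ord_xb := by rw [hvb _ hxb0, hordb, hv _ hx0, hord]
    co_red := fun y z hr hreg n => coeff_mem_and_residue (x0Basis A hA M hlM)
      (isResidueMap_residue A) (isRankOne_of_liesOverPrime hA Fact.out) hr hreg (-n) }⟩

end FLTAgent.FlatModel
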